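import Mathlib
import Fermat.Prelude.Def_ModularCurve_ArithmeticGalois
import Fermat.Prelude.Def_ModularCurve_PeriodMap

/-!
# Cluster G, part TOR (torsion of `J₀(N)`): core definitions and interfaces  (helper81)

Route (lead_sketch_GR.md, NOTES/plan/G_TOR.md): for `F = L(X₀(N))` (prelude `laurentBaseChange L F₀`)

  `Pic⁰(F)[n]  ≃  U_n(F) := {f ∈ Fˣ | n ∣ ord_v f ∀ v} / (Fˣ)ⁿ`          (KUM, pure algebra)
  `U_n(F_ℂ)   ≃  Hom_pe(Γ₀(N), ZMod n)`                                   (MONO + EXIST, analysis)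
  `U_n(F_ℚ̄)   ≃  U_n(F_ℂ)`                                                (DESC, field theory)

Everything in this file is a definition or a `Prop`-valued statement `Stmt_*`; proofs are work
packages.  No `sorry` here.
-/

set_option autoImplicit false

noncomputable section

namespace Fermat.Agent.GTor

open AlgebraicCurve ModularCurve UpperHalfPlane
open scoped MatrixGroups ModularForm Manifold

/-! ## 1. Kummer classes -/

section Kummer

variable (K F : Type*) [Field K] [Field F] [Algebra K F]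

/-- The functions all of whose orders are divisible by `n`. -/
def unrSubgroup (n : ℕ) : Subgroup Fˣ where
  carrier := {f | ∀ v : Place K F, (n : ℤ) ∣ v.ord ((f : Fˣ) : F)}
  one_mem' := fun v => by simp [Place.ord_one]
  mul_mem' := fun {f g} hf hg v => by
    rw [Units.val_mul, v.ord_mul f.ne_zero g.ne_zero]
    exact dvd_add (hf v) (hg v)
  inv_mem' := fun {f} hf v => by
    rw [Units.val_inv_eq_inv_val, v.ord_inv]
    exact (dvd_neg).mpr (hf v)

theorem mem_unrSubgroup {n : ℕ} {f : Fˣ} :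
    f ∈ unrSubgroup K F n ↔ ∀ v : Place K F, (n : ℤ) ∣ v.ord ((f : Fˣ) : F) := Iff.rfl

/-- The `n`-th powers, as a subgroup of `unrSubgroup`. -/
def powSubgroup (n : ℕ) : Subgroup (unrSubgroup K F n) :=
  ((powMonoidHom n : Fˣ →* Fˣ).range).subgroupOf (unrSubgroup K F n)

/-- `U_n(F)`: unramified Kummer classes. -/
abbrev UnrKummer (n : ℕ) : Type _ := unrSubgroup K F n ⧸ powSubgroup K F n

/-- **KUM**: `Pic⁰[n] ≃ U_n`, the class of `D` corresponding to `f` when `n • D = div f`. -/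
def Stmt_KUM (n : ℕ) : Prop :=
  ∃ e : Additive (UnrKummer K F n) ≃+ Pic0.torsion K F n,
    ∀ (f : unrSubgroup K F n) (D : Divisor.degZero (K := K) (F := F)),
      (∀ v : Place K F, (n : ℤ) * (D : Divisor K F) v = v.ord (((f : Fˣ)) : F)) →
      ((e (Additive.ofMul (QuotientGroup.mk f)) : Pic0.torsion K F n) : Pic0 K F) = Pic0.mk D

end Kummer

/-! ## 2. Characters of `Γ₀(N)` trivial on parabolic and elliptic elements -/

section HomPE

variable (Γ : Subgroup SL(2, ℤ)) (A : Type*) [AddCommGroup A]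

/-- Homomorphisms `Γ → A` vanishing on the elements of trace `±2` and on the elements of
finite order. -/
def homPE : AddSubgroup (Additive Γ →+ A) where
  carrier := {φ | Period.IsParabolicHom Γ φ ∧
    ∀ γ : Γ, IsOfFinOrder γ → φ (Additive.ofMul γ) = 0}
  zero_mem' := ⟨fun _ _ => rfl, fun _ _ => rfl⟩
  add_mem' := by
    rintro φ ψ ⟨h1, h2⟩ ⟨h3, h4⟩
    refine ⟨fun γ hγ => ?_, fun γ hγ => ?_⟩
    · show φ _ + ψ _ = 0
      rw [h1 γ hγ, h3 γ hγ, add_zero]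
    · show φ _ + ψ _ = 0
      rw [h2 γ hγ, h4 γ hγ, add_zero]
  neg_mem' := by
    rintro φ ⟨h1, h2⟩
    refine ⟨fun γ hγ => ?_, fun γ hγ => ?_⟩
    · show -φ _ = 0
      rw [h1 γ hγ, neg_zero]
    · show -φ _ = 0
      rw [h2 γ hγ, neg_zero]

theorem mem_homPE {φ : Additive Γ →+ A} :
    φ ∈ homPE Γ A ↔ Period.IsParabolicHom Γ φ ∧
      ∀ γ : Γ, IsOfFinOrder γ → φ (Additive.ofMul γ) = 0 := Iff.rfl

end HomPE

/-- The standard primitive `n`-th root of unity `exp(2πi a/n)`, as a function of `a : ZMod n`. -/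
def zetaPow (n : ℕ) (a : ZMod n) : ℂ :=
  Complex.exp (2 * Real.pi * Complex.I * ((ZMod.val a : ℕ) : ℂ) / (n : ℂ))

/-! ## 3. The function field over `L` and twisted forms -/

/-- The function field of `X₀(N)` over `L ⊇ ℚ`, inside `L((q))`. -/
abbrev FNL (L : Type) [Field L] [Algebra ℚ L] (N : ℕ) : Type :=
  ↥(laurentBaseChange L (modularFunctionFieldFull N))

/-- The `q`-expansion of a modular form, as a Laurent series. -/
def qLaurent (A : ℍ → ℂ) : LaurentSeries ℂ :=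
  HahnSeries.ofPowerSeries ℤ ℂ (UpperHalfPlane.qExpansion 1 A)

/-- A holomorphic function on `ℍ` of weight `k` for `Γ₀(N)` with multiplier `ζ^φ`,
bounded at every cusp. -/
structure IsTwistedForm (N n : ℕ) (k : ℤ) (φ : Additive (CongruenceSubgroup.Gamma0 N) →+ ZMod n)
    (R : ℍ → ℂ) : Prop where
  mdiff : MDifferentiable 𝓘(ℂ) 𝓘(ℂ) R
  slash : ∀ γ : CongruenceSubgroup.Gamma0 N,
    R ∣[k] ((γ : SL(2, ℤ))) = zetaPow n (φ (Additive.ofMul γ)) • R
  bdd : ∀ σ : SL(2, ℤ), IsBoundedAtImInfty (R ∣[k] σ)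

/-- `f ∈ F_ℂ` **has character** `φ`: `f = (R / B)ⁿ` with `R` a twisted form with multiplier
`ζ^φ` and `B` a modular form of the same weight. -/
def HasChar (N n : ℕ) [NeZero N] (f : FNL ℂ N) (φ : Additive (CongruenceSubgroup.Gamma0 N) →+ ZMod n) :
    Prop :=
  ∃ (k : ℤ) (R : ℍ → ℂ) (B : ModularForm (CongruenceSubgroup.Gamma0 N) k),
    IsTwistedForm N n k φ R ∧ B ≠ 0 ∧
      qLaurent (fun z => R z ^ n) = (f : LaurentSeries ℂ) * qLaurent (fun z => B z ^ n)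

/-! ## 4. The dictionary between `F_ℂ` and modular forms -/

/-- `f = A / B` as `q`-expansions, `A`, `B` modular forms of the same weight on `Γ₀(N)`. -/
def IsRatio (N : ℕ) [NeZero N] (f : FNL ℂ N) {k : ℤ}
    (A B : ModularForm (CongruenceSubgroup.Gamma0 N) k) : Prop :=
  B ≠ 0 ∧ qLaurent A = (f : LaurentSeries ℂ) * qLaurent B

/-- **A1**: every element of `F_ℂ` is a ratio of two modular forms of the same weight. -/
def Stmt_A1 (N : ℕ) [NeZero N] : Prop :=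
  ∀ f : FNL ℂ N, ∃ (k : ℤ) (A B : ModularForm (CongruenceSubgroup.Gamma0 N) k), IsRatio N f A B

/-- **A2**: every ratio of two modular forms of the same weight on `Γ₀(N)` lies in `F_ℂ`. -/
def Stmt_A2 (N : ℕ) [NeZero N] : Prop :=
  ∀ (k : ℤ) (A B : ModularForm (CongruenceSubgroup.Gamma0 N) k), B ≠ 0 →
    ∃ f : FNL ℂ N, IsRatio N f A B

/-- The order of vanishing of a holomorphic function at a point of `ℍ`. -/
def ordAt (A : ℍ → ℂ) (z : ℍ) : ℤ :=
  ((analyticOrderAt (A ∘ UpperHalfPlane.ofComplex) (z : ℂ)).toNat : ℤ)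

/-- The order of vanishing at the cusp `σ∞`, measured in the parameter `q_N = exp(2πi z / N)`. -/
def ordCusp (N : ℕ) (k : ℤ) (A : ℍ → ℂ) (σ : SL(2, ℤ)) : ℤ :=
  (((UpperHalfPlane.qExpansion (N : ℝ) (A ∣[k] σ)).order).toNat : ℤ)

/-- The order of the stabiliser of `z` in the image of `Γ₀(N)` in `PSL(2, ℤ)`. -/
def ellOrder (N : ℕ) (z : ℍ) : ℕ :=
  Nat.card {γ : CongruenceSubgroup.Gamma0 N // ((γ : SL(2, ℤ))) • z = z} / 2

/-- The width of the cusp `σ∞` of `Γ₀(N)`: the least `h ≥ 1` with `σ T^h σ⁻¹ ∈ Γ₀(N)`. -/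
def cuspWidth (N : ℕ) (σ : SL(2, ℤ)) : ℕ :=
  sInf {h : ℕ | 0 < h ∧ σ * ModularGroup.T ^ h * σ⁻¹ ∈ CongruenceSubgroup.Gamma0 N}

/-- `v` is the place of `F_ℂ` at the point `z ∈ ℍ` (only nonzero `f`: helper98's correction). -/
def IsPlaceAt (N : ℕ) [NeZero N] (v : Place ℂ (FNL ℂ N)) (z : ℍ) : Prop :=
  ∀ (f : FNL ℂ N) (k : ℤ) (A B : ModularForm (CongruenceSubgroup.Gamma0 N) k), f ≠ 0 →
    IsRatio N f A B → ordAt A z - ordAt B z = (ellOrder N z : ℤ) * v.ord f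

/-- `v` is the place of `F_ℂ` at the cusp `σ∞`. -/
def IsPlaceAtCusp (N : ℕ) [NeZero N] (v : Place ℂ (FNL ℂ N)) (σ : SL(2, ℤ)) : Prop :=
  ∀ (f : FNL ℂ N) (k : ℤ) (A B : ModularForm (CongruenceSubgroup.Gamma0 N) k), f ≠ 0 →
    IsRatio N f A B →
      ordCusp N k A σ - ordCusp N k B σ = ((N / cuspWidth N σ : ℕ) : ℤ) * v.ord f

/-- **A3**: every point of `ℍ` defines a place of `F_ℂ`, with ramification `ellOrder`. -/
def Stmt_A3 (N : ℕ) [NeZero N] : Prop :=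
  ∀ z : ℍ, 0 < ellOrder N z ∧ ∃ v : Place ℂ (FNL ℂ N), IsPlaceAt N v z

/-- **A4**: every cusp defines a place of `F_ℂ`. -/
def Stmt_A4 (N : ℕ) [NeZero N] : Prop :=
  ∀ σ : SL(2, ℤ), 0 < cuspWidth N σ ∧ cuspWidth N σ ∣ N ∧
    ∃ v : Place ℂ (FNL ℂ N), IsPlaceAtCusp N v σ

/-- **A5**: every place of `F_ℂ` is the place of a point of `ℍ` or of a cusp. -/
def Stmt_A5 (N : ℕ) [NeZero N] : Prop :=
  ∀ v : Place ℂ (FNL ℂ N), (∃ z : ℍ, IsPlaceAt N v z) ∨ (∃ σ : SL(2, ℤ), IsPlaceAtCusp N v σ)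

/-! ## 5. The Betti description of `U_n(F_ℂ)` -/

/-- **MONO**: an unramified Kummer class has a character, trivial on parabolic and elliptic
elements. -/
def Stmt_MONO (N n : ℕ) [NeZero N] : Prop :=
  ∀ f : unrSubgroup ℂ (FNL ℂ N) n,
    ∃ φ ∈ homPE (CongruenceSubgroup.Gamma0 N) (ZMod n), HasChar N n ((f : (FNL ℂ N)ˣ) : FNL ℂ N) φ

/-- **CHAR**: the character is unique, additive in `f`, and trivial on `n`-th powers. -/
def Stmt_CHAR (N n : ℕ) [NeZero N] : Prop :=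
  (∀ (f : FNL ℂ N) (φ ψ : Additive (CongruenceSubgroup.Gamma0 N) →+ ZMod n), f ≠ 0 →
      HasChar N n f φ → HasChar N n f ψ → φ = ψ) ∧
  (∀ (f g : FNL ℂ N) (φ ψ : Additive (CongruenceSubgroup.Gamma0 N) →+ ZMod n), f ≠ 0 → g ≠ 0 →
      HasChar N n f φ → HasChar N n g ψ → HasChar N n (f * g) (φ + ψ)) ∧
  (∀ h : FNL ℂ N, h ≠ 0 → HasChar N n (h ^ n) 0)

/-- **INJ**: a function with trivial character is an `n`-th power. -/
def Stmt_INJ (N n : ℕ) [NeZero N] : Prop :=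
  ∀ f : FNL ℂ N, f ≠ 0 → HasChar N n f 0 → ∃ h : FNL ℂ N, f = h ^ n

/-- **EXIST**: every character trivial on parabolic and elliptic elements is the character of
an unramified Kummer class (twisted Eisenstein series). -/
def Stmt_EXIST (N n : ℕ) [NeZero N] : Prop :=
  ∀ φ ∈ homPE (CongruenceSubgroup.Gamma0 N) (ZMod n),
    ∃ f : unrSubgroup ℂ (FNL ℂ N) n, HasChar N n ((f : (FNL ℂ N)ˣ) : FNL ℂ N) φ

/-- **BETTI**: `U_n(F_ℂ) ≃ Hom_pe(Γ₀(N), ZMod n)`. -/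
def Stmt_BETTI (N n : ℕ) [NeZero N] : Prop :=
  ∃ e : Additive (UnrKummer ℂ (FNL ℂ N) n) ≃+ homPE (CongruenceSubgroup.Gamma0 N) (ZMod n),
    ∀ f : unrSubgroup ℂ (FNL ℂ N) n,
      HasChar N n ((f : (FNL ℂ N)ˣ) : FNL ℂ N)
        ((e (Additive.ofMul (QuotientGroup.mk f)) :
          homPE (CongruenceSubgroup.Gamma0 N) (ZMod n)) : Additive (CongruenceSubgroup.Gamma0 N) →+ ZMod n)

/-! ## 6. Descent `ℂ → ℚ̄` -/

/-- A ring homomorphism `F_{L₁} → F_{L₂}` is a **base change** along `ι : L₁ → L₂` if it acts on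
`q`-expansions by `ι` on the coefficients. -/
def IsBaseChange {L₁ L₂ : Type} [Field L₁] [Field L₂] [Algebra ℚ L₁] [Algebra ℚ L₂]
    (ι : L₁ →+* L₂) (N : ℕ) (bc : FNL L₁ N →+* FNL L₂ N) : Prop :=
  ∀ (f : FNL L₁ N) (m : ℤ), ((bc f : FNL L₂ N) : LaurentSeries L₂).coeff m
    = ι ((f : LaurentSeries L₁).coeff m)

/-- **DESC**: base change `ℚ̄ → ℂ` exists and induces a bijection on unramified Kummer classes. -/
def Stmt_DESC (N n : ℕ) [NeZero N] : Prop :=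
  ∀ ι : AlgebraicClosure ℚ →+* ℂ, ∃ bc : FNL (AlgebraicClosure ℚ) N →+* FNL ℂ N,
    IsBaseChange ι N bc ∧
    (∀ f : FNL (AlgebraicClosure ℚ) N, f ≠ 0 →
      ((∀ v : Place (AlgebraicClosure ℚ) (FNL (AlgebraicClosure ℚ) N), (n : ℤ) ∣ v.ord f) ↔
        (∀ v : Place ℂ (FNL ℂ N), (n : ℤ) ∣ v.ord (bc f)))) ∧
    (∀ f : FNL (AlgebraicClosure ℚ) N, f ≠ 0 → (∃ h : FNL ℂ N, bc f = h ^ n) →
      ∃ h₀ : FNL (AlgebraicClosure ℚ) N, f = h₀ ^ n) ∧
    (∀ f : FNL ℂ N, f ≠ 0 → (∀ v : Place ℂ (FNL ℂ N), (n : ℤ) ∣ v.ord f) →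
      ∃ (f₀ : FNL (AlgebraicClosure ℚ) N) (h : FNL ℂ N), f₀ ≠ 0 ∧ h ≠ 0 ∧ f = bc f₀ * h ^ n)

/-! ## 7. The goal of item 63 -/

/-- **TOR**: `J₀(N)[n] ≃ Hom_pe(Γ₀(N), ZMod n)`. -/
def Stmt_TOR (N n : ℕ) [NeZero N] : Prop :=
  Nonempty (Pic0.torsion (AlgebraicClosure ℚ) (modularFunctionFieldBar N) n ≃+
    homPE (CongruenceSubgroup.Gamma0 N) (ZMod n))

end Fermat.Agent.GTor
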