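import Mathlib
import Fermat.Prelude.Def_ModularCurve_HeckeModule
import Fermat.Agent.GTor.Defs
import Fermat.Agent.Betti.Stmts
import Fermat.Agent.S30.Defs

/-!
# Cluster G, part TOR: the Tate module of `J₀(N)` — interfaces  (helper81)

Goal: `Fermat.Agent.S30.Stmt_TatePiece` (interface of cluster R).  Route:

* `TorChar N n ι x φ` : the `n`-torsion class `x ∈ J₀(N)` has Betti character `φ`
  (`x = [D]`, `n D = div f`, `f` base-changed along `ι : ℚ̄ → ℂ` is `(R/B)ⁿ` with multiplier `ζ^φ`).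
* `Stmt_TORc`   : `J₀(N)[n] ≃ homPE(Γ₀(N), ℤ/n)`, characterised by `TorChar`   (KUM + DESC + BETTI + CHAR)
* `Stmt_torsLift`: every `φ ∈ homPE(Γ₀(N), ℤ/m)` lifts to a parabolic hom to `ℤ`   (TORSLIFT, helper77)
* `Stmt_HK`     : `TorChar x φ → TorChar (T_ℓ x) (T_ℓ^B φ)`                       (Hecke compatibility)
* `Stmt_GalHecke`: Galois commutes with the Hecke operators on `J₀(N)`
* `Stmt_TorsUnram`, `Stmt_TorsES` : inertia is trivial / Eichler–Shimura on `p`-power torsion (from G-RED)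
* `Stmt_GAL`    : every point of `J₀(N)` is fixed by an open subgroup
* `IsTateSystem`: the resulting compatible system of matrix representations mod `p^k`
* T1 `Stmt_T1`  : `IsTateSystem` ⇒ `Stmt_TatePiece`   (pure algebra)
* T2 `Stmt_T2`  : all of the above ⇒ a Tate system     (plumbing)

Everything here is a definition or a `Prop`; no `sorry`.
-/

set_option autoImplicit false

noncomputable section

namespace Fermat.Agent.GTor

open AlgebraicCurve ModularCurve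
open scoped MatrixGroups

/-- The absolute Galois group of `ℚ`. -/
abbrev GQ : Type := AlgebraicClosure ℚ ≃ₐ[ℚ] AlgebraicClosure ℚ

/-! ## 1. The character of a torsion class -/

/-- `φ` is the Betti character of the class `x ∈ J₀(N)` (which is then killed by `n`):
`x = [D]`, `n • D = div f` with `f ∈ F_ℚ̄`, and the base change `f'` of `f` along `ι` has
character `φ`. -/
def TorChar (N n : ℕ) [NeZero N] (ι : AlgebraicClosure ℚ →+* ℂ) (x : JZero N)
    (φ : Additive (CongruenceSubgroup.Gamma0 N) →+ ZMod n) : Prop :=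
  ∃ (D : Divisor.degZero (K := AlgebraicClosure ℚ) (F := FNL (AlgebraicClosure ℚ) N))
    (f : FNL (AlgebraicClosure ℚ) N) (f' : FNL ℂ N),
    f ≠ 0 ∧ x = Pic0.mk D ∧
    (∀ v : Place (AlgebraicClosure ℚ) (FNL (AlgebraicClosure ℚ) N),
      (n : ℤ) * (D : Divisor (AlgebraicClosure ℚ) (FNL (AlgebraicClosure ℚ) N)) v = v.ord f) ∧
    (∀ m : ℤ, (f' : LaurentSeries ℂ).coeff m = ι ((f : LaurentSeries (AlgebraicClosure ℚ)).coeff m)) ∧
    HasChar N n f' φ

/-- **TORc**: the characterised form of `Stmt_TOR`. -/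
def Stmt_TORc (N n : ℕ) [NeZero N] : Prop :=
  ∀ ι : AlgebraicClosure ℚ →+* ℂ,
    ∃ e : Pic0.torsion (AlgebraicClosure ℚ) (modularFunctionFieldBar N) n ≃+
        homPE (CongruenceSubgroup.Gamma0 N) (ZMod n),
      (∀ x : Pic0.torsion (AlgebraicClosure ℚ) (modularFunctionFieldBar N) n,
        TorChar N n ι (x : JZero N)
          ((e x : homPE (CongruenceSubgroup.Gamma0 N) (ZMod n)) :
            Additive (CongruenceSubgroup.Gamma0 N) →+ ZMod n)) ∧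
      (∀ (x : Pic0.torsion (AlgebraicClosure ℚ) (modularFunctionFieldBar N) n)
        (φ : Additive (CongruenceSubgroup.Gamma0 N) →+ ZMod n),
        TorChar N n ι (x : JZero N) φ →
          φ = ((e x : homPE (CongruenceSubgroup.Gamma0 N) (ZMod n)) :
            Additive (CongruenceSubgroup.Gamma0 N) →+ ZMod n))

/-! ## 2. Inputs from the Betti side -/

/-- **TORSLIFT** (helper77): every hom `Γ₀(N) → ℤ/m` killing parabolic and finite-order elements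
lifts to a parabolic hom `Γ₀(N) → ℤ`. -/
def Stmt_torsLift (N : ℕ) [NeZero N] : Prop :=
  ∀ (m : ℕ), m ≠ 0 → ∀ φ ∈ homPE (CongruenceSubgroup.Gamma0 N) (ZMod m),
    ∃ ψ : Additive (CongruenceSubgroup.Gamma0 N) →+ ℤ,
      Period.IsParabolicHom (CongruenceSubgroup.Gamma0 N) ψ ∧ ∀ γ, φ γ = ((ψ γ : ℤ) : ZMod m)

/-! ## 3. Inputs from geometry -/

/-- **HK**: the Kummer–Betti dictionary intertwines the Hecke operator `T_ℓ = α_* β^*` of
`J₀(N)` (prelude `heckeOperatorBar`) with the Betti operator `T_ℓ^B` (`Betti.TB`).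
Proof: the Kummer function of `T_ℓ x` is `Norm_{F_{Nℓ}/F_N}(f(q^ℓ)) = ∏_i f ∘ rep_i`
(`rep_i` = the `ℓ + 1` Hecke representatives), whose `n`-th root `∏_i (R/B) ∘ rep_i` has
multiplier `γ ↦ ∏_i χ(κ_i(γ))`. -/
def Stmt_HK (N n : ℕ) [NeZero N] : Prop :=
  ∀ (ι : AlgebraicClosure ℚ →+* ℂ) (ℓ : ℕ) (hℓ : ℓ.Prime) (hℓN : ¬ ℓ ∣ N) (x : JZero N)
    (φ : Additive (CongruenceSubgroup.Gamma0 N) →+ ZMod n),
    TorChar N n ι x φ →
      TorChar N n ι (heckeOperatorBar N ⟨ℓ, hℓ⟩ x) (Betti.TB N (ZMod n) hℓ hℓN φ)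

/-- **GalHecke**: the Hecke operators of `J₀(N)` are defined over `ℚ`. -/
def Stmt_GalHecke (N : ℕ) [NeZero N] : Prop :=
  ∀ (ℓ : Nat.Primes) (σ : GQ) (x : JZero N),
    σ • heckeOperatorBar N ℓ x = heckeOperatorBar N ℓ (σ • x)

/-- Inertia at `q ∤ N p` acts trivially on the `p`-power torsion of `J₀(N)`. -/
def Stmt_TorsUnram (N p : ℕ) [NeZero N] : Prop :=
  ∀ q : ℕ, q.Prime → ¬ q ∣ N → q ≠ p →
    ∀ P : ValuationSubring (AlgebraicClosure ℚ), P.LiesOverPrime q →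
      ∀ σ ∈ P.inertiaSubgroupIn ℚ, ∀ x : JZero N, (∃ n : ℕ, p ^ n • x = 0) → σ • x = x

/-- The Eichler–Shimura relation on the `p`-power torsion of `J₀(N)`, for every Frobenius element
at every place over `ℓ ∤ N p`. -/
def Stmt_TorsES (N p : ℕ) [NeZero N] : Prop :=
  ∀ (ℓ : ℕ) (hℓ : ℓ.Prime), ¬ ℓ ∣ N → ℓ ≠ p →
    ∀ A : ValuationSubring (AlgebraicClosure ℚ), A.LiesOverPrime ℓ →
      ∀ σ : GQ, A.IsFrobeniusAt σ ℓ → ∀ x : JZero N, (∃ n : ℕ, p ^ n • x = 0) →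
        σ • σ • x - heckeOperatorBar N ⟨ℓ, hℓ⟩ (σ • x) + ℓ • x = 0

/-- **GAL**: every point of `J₀(N)` is fixed by the Galois group of a number field. -/
def Stmt_GAL (N : ℕ) [NeZero N] : Prop :=
  ∀ y : JZero N, ∃ L : IntermediateField ℚ (AlgebraicClosure ℚ), FiniteDimensional ℚ L ∧
    ∀ σ : GQ, (∀ x ∈ L, σ x = x) → σ • y = y

/-! ## 4. Tate systems -/

section TateSystem

variable {R : Type} [CommRing R] (p : ℕ) {r : ℕ}

/-- A compatible system of matrix representations `ρ k : G_ℚ → M_r(ℤ/p^k)` commuting with a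
ring of integer matrices `M : R → M_r(ℤ)`, each `ρ k` factoring through a number field. -/
structure IsTateSystem (ρ : ∀ k : ℕ, GQ →* Matrix (Fin r) (Fin r) (ZMod (p ^ k)))
    (M : R →+* Matrix (Fin r) (Fin r) ℤ) : Prop where
  compat : ∀ (k : ℕ) (σ : GQ) (i j : Fin r),
    ((ZMod.castHom (pow_dvd_pow p (Nat.le_succ k)) (ZMod (p ^ k))) (ρ (k + 1) σ i j)) = ρ k σ i j
  cont : ∀ k : ℕ, ∃ L : IntermediateField ℚ (AlgebraicClosure ℚ), FiniteDimensional ℚ L ∧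
    ∀ σ : GQ, (∀ x ∈ L, σ x = x) → ρ k σ = 1
  comm : ∀ (k : ℕ) (σ : GQ) (t : R),
    ρ k σ * (M t).map (Int.cast : ℤ → ZMod (p ^ k)) =
      (M t).map (Int.cast : ℤ → ZMod (p ^ k)) * ρ k σ
  inj : Function.Injective M

/-- The Eichler–Shimura relation for a Tate system, with `T_ℓ ↦ a ℓ ∈ R`. -/
def TateES (ρ : ∀ k : ℕ, GQ →* Matrix (Fin r) (Fin r) (ZMod (p ^ k)))
    (M : R →+* Matrix (Fin r) (Fin r) ℤ) (ℓ : ℕ) (a : R) : Prop :=
  ∀ A : ValuationSubring (AlgebraicClosure ℚ), A.LiesOverPrime ℓ →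
    ∀ σ : GQ, A.IsFrobeniusAt σ ℓ → ∀ k : ℕ,
      ρ k σ * ρ k σ - (M a).map (Int.cast : ℤ → ZMod (p ^ k)) * ρ k σ
        + (ℓ : ZMod (p ^ k)) • (1 : Matrix (Fin r) (Fin r) (ZMod (p ^ k))) = 0

/-- A Tate system is unramified at `q`. -/
def TateUnram (ρ : ∀ k : ℕ, GQ →* Matrix (Fin r) (Fin r) (ZMod (p ^ k))) (q : ℕ) : Prop :=
  ∀ P : ValuationSubring (AlgebraicClosure ℚ), P.LiesOverPrime q →
    ∀ σ ∈ P.inertiaSubgroupIn ℚ, ∀ k : ℕ, ρ k σ = 1

end TateSystem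

/-- **Tate system of `J₀(N)`** at `p`, for the Hecke algebra away from `S`. -/
def Stmt_TateSystem (N p : ℕ) [NeZero N] (S : Finset ℕ) : Prop :=
  ∃ (r : ℕ) (ρ : ∀ k : ℕ, GQ →* Matrix (Fin r) (Fin r) (ZMod (p ^ k)))
    (M : CuspForm.heckeAlgebra N 2 (↑S : Set ℕ) →+* Matrix (Fin r) (Fin r) ℤ),
    IsTateSystem p ρ M ∧
    (∀ (ℓ : ℕ) (hℓ : ℓ.Prime) (hℓN : ¬ ℓ ∣ N) (hℓS : ℓ ∉ (↑S : Set ℕ)),
      TateES p ρ M ℓ (CuspForm.heckeAlgebra.T hℓ hℓN hℓS)) ∧
    (∀ q : ℕ, q.Prime → ¬ q ∣ N → q ≠ p → TateUnram p ρ q)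

/-- **T1** (pure algebra): a Tate system gives the Tate piece of every eigensystem.
Route: limit `ρ : G_ℚ → M_r(𝒪')` (completeness), common eigenvector of `M(R)` with character `χ`
over `Frac 𝒪'` (`Betti.Stmt_algEig`), saturated lattice of the eigenspace (`S30.Stmt_Lattice`),
`ρ' = Q ρ P`. -/
def Stmt_T1 : Prop :=
  (∀ (p : ℕ) [Fact p.Prime] (N : ℕ) [NeZero N] (S : Finset ℕ), p ∈ S →
      (∀ q : ℕ, q.Prime → q ∣ N → q ∈ S) → Stmt_TateSystem N p S) →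
    S30.Stmt_TatePiece

/-- **T2** (plumbing): the Tate system of `J₀(N)` from the torsion dictionary. -/
def Stmt_T2 (N p : ℕ) [NeZero N] (S : Finset ℕ) : Prop :=
  p.Prime → p ∈ S → (∀ q : ℕ, q.Prime → q ∣ N → q ∈ S) →
  (∀ k : ℕ, Stmt_TORc N (p ^ k)) → (∀ k : ℕ, Stmt_HK N (p ^ k)) → Stmt_torsLift N →
  Stmt_GalHecke N → Stmt_TorsUnram N p → Stmt_TorsES N p → Stmt_GAL N →
  Betti.Stmt_basis → Betti.Stmt_matrixRep →
    Stmt_TateSystem N p S

end Fermat.Agent.GTor
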