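import Mathlib
import Fermat.Agent.GTor.TateDefs

/-!
# G-TOR, package HK-alg (helper2): wiring of `Stmt_HK`

`x = [D]`, `n D = div f`.  Then `T_ℓ x = [α_* β^* D]` (prelude `Pic0.correspondence β α`) and
`n · α_* β^* D = α_* β^* div f = α_* div (β f) = div (Norm_α (β f))`.

* `heckeNormFn L N ℓ f` : the Kummer function `Norm_α (β f) ∈ F_L(N)` of `T_ℓ x`.
* `Stmt_HKC N n` : the combined analytic input: if `f'` is the base change of `f` along `ι` and
  `f'` has character `φ`, then the base change of `heckeNormFn f` has character `T_ℓ^B φ`.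
* `hk_of_HKC : HeckeInputsAlong → Stmt_HKC N n → Stmt_HK N n`.
-/

set_option autoImplicit false
set_option linter.style.haveILetI false
set_option linter.unusedSectionVars false
set_option linter.dupNamespace false

noncomputable section

namespace Fermat.Agent.GTor.H2

open AlgebraicCurve ModularCurve

/-- The Kummer function of `T_ℓ x`: the norm along `α : F_N → F_{Nℓ}` (inclusion) of
`β f = f(q^ℓ)`. -/
def heckeNormFn (L : Type) [Field L] [Algebra ℚ L] (N ℓ : ℕ) [NeZero N] [NeZero ℓ]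
    (f : FNL L N) : FNL L N :=
  letI := algebraAlong (heckeAlphaBar L N ℓ)
  Algebra.norm (FNL L N) (heckeBetaBar L N ℓ f)

theorem heckeNormFn_ne_zero (L : Type) [Field L] [Algebra ℚ L] (N ℓ : ℕ) [NeZero N] [NeZero ℓ]
    (hfin : FiniteAlong L (heckeAlphaBar L N ℓ)) {f : FNL L N} (hf : f ≠ 0) :
    heckeNormFn L N ℓ f ≠ 0 := by
  letI := algebraAlong (heckeAlphaBar L N ℓ)
  haveI : Module.Finite (FNL L N) (FNL L (N * ℓ)) := hfin
  have h : heckeBetaBar L N ℓ f ≠ 0 := by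
    intro h0
    exact hf ((heckeBetaBar L N ℓ).toRingHom.injective (by simpa using h0))
  exact Algebra.norm_ne_zero_iff.mpr h

/-- `n • correspondence D = div (Norm_α (β f))` if `n • D = div f`. -/
theorem correspondence_ord (L : Type) [Field L] [Algebra ℚ L] (N ℓ : ℕ) [NeZero N] [NeZero ℓ]
    (hα : HeckeAlphaBarIntegral L N ℓ) (hβ : HeckeBetaBarIntegral L N ℓ)
    [HasPrincipalDivisors L (laurentBaseChange L (modularFunctionFieldFull (N * ℓ)))]
    (hfin : FiniteAlong L (heckeAlphaBar L N ℓ))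
    (hN : NormFormulaAlong L (heckeAlphaBar L N ℓ) hfin)
    (n : ℤ) (D : Divisor L (FNL L N)) {f : FNL L N} (hf : f ≠ 0)
    (hD : ∀ v : Place L (FNL L N), n * D v = v.ord f) (v : Place L (FNL L N)) :
    n * Divisor.correspondence (heckeBetaBar L N ℓ) (heckeAlphaBar L N ℓ) hβ hα D v
      = v.ord (heckeNormFn L N ℓ f) := by
  have hE : ∀ v : Place L (FNL L N), (n • D) v = v.ord f := fun v => by
    rw [Finsupp.smul_apply, smul_eq_mul, hD v]
  have h1 : ∀ w : Place L (FNL L (N * ℓ)),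
      Divisor.pullbackAlong (heckeBetaBar L N ℓ) hβ (n • D) w
        = w.ord (heckeBetaBar L N ℓ f) := by
    intro w
    letI := algebraAlong (heckeBetaBar L N ℓ)
    haveI := isScalarTower_along (heckeBetaBar L N ℓ)
    haveI := isIntegral_along (heckeBetaBar L N ℓ) hβ
    exact Divisor.pullback_apply_eq_ord hE w
  have hβf : heckeBetaBar L N ℓ f ≠ 0 := by
    intro h0
    exact hf ((heckeBetaBar L N ℓ).toRingHom.injective (by simpa using h0))
  have h2 : Divisor.pushforwardAlong (heckeAlphaBar L N ℓ) hα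
      (Divisor.pullbackAlong (heckeBetaBar L N ℓ) hβ (n • D)) v
        = v.ord (heckeNormFn L N ℓ f) := by
    letI := algebraAlong (heckeAlphaBar L N ℓ)
    haveI := isScalarTower_along (heckeAlphaBar L N ℓ)
    haveI := isIntegral_along (heckeAlphaBar L N ℓ) hα
    haveI : Module.Finite (FNL L N) (FNL L (N * ℓ)) := hfin
    exact hN _ hβf _ h1 v
  have h3 : Divisor.correspondence (heckeBetaBar L N ℓ) (heckeAlphaBar L N ℓ) hβ hα (n • D)
      = n • Divisor.correspondence (heckeBetaBar L N ℓ) (heckeAlphaBar L N ℓ) hβ hα D :=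
    map_zsmul _ n D
  rw [← h2, ← Divisor.correspondence_apply, h3, Finsupp.smul_apply, smul_eq_mul]

/-- **HKC**: the combined analytic input of HK-alg (hk_an + the norm series + base change). -/
def Stmt_HKC (N n : ℕ) [NeZero N] : Prop :=
  ∀ (ι : AlgebraicClosure ℚ →+* ℂ) (ℓ : ℕ) (hℓ : ℓ.Prime) (hℓN : ¬ ℓ ∣ N)
    (f : FNL (AlgebraicClosure ℚ) N) (f' : FNL ℂ N)
    (φ : Additive (CongruenceSubgroup.Gamma0 N) →+ ZMod n),
    f ≠ 0 →
    (∀ m : ℤ, (f' : LaurentSeries ℂ).coeff m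
      = ι ((f : LaurentSeries (AlgebraicClosure ℚ)).coeff m)) →
    HasChar N n f' φ →
    ∃ g' : FNL ℂ N,
      (∀ m : ℤ, (g' : LaurentSeries ℂ).coeff m
        = ι (((haveI : NeZero ℓ := ⟨hℓ.ne_zero⟩; heckeNormFn (AlgebraicClosure ℚ) N ℓ f :
            FNL (AlgebraicClosure ℚ) N) : LaurentSeries (AlgebraicClosure ℚ)).coeff m)) ∧
      HasChar N n g' (Betti.TB N (ZMod n) hℓ hℓN φ)

/-- **HK-alg, wiring**: `Stmt_HK` from the Hecke inputs (HK-A) and `Stmt_HKC`. -/
theorem hk_of_HKC (N n : ℕ) [NeZero N]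
    (hIn : ∀ (ℓ : ℕ) [NeZero ℓ], HeckeInputsAlong (AlgebraicClosure ℚ) N ℓ)
    (hC : Stmt_HKC N n) : Stmt_HK N n := by
  rintro ι ℓ hℓ hℓN x φ ⟨D, f, f', hf, hx, hord, hco, hch⟩
  haveI : NeZero ℓ := ⟨hℓ.ne_zero⟩
  obtain ⟨hα, hβ, hP, hfin, hFI, hN⟩ := hIn ℓ
  obtain ⟨g', hg', hch'⟩ := hC ι ℓ hℓ hℓN f f' φ hf hco hch
  refine ⟨Pic0.degZeroCorrespondence (heckeBetaBar _ N ℓ) (heckeAlphaBar _ N ℓ) hβ hα hFI D,
    heckeNormFn _ N ℓ f, g', heckeNormFn_ne_zero _ N ℓ hfin hf, ?_, ?_, hg', hch'⟩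
  · rw [heckeOperatorBar_apply, heckeOperatorAlong_eq hα hβ hFI hfin hN, hx]
    rfl
  · intro v
    rw [Pic0.coe_degZeroCorrespondence]
    exact correspondence_ord _ N ℓ hα hβ hfin hN (n : ℤ) _ hf hord v

end Fermat.Agent.GTor.H2
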