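import Fermat.Prelude.Def_AlgebraicCurve_Correspondence

/-!
# Cluster G, part TOR (helper2): correspondences commute with semilinear automorphisms

Pure algebra in the prelude's function-field language.  If semilinear automorphisms `g` of `F`
and `g'` of `F'` are intertwined by `F → F'`, then restriction of places, ramification indices,
inertia degrees, pullback and pushforward of divisors are compatible with `g`, `g'`; hence
`Pic0.correspondence φ ψ` commutes with the action, when `g`, `g'` are intertwined by both `φ`
and `ψ`.
-/

set_option autoImplicit false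
set_option linter.unusedSectionVars false
set_option linter.style.haveILetI false
set_option linter.dupNamespace false

noncomputable section

open scoped Pointwise

namespace Fermat.Agent.GTor.H2

open AlgebraicCurve AlgebraicCurve.SemilinearAut

section Tower

variable {K F F' : Type*} [Field K] [Field F] [Field F']
  [Algebra K F] [Algebra K F'] [Algebra F F'] [IsScalarTower K F F']
  [Algebra.IsIntegral F F']
variable (g : SemilinearAut K F) (g' : SemilinearAut K F')

/-- Restriction of places is equivariant. -/
theorem restrict_smul (h : ∀ x : F, g' • algebraMap F F' x = algebraMap F F' (g • x))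
    (w : Place K F') : (g' • w).restrict F = g • (w.restrict F) := by
  have hinv : ∀ x : F, g'⁻¹ • algebraMap F F' x = algebraMap F F' (g⁻¹ • x) := by
    intro x
    have hx := h (g⁻¹ • x)
    rw [smul_inv_smul] at hx
    rw [← hx, inv_smul_smul]
  ext x
  rw [Place.restrict_toValuationSubring, smul_toValuationSubring, smul_toValuationSubring,
    Place.restrict_toValuationSubring, ValuationSubring.mem_comap,
    ValuationSubring.mem_pointwise_smul_iff_inv_smul_mem,
    ValuationSubring.mem_pointwise_smul_iff_inv_smul_mem, ValuationSubring.mem_comap, hinv]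

/-- `ord` after transport. -/
theorem ord_smul_algebraMap (h : ∀ x : F, g' • algebraMap F F' x = algebraMap F F' (g • x))
    (w : Place K F') (f : F) :
    (g' • w).ord (algebraMap F F' (g • f)) = w.ord (algebraMap F F' f) := by
  rw [← h f]
  exact ord_smul g' w _

/-- Ramification indices are invariant. -/
theorem ramificationIndex_smul
    (h : ∀ x : F, g' • algebraMap F F' x = algebraMap F F' (g • x)) (w : Place K F') :
    (g' • w).ramificationIndex F = w.ramificationIndex F := by
  unfold Place.ramificationIndex
  congr 1
  ext n
  simp only [Set.mem_ofPred_eq]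
  constructor
  · rintro ⟨hn, f, hf, hord⟩
    refine ⟨hn, g⁻¹ • f, ?_, ?_⟩
    · intro h0
      apply hf
      have := congrArg (g • ·) h0
      simpa using this
    · rw [← ord_smul_algebraMap g g' h w (g⁻¹ • f), smul_inv_smul]
      exact hord
  · rintro ⟨hn, f, hf, hord⟩
    refine ⟨hn, g • f, ?_, ?_⟩
    · intro h0
      apply hf
      have := congrArg (g⁻¹ • ·) h0
      simpa using this
    · rw [ord_smul_algebraMap g g' h w f]
      exact hord

/-- Membership in the restriction of the transported place. -/
theorem mem_restrict_smul_iff
    (h : ∀ x : F, g' • algebraMap F F' x = algebraMap F F' (g • x)) (w : Place K F') (x : F) :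
    x ∈ ((g' • w).restrict F).toValuationSubring ↔
      g⁻¹ • x ∈ (w.restrict F).toValuationSubring := by
  rw [restrict_smul g g' h w, smul_toValuationSubring,
    ValuationSubring.mem_pointwise_smul_iff_inv_smul_mem]

/-- The ring isomorphism between the valuation rings of `w.restrict F` and
`(g' • w).restrict F`. -/
def restrictEquiv (h : ∀ x : F, g' • algebraMap F F' x = algebraMap F F' (g • x))
    (w : Place K F') :
    (w.restrict F).toValuationSubring ≃+* ((g' • w).restrict F).toValuationSubring where
  toFun x := ⟨g • (x : F), by
    rw [mem_restrict_smul_iff g g' h w, inv_smul_smul]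
    exact x.2⟩
  invFun y := ⟨g⁻¹ • (y : F), (mem_restrict_smul_iff g g' h w _).1 y.2⟩
  left_inv x := Subtype.ext (inv_smul_smul g (x : F))
  right_inv y := Subtype.ext (smul_inv_smul g (y : F))
  map_mul' x y := Subtype.ext (map_mul (toRingAut g) (x : F) (y : F))
  map_add' x y := Subtype.ext (map_add (toRingAut g) (x : F) (y : F))

@[simp]
theorem coe_restrictEquiv (h : ∀ x : F, g' • algebraMap F F' x = algebraMap F F' (g • x))
    (w : Place K F') (x : (w.restrict F).toValuationSubring) :
    ((restrictEquiv g g' h w x : ((g' • w).restrict F).toValuationSubring) : F) = g • (x : F) :=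
  rfl

/-- Inertia degrees are invariant. -/
theorem inertiaDeg_smul
    (h : ∀ x : F, g' • algebraMap F F' x = algebraMap F F' (g • x)) (w : Place K F') :
    (g' • w).inertiaDeg F = w.inertiaDeg F := by
  unfold Place.inertiaDeg
  symm
  refine Algebra.finrank_eq_of_equiv_equiv
    (IsLocalRing.ResidueField.mapEquiv (restrictEquiv g g' h w))
    (smulResidueRingEquiv g' w) ?_
  ext a
  obtain ⟨a, rfl⟩ := IsLocalRing.residue_surjective a
  simp only [RingHom.comp_apply, RingEquiv.toRingHom_eq_coe, RingEquiv.coe_toRingHom]
  rw [IsLocalRing.ResidueField.mapEquiv_apply, IsLocalRing.ResidueField.map_residue,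
    Place.algebraMap_residueField_eq, Place.algebraMap_residueField_eq,
    Place.restrictResidueMap_residue, Place.restrictResidueMap_residue]
  show IsLocalRing.residue _ _ =
    IsLocalRing.ResidueField.mapEquiv (smulValuationSubringEquiv g' w.toValuationSubring)
      (IsLocalRing.residue _ _)
  rw [IsLocalRing.ResidueField.mapEquiv_apply, IsLocalRing.ResidueField.map_residue]
  refine congrArg _ (Subtype.ext ?_)
  show algebraMap F F' (g • (a : F)) = g' • algebraMap F F' (a : F)
  exact (h _).symm

/-- Pushforward of divisors is equivariant. -/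
theorem pushforward_smul
    (h : ∀ x : F, g' • algebraMap F F' x = algebraMap F F' (g • x)) (D : Divisor K F') :
    Divisor.pushforward F (g' • D) = g • Divisor.pushforward F D := by
  induction D using Finsupp.induction with
  | zero => simp
  | single_add w n D _ _ ih =>
    rw [smul_add, map_add, map_add, smul_add, ih, smul_single, Divisor.pushforward_single,
      Divisor.pushforward_single, smul_single, restrict_smul g g' h w, inertiaDeg_smul g g' h w]

variable [HasPrincipalDivisors K F']

/-- Pullback of divisors is equivariant. -/
theorem pullback_smul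
    (h : ∀ x : F, g' • algebraMap F F' x = algebraMap F F' (g • x)) (D : Divisor K F) :
    Divisor.pullback F' (g • D) = g' • Divisor.pullback F' D := by
  have hinv : ∀ x : F, g'⁻¹ • algebraMap F F' x = algebraMap F F' (g⁻¹ • x) := by
    intro x
    have hx := h (g⁻¹ • x)
    rw [smul_inv_smul] at hx
    rw [← hx, inv_smul_smul]
  ext w
  rw [Divisor.pullback_apply, divisor_smul_apply, divisor_smul_apply, Divisor.pullback_apply,
    restrict_smul g⁻¹ g'⁻¹ hinv w, ramificationIndex_smul g⁻¹ g'⁻¹ hinv w]

end Tower

section Along

variable {K F F' : Type*} [Field K] [Field F] [Field F'] [Algebra K F] [Algebra K F']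
variable (g : SemilinearAut K F) (g' : SemilinearAut K F')

/-- Pushforward along `ψ` is equivariant. -/
theorem pushforwardAlong_smul (ψ : F →ₐ[K] F') (hψ : ψ.toRingHom.IsIntegral)
    (h : IntertwinesAlong (ψ : F →+* F') g g') (D : Divisor K F') :
    Divisor.pushforwardAlong ψ hψ (g' • D) = g • Divisor.pushforwardAlong ψ hψ D := by
  letI := algebraAlong ψ
  haveI := isScalarTower_along ψ
  haveI := isIntegral_along ψ hψ
  exact pushforward_smul g g' h D

variable [HasPrincipalDivisors K F']

/-- Pullback along `φ` is equivariant. -/
theorem pullbackAlong_smul (φ : F →ₐ[K] F') (hφ : φ.toRingHom.IsIntegral)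
    (h : IntertwinesAlong (φ : F →+* F') g g') (D : Divisor K F) :
    Divisor.pullbackAlong φ hφ (g • D) = g' • Divisor.pullbackAlong φ hφ D := by
  letI := algebraAlong φ
  haveI := isScalarTower_along φ
  haveI := isIntegral_along φ hφ
  exact pullback_smul g g' h D

variable (φ ψ : F →ₐ[K] F') (hφ : φ.toRingHom.IsIntegral) (hψ : ψ.toRingHom.IsIntegral)

/-- Correspondences on divisors are equivariant. -/
theorem divisor_correspondence_smul (h₁ : IntertwinesAlong (φ : F →+* F') g g')
    (h₂ : IntertwinesAlong (ψ : F →+* F') g g') (D : Divisor K F) :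
    Divisor.correspondence φ ψ hφ hψ (g • D) = g • Divisor.correspondence φ ψ hφ hψ D := by
  rw [Divisor.correspondence_apply, Divisor.correspondence_apply,
    pullbackAlong_smul g g' φ hφ h₁, pushforwardAlong_smul g g' ψ hψ h₂]

/-- Correspondences on `Pic⁰` are equivariant. -/
theorem pic0_correspondence_smul (hFI : FundamentalIdentityAlong K φ hφ)
    (hfin : FiniteAlong K ψ) (hN : NormFormulaAlong K ψ hfin)
    (h₁ : IntertwinesAlong (φ : F →+* F') g g')
    (h₂ : IntertwinesAlong (ψ : F →+* F') g g') (x : Pic0 K F) :
    Pic0.correspondence φ ψ hφ hψ hFI hfin hN (g • x) =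
      g • Pic0.correspondence φ ψ hφ hψ hFI hfin hN x := by
  obtain ⟨D, rfl⟩ := Pic0.mk_surjective x
  rw [pic0_smul_mk, Pic0.correspondence_mk, Pic0.correspondence_mk, pic0_smul_mk]
  refine congrArg Pic0.mk (Subtype.ext ?_)
  rw [Pic0.coe_degZeroCorrespondence, coe_degZeroSMulHom, coe_degZeroSMulHom,
    Pic0.coe_degZeroCorrespondence]
  exact divisor_correspondence_smul g g' φ ψ hφ hψ h₁ h₂ D

end Along

end Fermat.Agent.GTor.H2
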