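import Fermat.Agent.GTor.H75_DescDefs

set_option autoImplicit false
set_option linter.style.haveILetI false
set_option linter.unusedSectionVars false

noncomputable section

namespace Fermat.Agent.GTor.H56

open ModularCurve Module

variable {k K : Type} [Field k] [Field K] (ι : k →+* K)

lemma smul_eq_algebraMap_mul {L : Type} [Field L] (c : L) (x : LaurentSeries L) :
    c • x = algebraMap L (LaurentSeries L) c * x := by
  rw [algebraMap_laurentSeries_eq_single]
  ext m
  simp

lemma coeffMap_smul' (c : k) (x : LaurentSeries k) :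
    coeffMap ι (c • x) = ι c • coeffMap ι x := by
  ext m
  simp

lemma coeff_sum_smul {I : Type*} [Fintype I] {R : Type*} [CommRing R] (c : I → R)
    (v : I → LaurentSeries R) (m : ℤ) :
    (∑ a, c a • v a).coeff m = ∑ a, c a * (v a).coeff m := by
  have : (∑ a, c a • v a).coeff m = ∑ a, (c a • v a).coeff m :=
    map_sum (HahnSeries.coeff.addMonoidHom m) _ _
  rw [this]
  simp

/-- Linear independence over `k` of finitely many Laurent series is kept by extension of the
coefficients. -/
theorem linearIndependent_coeffMap {I : Type*} [Fintype I] (v : I → LaurentSeries k)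
    (hv : LinearIndependent k v) : LinearIndependent K (fun i => coeffMap ι (v i)) := by
  classical
  letI : Algebra k K := ι.toAlgebra
  let b := Basis.ofVectorSpace k K
  rw [Fintype.linearIndependent_iff]
  intro c hc i
  have key : ∀ s, ∑ a, (b.repr (c a) s) • v a = 0 := by
    intro s
    ext m
    rw [coeff_sum_smul, HahnSeries.coeff_zero]
    have hm : ∑ a, c a * ι ((v a).coeff m) = 0 := by
      have := congrArg (fun z => z.coeff m) hc
      simp only [HahnSeries.coeff_zero] at this
      rw [coeff_sum_smul] at this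
      simpa using this
    have h2 : ∑ a, (v a).coeff m • c a = 0 := by
      rw [← hm]
      refine Finset.sum_congr rfl fun a _ => ?_
      rw [Algebra.smul_def, mul_comm]
      rfl
    have h3 := congrArg (fun z => b.repr z s) h2
    simp only [map_sum, map_smul, Finsupp.coe_finsetSum, Finsupp.coe_smul, Finset.sum_apply,
      Pi.smul_apply, smul_eq_mul, map_zero, Finsupp.coe_zero, Pi.zero_apply] at h3
    rw [← h3]
    exact Finset.sum_congr rfl fun a _ => mul_comm _ _
  have h0 : ∀ s, b.repr (c i) s = 0 := fun s =>
    (Fintype.linearIndependent_iff.mp hv) _ (key s) i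
  have : b.repr (c i) = 0 := Finsupp.ext h0
  exact b.repr.map_eq_zero_iff.mp this

section Descent

variable [Algebra ℚ k] [Algebra ℚ K] (F₀ : IntermediateField ℚ (LaurentSeries ℚ))

/-- The generating set of `F_L`. -/
def genSet (L : Type) [Field L] [Algebra ℚ L] : Set (LaurentSeries L) :=
  ⇑(coeffEmb L) '' (F₀ : Set (LaurentSeries ℚ))

lemma genSet_eq_image : genSet F₀ K = ⇑(coeffMap ι) '' genSet F₀ k := by
  ext x
  constructor
  · rintro ⟨y, hy, rfl⟩
    exact ⟨coeffEmb k y, ⟨y, hy, rfl⟩, H75.coeffMap_coeffEmb' ι y⟩
  · rintro ⟨_, ⟨y, hy, rfl⟩, rfl⟩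
    exact ⟨y, hy, (H75.coeffMap_coeffEmb' ι y).symm⟩

variable (L : Type) [Field L] [Algebra ℚ L]

lemma genSet_subset :
    genSet F₀ L ⊆ (laurentBaseChange L F₀ : Set (LaurentSeries L)) := by
  rintro _ ⟨y, hy, rfl⟩
  exact coeffEmb_mem_laurentBaseChange L hy

lemma one_mem_genSet : (1 : LaurentSeries L) ∈ genSet F₀ L :=
  ⟨1, F₀.one_mem, map_one _⟩

lemma mul_mem_genSet {x y : LaurentSeries L} (hx : x ∈ genSet F₀ L) (hy : y ∈ genSet F₀ L) :
    x * y ∈ genSet F₀ L := by
  obtain ⟨a, ha, rfl⟩ := hx
  obtain ⟨b, hb, rfl⟩ := hy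
  exact ⟨a * b, F₀.mul_mem ha hb, map_mul _ _ _⟩

lemma span_genSet_le {x : LaurentSeries L} (hx : x ∈ Submodule.span L (genSet F₀ L)) :
    x ∈ laurentBaseChange L F₀ := by
  induction hx using Submodule.span_induction with
  | mem y hy => exact genSet_subset F₀ L hy
  | zero => exact zero_mem _
  | add x y _ _ hx hy => exact add_mem hx hy
  | smul c x _ hx =>
    rw [smul_eq_algebraMap_mul]
    exact mul_mem ((laurentBaseChange L F₀).algebraMap_mem c) hx

lemma mul_mem_span_genSet {x y : LaurentSeries L} (hx : x ∈ Submodule.span L (genSet F₀ L))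
    (hy : y ∈ Submodule.span L (genSet F₀ L)) : x * y ∈ Submodule.span L (genSet F₀ L) := by
  induction hx using Submodule.span_induction with
  | mem a ha =>
    induction hy using Submodule.span_induction with
    | mem b hb => exact Submodule.subset_span (mul_mem_genSet F₀ L ha hb)
    | zero => rw [mul_zero]; exact zero_mem _
    | add b c _ _ hb hc => rw [mul_add]; exact add_mem hb hc
    | smul c b _ hb =>
      have : a * c • b = c • (a * b) := by
        rw [smul_eq_algebraMap_mul, smul_eq_algebraMap_mul]; ring
      rw [this]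
      exact Submodule.smul_mem _ c hb
  | zero => rw [zero_mul]; exact zero_mem _
  | add a b _ _ ha hb => rw [add_mul]; exact add_mem ha hb
  | smul c a _ ha =>
    have : c • a * y = c • (a * y) := by
      rw [smul_eq_algebraMap_mul, smul_eq_algebraMap_mul]; ring
    rw [this]
    exact Submodule.smul_mem _ c ha

lemma adjoin_le_span {x : LaurentSeries L} (hx : x ∈ Algebra.adjoin L (genSet F₀ L)) :
    x ∈ Submodule.span L (genSet F₀ L) := by
  induction hx using Algebra.adjoin_induction with
  | mem y hy => exact Submodule.subset_span hy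
  | algebraMap c =>
    have : algebraMap L (LaurentSeries L) c = c • (1 : LaurentSeries L) := by
      rw [smul_eq_algebraMap_mul, mul_one]
    rw [this]
    exact Submodule.smul_mem _ c (Submodule.subset_span (one_mem_genSet F₀ L))
  | add x y _ _ hx hy => exact add_mem hx hy
  | mul x y _ _ hx hy => exact mul_mem_span_genSet F₀ L hx hy

/-- Every element of `F_L` is a quotient of two elements of the `L`-span of the generators. -/
lemma exists_div_of_mem {x : LaurentSeries L}
    (hx : x ∈ laurentBaseChange L F₀) :
    ∃ P ∈ Submodule.span L (genSet F₀ L), ∃ Q ∈ Submodule.span L (genSet F₀ L), x = P / Q := by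
  rw [laurentBaseChange, IntermediateField.mem_adjoin_iff_div] at hx
  obtain ⟨P, hP, Q, hQ, e⟩ := hx
  exact ⟨P, adjoin_le_span F₀ L hP, Q, adjoin_le_span F₀ L hQ, e⟩

end Descent

end Fermat.Agent.GTor.H56
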