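import Fermat.Agent.GTor.H33_Curve
import Fermat.Agent.S24.Closure.Final
import Fermat.Agent.S24.Asm.Degree

/-!
# Cluster G-TOR, package CURVE (helper33), the case `L = Q̄`

For `F = Q̄(X₀(N)) = modularFunctionFieldBar N`:
* `hasPrincipalDivisors_FN : HasPrincipalDivisors Q̄ F`;
* `exists_algebraMap_eq_FN`: functions without zeros and poles are constant;
* `stmt_KUM_FN : Stmt_KUM Q̄ F n` for `n ≠ 0`, i.e. `Pic⁰(F)[n] ≃ U_n(F)`.
Wiring of the S24 layers (`modClosure N`, `asm_transcendental_jF`, `asm_finiteDimensional`).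
-/

set_option autoImplicit false

noncomputable section

namespace Fermat.Agent.GTor.H33

open AlgebraicCurve IntermediateField ModularCurve Fermat.Agent.GTor Fermat.Agent.S24

variable (N : ℕ) [NeZero N]

theorem hasPrincipalDivisors_FN :
    HasPrincipalDivisors (AlgebraicClosure ℚ) (modularFunctionFieldBar N) :=
  haveI : FiniteDimensional Kbar⟮jF N⟯ (FN N) := asm_finiteDimensional (modClosure N)
  hasPrincipalDivisors_of_finite (jF N) (asm_transcendental_jF (modClosure N))

theorem exists_algebraMap_eq_FN (f : modularFunctionFieldBar N) (hf : f ≠ 0)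
    (h : ∀ v : Place (AlgebraicClosure ℚ) (modularFunctionFieldBar N), v.ord f = 0) :
    ∃ c : AlgebraicClosure ℚ, algebraMap (AlgebraicClosure ℚ) (modularFunctionFieldBar N) c = f :=
  haveI : FiniteDimensional Kbar⟮jF N⟯ (FN N) := asm_finiteDimensional (modClosure N)
  exists_algebraMap_eq_of_forall_ord_eq_zero (jF N) (asm_transcendental_jF (modClosure N)) f hf h

/-- **KUM** for `Q̄(X₀(N))`: `Pic⁰[n] ≃ U_n`. -/
theorem stmt_KUM_FN {n : ℕ} (hn : n ≠ 0) :
    Stmt_KUM (AlgebraicClosure ℚ) (modularFunctionFieldBar N) n :=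
  haveI : FiniteDimensional Kbar⟮jF N⟯ (FN N) := asm_finiteDimensional (modClosure N)
  stmt_KUM_of_finite (jF N) (asm_transcendental_jF (modClosure N)) hn

end Fermat.Agent.GTor.H33
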