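import Fermat.Agent.GTor.H2_HKalgNS
import Fermat.Agent.RED.ES.H95_NormAlpha
import Fermat.Agent.RED.H51_HKA

/-!
# G-TOR, package HK-alg (helper2): final form

* `stmt_NormSwap N`, `stmt_NormSeries N` : unconditional (helper95's `norm_alpha_beta_eq`, ES-2).
* `hk_of_an : Stmt_HKan N n → Stmt_HK N n` : **HK** from the analytic half alone
  (`HeckeInputsAlong` is helper51's `stmt_HKA`).
-/

set_option autoImplicit false
set_option linter.style.haveILetI false
set_option linter.unusedSectionVars false
set_option linter.dupNamespace false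

noncomputable section

namespace Fermat.Agent.GTor.H2

open AlgebraicCurve ModularCurve

/-- `Norm_α (β f) = Norm_β (α f)` (helper95). -/
theorem stmt_NormSwap (N : ℕ) [NeZero N] : Stmt_NormSwap N := by
  intro ℓ hℓ hℓN f
  haveI : NeZero ℓ := ⟨hℓ.ne_zero⟩
  exact Fermat.Agent.RED.H95.norm_alpha_beta_eq hℓ hℓN f

/-- The `q`-expansion of the Kummer function `Norm_α (β f)` of `T_ℓ x` is the norm series. -/
theorem stmt_NormSeries (N : ℕ) [NeZero N] : Stmt_NormSeries N :=
  normSeries_of_swap N (stmt_NormSwap N)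

/-- **HK** from its analytic half. -/
theorem hk_of_an (N n : ℕ) [NeZero N] (han : Stmt_HKan N n) : Stmt_HK N n :=
  hk_of N n (fun ℓ _ => Fermat.Agent.RED.H51.stmt_HKA N ℓ) han (stmt_NormSeries N)

end Fermat.Agent.GTor.H2
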