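import Mathlib
import Fermat.Prelude.Def_ModularCurve_X0
import Fermat.Prelude.Def_ModularCurve_LaurentCoeff

/-!
# G-TOR, HK: the formal Hecke norm series (helper44)

For a Laurent series `s ∈ K((q))` and `ℓ ≥ 1`:

* `twistBy c s = s(c·t)` (`c : Kˣ`): the `m`-th coefficient is multiplied by `c ^ m`; a ring hom.
* `descend ℓ P`: the series `∑ P_{ℓ m} q^m`; left inverse of `qExpand K ℓ` (`q ↦ q^ℓ`).
* `normSeries K ℓ s = s(q^ℓ) · descend ℓ (∏_{ζ ∈ μ_ℓ(K)} s(ζ t))`,
  the `q`-expansion of `Norm_{F_{Nℓ}/F_N}(f(q^ℓ)) = f(ℓz) ∏_{b mod ℓ} f((z+b)/ℓ)` in terms of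
  the `q`-expansion `s` of `f`.
* `heckeNormSeries ℓ s = normSeries ℂ ℓ s`.
-/

set_option autoImplicit false

noncomputable section

namespace Fermat.Agent.GTor.H44

open HahnSeries ModularCurve

section Twist

variable {K : Type*} [CommRing K]

/-- `s(c t)`: the `m`-th coefficient is multiplied by `c ^ m`. -/
def twistFun (c : Kˣ) (s : LaurentSeries K) : LaurentSeries K where
  coeff m := ((c ^ m : Kˣ) : K) * s.coeff m
  isPWO_support' := s.isPWO_support.mono (fun m hm => by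
    rw [Function.mem_support] at hm
    rw [HahnSeries.mem_support]
    intro h0
    exact hm (by rw [h0, mul_zero]))

@[simp] theorem twistFun_coeff (c : Kˣ) (s : LaurentSeries K) (m : ℤ) :
    (twistFun c s).coeff m = ((c ^ m : Kˣ) : K) * s.coeff m := rfl

theorem support_twistFun (c : Kˣ) (s : LaurentSeries K) :
    (twistFun c s).support = s.support := by
  ext m
  rw [HahnSeries.mem_support, HahnSeries.mem_support, twistFun_coeff]
  constructor
  · intro h h0
    exact h (by rw [h0, mul_zero])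
  · intro h h0
    apply h
    have := congrArg (fun x => ((c ^ m : Kˣ)⁻¹ : Kˣ).1 * x) h0
    simpa [← mul_assoc] using this

theorem twistFun_mul (c : Kˣ) (x y : LaurentSeries K) :
    twistFun c (x * y) = twistFun c x * twistFun c y := by
  ext n
  rw [twistFun_coeff, HahnSeries.coeff_mul, HahnSeries.coeff_mul, Finset.mul_sum]
  symm
  refine Finset.sum_congr ?_ ?_
  · ext ij
    simp only [Finset.mem_antidiagonal, support_twistFun]
  · intro ij hij
    have hsum : ij.1 + ij.2 = n := (Finset.mem_antidiagonal.mp hij).2.2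
    rw [twistFun_coeff, twistFun_coeff, ← hsum, zpow_add, Units.val_mul]
    ring

/-- `s ↦ s(c t)` as a ring homomorphism. -/
def twistBy (c : Kˣ) : LaurentSeries K →+* LaurentSeries K where
  toFun := twistFun c
  map_zero' := by
    ext m
    simp
  map_one' := by
    ext m
    rw [twistFun_coeff, HahnSeries.coeff_one]
    split_ifs with h
    · rw [h]; simp
    · simp
  map_add' x y := by
    ext m
    simp [mul_add]
  map_mul' := twistFun_mul c

@[simp] theorem twistBy_coeff (c : Kˣ) (s : LaurentSeries K) (m : ℤ) :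
    (twistBy c s).coeff m = ((c ^ m : Kˣ) : K) * s.coeff m := rfl

theorem twistBy_one (s : LaurentSeries K) : twistBy (1 : Kˣ) s = s := by
  ext m
  simp

theorem twistBy_twistBy (c d : Kˣ) (s : LaurentSeries K) :
    twistBy c (twistBy d s) = twistBy (c * d) s := by
  ext m
  rw [twistBy_coeff, twistBy_coeff, twistBy_coeff, mul_zpow, Units.val_mul, mul_assoc]

theorem twistBy_C (c : Kˣ) (r : K) : twistBy c (HahnSeries.C r) = HahnSeries.C r := by
  ext m
  rw [twistBy_coeff, HahnSeries.C_apply, HahnSeries.coeff_single]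
  split_ifs with h
  · rw [h]; simp
  · simp

end Twist

section Descend

variable {K : Type*} [CommRing K] (ℓ : ℕ) [NeZero ℓ]

theorem descend_bddBelow (P : LaurentSeries K) :
    BddBelow (Function.support fun m : ℤ => P.coeff ((ℓ : ℤ) * m)) := by
  by_cases hP : P = 0
  · refine ⟨0, fun m hm => ?_⟩
    rw [Function.mem_support, hP] at hm
    exact absurd (by simp) hm
  · refine ⟨min P.order 0, fun m hm => ?_⟩
    rw [Function.mem_support] at hm
    have h1 : P.order ≤ (ℓ : ℤ) * m := HahnSeries.order_le_of_coeff_ne_zero hm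
    have hℓ : (1 : ℤ) ≤ (ℓ : ℤ) := by exact_mod_cast NeZero.one_le
    rcases le_or_gt 0 m with hm0 | hm0
    · exact (min_le_right _ _).trans hm0
    · refine (min_le_left _ _).trans (h1.trans ?_)
      nlinarith

/-- `∑ P_{ℓ m} q^m`. -/
def descend (P : LaurentSeries K) : LaurentSeries K :=
  HahnSeries.ofSuppBddBelow (fun m : ℤ => P.coeff ((ℓ : ℤ) * m)) (descend_bddBelow ℓ P)

@[simp] theorem descend_coeff (P : LaurentSeries K) (m : ℤ) :
    (descend ℓ P).coeff m = P.coeff ((ℓ : ℤ) * m) := rfl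

theorem descend_qExpand (s : LaurentSeries K) : descend ℓ (qExpand K ℓ s) = s := by
  ext m
  rw [descend_coeff, qExpand_coeff_mul]

/-- `P` is a series in `q^ℓ`. -/
def IsSupp (P : LaurentSeries K) : Prop := ∀ m : ℤ, ¬ (ℓ : ℤ) ∣ m → P.coeff m = 0

theorem isSupp_qExpand (s : LaurentSeries K) : IsSupp ℓ (qExpand K ℓ s) := fun _ hm =>
  qExpand_coeff_of_not_dvd ℓ s hm

variable {ℓ}

theorem qExpand_descend {P : LaurentSeries K} (hP : IsSupp ℓ P) :
    qExpand K ℓ (descend ℓ P) = P := by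
  ext n
  by_cases hn : (ℓ : ℤ) ∣ n
  · obtain ⟨m, rfl⟩ := hn
    rw [qExpand_coeff_mul, descend_coeff]
  · rw [qExpand_coeff_of_not_dvd ℓ _ hn, hP n hn]

theorem isSupp_iff {P : LaurentSeries K} : IsSupp ℓ P ↔ ∃ s, qExpand K ℓ s = P :=
  ⟨fun h => ⟨_, qExpand_descend h⟩, fun ⟨s, hs⟩ => hs ▸ isSupp_qExpand ℓ s⟩

theorem qExpand_injective : Function.Injective (qExpand K ℓ) := fun s t h => by
  rw [← descend_qExpand ℓ s, ← descend_qExpand ℓ t, h]

theorem descend_mul {P Q : LaurentSeries K} (hP : IsSupp ℓ P) (hQ : IsSupp ℓ Q) :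
    descend ℓ (P * Q) = descend ℓ P * descend ℓ Q := by
  conv_lhs => rw [← qExpand_descend hP, ← qExpand_descend hQ, ← map_mul]
  rw [descend_qExpand]

theorem descend_qExpand_mul (X : LaurentSeries K) {P : LaurentSeries K} (hP : IsSupp ℓ P) :
    descend ℓ (qExpand K ℓ X * P) = X * descend ℓ P := by
  rw [descend_mul (isSupp_qExpand ℓ X) hP, descend_qExpand]

theorem descend_one : descend ℓ (1 : LaurentSeries K) = 1 := by
  conv_lhs => rw [← map_one (qExpand K ℓ)]
  rw [descend_qExpand]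

theorem IsSupp.mul {P Q : LaurentSeries K} (hP : IsSupp ℓ P) (hQ : IsSupp ℓ Q) :
    IsSupp ℓ (P * Q) := by
  rw [isSupp_iff] at hP hQ ⊢
  obtain ⟨s, rfl⟩ := hP
  obtain ⟨t, rfl⟩ := hQ
  exact ⟨s * t, map_mul _ _ _⟩

end Descend

section Norm

variable (K : Type*) [Field K] (ℓ : ℕ) [NeZero ℓ]

theorem finite_rootsOfUnity_set : (rootsOfUnity ℓ K : Set Kˣ).Finite :=
  Set.finite_coe_iff.mp (inferInstance : Finite (rootsOfUnity ℓ K))

/-- the `ℓ`-th roots of unity of `K`, as a finset of units -/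
def rootsFinset : Finset Kˣ := (finite_rootsOfUnity_set K ℓ).toFinset

variable {K ℓ} in
@[simp] theorem mem_rootsFinset {ζ : Kˣ} : ζ ∈ rootsFinset K ℓ ↔ ζ ^ ℓ = 1 := by
  unfold rootsFinset
  rw [Set.Finite.mem_toFinset, SetLike.mem_coe, mem_rootsOfUnity]

/-- `∏_{ζ ∈ μ_ℓ(K)} s(ζ t)`. -/
def twistProd (s : LaurentSeries K) : LaurentSeries K :=
  ∏ ζ ∈ rootsFinset K ℓ, twistBy ζ s

/-- The formal norm `s(q^ℓ) · ∏_{ζ ∈ μ_ℓ} s(ζ q^{1/ℓ})`. -/
def normSeries (s : LaurentSeries K) : LaurentSeries K :=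
  qExpand K ℓ s * descend ℓ (twistProd K ℓ s)

variable {K ℓ}

theorem twistProd_mul (s t : LaurentSeries K) :
    twistProd K ℓ (s * t) = twistProd K ℓ s * twistProd K ℓ t := by
  unfold twistProd
  rw [← Finset.prod_mul_distrib]
  exact Finset.prod_congr rfl fun ζ _ => map_mul _ _ _

theorem twistProd_one : twistProd K ℓ (1 : LaurentSeries K) = 1 := by
  unfold twistProd
  exact Finset.prod_eq_one fun ζ _ => map_one _

theorem twistBy_twistProd {ζ₀ : Kˣ} (hζ₀ : ζ₀ ^ ℓ = 1) (s : LaurentSeries K) :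
    twistBy ζ₀ (twistProd K ℓ s) = twistProd K ℓ s := by
  unfold twistProd
  rw [map_prod]
  simp only [twistBy_twistBy]
  refine Finset.prod_bij (fun ζ _ => ζ₀ * ζ) ?_ ?_ ?_ (fun _ _ => rfl)
  · intro ζ hζ
    rw [mem_rootsFinset] at hζ ⊢
    rw [mul_pow, hζ₀, hζ, one_mul]
  · intro ζ _ ζ' _ h
    exact mul_left_cancel h
  · intro ζ hζ
    refine ⟨ζ₀⁻¹ * ζ, ?_, by rw [mul_inv_cancel_left]⟩
    rw [mem_rootsFinset] at hζ ⊢
    rw [mul_pow, inv_pow, hζ₀, hζ, inv_one, one_mul]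

theorem isSupp_twistProd {ζ₀ : Kˣ} (hζ : IsPrimitiveRoot ζ₀ ℓ) (s : LaurentSeries K) :
    IsSupp ℓ (twistProd K ℓ s) := by
  intro m hm
  have h := congrArg (fun P : LaurentSeries K => P.coeff m) (twistBy_twistProd hζ.pow_eq_one s)
  simp only [twistBy_coeff] at h
  have hne : ((ζ₀ ^ m : Kˣ) : K) ≠ 1 := by
    intro h1
    have h2 : ζ₀ ^ m = 1 := Units.ext h1
    exact hm ((hζ.zpow_eq_one_iff_dvd m).mp h2)
  have h3 : (((ζ₀ ^ m : Kˣ) : K) - 1) * (twistProd K ℓ s).coeff m = 0 := by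
    rw [sub_mul, one_mul, h, sub_self]
  rcases mul_eq_zero.mp h3 with h4 | h4
  · exact absurd (sub_eq_zero.mp h4) hne
  · exact h4

theorem normSeries_mul {ζ₀ : Kˣ} (hζ : IsPrimitiveRoot ζ₀ ℓ) (s t : LaurentSeries K) :
    normSeries K ℓ (s * t) = normSeries K ℓ s * normSeries K ℓ t := by
  unfold normSeries
  rw [map_mul, twistProd_mul, descend_mul (isSupp_twistProd hζ s) (isSupp_twistProd hζ t)]
  ring

theorem normSeries_one : normSeries K ℓ (1 : LaurentSeries K) = 1 := by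
  unfold normSeries
  rw [map_one, twistProd_one, descend_one, one_mul]

theorem normSeries_pow {ζ₀ : Kˣ} (hζ : IsPrimitiveRoot ζ₀ ℓ) (s : LaurentSeries K) (n : ℕ) :
    normSeries K ℓ (s ^ n) = normSeries K ℓ s ^ n := by
  induction n with
  | zero => rw [pow_zero, pow_zero, normSeries_one]
  | succ n ih => rw [pow_succ, pow_succ, normSeries_mul hζ, ih]

/-- the characterisation used on the analytic side -/
theorem qExpand_normSeries {ζ₀ : Kˣ} (hζ : IsPrimitiveRoot ζ₀ ℓ) (s : LaurentSeries K) :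
    qExpand K ℓ (normSeries K ℓ s) = qExpand K ℓ (qExpand K ℓ s) * twistProd K ℓ s := by
  unfold normSeries
  rw [map_mul, qExpand_descend (isSupp_twistProd hζ s)]

theorem eq_normSeries_of_qExpand {ζ₀ : Kˣ} (hζ : IsPrimitiveRoot ζ₀ ℓ) {s g : LaurentSeries K}
    (h : qExpand K ℓ g = qExpand K ℓ (qExpand K ℓ s) * twistProd K ℓ s) :
    g = normSeries K ℓ s :=
  qExpand_injective (h.trans (qExpand_normSeries hζ s).symm)

/-- the product over `μ_ℓ` as a product over the powers of a primitive root -/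
theorem twistProd_eq_prod_range {ζ₀ : Kˣ} (hζ : IsPrimitiveRoot ζ₀ ℓ) (s : LaurentSeries K) :
    twistProd K ℓ s = ∏ j ∈ Finset.range ℓ, twistBy (ζ₀ ^ j) s := by
  unfold twistProd
  symm
  refine Finset.prod_bij (fun j _ => ζ₀ ^ j) ?_ ?_ ?_ (fun _ _ => rfl)
  · intro j _
    rw [mem_rootsFinset, ← pow_mul, mul_comm, pow_mul, hζ.pow_eq_one, one_pow]
  · intro i hi j hj hij
    exact hζ.pow_inj (Finset.mem_range.mp hi) (Finset.mem_range.mp hj) hij
  · intro ζ hζ'
    rw [mem_rootsFinset] at hζ'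
    have hK : IsPrimitiveRoot (ζ₀ : K) ℓ := IsPrimitiveRoot.coe_units_iff.mpr hζ
    have hζK : (ζ : K) ^ ℓ = 1 := by
      rw [← Units.val_pow_eq_pow_val, hζ', Units.val_one]
    obtain ⟨i, hi, hiζ⟩ := hK.eq_pow_of_pow_eq_one hζK
    refine ⟨i, Finset.mem_range.mpr hi, Units.ext ?_⟩
    rw [Units.val_pow_eq_pow_val]
    exact hiζ

/-- `heckeNormSeries ℓ s = s(q^ℓ) · ∏_{b mod ℓ} s(ζ_ℓ^b q^{1/ℓ})` over `ℂ`. -/
def heckeNormSeries (ℓ : ℕ) [NeZero ℓ] (s : LaurentSeries ℂ) : LaurentSeries ℂ :=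
  normSeries ℂ ℓ s

end Norm

end Fermat.Agent.GTor.H44
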