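import Fermat.Agent.GTor.H44_HKan
import Fermat.Agent.GTor.H2_HKFinal

/-!
# G-TOR: `Stmt_HK N n`, unconditionally  (helper44; wiring of helper2's `hk_of_an` and `hk_an`)
-/

set_option autoImplicit false

namespace Fermat.Agent.GTor.H44

/-- **HK**: the Hecke compatibility of the Kummer character, for every level and every `n`. -/
theorem stmt_HK (N n : ℕ) [NeZero N] : Fermat.Agent.GTor.Stmt_HK N n :=
  Fermat.Agent.GTor.H2.hk_of_an N n (hk_an N n)

end Fermat.Agent.GTor.H44
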