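import Fermat.Agent.GTor.Defs

/-!
# G-TOR package DESC: finiteness of `U_n(F_ℂ)` (helper56)

`finite_unrKummer`: from `Stmt_BETTI N n` (`U_n(F_ℂ) ≃ Hom_pe(Γ₀(N), ZMod n)`), `U_n(F_ℂ)` is finite,
because `Γ₀(N)` is finitely generated and `ZMod n` is finite.
-/

set_option autoImplicit false
set_option linter.style.haveILetI false
set_option linter.unusedSectionVars false

noncomputable section

namespace Fermat.Agent.GTor.H56

open AlgebraicCurve ModularCurve Fermat.Agent.GTor CongruenceSubgroup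
open scoped MatrixGroups

/-- Homomorphisms from a finitely generated group to a finite group form a finite set. -/
theorem finite_addMonoidHom_of_fg (Γ : Type*) [Group Γ] [hfg : Group.FG Γ] (A : Type*)
    [AddCommGroup A] [Finite A] : Finite (Additive Γ →+ A) := by
  classical
  obtain ⟨S, hS, hfin⟩ := Group.fg_iff.mp hfg
  haveI : Finite ↥S := hfin.to_subtype
  let r : (Additive Γ →+ A) → (↥S → A) := fun φ s => φ (Additive.ofMul (s : Γ))
  apply Finite.of_injective r
  intro φ ψ h
  have heq : ∀ γ : Γ, φ (Additive.ofMul γ) = ψ (Additive.ofMul γ) := by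
    intro γ
    have hγ : γ ∈ Subgroup.closure S := by rw [hS]; trivial
    induction hγ using Subgroup.closure_induction with
    | mem x hx => exact congrFun h ⟨x, hx⟩
    | one => rw [ofMul_one, map_zero, map_zero]
    | mul x y _ _ hx hy => rw [ofMul_mul, map_add, map_add, hx, hy]
    | inv x _ hx => rw [ofMul_inv, map_neg, map_neg, hx]
  ext x
  exact heq (Additive.toMul x)

theorem groupFG_SL2Z' : Group.FG SL(2, ℤ) := by
  rw [Group.fg_iff]
  exact ⟨{ModularGroup.S, ModularGroup.T}, SpecialLinearGroup.SL2Z_generators, Set.toFinite _⟩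

theorem groupFG_Gamma0' (N : ℕ) [NeZero N] : Group.FG ↥(Gamma0 N) := by
  haveI := groupFG_SL2Z'
  exact Subgroup.fg_of_index_ne_zero (Gamma0 N)

/-- **Finiteness of `U_n(F_ℂ)`** from BETTI. -/
theorem finite_unrKummer (N n : ℕ) [NeZero N] (hn : n ≠ 0) (hB : Stmt_BETTI N n) :
    Finite (UnrKummer ℂ (FNL ℂ N) n) := by
  obtain ⟨e, -⟩ := hB
  haveI : NeZero n := ⟨hn⟩
  haveI := groupFG_Gamma0' N
  haveI : Finite (Additive ↥(Gamma0 N) →+ ZMod n) := finite_addMonoidHom_of_fg _ _
  haveI : Finite ↥(homPE (Gamma0 N) (ZMod n)) := Subtype.finite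
  haveI : Finite (Additive (UnrKummer ℂ (FNL ℂ N) n)) := Finite.of_equiv _ e.symm.toEquiv
  exact Finite.of_equiv _ (Additive.ofMul (α := UnrKummer ℂ (FNL ℂ N) n)).symm

end Fermat.Agent.GTor.H56
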