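import Fermat.Agent.GTor.H75_DescDefs

/-!
# G-TOR package DESC, sub-package PIGEONHOLE (helper56)

`exists_pair`: if `U_n(F_K)` is finite with fewer than `m` elements and `σ : Fin m → K ≃+* K`, then
for an unramified `f ∈ F_K` there are `i ≠ j` with `σ_i⁻¹ σ_j f = f · gⁿ`.
-/

set_option autoImplicit false
set_option linter.style.haveILetI false
set_option linter.unusedSectionVars false

noncomputable section

namespace Fermat.Agent.GTor.H56

open AlgebraicCurve ModularCurve Fermat.Agent.GTor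

/-- An element of `powSubgroup` is an `n`-th power. -/
lemma exists_eq_pow_of_mem_powSubgroup {K F : Type*} [Field K] [Field F] [Algebra K F] {n : ℕ}
    (f : unrSubgroup K F n) (hf : f ∈ powSubgroup K F n) :
    ∃ h : F, h ≠ 0 ∧ ((f : Fˣ) : F) = h ^ n := by
  obtain ⟨g, hg⟩ := hf
  refine ⟨(g : F), g.ne_zero, ?_⟩
  have : (g ^ n : Fˣ) = (f : Fˣ) := hg
  rw [← this]
  simp

/-- **DESC-PIGEONHOLE**. -/
theorem exists_pair (K : Type) [Field K] [Algebra ℚ K] (F₀ : IntermediateField ℚ (LaurentSeries ℚ))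
    (hDown : H75.Stmt_DescPlaceDown K K F₀) (n : ℕ)
    (hfin : Finite (UnrKummer K ↥(laurentBaseChange K F₀) n))
    (f : ↥(laurentBaseChange K F₀)) (hf : f ≠ 0)
    (hunr : ∀ w : Place K ↥(laurentBaseChange K F₀), (n : ℤ) ∣ w.ord f)
    (m : ℕ) (hm : Nat.card (UnrKummer K ↥(laurentBaseChange K F₀) n) < m) (σ : Fin m → (K ≃+* K)) :
    ∃ i j, i ≠ j ∧ ∃ g : ↥(laurentBaseChange K F₀), g ≠ 0 ∧
      coeffMap (((σ i).symm : K →+* K).comp ((σ j : K ≃+* K) : K →+* K)) (f : LaurentSeries K)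
        = (f : LaurentSeries K) * (g : LaurentSeries K) ^ n := by
  classical
  -- the translates of `f`
  have hne : ∀ i, H75.bcHom ((σ i : K ≃+* K) : K →+* K) F₀ f ≠ 0 := fun i =>
    (map_ne_zero _).mpr hf
  have hu : ∀ i, Units.mk0 _ (hne i) ∈ unrSubgroup K ↥(laurentBaseChange K F₀) n := fun i w =>
    hDown ((σ i : K ≃+* K) : K →+* K) n f hf hunr w
  let c : Fin m → UnrKummer K ↥(laurentBaseChange K F₀) n := fun i =>
    QuotientGroup.mk ⟨Units.mk0 _ (hne i), hu i⟩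
  haveI : Fintype (UnrKummer K ↥(laurentBaseChange K F₀) n) := Fintype.ofFinite _
  have hcard : Fintype.card (UnrKummer K ↥(laurentBaseChange K F₀) n) < Fintype.card (Fin m) := by
    rw [Fintype.card_fin, ← Nat.card_eq_fintype_card]; exact hm
  obtain ⟨i, j, hij, hc⟩ := Fintype.exists_ne_map_eq_of_card_lt c hcard
  refine ⟨i, j, hij, ?_⟩
  have hmem : (⟨Units.mk0 _ (hne i), hu i⟩ : unrSubgroup K ↥(laurentBaseChange K F₀) n)⁻¹
      * ⟨Units.mk0 _ (hne j), hu j⟩ ∈ powSubgroup K ↥(laurentBaseChange K F₀) n :=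
    QuotientGroup.eq.mp hc
  obtain ⟨h, hh0, hh⟩ := exists_eq_pow_of_mem_powSubgroup _ hmem
  have hrel : H75.bcHom ((σ j : K ≃+* K) : K →+* K) F₀ f
      = H75.bcHom ((σ i : K ≃+* K) : K →+* K) F₀ f * h ^ n := by
    rw [← hh]
    simp only [Subgroup.coe_mul, InvMemClass.coe_inv, Units.val_mul, Units.val_inv_eq_inv_val,
      Units.val_mk0]
    rw [mul_inv_cancel_left₀ (hne i)]
  refine ⟨H75.bcHom (((σ i).symm : K ≃+* K) : K →+* K) F₀ h, (map_ne_zero _).mpr hh0, ?_⟩
  have h2 := congrArg (fun z => ((H75.bcHom (((σ i).symm : K ≃+* K) : K →+* K) F₀ z :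
    ↥(laurentBaseChange K F₀)) : LaurentSeries K)) hrel
  simp only [map_mul, map_pow, H75.bcHom_coe, MulMemClass.coe_mul, SubmonoidClass.coe_pow,
    coeffMap_coeffMap] at h2
  rw [h2]
  congr 1
  have hid : (((σ i).symm : K ≃+* K) : K →+* K).comp ((σ i : K ≃+* K) : K →+* K)
      = RingHom.id K := by
    ext x
    simp
  rw [hid, coeffMap_id]

end Fermat.Agent.GTor.H56
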