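import Fermat.Agent.GTor.H75_DescCore
import Fermat.Agent.GTor.H56_DescPigeon
import Fermat.Agent.GTor.H56_DescDown

/-!
# G-TOR package DESC (helper75): DESC-CORE, unconditional
-/

set_option autoImplicit false

noncomputable section

namespace Fermat.Agent.GTor.H75

open ModularCurve AlgebraicCurve

theorem stmt_DescPigeon (K : Type) [Field K] [Algebra ℚ K]
    (F₀ : IntermediateField ℚ (LaurentSeries ℚ)) : Stmt_DescPigeon K F₀ :=
  fun n hfin f hf hunr m hm σ =>
    H56.exists_pair K F₀ (H56.stmt_DescPlaceDown K K F₀) n hfin f hf hunr m hm σ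

/-- **DESC-CORE**. -/
theorem stmt_DescCore (k K : Type) [Field k] [Field K] [Algebra ℚ k] [Algebra ℚ K]
    (F₀ : IntermediateField ℚ (LaurentSeries ℚ)) : Stmt_DescCore k K F₀ :=
  descCore_of k K F₀ (stmt_DescPigeon K F₀)

end Fermat.Agent.GTor.H75
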