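import Fermat.Agent.GTor.TateDefs
import Fermat.Agent.Betti.H21_TorsLiftGlue
import Fermat.Agent.Betti.H77_Count0
import Fermat.Agent.S16.H38_Chi

/-!
# G-TOR, package TORSLIFT (helper77): `Stmt_torsLift N` unconditionally

Every homomorphism `Γ₀(N) → ℤ/m` killing the parabolic and the finite-order elements lifts to a
parabolic homomorphism `Γ₀(N) → ℤ`.  Assembly of COUNT (`Betti.H77.card_killsPE_le`),
BASIS (`Betti.H21.exists_basis_ge`, helper21) and ABS-LIFT (`Betti.H41`, helper41).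
-/

set_option autoImplicit false

open CongruenceSubgroup ModularCurve
open scoped MatrixGroups

namespace Fermat.Agent.GTor.H77

/-- `S16.Stmt_TorsLift N n` for all `N ≠ 0` and all `n`. -/
theorem stmt_TorsLift_S16 (N : ℕ) [NeZero N] (n : ℕ) : Fermat.Agent.S16.Stmt_TorsLift N n :=
  Fermat.Agent.Betti.H21.stmt_torsLift_of_card N
    (fun ℓ _ => Fermat.Agent.Betti.H77.card_killsPE_le N ℓ) n

/-- **TORSLIFT** in the shape of `GTor/TateDefs.lean`. -/
theorem stmt_torsLift (N : ℕ) [NeZero N] : Fermat.Agent.GTor.Stmt_torsLift N := by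
  intro m _ φ hφ
  obtain ⟨hpar, hfin⟩ := (Fermat.Agent.GTor.mem_homPE _ _).mp hφ
  obtain ⟨ψ, hψ, h⟩ := stmt_TorsLift_S16 N m φ (by
    intro γ hγ
    rcases hγ.lt_or_eq with hlt | heq
    · refine hfin γ ?_
      have h12 : (γ : SL(2, ℤ)) ^ 12 = 1 :=
        Fermat.Agent.S16.H38.pow_twelve_eq_one_of_trace _ hlt
      refine isOfFinOrder_iff_pow_eq_one.mpr ⟨12, by norm_num, ?_⟩
      exact Subtype.ext h12
    · exact hpar γ heq)
  exact ⟨ψ, hψ, fun γ => (h (Additive.toMul γ)).symm⟩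

end Fermat.Agent.GTor.H77
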