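import Fermat.Agent.GTor.H81_TatePiece
import Fermat.Agent.GTor.Clo.A5
import Fermat.Agent.GTor.Clo.A4
import Fermat.Agent.GTor.Clo.A3
import Fermat.Agent.GTor.H77_TorsLift
import Fermat.Agent.GTor.H2_HKFinal
import Fermat.Agent.Betti.Basis
import Fermat.Agent.Betti.H76_MatrixRep

/-!
# G-TOR: `S30.Stmt_TatePiece` from the three packages that are still open  (helper81)

* `Stmt_DESC`      (descent `ℂ → ℚ̄` of unramified Kummer classes; helper75)
* `H2.Stmt_HKan`   (analytic half of the Hecke compatibility; helper44, helper76)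
* `AllRed`         (G-RED: reduction packages at all `ℓ ∤ N p`; helper36)
-/

set_option autoImplicit false

noncomputable section

namespace Fermat.Agent.GTor.H81

open AlgebraicCurve ModularCurve Fermat.Agent.GTor Fermat.Agent.Betti

/-- **BETTI**, unconditional: `U_n(F_ℂ) ≃ homPE(Γ₀(N), ℤ/n)`. -/
theorem stmt_BETTI_final (N n : ℕ) [NeZero N] (hn : n ≠ 0) : Stmt_BETTI N n :=
  stmt_BETTI N n hn (Clo.stmt_A3 N) (Clo.stmt_A4 N) (Clo.stmt_A5 N)

/-- **TORc** from DESC. -/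
theorem stmt_TORc_final (N n : ℕ) [NeZero N] (hn : n ≠ 0) (hD : Stmt_DESC N n) :
    Stmt_TORc N n :=
  stmt_TORc N n hn (Clo.stmt_A3 N) (Clo.stmt_A4 N) (Clo.stmt_A5 N) hD

/-- **TOR** from DESC: `J₀(N)[n] ≃ homPE(Γ₀(N), ℤ/n)`. -/
theorem stmt_TOR_final (N n : ℕ) [NeZero N] (hn : n ≠ 0) (hD : Stmt_DESC N n) :
    Stmt_TOR N n :=
  tor_of_torc N n (stmt_TORc_final N n hn hD)

/-- **`Stmt_TatePiece`** from DESC, HK-an and G-RED. -/
theorem tatePiece_final
    (hD : ∀ (N : ℕ) [NeZero N] (n : ℕ), n ≠ 0 → Stmt_DESC N n)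
    (hHKan : ∀ (N : ℕ) [NeZero N] (n : ℕ), n ≠ 0 → H2.Stmt_HKan N n)
    (hRed : ∀ (N : ℕ) [NeZero N] (p : ℕ), p.Prime → AllRed N p) : S30.Stmt_TatePiece :=
  tatePiece_of (fun N _ => Clo.stmt_A3 N) (fun N _ => Clo.stmt_A4 N) (fun N _ => Clo.stmt_A5 N)
    hD (fun N _ n hn => H2.hk_of_an N n (hHKan N n hn)) (fun N _ => H77.stmt_torsLift N) hRed
    Betti.stmt_basis Betti.H76.stmt_matrixRep

end Fermat.Agent.GTor.H81
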