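import Fermat.Agent.GTor.H75_Desc
import Fermat.Agent.GTor.H75_DescCoreFinal
import Fermat.Agent.GTor.H56_FinUnr
import Fermat.Agent.GTor.H81_TatePieceFinal

/-!
# G-TOR package DESC (helper75): `Stmt_DESC N n` for all `N` and `n ≠ 0`, unconditional

ROOT, DOWN, AUT, pigeonhole, finiteness of `U_n(F_ℂ)`: helper56; UP, CURVE, trdeg: helper33;
BETTI: helper81 and the G-TOR team; CORE + assembly: helper75.
-/

set_option autoImplicit false

noncomputable section

namespace Fermat.Agent.GTor.H75

open ModularCurve AlgebraicCurve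

/-- **DESC**: base change `ℚ̄ → ℂ` induces a bijection on unramified Kummer classes. -/
theorem stmt_DESC (N n : ℕ) [NeZero N] (hn : n ≠ 0) : Stmt_DESC N n :=
  stmt_DESC_of N n hn (stmt_DescPigeon _ _)
    (H56.finite_unrKummer N n hn (H81.stmt_BETTI_final N n hn))

end Fermat.Agent.GTor.H75
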