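import Fermat.Agent.GTor.TateDefs
import Fermat.Agent.GTor.H2_Equivariance

/-!
# Cluster G, part TOR (helper2): `Stmt_GalHecke N`

The Hecke operators `T_ℓ = α_* β^*` of `J₀(N)` commute with the Galois action: the degeneracy
maps `α` (inclusion) and `β` (`q ↦ q^ℓ`) commute with the action of `Gal(ℚ̄/ℚ)` on the
coefficients of Laurent series.
-/

set_option autoImplicit false
set_option linter.unusedSectionVars false
set_option linter.style.haveILetI false
set_option linter.dupNamespace false

noncomputable section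

namespace Fermat.Agent.GTor.H2

open AlgebraicCurve AlgebraicCurve.SemilinearAut ModularCurve

section Intertwine

variable {L : Type*} [Field L] [Algebra ℚ L] (N ℓ : ℕ) [NeZero N] [NeZero ℓ]

/-- `qExpand` commutes with maps on coefficients. -/
theorem coeffMap_qExpand {R S : Type*} [CommRing R] [CommRing S] (f : R →+* S) (n : ℕ)
    [NeZero n] (x : LaurentSeries R) : coeffMap f (qExpand R n x) = qExpand S n (coeffMap f x) := by
  ext k
  by_cases hk : (n : ℤ) ∣ k
  · obtain ⟨m, rfl⟩ := hk
    rw [coeffMap_coeff, qExpand_coeff_mul, qExpand_coeff_mul, coeffMap_coeff]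
  · rw [coeffMap_coeff, qExpand_coeff_of_not_dvd n _ hk, qExpand_coeff_of_not_dvd n _ hk,
      map_zero]

/-- The degeneracy map `α` commutes with the arithmetic Galois action. -/
theorem intertwines_heckeAlphaBar (σ : L ≃ₐ[ℚ] L) :
    IntertwinesAlong ((heckeAlphaBar L N ℓ : _ →ₐ[L] _) : _ →+* _)
      (arithmeticGalois (modularFunctionFieldFull N) σ)
      (arithmeticGalois (modularFunctionFieldFull (N * ℓ)) σ) := by
  intro x
  apply Subtype.ext
  rw [coe_arithmeticGalois_smul]
  show coeffMap (σ : L →+* L) ((heckeAlphaBar L N ℓ x : _) : LaurentSeries L) =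
    ((heckeAlphaBar L N ℓ (arithmeticGalois (modularFunctionFieldFull N) σ • x) : _) :
      LaurentSeries L)
  rw [coe_heckeAlphaBar, coe_heckeAlphaBar, coe_arithmeticGalois_smul]

/-- The degeneracy map `β` commutes with the arithmetic Galois action. -/
theorem intertwines_heckeBetaBar (σ : L ≃ₐ[ℚ] L) :
    IntertwinesAlong ((heckeBetaBar L N ℓ : _ →ₐ[L] _) : _ →+* _)
      (arithmeticGalois (modularFunctionFieldFull N) σ)
      (arithmeticGalois (modularFunctionFieldFull (N * ℓ)) σ) := by
  intro x
  apply Subtype.ext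
  rw [coe_arithmeticGalois_smul]
  show coeffMap (σ : L →+* L) ((heckeBetaBar L N ℓ x : _) : LaurentSeries L) =
    ((heckeBetaBar L N ℓ (arithmeticGalois (modularFunctionFieldFull N) σ • x) : _) :
      LaurentSeries L)
  rw [coe_heckeBetaBar, coe_heckeBetaBar, coe_arithmeticGalois_smul, coeffMap_qExpand]

/-- The Hecke operator along `L` commutes with the Galois action. -/
theorem heckeOperatorAlong_smul (σ : L ≃ₐ[ℚ] L)
    (x : Pic0 L (laurentBaseChange L (modularFunctionFieldFull N))) :
    heckeOperatorAlong L N ℓ (σ • x) = σ • heckeOperatorAlong L N ℓ x := by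
  by_cases hI : HeckeInputsAlong L N ℓ
  · obtain ⟨hα, hβ, hP, hfin, hFI, hN⟩ := hI
    rw [heckeOperatorAlong_eq hα hβ hFI hfin hN, galois_smul_pic0_def, galois_smul_pic0_def]
    exact pic0_correspondence_smul _ _ _ _ hβ hα hFI hfin hN
      (intertwines_heckeBetaBar N ℓ σ) (intertwines_heckeAlphaBar N ℓ σ) x
  · rw [heckeOperatorAlong_of_not hI, AddMonoidHom.zero_apply, AddMonoidHom.zero_apply,
      smul_zero]

end Intertwine

/-- **GalHecke.** -/
theorem stmt_GalHecke (N : ℕ) [NeZero N] : Stmt_GalHecke N := by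
  intro ℓ σ x
  haveI : NeZero (ℓ : ℕ) := ⟨ℓ.2.ne_zero⟩
  rw [heckeOperatorBar_apply, heckeOperatorBar_apply]
  exact (heckeOperatorAlong_smul N (ℓ : ℕ) σ x).symm

end Fermat.Agent.GTor.H2
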