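import Fermat.Agent.GTor.Defs

/-!
# G-TOR package DESC (helper75): definitions and sub-interfaces

`bcHom ι F₀ : F_{L₁} →+* F_{L₂}` is the base change of the Laurent-series function field along a
ring homomorphism `ι : L₁ →+* L₂` of fields (coefficientwise).  The four clauses of
`Stmt_DESC` are split into the sub-statements below, all stated for `bcHom`.
-/

set_option autoImplicit false
set_option linter.unusedSectionVars false

noncomputable section

namespace Fermat.Agent.GTor.H75

open AlgebraicCurve ModularCurve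

section BaseChange

variable {L₁ L₂ : Type} [Field L₁] [Field L₂] [Algebra ℚ L₁] [Algebra ℚ L₂]

theorem coeffMap_coeffEmb' (ι : L₁ →+* L₂) (x : LaurentSeries ℚ) :
    coeffMap ι (coeffEmb L₁ x) = coeffEmb L₂ x := by
  rw [coeffEmb, coeffMap_coeffMap]
  exact coeffMap_congr (RingHom.ext fun c => by simp) x

theorem coeffMap_algebraMap' (ι : L₁ →+* L₂) (c : L₁) :
    coeffMap ι (algebraMap L₁ (LaurentSeries L₁) c) = algebraMap L₂ (LaurentSeries L₂) (ι c) := by
  rw [algebraMap_laurentSeries_eq_single, algebraMap_laurentSeries_eq_single, coeffMap_single]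

theorem coeffMap_injective (ι : L₁ →+* L₂) : Function.Injective (coeffMap ι) := by
  intro x y h
  ext m
  have := congrArg (fun z => z.coeff m) h
  simpa using ι.injective this

theorem coeffMap_mem_laurentBaseChange' (ι : L₁ →+* L₂)
    (F₀ : IntermediateField ℚ (LaurentSeries ℚ)) {x : LaurentSeries L₁}
    (hx : x ∈ laurentBaseChange L₁ F₀) : coeffMap ι x ∈ laurentBaseChange L₂ F₀ := by
  rw [mem_laurentBaseChange_iff] at hx
  induction hx using Subfield.closure_induction with
  | mem y hy =>
      rcases hy with ⟨a, rfl⟩ | ⟨z, hz, rfl⟩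
      · rw [coeffMap_algebraMap']
        exact (laurentBaseChange L₂ F₀).algebraMap_mem _
      · rw [coeffMap_coeffEmb']
        exact coeffEmb_mem_laurentBaseChange L₂ hz
  | one => simp
  | add x y _ _ hx hy => simpa using add_mem hx hy
  | neg x _ hx => simpa using neg_mem hx
  | inv x _ hx => simpa using inv_mem hx
  | mul x y _ _ hx hy => simpa using mul_mem hx hy

/-- Base change of the function field along `ι`, coefficientwise on `q`-expansions. -/
def bcHom (ι : L₁ →+* L₂) (F₀ : IntermediateField ℚ (LaurentSeries ℚ)) :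
    ↥(laurentBaseChange L₁ F₀) →+* ↥(laurentBaseChange L₂ F₀) where
  toFun x := ⟨coeffMap ι (x : LaurentSeries L₁), coeffMap_mem_laurentBaseChange' ι F₀ x.2⟩
  map_one' := Subtype.ext (by simp)
  map_mul' x y := Subtype.ext (by simp)
  map_zero' := Subtype.ext (by simp)
  map_add' x y := Subtype.ext (by simp)

@[simp]
theorem bcHom_coe (ι : L₁ →+* L₂) (F₀ : IntermediateField ℚ (LaurentSeries ℚ))
    (x : ↥(laurentBaseChange L₁ F₀)) :
    ((bcHom ι F₀ x : ↥(laurentBaseChange L₂ F₀)) : LaurentSeries L₂)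
      = coeffMap ι (x : LaurentSeries L₁) := rfl

theorem bcHom_injective (ι : L₁ →+* L₂) (F₀ : IntermediateField ℚ (LaurentSeries ℚ)) :
    Function.Injective (bcHom ι F₀) := (bcHom ι F₀).injective

theorem bcHom_algebraMap (ι : L₁ →+* L₂) (F₀ : IntermediateField ℚ (LaurentSeries ℚ)) (c : L₁) :
    bcHom ι F₀ (algebraMap L₁ _ c) = algebraMap L₂ _ (ι c) :=
  Subtype.ext (coeffMap_algebraMap' ι c)

theorem isBaseChange_bcHom (ι : L₁ →+* L₂) (N : ℕ) [NeZero N] :
    IsBaseChange ι N (bcHom ι (modularFunctionFieldFull N)) := fun _ _ => rfl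

end BaseChange

/-! ## Sub-interfaces of DESC -/

section Stmts

variable (k K : Type) [Field k] [Field K] [Algebra ℚ k] [Algebra ℚ K]
variable (F₀ : IntermediateField ℚ (LaurentSeries ℚ))

/-- **DESC-ROOT** (clause 3): an `n`-th root over the big field descends.
(Leading coefficient in `k` as `k` is algebraically closed; then coefficients by induction;
then `k((q)) ∩ K(F₀) = k(F₀)` by linear algebra.) -/
def Stmt_DescRoot : Prop :=
  ∀ [IsAlgClosed k] [CharZero k] (ι : k →+* K) (n : ℕ), 0 < n →
    ∀ f : ↥(laurentBaseChange k F₀), f ≠ 0 →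
      (∃ h : ↥(laurentBaseChange K F₀), bcHom ι F₀ f = h ^ n) →
      ∃ h₀ : ↥(laurentBaseChange k F₀), f = h₀ ^ n

/-- **DESC-DOWN** (clause 2, `⇒`): a place `w` of `F_K` restricts to a place of `F_k` or to the
trivial valuation, and `ord_w (bc g) = e * ord_v g`.  Consequence for divisibility: -/
def Stmt_DescPlaceDown : Prop :=
  ∀ (ι : k →+* K) (n : ℕ) (f : ↥(laurentBaseChange k F₀)), f ≠ 0 →
    (∀ v : Place k ↥(laurentBaseChange k F₀), (n : ℤ) ∣ v.ord f) →
    ∀ w : Place K ↥(laurentBaseChange K F₀), (n : ℤ) ∣ w.ord (bcHom ι F₀ f)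

/-- **DESC-UP** (clause 2, `⇐`): every place `v` of `F_k` with residue field `k` extends to a
place `w` of `F_K` with `ord_w (bc g) = ord_v g` (Gauss extension, `e = 1`). -/
def Stmt_DescPlaceUp : Prop :=
  ∀ (ι : k →+* K) (v : Place k ↥(laurentBaseChange k F₀)), v.deg = 1 →
    ∃ w : Place K ↥(laurentBaseChange K F₀),
      ∀ g : ↥(laurentBaseChange k F₀), w.ord (bcHom ι F₀ g) = v.ord g

/-- **DESC-CORE** (clause 4): if `U_n(F_K)` is finite, `k ⊆ K` are algebraically closed of
characteristic `0` and `K` has infinite transcendence degree over `k`, every unramified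
function over `K` is, up to an `n`-th power, defined over `k`. -/
def Stmt_DescCore : Prop :=
  ∀ [IsAlgClosed k] [IsAlgClosed K] [CharZero k] (ι : k →+* K) (n : ℕ), 0 < n →
    (∀ s : Finset K, ∃ x : K, ¬ IsAlgebraic ↥(Subfield.closure (Set.range ι ∪ ↑s)) x) →
    Finite (UnrKummer K ↥(laurentBaseChange K F₀) n) →
    ∀ f : ↥(laurentBaseChange K F₀), f ≠ 0 →
      (∀ w : Place K ↥(laurentBaseChange K F₀), (n : ℤ) ∣ w.ord f) →
      ∃ (f₀ : ↥(laurentBaseChange k F₀)) (h : ↥(laurentBaseChange K F₀)),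
        f₀ ≠ 0 ∧ h ≠ 0 ∧ f = bcHom ι F₀ f₀ * h ^ n

end Stmts

end Fermat.Agent.GTor.H75
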