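import Fermat.Agent.GTor.H33_CurveQbar
import Fermat.Agent.GTor.H75_DescDefs

/-!
# Cluster G-TOR, package CURVE (helper33), general algebraically closed `L` of characteristic `0`

`F_L = FNL L N = L(X₀(N)) ⊂ L((q))` is a function field of one variable over `L`:
`j` is transcendental over `L` and `F_L / L(j)` is finite.  The finiteness is transferred from
`Q̄` (S24 closure layer) along an embedding `Q̄ → L` acting on the coefficients of `q`-expansions.
-/

set_option autoImplicit false
set_option linter.unusedSectionVars false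
set_option linter.style.haveILetI false

noncomputable section

namespace Fermat.Agent.GTor.H33

open AlgebraicCurve IntermediateField ModularCurve Fermat.Agent.GTor Fermat.Agent.S24 Polynomial

section Transfer

variable {K₁ K₂ F₁ F₂ : Type*} [Field K₁] [Field K₂] [Field F₁] [Field F₂]
  [Algebra K₁ F₁] [Algebra K₂ F₂]

/-- Transfer of algebraic dependence along a ring homomorphism of fields. -/
theorem isAlgebraic_adjoin_map (ι : K₁ →+* K₂) (ψ : F₁ →+* F₂)
    (hψ : ∀ c, ψ (algebraMap K₁ F₁ c) = algebraMap K₂ F₂ (ι c)) (x y : F₁)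
    (h : IsAlgebraic K₁⟮x⟯ y) : IsAlgebraic K₂⟮ψ x⟯ (ψ y) := by
  rw [isAlgebraic_adjoin_iff] at h ⊢
  obtain ⟨p, hp0, hp⟩ := h
  have hmem : ∀ a : F₁, a ∈ Algebra.adjoin K₁ {x} → ψ a ∈ Algebra.adjoin K₂ {ψ x} := by
    intro a ha
    induction ha using Algebra.adjoin_induction with
    | mem z hz =>
      rw [Set.mem_singleton_iff] at hz
      subst hz
      exact Algebra.self_mem_adjoin_singleton K₂ (ψ z)
    | algebraMap c => rw [hψ]; exact Subalgebra.algebraMap_mem _ _
    | add a b _ _ ha hb => rw [map_add]; exact add_mem ha hb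
    | mul a b _ _ ha hb => rw [map_mul]; exact mul_mem ha hb
  let ψ' : Algebra.adjoin K₁ {x} →+* Algebra.adjoin K₂ {ψ x} :=
    { toFun := fun a => ⟨ψ a, hmem a a.2⟩
      map_one' := Subtype.ext (by simp)
      map_mul' := fun a b => Subtype.ext (by simp)
      map_zero' := Subtype.ext (by simp)
      map_add' := fun a b => Subtype.ext (by simp) }
  have hinj : Function.Injective ψ' := by
    intro a b hab
    have : ψ (a : F₁) = ψ (b : F₁) := congrArg Subtype.val hab
    exact Subtype.ext (ψ.injective this)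
  refine ⟨p.map ψ', (Polynomial.map_ne_zero_iff hinj).mpr hp0, ?_⟩
  have h1 := congrArg ψ hp
  rw [map_zero, aeval_def, hom_eval₂] at h1
  rw [aeval_def, eval₂_map]
  exact h1

end Transfer


section Generators

variable (L : Type) [Field L] [Algebra ℚ L] (N : ℕ) [NeZero N]

theorem coeffEmb_algebraMap_rat (c : ℚ) :
    coeffEmb L (algebraMap ℚ (LaurentSeries ℚ) c) =
      algebraMap L (LaurentSeries L) (algebraMap ℚ L c) := by
  rw [algebraMap_laurentSeries_eq_single, algebraMap_laurentSeries_eq_single, coeffEmb,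
    coeffMap_single]

/-- `coeffEmb` maps `ℚ(X₀(N))` into the field generated over `L` by the `j(q^d)`, `d ∣ N`. -/
theorem coeffEmb_mem_adjoin_divisorExpansions {z : LaurentSeries ℚ}
    (hz : z ∈ modularFunctionFieldFull N) :
    coeffEmb L z ∈ adjoin L (⇑(coeffEmb L) '' divisorExpansions N) := by
  rw [modularFunctionFieldFull] at hz
  induction hz using IntermediateField.adjoin_induction with
  | mem x hx => exact subset_adjoin L _ ⟨x, hx, rfl⟩
  | algebraMap c =>
      rw [coeffEmb_algebraMap_rat]
      exact IntermediateField.algebraMap_mem _ _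
  | add x y _ _ hx hy => rw [map_add]; exact add_mem hx hy
  | inv x _ hx => rw [map_inv₀]; exact inv_mem hx
  | mul x y _ _ hx hy => rw [map_mul]; exact mul_mem hx hy

/-- `F_L = L(j(q^d) : d ∣ N)` inside `L((q))`. -/
theorem laurentBaseChange_full_eq_adjoin :
    laurentBaseChange L (modularFunctionFieldFull N) =
      adjoin L (⇑(coeffEmb L) '' divisorExpansions N) := by
  apply le_antisymm
  · rw [laurentBaseChange, adjoin_le_iff]
    rintro _ ⟨z, hz, rfl⟩
    exact coeffEmb_mem_adjoin_divisorExpansions L N hz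
  · rw [laurentBaseChange]
    apply adjoin.mono
    rintro _ ⟨z, hz, rfl⟩
    exact ⟨z, subset_adjoin ℚ _ hz, rfl⟩

theorem divisorExpansions_finite : (divisorExpansions N).Finite := by
  have h : divisorExpansions N ⊆
      (fun d : ℕ => if h : d = 0 then (0 : LaurentSeries ℚ) else
        haveI : NeZero d := ⟨h⟩; qExpand ℚ d jq) '' (N.divisors : Set ℕ) := by
    rintro x ⟨d, hd, hdN, rfl⟩
    refine ⟨d, ?_, ?_⟩
    · simpa using ⟨hdN, NeZero.ne N⟩
    · simp [NeZero.ne d]
  exact ((N.divisors.finite_toSet).image _).subset h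

/-- The generators `j(q^d)`, `d ∣ N`, of `F_L`, as a subset of `F_L`. -/
def genSet : Set (FNL L N) :=
  {x | (x : LaurentSeries L) ∈ ⇑(coeffEmb L) '' divisorExpansions N}

theorem genSet_finite : (genSet L N).Finite := by
  have h : (genSet L N) ⊆ Subtype.val ⁻¹' (⇑(coeffEmb L) '' divisorExpansions N) := fun _ hx => hx
  exact (((divisorExpansions_finite N).image _).preimage
    (Subtype.val_injective.injOn)).subset h

theorem val_image_genSet :
    (laurentBaseChange L (modularFunctionFieldFull N)).val '' genSet L N =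
      ⇑(coeffEmb L) '' divisorExpansions N := by
  ext y
  constructor
  · rintro ⟨x, hx, rfl⟩
    exact hx
  · rintro ⟨z, hz, rfl⟩
    exact ⟨⟨coeffEmb L z, coeffEmb_mem_laurentBaseChange L (subset_adjoin ℚ _ hz)⟩,
      ⟨z, hz, rfl⟩, rfl⟩

theorem adjoin_genSet : adjoin L (genSet L N) = ⊤ := by
  rw [eq_top_iff]
  rintro x -
  have hx : (x : LaurentSeries L) ∈ adjoin L (⇑(coeffEmb L) '' divisorExpansions N) := by
    rw [← laurentBaseChange_full_eq_adjoin]
    exact x.2
  rw [← val_image_genSet, ← IntermediateField.adjoin_map] at hx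
  obtain ⟨y, hy, hyx⟩ := hx
  have : y = x := Subtype.ext hyx
  rwa [← this]

/-- `j` as an element of `F_L`. -/
def jL : FNL L N :=
  ⟨coeffEmb L jq, coeffEmb_mem_laurentBaseChange L (by
    have h := jqd_mem_full N (one_dvd N)
    rwa [qExpand_one_apply] at h)⟩

theorem jL_ne_algebraMap (c : L) : jL L N ≠ algebraMap L (FNL L N) c := by
  intro h
  have h1 : coeffEmb L jq = algebraMap L (LaurentSeries L) c := congrArg Subtype.val h
  have h2 := congrArg (fun s : LaurentSeries L => s.coeff (-1)) h1
  simp only [coeffEmb_coeff, coeff_jq_neg_one, map_one, algebraMap_laurentSeries_eq_single] at h2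
  rw [HahnSeries.coeff_single_of_ne (by norm_num)] at h2
  exact one_ne_zero h2

theorem transcendental_jL [IsAlgClosed L] : Transcendental L (jL L N) := by
  intro halg
  have hint : IsIntegral L (jL L N) := halg.isIntegral
  have hdeg1 : (minpoly L (jL L N)).degree = 1 :=
    IsAlgClosed.degree_eq_one_of_irreducible L (minpoly.irreducible hint)
  obtain ⟨a, ha⟩ := minpoly.mem_range_of_degree_eq_one L (jL L N) hdeg1
  exact jL_ne_algebraMap L N a ha.symm

end Generators

section Finite

variable (L : Type) [Field L] [Algebra ℚ L] [IsAlgClosed L] (N : ℕ) [NeZero N]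

/-- An embedding `Q̄ → L`. -/
def iotaL : Kbar →+* L :=
  haveI : Algebra.IsAlgebraic ℚ Kbar := AlgebraicClosure.isAlgebraic ℚ
  (IsAlgClosed.lift : Kbar →ₐ[ℚ] L).toRingHom

theorem bcHom_jF : H75.bcHom (iotaL L) (modularFunctionFieldFull N) (jF N) = jL L N :=
  Subtype.ext (H75.coeffMap_coeffEmb' (iotaL L) jq)

set_option synthInstance.maxHeartbeats 400000 in
set_option maxHeartbeats 1600000 in
theorem isAlgebraic_gen {x : FNL L N} (hx : x ∈ genSet L N) : IsAlgebraic L⟮jL L N⟯ x := by
  obtain ⟨z, hz, hzx⟩ := hx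
  haveI : FiniteDimensional Kbar⟮jF N⟯ (FN N) := asm_finiteDimensional (modClosure N)
  let y : FN N := ⟨coeffEmb Kbar z, coeffEmb_mem_laurentBaseChange Kbar (subset_adjoin ℚ _ hz)⟩
  haveI : Algebra.IsAlgebraic Kbar⟮jF N⟯ (FN N) := Algebra.IsAlgebraic.of_finite _ _
  have hy : IsAlgebraic Kbar⟮jF N⟯ y := Algebra.IsAlgebraic.isAlgebraic y
  have h := isAlgebraic_adjoin_map (iotaL L) (H75.bcHom (iotaL L) (modularFunctionFieldFull N))
    (H75.bcHom_algebraMap (iotaL L) (modularFunctionFieldFull N)) (jF N) y hy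
  rw [bcHom_jF] at h
  have hyx : H75.bcHom (iotaL L) (modularFunctionFieldFull N) y = x :=
    Subtype.ext ((H75.coeffMap_coeffEmb' (iotaL L) z).trans hzx)
  rwa [hyx] at h

set_option synthInstance.maxHeartbeats 400000 in
set_option maxHeartbeats 1600000 in
/-- `F_L / L(j)` is finite. -/
theorem finiteDimensional_FNL : FiniteDimensional L⟮jL L N⟯ (FNL L N) := by
  haveI : Finite (genSet L N) := (genSet_finite L N).to_subtype
  have hfin : FiniteDimensional L⟮jL L N⟯ (adjoin L⟮jL L N⟯ (genSet L N)) :=
    IntermediateField.finiteDimensional_adjoin fun x hx => (isAlgebraic_gen L N hx).isIntegral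
  have htop : adjoin L⟮jL L N⟯ (genSet L N) = ⊤ := by
    rw [← IntermediateField.restrictScalars_eq_top_iff (K := L), eq_top_iff, ← adjoin_genSet L N,
      adjoin_le_iff]
    intro x hx
    exact subset_adjoin L⟮jL L N⟯ _ hx
  rw [htop] at hfin
  exact (IntermediateField.topEquiv (F := L⟮jL L N⟯) (E := FNL L N)).toLinearEquiv.finiteDimensional

variable [CharZero L]

/-- **CURVE**: `F_L` is a function field of one variable over `L`. -/
theorem exists_transcendental_finite :
    ∃ x : FNL L N, Transcendental L x ∧ FiniteDimensional L⟮x⟯ (FNL L N) :=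
  ⟨jL L N, transcendental_jL L N, finiteDimensional_FNL L N⟩

/-- **CURVE**: principal divisors of `F_L` have finite support and degree zero. -/
theorem hasPrincipalDivisors_FNL : HasPrincipalDivisors L (FNL L N) :=
  haveI := finiteDimensional_FNL L N
  hasPrincipalDivisors_of_finite (jL L N) (transcendental_jL L N)

/-- **CURVE**: functions without zeros and poles are constant. -/
theorem exists_algebraMap_eq_FNL (f : FNL L N) (hf : f ≠ 0)
    (h : ∀ v : Place L (FNL L N), v.ord f = 0) :
    ∃ c : L, algebraMap L (FNL L N) c = f :=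
  haveI := finiteDimensional_FNL L N
  exists_algebraMap_eq_of_forall_ord_eq_zero (jL L N) (transcendental_jL L N) f hf h

/-- **KUM** for `L(X₀(N))`: `Pic⁰[n] ≃ U_n`. -/
theorem stmt_KUM_FNL {n : ℕ} (hn : n ≠ 0) : Stmt_KUM L (FNL L N) n :=
  haveI := finiteDimensional_FNL L N
  stmt_KUM_of_finite (jL L N) (transcendental_jL L N) hn

end Finite

end Fermat.Agent.GTor.H33
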