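import Fermat.Agent.GTor.H56_Common
import Fermat.Agent.Lib.NthRoot

/-!
# G-TOR package CHAR (helper56)

`stmt_CHAR (hn : n ≠ 0) (hA1 : Stmt_A1 N) : Stmt_CHAR N n`:
the character of a function in `F_ℂ` is unique (`hasChar_unique`, needs `n ≠ 0`; for `n = 0` the
statement is false as soon as `Γ₀(N)` has a nonzero homomorphism to `ℤ`), additive
(`hasChar_mul`), and trivial on `n`-th powers (`hasChar_pow`, from A1).
-/

set_option autoImplicit false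
set_option linter.style.haveILetI false

open UpperHalfPlane ModularForm
open scoped MatrixGroups ModularForm Manifold

noncomputable section

namespace Fermat.Agent.GTor.H56

open Fermat.Agent.S23.H22 (Nice)

variable {N n : ℕ} [NeZero N]

/-- In a `HasChar` witness with `f ≠ 0` the twisted form is not identically zero. -/
lemma exists_ne_zero_of_hasChar_data {k : ℤ}
    {R : ℍ → ℂ} {B : ModularForm (CongruenceSubgroup.Gamma0 N) k} {f : FNL ℂ N} (hf : f ≠ 0)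
    (hB : B ≠ 0)
    (e : qLaurent (fun z => R z ^ n) = (f : LaurentSeries ℂ) * qLaurent (fun z => B z ^ n)) :
    qLaurent (fun z => R z ^ n) ≠ 0 := by
  rw [e]
  apply mul_ne_zero
  · exact fun h => hf (Subtype.ext h)
  · rw [qLaurent_pow (nice_of_gamma0 B)]
    apply pow_ne_zero
    rw [Ne, qLaurent_eq_zero_iff (nice_of_gamma0 B)]
    intro h
    exact hB (DFunLike.coe_injective h)

/-- **CHAR (1)**: uniqueness of the character. -/
theorem hasChar_unique (hn : n ≠ 0) {f : FNL ℂ N}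
    {φ ψ : Additive (CongruenceSubgroup.Gamma0 N) →+ ZMod n} (hf : f ≠ 0)
    (h₁ : HasChar N n f φ) (h₂ : HasChar N n f ψ) : φ = ψ := by
  obtain ⟨k₁, R₁, B₁, hR₁, hB₁, e₁⟩ := h₁
  obtain ⟨k₂, R₂, B₂, hR₂, hB₂, e₂⟩ := h₂
  have nR₁ := hR₁.nice_pow
  have nR₂ := hR₂.nice_pow
  have nB₁ : Nice 1 (fun z => B₁ z ^ n) := (nice_of_gamma0 B₁).pow n
  have nB₂ : Nice 1 (fun z => B₂ z ^ n) := (nice_of_gamma0 B₂).pow n
  -- `(R₁ B₂)ⁿ = (R₂ B₁)ⁿ`
  have hfun : (fun z => R₁ z ^ n) * (fun z => B₂ z ^ n)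
      = (fun z => R₂ z ^ n) * (fun z => B₁ z ^ n) := by
    apply qLaurent_injective (nR₁.mul nB₂) (nR₂.mul nB₁)
    rw [qLaurent_mul nR₁ nB₂, qLaurent_mul nR₂ nB₁, e₁, e₂]
    ring
  have hpow : ∀ τ : ℍ, (R₁ τ * B₂ τ) ^ n = (R₂ τ * B₁ τ) ^ n := by
    intro τ
    have := congrFun hfun τ
    simp only [Pi.mul_apply] at this
    rw [mul_pow, mul_pow, this]
  obtain ⟨ζ, hζ, hζeq⟩ := Fermat.Agent.Lib.NthRoot.exists_root_of_unity_of_pow_eq_uhp hn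
    (G₁ := fun τ => R₂ τ * B₁ τ) (G₂ := fun τ => R₁ τ * B₂ τ)
    (hR₂.mdiff.mul B₁.holo') (hR₁.mdiff.mul B₂.holo') hpow
  -- a point where `R₁ B₂` does not vanish
  have hne : ∃ τ₀ : ℍ, R₁ τ₀ * B₂ τ₀ ≠ 0 := by
    by_contra hcon
    have hcon : ∀ τ : ℍ, R₁ τ * B₂ τ = 0 := fun τ => by
      by_contra h
      exact hcon ⟨τ, h⟩
    have h0 : (fun z => R₁ z ^ n) * (fun z => B₂ z ^ n) = 0 := by
      funext τ
      simp only [Pi.mul_apply, Pi.zero_apply]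
      rw [← mul_pow, hcon τ, zero_pow hn]
    have h1 : qLaurent ((fun z => R₁ z ^ n) * (fun z => B₂ z ^ n)) = 0 := by
      rw [h0, qLaurent_zero]
    rw [qLaurent_mul nR₁ nB₂] at h1
    rcases mul_eq_zero.mp h1 with h2 | h2
    · exact exists_ne_zero_of_hasChar_data hf hB₁ e₁ h2
    · rw [qLaurent_pow (nice_of_gamma0 B₂)] at h2
      have h3 := pow_eq_zero_iff hn |>.mp h2
      rw [qLaurent_eq_zero_iff (nice_of_gamma0 B₂)] at h3
      exact hB₂ (DFunLike.coe_injective h3)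
  obtain ⟨τ₀, hτ₀⟩ := hne
  -- compare the multipliers
  apply AddMonoidHom.ext
  intro x
  obtain ⟨γ, rfl⟩ : ∃ γ : CongruenceSubgroup.Gamma0 N, Additive.ofMul γ = x := ⟨x.toMul, rfl⟩
  apply zetaPow_injective hn
  have s₁ := (hR₁.mul (isTwistedForm_of_modularForm n B₂)).slash γ
  have s₂ := (hR₂.mul (isTwistedForm_of_modularForm n B₁)).slash γ
  rw [add_zero] at s₁ s₂
  have hFG : (R₁ * (B₂ : ℍ → ℂ)) = fun τ => ζ * (R₂ τ * B₁ τ) := funext hζeq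
  have hFG' : (R₁ * (B₂ : ℍ → ℂ)) ∣[k₁ + k₂] (γ : SL(2, ℤ))
      = fun τ => ζ * ((R₂ * (B₁ : ℍ → ℂ)) ∣[k₂ + k₁] (γ : SL(2, ℤ))) τ := by
    rw [hFG, add_comm k₁ k₂]
    exact Fermat.Agent.Lib.NthRoot.const_mul_slash_SL ζ _ _ _
  rw [s₁, s₂] at hFG'
  have := congrFun hFG' τ₀
  simp only [Pi.smul_apply, Pi.mul_apply, smul_eq_mul] at this
  have hζτ := hζeq τ₀
  have key : (zetaPow n (φ (Additive.ofMul γ)) - zetaPow n (ψ (Additive.ofMul γ)))
      * (R₁ τ₀ * B₂ τ₀) = 0 := by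
    rw [sub_mul, this, hζτ]
    ring
  rcases mul_eq_zero.mp key with h | h
  · exact sub_eq_zero.mp h
  · exact absurd h hτ₀

/-- **CHAR (2)**: additivity of the character. -/
theorem hasChar_mul {f g : FNL ℂ N}
    {φ ψ : Additive (CongruenceSubgroup.Gamma0 N) →+ ZMod n}
    (h₁ : HasChar N n f φ) (h₂ : HasChar N n g ψ) : HasChar N n (f * g) (φ + ψ) := by
  obtain ⟨k₁, R₁, B₁, hR₁, hB₁, e₁⟩ := h₁
  obtain ⟨k₂, R₂, B₂, hR₂, hB₂, e₂⟩ := h₂
  have nR₁ := hR₁.nice_pow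
  have nR₂ := hR₂.nice_pow
  have nB₁ : Nice 1 (fun z => B₁ z ^ n) := (nice_of_gamma0 B₁).pow n
  have nB₂ : Nice 1 (fun z => B₂ z ^ n) := (nice_of_gamma0 B₂).pow n
  refine ⟨k₁ + k₂, R₁ * R₂, B₁.mul B₂, hR₁.mul hR₂, ?_, ?_⟩
  · intro h
    have h' : ((B₁.mul B₂ : ModularForm _ _) : ℍ → ℂ) = 0 := by rw [h]; rfl
    have h1 : qLaurent ((B₁ : ℍ → ℂ) * (B₂ : ℍ → ℂ)) = 0 := by
      have : ((B₁.mul B₂ : ModularForm _ _) : ℍ → ℂ) = (B₁ : ℍ → ℂ) * (B₂ : ℍ → ℂ) := rfl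
      rw [← this, h', qLaurent_zero]
    rw [qLaurent_mul (nice_of_gamma0 B₁) (nice_of_gamma0 B₂)] at h1
    rcases mul_eq_zero.mp h1 with h2 | h2
    · rw [qLaurent_eq_zero_iff (nice_of_gamma0 B₁)] at h2
      exact hB₁ (DFunLike.coe_injective h2)
    · rw [qLaurent_eq_zero_iff (nice_of_gamma0 B₂)] at h2
      exact hB₂ (DFunLike.coe_injective h2)
  · have hRR : (fun z => (R₁ * R₂) z ^ n) = (fun z => R₁ z ^ n) * (fun z => R₂ z ^ n) := by
      funext z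
      simp only [Pi.mul_apply, mul_pow]
    have hBB : (fun z => (B₁.mul B₂) z ^ n) = (fun z => B₁ z ^ n) * (fun z => B₂ z ^ n) := by
      funext z
      simp only [Pi.mul_apply, ← mul_pow]
      rfl
    rw [hRR, hBB, qLaurent_mul nR₁ nR₂, qLaurent_mul nB₁ nB₂, e₁, e₂]
    push_cast
    ring

/-- **CHAR (3)**: `n`-th powers have trivial character (uses A1). -/
theorem hasChar_pow (hA1 : Stmt_A1 N) (h : FNL ℂ N) : HasChar N n (h ^ n) 0 := by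
  obtain ⟨k, A, B, hB, e⟩ := hA1 h
  refine ⟨k, (A : ℍ → ℂ), B, isTwistedForm_of_modularForm n A, hB, ?_⟩
  rw [qLaurent_pow (nice_of_gamma0 A), qLaurent_pow (nice_of_gamma0 B), e]
  push_cast
  ring

/-- **Package CHAR**, for `n ≠ 0`, from A1. -/
theorem stmt_CHAR (hn : n ≠ 0) (hA1 : Stmt_A1 N) : Stmt_CHAR N n :=
  ⟨fun _ _ _ hf h₁ h₂ => hasChar_unique hn hf h₁ h₂,
    fun _ _ _ _ _ _ h₁ h₂ => hasChar_mul h₁ h₂,
    fun h _ => hasChar_pow hA1 h⟩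

end Fermat.Agent.GTor.H56
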