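import Fermat.Agent.GTor.H56_Common

/-!
# G-TOR package INJ (helper56)

`stmt_INJ (hA2 : Stmt_A2 N) : Stmt_INJ N n`: a function with trivial character is an `n`-th
power.  (A twisted form with trivial multiplier is a modular form `A`; by A2 the ratio `A / B`
lies in `F_ℂ`, and its `n`-th power is `f`.)
-/

set_option autoImplicit false
set_option linter.style.haveILetI false

open UpperHalfPlane ModularForm
open scoped MatrixGroups ModularForm Manifold

noncomputable section

namespace Fermat.Agent.GTor.H56

open Fermat.Agent.S23.H22 (Nice)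

variable {N n : ℕ} [NeZero N]

/-- **Package INJ**, from A2. -/
theorem stmt_INJ (hA2 : Stmt_A2 N) : Stmt_INJ N n := by
  rintro f - ⟨k, R, B, hR, hB, e⟩
  obtain ⟨h, -, eh⟩ := hA2 k (toModularForm hR) B hB
  refine ⟨h, Subtype.ext ?_⟩
  have hBn : qLaurent (fun z => B z ^ n) ≠ 0 := by
    rw [qLaurent_pow (nice_of_gamma0 B)]
    apply pow_ne_zero
    rw [Ne, qLaurent_eq_zero_iff (nice_of_gamma0 B)]
    intro h0
    exact hB (DFunLike.coe_injective h0)
  have e' : qLaurent (fun z => R z ^ n)
      = ((h ^ n : FNL ℂ N) : LaurentSeries ℂ) * qLaurent (fun z => B z ^ n) := by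
    have hA : qLaurent (fun z => R z ^ n) = qLaurent (toModularForm hR : ℍ → ℂ) ^ n :=
      qLaurent_pow (nice_of_gamma0 (toModularForm hR)) n
    rw [hA, eh, qLaurent_pow (nice_of_gamma0 B)]
    push_cast
    ring
  rw [e] at e'
  exact mul_right_cancel₀ hBn e'

end Fermat.Agent.GTor.H56
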