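import Fermat.Agent.GTor.Defs
import Fermat.Agent.S28.H76_Bridge
import Fermat.Agent.S28.H10_Bridge
import Fermat.Agent.S23.H22_LevelRaiseExp

/-!
# G-TOR package A1 (helper58): every element of `F_ℂ = ℂ(j(q^d) : d ∣ N)` is a ratio of two
modular forms of the same weight on `Γ₀(N)`.
-/

set_option autoImplicit false
set_option linter.unusedSectionVars false

open UpperHalfPlane ModularForm ModularCurve CongruenceSubgroup
open scoped MatrixGroups ModularForm Manifold

noncomputable section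

namespace Fermat.Agent.GTor.H58

open Fermat.Agent.GTor

variable (N : ℕ) [NeZero N]

local notation "ofPS" => HahnSeries.ofPowerSeries ℤ ℂ

/-- `x` is a ratio of two modular forms of the same weight on `Γ₀(N)`. -/
def IsRat (x : LaurentSeries ℂ) : Prop :=
  ∃ (k : ℤ) (A B : ModularForm (Gamma0 N) k), B ≠ 0 ∧ qLaurent A = x * qLaurent B

lemma h1 : (1 : ℝ) ∈ ((Gamma0 N : Subgroup (GL (Fin 2) ℝ))).strictPeriods :=
  CongruenceSubgroup.one_mem_strictPeriods_Gamma0 N

variable {N}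

lemma qLaurent_mul {a b : ℤ} (A : ModularForm (Gamma0 N) a) (B : ModularForm (Gamma0 N) b) :
    qLaurent (A.mul B) = qLaurent A * qLaurent B := by
  unfold qLaurent
  rw [ModularForm.qExpansion_mul one_pos (h1 N), map_mul]

lemma qLaurent_add {a : ℤ} (A B : ModularForm (Gamma0 N) a) :
    qLaurent ((A + B : ModularForm (Gamma0 N) a) : ℍ → ℂ) = qLaurent A + qLaurent B := by
  unfold qLaurent
  have e : (⇑(A + B) : ℍ → ℂ) = ⇑A + ⇑B := rfl
  rw [e, ModularForm.qExpansion_add one_pos (h1 N), map_add]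

lemma qLaurent_neg {a : ℤ} (A : ModularForm (Gamma0 N) a) :
    qLaurent ((-A : ModularForm (Gamma0 N) a) : ℍ → ℂ) = -qLaurent A := by
  unfold qLaurent
  have e : (⇑(-A) : ℍ → ℂ) = -⇑A := rfl
  rw [e, ModularForm.qExpansion_neg one_pos (h1 N), map_neg]

lemma one_ne_zero' : (1 : ModularForm (Gamma0 N) 0) ≠ 0 := by
  intro h
  have := congrArg (fun f : ModularForm (Gamma0 N) 0 => f UpperHalfPlane.I) h
  simp at this

lemma qLaurent_ne_zero {a : ℤ} {A : ModularForm (Gamma0 N) a} (hA : A ≠ 0) :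
    qLaurent A ≠ 0 := by
  unfold qLaurent
  intro h
  have h' : qExpansion 1 A = 0 := by
    have := HahnSeries.ofPowerSeries_injective (Γ := ℤ) (R := ℂ)
    exact this (by rw [h, map_zero])
  exact hA ((ModularForm.qExpansion_eq_zero_iff one_pos (h1 N) A).mp h')

lemma qLaurent_const (c : ℂ) :
    qLaurent (ModularForm.const c : ModularForm (Gamma0 N) 0) = HahnSeries.C c := by
  unfold qLaurent
  have : (ModularForm.const c : ModularForm (Gamma0 N) 0) = c • (1 : ModularForm (Gamma0 N) 0) := by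
    ext z
    simp
  rw [this]
  have e : (⇑(c • (1 : ModularForm (Gamma0 N) 0)) : ℍ → ℂ)
      = c • ⇑(1 : ModularForm (Gamma0 N) 0) := rfl
  rw [e, ModularForm.qExpansion_smul one_pos (h1 N), ModularForm.qExpansion_one]
  rw [← HahnSeries.ofPowerSeries_C]
  congr 1
  ext n
  simp [PowerSeries.coeff_C, PowerSeries.coeff_one]

namespace IsRat

lemma const (c : ℂ) : IsRat N (HahnSeries.C c) :=
  ⟨0, ModularForm.const c, 1, one_ne_zero', by
    rw [qLaurent_const]
    have : qLaurent (1 : ModularForm (Gamma0 N) 0) = 1 := by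
      have := qLaurent_const (N := N) 1
      rw [map_one] at this
      rw [← this]
      congr 1
    rw [this, mul_one]⟩

lemma zero : IsRat N 0 := by
  have := const (N := N) 0
  rwa [map_zero] at this

lemma one : IsRat N 1 := by
  have := const (N := N) 1
  rwa [map_one] at this

lemma mul {x y : LaurentSeries ℂ} (hx : IsRat N x) (hy : IsRat N y) : IsRat N (x * y) := by
  obtain ⟨a, A, B, hB, hAB⟩ := hx
  obtain ⟨b, A', B', hB', hAB'⟩ := hy
  refine ⟨a + b, A.mul A', B.mul B', ModularForm.mul_ne_zero ⟨1, h1 N, one_pos⟩ hB hB', ?_⟩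
  rw [qLaurent_mul, qLaurent_mul, hAB, hAB']
  ring

lemma neg {x : LaurentSeries ℂ} (hx : IsRat N x) : IsRat N (-x) := by
  obtain ⟨a, A, B, hB, hAB⟩ := hx
  refine ⟨a, -A, B, hB, ?_⟩
  rw [qLaurent_neg, hAB]
  ring

lemma add {x y : LaurentSeries ℂ} (hx : IsRat N x) (hy : IsRat N y) : IsRat N (x + y) := by
  obtain ⟨a, A, B, hB, hAB⟩ := hx
  obtain ⟨b, A', B', hB', hAB'⟩ := hy
  refine ⟨a + b, A.mul B' + B.mul A', B.mul B',
    ModularForm.mul_ne_zero ⟨1, h1 N, one_pos⟩ hB hB', ?_⟩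
  rw [qLaurent_add, qLaurent_mul, qLaurent_mul, qLaurent_mul, hAB, hAB']
  ring

lemma inv {x : LaurentSeries ℂ} (hx : IsRat N x) : IsRat N x⁻¹ := by
  by_cases hx0 : x = 0
  · rw [hx0, inv_zero]
    exact zero
  obtain ⟨a, A, B, hB, hAB⟩ := hx
  have hA : A ≠ 0 := by
    rintro rfl
    have h0 : qLaurent (0 : ModularForm (Gamma0 N) a) = 0 := by
      unfold qLaurent
      have : qExpansion 1 (⇑(0 : ModularForm (Gamma0 N) a)) = 0 :=
        (ModularForm.qExpansion_eq_zero_iff one_pos (h1 N) _).mpr rfl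
      rw [this, map_zero]
    rw [h0] at hAB
    rcases mul_eq_zero.mp hAB.symm with h | h
    · exact hx0 h
    · exact qLaurent_ne_zero hB h
  refine ⟨a, B, A, hA, ?_⟩
  rw [hAB, ← mul_assoc, inv_mul_cancel₀ hx0, one_mul]

end IsRat

open Fermat.Agent.S23.H22 (G0 E12 levelRaise levelRaise_apply)
open Fermat.Agent.S28.H30 (DeltaMF DeltaMF_coe)

lemma G0_le_of_dvd {d M : ℕ} (h : d ∣ M) : G0 M ≤ G0 d := by
  apply Subgroup.map_mono
  intro γ hγ
  rw [Gamma0_mem] at hγ ⊢
  rw [ZMod.intCast_zmod_eq_zero_iff_dvd] at hγ ⊢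
  exact (Int.natCast_dvd_natCast.mpr h).trans hγ

/-- Restriction of the level. -/
def resLevel {Γ Γ' : Subgroup (GL (Fin 2) ℝ)} {k : ℤ} (h : Γ' ≤ Γ) (f : ModularForm Γ k) :
    ModularForm Γ' k where
  toFun := f
  slash_action_eq' γ hγ := f.slash_action_eq' γ (h hγ)
  holo' := f.holo'
  bdd_at_cusps' hc := f.bdd_at_cusps' (hc.mono h)

/-- `d^(k-1) F(d z)` as a modular form on `Γ₀(N)`, `d ∣ N`. -/
def gen (d : ℕ) [NeZero d] (hd : d ∣ N) {k : ℤ} (F : ModularForm 𝒮ℒ k) :
    ModularForm (Gamma0 N) k :=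
  resLevel (G0_le_of_dvd hd) (levelRaise d F)

lemma qLaurent_gen (d : ℕ) [NeZero d] (hd : d ∣ N) {k : ℤ} (F : ModularForm 𝒮ℒ k) :
    qLaurent (gen d hd F : ModularForm (Gamma0 N) k) =
      HahnSeries.C ((d : ℂ) ^ (k - 1)) * qExpand ℂ d (ofPS (qExpansion 1 F)) :=
  Fermat.Agent.S28.H10.ofPS_qExpansion_levelRaise d F

lemma gen_DeltaMF_ne_zero (d : ℕ) [NeZero d] (hd : d ∣ N) :
    (gen d hd DeltaMF : ModularForm (Gamma0 N) 12) ≠ 0 := by
  intro h
  have h2 := congrArg (fun f : ModularForm (Gamma0 N) 12 => f UpperHalfPlane.I) h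
  have h3 : (gen d hd DeltaMF : ModularForm (Gamma0 N) 12) UpperHalfPlane.I
      = (d : ℂ) ^ ((12 : ℤ) - 1) * DeltaMF (heckeDiagMatrix d • UpperHalfPlane.I) :=
    levelRaise_apply d DeltaMF _
  simp only [h3, zero_apply, mul_eq_zero] at h2
  rcases h2 with h2 | h2
  · have hd0 : (d : ℂ) ≠ 0 := by exact_mod_cast NeZero.ne d
    exact zpow_ne_zero _ hd0 h2
  · exact ModularForm.discriminant_ne_zero _ h2

/-- The generators `j(q^d)`, `d ∣ N`, are ratios of modular forms. -/
lemma isRat_gen (d : ℕ) [NeZero d] (hd : d ∣ N) : IsRat N (coeffEmb ℂ (qExpand ℚ d jq)) := by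
  refine ⟨12, gen d hd E12, gen d hd DeltaMF, gen_DeltaMF_ne_zero d hd, ?_⟩
  rw [qLaurent_gen, qLaurent_gen, coeffEmb, Fermat.Agent.S28.H10.coeffMap_qExpand,
    Fermat.Agent.S28.H10.qExpansion_E12]
  have hΔ : qExpansion 1 DeltaMF = qExpansion 1 ModularForm.discriminant := rfl
  rw [hΔ, map_pow, ← Fermat.Agent.S28.H76.coeffMap_jq_mul_disc, map_mul]
  ring

lemma isRat_coeffEmb {z : LaurentSeries ℚ}
    (hz : z ∈ Subfield.closure
      (Set.range (algebraMap ℚ (LaurentSeries ℚ)) ∪ divisorExpansions N)) :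
    IsRat N (coeffEmb ℂ z) := by
  induction hz using Subfield.closure_induction with
  | mem w hw =>
    rcases hw with ⟨c, rfl⟩ | ⟨d, hd0, hd, rfl⟩
    · rw [algebraMap_laurentSeries_eq_single, coeffEmb, coeffMap_single]
      exact IsRat.const _
    · have := hd0
      exact isRat_gen d hd
  | one => rw [map_one]; exact IsRat.one
  | add x y _ _ hx hy => rw [map_add]; exact hx.add hy
  | neg x _ hx => rw [map_neg]; exact hx.neg
  | inv x _ hx => rw [map_inv₀]; exact hx.inv
  | mul x y _ _ hx hy => rw [map_mul]; exact hx.mul hy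

lemma isRat_of_mem {x : LaurentSeries ℂ}
    (hx : x ∈ Subfield.closure
        (Set.range (algebraMap ℂ (LaurentSeries ℂ)) ∪
          (⇑(coeffEmb ℂ) '' ((modularFunctionFieldFull N : IntermediateField ℚ (LaurentSeries ℚ)) :
            Set (LaurentSeries ℚ))))) :
    IsRat N x := by
  induction hx using Subfield.closure_induction with
  | mem y hy =>
    rcases hy with ⟨c, rfl⟩ | ⟨z, hz, rfl⟩
    · rw [algebraMap_laurentSeries_eq_single]
      exact IsRat.const c
    · exact isRat_coeffEmb hz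
  | one => exact IsRat.one
  | add x y _ _ hx hy => exact hx.add hy
  | neg x _ hx => exact hx.neg
  | inv x _ hx => exact hx.inv
  | mul x y _ _ hx hy => exact hx.mul hy

/-- **A1**: every element of `F_ℂ` is a ratio of two modular forms of the same weight. -/
theorem stmt_A1 (N : ℕ) [NeZero N] : Stmt_A1 N := by
  intro f
  obtain ⟨k, A, B, hB, hAB⟩ := isRat_of_mem (N := N) (mem_laurentBaseChange_iff.mp f.2)
  exact ⟨k, A, B, hB, hAB⟩

end Fermat.Agent.GTor.H58
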