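import Fermat.Agent.GTor.H58_A1
import Fermat.Agent.S28.H76_SymCore
import Fermat.Agent.S23.H96_DhatNeZero
import Fermat.Agent.S23.H22_GS3

/-!
# G-TOR package A2 (helper58): every ratio of two modular forms of the same weight on `Γ₀(N)`
lies in `F_ℂ = ℂ(j(q^d) : d ∣ N)`.
-/

set_option autoImplicit false
set_option linter.unusedSectionVars false

open UpperHalfPlane ModularForm ModularCurve CongruenceSubgroup Polynomial
open scoped MatrixGroups ModularForm Manifold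

noncomputable section

namespace Fermat.Agent.GTor.H58

open Fermat.Agent.GTor
open Fermat.Agent.S23.H22 (Nice nice_levelOne nice_G0)

local notation "ofPS" => HahnSeries.ofPowerSeries ℤ ℂ
local notation "Δ" => ModularForm.discriminant

/-- The formal `j` over `ℂ`. -/
def j1 : LaurentSeries ℂ := coeffEmb ℂ jq

lemma j1_mul_disc : j1 * ofPS (qExpansion 1 Δ) = ofPS (qExpansion 1 E₄) ^ 3 :=
  Fermat.Agent.S28.H76.coeffMap_jq_mul_disc

lemma ofPS_ne_zero {F : ℍ → ℂ} (hF : Nice 1 F) (h0 : F ≠ 0) : ofPS (qExpansion 1 F) ≠ 0 := by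
  intro h
  have h' : qExpansion 1 F = 0 :=
    HahnSeries.ofPowerSeries_injective (Γ := ℤ) (R := ℂ) (by rw [h, map_zero])
  exact h0 (hF.eq_zero_of_qExpansion_eq_zero one_pos h')

lemma disc_fun_ne_zero : (Δ : ℍ → ℂ) ≠ 0 := fun h =>
  ModularForm.discriminant_ne_zero UpperHalfPlane.I (by rw [h]; rfl)

lemma nice_disc1 : Nice 1 (Δ : ℍ → ℂ) := nice_levelOne CuspForm.discriminant

lemma ofPS_disc_ne_zero : ofPS (qExpansion 1 Δ) ≠ 0 := ofPS_ne_zero nice_disc1 disc_fun_ne_zero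

lemma J_eq_j1 : ofPS (qExpansion 1 E₄) ^ 3 / ofPS (qExpansion 1 Δ) = j1 := by
  rw [← j1_mul_disc, mul_div_assoc, div_self ofPS_disc_ne_zero, mul_one]

/-- slash invariance of powers -/
lemma slash_pow_SL {k : ℤ} {f : ℍ → ℂ} (γ : SL(2, ℤ)) (hf : f ∣[k] γ = f) (n : ℕ) :
    (f ^ n) ∣[(n : ℤ) * k] γ = f ^ n := by
  induction n with
  | zero =>
    simp only [Nat.cast_zero, zero_mul, pow_zero]
    exact ModularForm.is_invariant_one γ
  | succ n ih =>
    have e : ((n + 1 : ℕ) : ℤ) * k = (n : ℤ) * k + k := by push_cast; ring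
    rw [pow_succ, e, ModularForm.mul_slash_SL2, ih, hf]

lemma slash_levelOne {k : ℤ} (H : ModularForm 𝒮ℒ k) (γ : SL(2, ℤ)) : (H : ℍ → ℂ) ∣[k] γ = H :=
  SlashInvariantFormClass.slash_action_eq H _ ⟨γ, rfl⟩

lemma slash_disc (γ : SL(2, ℤ)) : (Δ : ℍ → ℂ) ∣[(12 : ℤ)] γ = Δ :=
  SlashInvariantFormClass.slash_action_eq CuspForm.discriminant _ ⟨γ, rfl⟩

/-- A quotient `a / Δ^n` of weight zero, with `a` nice of level one, is a polynomial in `j`
at the level of `q`-expansions. -/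
lemma exists_poly_of_div_disc_pow (n : ℕ) (a : ℍ → ℂ)
    (ha : ∀ γ : SL(2, ℤ), a ∣[(n : ℤ) * 12] γ = a) (hah : MDiff a)
    (hab : IsBoundedAtImInfty a) (hap : Function.Periodic (a ∘ UpperHalfPlane.ofComplex) 1) :
    ∃ p : ℂ[X], ofPS (qExpansion 1 a) = p.eval₂ HahnSeries.C j1 * ofPS (qExpansion 1 Δ) ^ n := by
  have hbN : Nice 1 ((Δ : ℍ → ℂ) ^ n) := nice_disc1.pow n
  obtain ⟨p, hp⟩ := Fermat.Agent.S28.H76.sym_series (Q := Unit) (fun _ => 1) ((n : ℤ) * 12) 1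
    (fun _ => a) (fun _ => (Δ : ℍ → ℂ) ^ n)
    (fun γ _ => ha γ) (fun γ _ => slash_pow_SL γ (slash_disc γ) n)
    (fun _ => hah) (fun _ => hbN.hol) (fun _ => hab) (fun _ => hbN.bdd)
    (fun _ => by simpa using hap) (fun _ => by simpa using hbN.per)
    (fun _ z => pow_ne_zero _ (ModularForm.discriminant_ne_zero z))
  refine ⟨p, ?_⟩
  simp only [Finset.univ_unique, Finset.prod_singleton, Nat.cast_one] at hp
  rw [J_eq_j1] at hp
  have hΔn : ofPS (qExpansion 1 ((Δ : ℍ → ℂ) ^ n)) = ofPS (qExpansion 1 Δ) ^ n := by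
    rw [Nice.qExpansion_pow one_pos nice_disc1, map_pow]
  rw [hΔn] at hp
  rw [← hp, div_mul_cancel₀]
  exact pow_ne_zero _ ofPS_disc_ne_zero

/-- Ratios of level one forms of the same weight are rational functions of `j`. -/
lemma levelOne_ratio {w : ℤ} (H G : ModularForm 𝒮ℒ w) (hG : G ≠ 0) :
    ∃ p₁ p₂ : ℂ[X], p₂.eval₂ HahnSeries.C j1 ≠ 0 ∧
      ofPS (qExpansion 1 H) * p₂.eval₂ HahnSeries.C j1 =
        p₁.eval₂ HahnSeries.C j1 * ofPS (qExpansion 1 G) := by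
  have hw : 0 ≤ w := by
    by_contra hw
    rw [not_le] at hw
    apply hG
    exact DFunLike.coe_injective (ModularFormClass.levelOne_neg_weight_eq_zero hw G)
  obtain ⟨n, rfl⟩ := Int.eq_ofNat_of_zero_le hw
  have nH := nice_levelOne H
  have nG := nice_levelOne G
  have hGf : (G : ℍ → ℂ) ≠ 0 := fun h => hG (DFunLike.coe_injective h)
  have hg : ofPS (qExpansion 1 G) ≠ 0 := ofPS_ne_zero nG hGf
  -- the two numerators
  have e1 : ((n : ℕ) : ℤ) * 12 = (n : ℤ) + ((11 : ℕ) : ℤ) * (n : ℤ) := by push_cast; ring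
  have e2 : ((n : ℕ) : ℤ) * 12 = ((12 : ℕ) : ℤ) * (n : ℤ) := by push_cast; ring
  obtain ⟨p₁, hp₁⟩ := exists_poly_of_div_disc_pow n ((H : ℍ → ℂ) * (G : ℍ → ℂ) ^ 11)
    (fun γ => by
      rw [e1, ModularForm.mul_slash_SL2, slash_levelOne H γ,
        slash_pow_SL γ (slash_levelOne G γ) 11])
    (nH.mul (nG.pow 11)).hol (nH.mul (nG.pow 11)).bdd (nH.mul (nG.pow 11)).per
  obtain ⟨p₂, hp₂⟩ := exists_poly_of_div_disc_pow n ((G : ℍ → ℂ) ^ 12)
    (fun γ => by rw [e2, slash_pow_SL γ (slash_levelOne G γ) 12])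
    (nG.pow 12).hol (nG.pow 12).bdd (nG.pow 12).per
  rw [Nice.qExpansion_mul one_pos nH (nG.pow 11), Nice.qExpansion_pow one_pos nG, map_mul,
    map_pow] at hp₁
  rw [Nice.qExpansion_pow one_pos nG, map_pow] at hp₂
  have hD : ofPS (qExpansion 1 Δ) ^ n ≠ 0 := pow_ne_zero _ ofPS_disc_ne_zero
  refine ⟨p₁, p₂, ?_, ?_⟩
  · intro h0
    rw [h0, zero_mul] at hp₂
    exact pow_ne_zero _ hg hp₂
  · apply mul_right_cancel₀ hD
    calc ofPS (qExpansion 1 H) * p₂.eval₂ HahnSeries.C j1 * ofPS (qExpansion 1 Δ) ^ n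
        = ofPS (qExpansion 1 H) * (p₂.eval₂ HahnSeries.C j1 * ofPS (qExpansion 1 Δ) ^ n) := by
          ring
      _ = ofPS (qExpansion 1 H) * ofPS (qExpansion 1 G) ^ 12 := by rw [← hp₂]
      _ = (ofPS (qExpansion 1 H) * ofPS (qExpansion 1 G) ^ 11) * ofPS (qExpansion 1 G) := by ring
      _ = p₁.eval₂ HahnSeries.C j1 * ofPS (qExpansion 1 G) * ofPS (qExpansion 1 Δ) ^ n := by
          rw [hp₁]; ring

section Field

variable (N : ℕ) [NeZero N]

/-- `F_ℂ` as an intermediate field. -/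
abbrev FF : IntermediateField ℂ (LaurentSeries ℂ) :=
  laurentBaseChange ℂ (modularFunctionFieldFull N)

/-- The formal `j(q^N)` over `ℂ`. -/
def jN : LaurentSeries ℂ := coeffEmb ℂ (qExpand ℚ N jq)

lemma j1_mem : j1 ∈ FF N :=
  coeffEmb_mem_laurentBaseChange ℂ (modularFunctionField_le_full N (jq_mem N))

lemma jN_mem : jN N ∈ FF N :=
  coeffEmb_mem_laurentBaseChange ℂ (jqd_mem_full N dvd_rfl)

lemma C_mem (c : ℂ) : HahnSeries.C c ∈ FF N := by
  have : (HahnSeries.C c : LaurentSeries ℂ) = algebraMap ℂ (LaurentSeries ℂ) c := by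
    rw [algebraMap_laurentSeries_eq_single]; rfl
  rw [this]
  exact (FF N).algebraMap_mem c

lemma eval₂_mem (p : ℂ[X]) : p.eval₂ HahnSeries.C j1 ∈ FF N := by
  rw [Polynomial.eval₂_eq_sum_range]
  exact sum_mem fun i _ => mul_mem (C_mem N _) (pow_mem (j1_mem N) i)

open Fermat.Agent.S23.H22 (Q eN deltaN Dhat exists_identity deltaN_ne_zero Dhat_nice)

lemma eN_eq_jN_mul :
    ofPS (qExpansion 1 (eN N)) = jN N * ofPS (qExpansion 1 (deltaN N)) := by
  have h := isRat_gen (N := N) N dvd_rfl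
  have h1 : ofPS (qExpansion 1 (eN N)) =
      HahnSeries.C ((N : ℂ) ^ ((12 : ℤ) - 1)) * qExpand ℂ N (ofPS (qExpansion 1 Fermat.Agent.S23.H22.E12)) :=
    Fermat.Agent.S28.H10.ofPS_qExpansion_levelRaise N Fermat.Agent.S23.H22.E12
  have h2 : ofPS (qExpansion 1 (deltaN N)) =
      HahnSeries.C ((N : ℂ) ^ ((12 : ℤ) - 1)) *
        qExpand ℂ N (ofPS (qExpansion 1 Fermat.Agent.S28.H30.DeltaMF)) :=
    Fermat.Agent.S28.H10.ofPS_qExpansion_levelRaise N Fermat.Agent.S28.H30.DeltaMF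
  rw [h1, h2, jN, coeffEmb, Fermat.Agent.S28.H10.coeffMap_qExpand,
    Fermat.Agent.S28.H10.qExpansion_E12]
  have hΔ : qExpansion 1 Fermat.Agent.S28.H30.DeltaMF = qExpansion 1 ModularForm.discriminant := rfl
  rw [hΔ, map_pow, ← Fermat.Agent.S28.H76.coeffMap_jq_mul_disc, map_mul]
  ring

/-- The `q`-expansion of the Lagrange identity. -/
lemma identity_series {k : ℤ} (A : ModularForm (Gamma0 N) k)
    (H : ℕ → ModularForm 𝒮ℒ (Fermat.Agent.S23.H22.lagrWeight (Q N) k 12))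
    (hH : ∀ z, ∑ j ∈ Finset.range (Fintype.card (Q N)),
        H j z * eN N z ^ j * deltaN N z ^ (Fintype.card (Q N) - 1 - j) = A z * Dhat N z) :
    ofPS (qExpansion 1 (deltaN N)) ^ (Fintype.card (Q N) - 1) *
        ∑ j ∈ Finset.range (Fintype.card (Q N)), ofPS (qExpansion 1 (H j)) * jN N ^ j =
      ofPS (qExpansion 1 A) * ofPS (qExpansion 1 (Dhat N)) := by
  have nA : Nice 1 (A : ℍ → ℂ) := nice_G0 N A
  have ne : Nice 1 (eN N : ℍ → ℂ) := nice_G0 N (eN N)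
  have nd : Nice 1 (deltaN N : ℍ → ℂ) := nice_G0 N (deltaN N)
  have nH : ∀ j, Nice 1 (H j : ℍ → ℂ) := fun j => nice_levelOne (H j)
  have nT : ∀ j ∈ Finset.range (Fintype.card (Q N)),
      Nice 1 ((H j : ℍ → ℂ) * (eN N : ℍ → ℂ) ^ j *
        (deltaN N : ℍ → ℂ) ^ (Fintype.card (Q N) - 1 - j)) :=
    fun j _ => ((nH j).mul (ne.pow j)).mul (nd.pow _)
  have hfun : (∑ j ∈ Finset.range (Fintype.card (Q N)),
      (H j : ℍ → ℂ) * (eN N : ℍ → ℂ) ^ j * (deltaN N : ℍ → ℂ) ^ (Fintype.card (Q N) - 1 - j))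
      = (A : ℍ → ℂ) * Dhat N := by
    funext z
    simp only [Finset.sum_apply, Pi.mul_apply, Pi.pow_apply]
    exact hH z
  have hser : ofPS (qExpansion 1 (∑ j ∈ Finset.range (Fintype.card (Q N)),
      (H j : ℍ → ℂ) * (eN N : ℍ → ℂ) ^ j * (deltaN N : ℍ → ℂ) ^ (Fintype.card (Q N) - 1 - j)))
      = ofPS (qExpansion 1 ((A : ℍ → ℂ) * Dhat N)) := by rw [hfun]
  rw [Nice.qExpansion_sum one_pos _ nT, Nice.qExpansion_mul one_pos nA (Dhat_nice N), map_sum,
    map_mul] at hser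
  rw [← hser, Finset.mul_sum]
  refine Finset.sum_congr rfl fun j hj => ?_
  have hj' : j ≤ Fintype.card (Q N) - 1 := by
    have := Finset.mem_range.mp hj
    omega
  rw [Nice.qExpansion_mul one_pos ((nH j).mul (ne.pow j)) (nd.pow _),
    Nice.qExpansion_mul one_pos (nH j) (ne.pow j), Nice.qExpansion_pow one_pos ne,
    Nice.qExpansion_pow one_pos nd, map_mul, map_mul, map_pow, map_pow, eN_eq_jN_mul, mul_pow]
  have e : ofPS (qExpansion 1 (deltaN N)) ^ (Fintype.card (Q N) - 1) =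
      ofPS (qExpansion 1 (deltaN N)) ^ j *
        ofPS (qExpansion 1 (deltaN N)) ^ (Fintype.card (Q N) - 1 - j) := by
    rw [← pow_add, Nat.add_sub_cancel' hj']
  rw [e]
  ring

/-- **A2**: every ratio of two modular forms of the same weight on `Γ₀(N)` lies in `F_ℂ`. -/
theorem stmt_A2 : Stmt_A2 N := by
  intro k A B hB
  classical
  obtain ⟨HA, hHA⟩ := exists_identity N A
  obtain ⟨HB, hHB⟩ := exists_identity N B
  have hA := identity_series N A HA hHA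
  have hB' := identity_series N B HB hHB
  set μ := Fintype.card (Q N) with hμ
  set d := ofPS (qExpansion 1 (deltaN N)) with hd
  set D := ofPS (qExpansion 1 (Dhat N)) with hD
  have nB : Nice 1 (B : ℍ → ℂ) := nice_G0 N B
  have hBf : (B : ℍ → ℂ) ≠ 0 := fun h => hB (DFunLike.coe_injective h)
  have hb0 : ofPS (qExpansion 1 B) ≠ 0 := ofPS_ne_zero nB hBf
  have hD0 : D ≠ 0 := ofPS_ne_zero (Dhat_nice N) (Fermat.Agent.S23.H96.Dhat_ne_zero N)
  have hd0 : d ≠ 0 := ofPS_ne_zero (nice_G0 N (deltaN N))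
    (fun h => deltaN_ne_zero N UpperHalfPlane.I (by rw [h]; rfl))
  -- some `HB j₀` is nonzero
  have hsum0 : ∑ j ∈ Finset.range μ, ofPS (qExpansion 1 (HB j)) * jN N ^ j ≠ 0 := by
    intro h0
    rw [h0, mul_zero] at hB'
    exact mul_ne_zero hb0 hD0 hB'.symm
  obtain ⟨j₀, -, hj₀⟩ := Finset.exists_ne_zero_of_sum_ne_zero hsum0
  have hG : HB j₀ ≠ 0 := by
    rintro h
    apply hj₀
    rw [h]
    have : qExpansion 1 (⇑(0 : ModularForm 𝒮ℒ (Fermat.Agent.S23.H22.lagrWeight (Q N) k 12))) = 0 :=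
      qExpansion_zero 1
    rw [this, map_zero, zero_mul]
  set g := ofPS (qExpansion 1 (HB j₀)) with hg
  have hg0 : g ≠ 0 := ofPS_ne_zero (nice_levelOne (HB j₀)) (fun h => hG (DFunLike.coe_injective h))
  -- ratios
  have hrat : ∀ H : ModularForm 𝒮ℒ (Fermat.Agent.S23.H22.lagrWeight (Q N) k 12),
      ∃ r ∈ FF N, ofPS (qExpansion 1 H) = r * g := by
    intro H
    obtain ⟨p₁, p₂, hp₂, hp⟩ := levelOne_ratio H (HB j₀) hG
    refine ⟨p₁.eval₂ HahnSeries.C j1 / p₂.eval₂ HahnSeries.C j1,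
      div_mem (eval₂_mem N p₁) (eval₂_mem N p₂), ?_⟩
    rw [div_mul_eq_mul_div, eq_div_iff hp₂]
    exact hp
  choose rA hrA_mem hrA using fun j => hrat (HA j)
  choose rB hrB_mem hrB using fun j => hrat (HB j)
  set SA := ∑ j ∈ Finset.range μ, rA j * jN N ^ j with hSA
  set SB := ∑ j ∈ Finset.range μ, rB j * jN N ^ j with hSB
  have hSA_mem : SA ∈ FF N :=
    sum_mem fun j _ => mul_mem (hrA_mem j) (pow_mem (jN_mem N) j)
  have hSB_mem : SB ∈ FF N :=
    sum_mem fun j _ => mul_mem (hrB_mem j) (pow_mem (jN_mem N) j)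
  have eA : ∑ j ∈ Finset.range μ, ofPS (qExpansion 1 (HA j)) * jN N ^ j = g * SA := by
    rw [hSA, Finset.mul_sum]
    refine Finset.sum_congr rfl fun j _ => ?_
    rw [hrA j]; ring
  have eB : ∑ j ∈ Finset.range μ, ofPS (qExpansion 1 (HB j)) * jN N ^ j = g * SB := by
    rw [hSB, Finset.mul_sum]
    refine Finset.sum_congr rfl fun j _ => ?_
    rw [hrB j]; ring
  rw [eA] at hA
  rw [eB] at hB' hsum0
  have hSB0 : SB ≠ 0 := fun h => hsum0 (by rw [h, mul_zero])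
  refine ⟨⟨SA / SB, div_mem hSA_mem hSB_mem⟩, hB, ?_⟩
  show ofPS (qExpansion 1 A) = SA / SB * ofPS (qExpansion 1 B)
  rw [div_mul_eq_mul_div, eq_div_iff hSB0]
  apply mul_right_cancel₀ hD0
  calc ofPS (qExpansion 1 A) * SB * D = (ofPS (qExpansion 1 A) * D) * SB := by ring
    _ = d ^ (μ - 1) * (g * SA) * SB := by rw [← hA]
    _ = SA * (d ^ (μ - 1) * (g * SB)) := by ring
    _ = SA * ofPS (qExpansion 1 B) * D := by rw [hB']; ring

end Field

end Fermat.Agent.GTor.H58
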