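import Fermat.Agent.GTor.TateDefs

/-!
# G-TOR package T1 (helper58): a Tate system gives the Tate piece of every eigensystem
(pure algebra).
-/

set_option autoImplicit false
set_option linter.unusedSectionVars false

noncomputable section

namespace Fermat.Agent.GTor.H58T1

open Fermat.Agent.GTor

/-! ## 1. Limits in an adically complete ring -/

section Limit

variable {𝒪 : Type} [CommRing 𝒪] (I : Ideal 𝒪) [IsAdicComplete I 𝒪]

/-- The projection `𝒪 → 𝒪 / I^k`. -/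
abbrev piK (k : ℕ) : 𝒪 →+* 𝒪 ⧸ I ^ k := Ideal.Quotient.mk (I ^ k)

lemma smodEq_iff {k : ℕ} {x y : 𝒪} :
    x ≡ y [SMOD (I ^ k • ⊤ : Submodule 𝒪 𝒪)] ↔ piK I k x = piK I k y := by
  rw [SModEq.sub_mem, smul_eq_mul, Ideal.mul_top, ← Ideal.Quotient.eq]

lemma eq_of_forall_piK {x y : 𝒪} (h : ∀ k, piK I k x = piK I k y) : x = y := by
  have h1 : x - y = 0 := by
    apply (IsAdicComplete.toIsHausdorff (I := I) (M := 𝒪)).haus
    intro n
    rw [smodEq_iff, map_sub, h n, sub_self, map_zero]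
  exact sub_eq_zero.mp h1

lemma exists_limit (f : ℕ → 𝒪) (hf : ∀ k, piK I k (f (k + 1)) = piK I k (f k)) :
    ∃ L : 𝒪, ∀ k, piK I k L = piK I k (f k) := by
  have hmn : ∀ m n, m ≤ n → piK I m (f m) = piK I m (f n) := by
    intro m n hmn
    induction n, hmn using Nat.le_induction with
    | base => rfl
    | succ n hn ih =>
      rw [ih]
      have h1 := hf n
      -- reduce mod `I^m ⊇ I^n`
      have h2 : f (n + 1) - f n ∈ I ^ n := by
        rw [← Ideal.Quotient.eq]; exact h1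
      have h3 : f (n + 1) - f n ∈ I ^ m := Ideal.pow_le_pow_right hn h2
      exact ((Ideal.Quotient.eq).mpr h3).symm
  obtain ⟨L, hL⟩ := (IsAdicComplete.toIsPrecomplete (I := I) (M := 𝒪)).prec
    (f := f) (fun {m n} h => (smodEq_iff I).mpr (hmn m n h))
  exact ⟨L, fun k => ((smodEq_iff I).mp (hL k)).symm⟩

variable (p : ℕ) [Fact p.Prime] (hp : (p : 𝒪) ∈ I)

include hp in
lemma natCast_pow_eq_zero (k : ℕ) : (((p ^ k : ℕ) : ℕ) : 𝒪 ⧸ I ^ k) = 0 := by
  have : ((p ^ k : ℕ) : 𝒪) ∈ I ^ k := by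
    push_cast
    exact Ideal.pow_mem_pow hp k
  rw [← map_natCast (piK I k)]
  exact Ideal.Quotient.eq_zero_iff_mem.mpr this

/-- The canonical map `ℤ/p^k → 𝒪/I^k`. -/
def cK (k : ℕ) : ZMod (p ^ k) →+* 𝒪 ⧸ I ^ k :=
  ZMod.castHom (ringChar.dvd (natCast_pow_eq_zero I p hp k)) (𝒪 ⧸ I ^ k)

lemma cK_val (k : ℕ) (x : ZMod (p ^ k)) :
    cK I p hp k x = piK I k ((x.val : ℕ) : 𝒪) := by
  conv_lhs => rw [← ZMod.natCast_zmod_val x]
  rw [map_natCast, map_natCast]

lemma cK_compat (k : ℕ) (x : ZMod (p ^ (k + 1))) :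
    cK I p hp k (ZMod.castHom (pow_dvd_pow p (Nat.le_succ k)) (ZMod (p ^ k)) x) =
      piK I k ((x.val : ℕ) : 𝒪) := by
  conv_lhs => rw [← ZMod.natCast_zmod_val x]
  rw [map_natCast, map_natCast, map_natCast]

/-- The limit of a compatible sequence. -/
lemma exists_limit_zmod (x : ∀ k : ℕ, ZMod (p ^ k))
    (hx : ∀ k, ZMod.castHom (pow_dvd_pow p (Nat.le_succ k)) (ZMod (p ^ k)) (x (k + 1)) = x k) :
    ∃ L : 𝒪, ∀ k, piK I k L = cK I p hp k (x k) := by
  obtain ⟨L, hL⟩ := exists_limit I (fun k => (((x k).val : ℕ) : 𝒪)) (fun k => by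
    rw [← cK_compat I p hp k (x (k + 1)), hx k, cK_val])
  exact ⟨L, fun k => by rw [hL k, cK_val]⟩

/-! ### The limit representation -/

variable {G : Type} [Group G] {r : ℕ}

lemma matrix_eq_of_forall_piK {X Y : Matrix (Fin r) (Fin r) 𝒪}
    (h : ∀ k, (piK I k).mapMatrix X = (piK I k).mapMatrix Y) : X = Y := by
  ext i j
  apply eq_of_forall_piK I
  intro k
  have := congrFun (congrFun (h k) i) j
  simpa [RingHom.mapMatrix_apply, Matrix.map_apply] using this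

/-- The limit of a compatible system of matrix representations. -/
theorem exists_limit_rep (ρ : ∀ k : ℕ, G →* Matrix (Fin r) (Fin r) (ZMod (p ^ k)))
    (compat : ∀ (k : ℕ) (σ : G) (i j : Fin r),
      ((ZMod.castHom (pow_dvd_pow p (Nat.le_succ k)) (ZMod (p ^ k))) (ρ (k + 1) σ i j))
        = ρ k σ i j) :
    ∃ ρ' : G →* Matrix (Fin r) (Fin r) 𝒪, ∀ k σ,
      (piK I k).mapMatrix (ρ' σ) = (cK I p hp k).mapMatrix (ρ k σ) := by
  have hex : ∀ (σ : G) (i j : Fin r), ∃ L : 𝒪, ∀ k, piK I k L = cK I p hp k (ρ k σ i j) :=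
    fun σ i j => exists_limit_zmod I p hp (fun k => ρ k σ i j) (fun k => compat k σ i j)
  choose L hL using hex
  have key : ∀ k σ, (piK I k).mapMatrix (Matrix.of (L σ)) = (cK I p hp k).mapMatrix (ρ k σ) := by
    intro k σ
    ext i j
    simp only [RingHom.mapMatrix_apply, Matrix.map_apply, Matrix.of_apply]
    exact hL σ i j k
  refine ⟨{ toFun := fun σ => Matrix.of (L σ), map_one' := ?_, map_mul' := ?_ }, key⟩
  · apply matrix_eq_of_forall_piK I
    intro k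
    rw [key, map_one, map_one, map_one]
  · intro σ τ
    apply matrix_eq_of_forall_piK I
    intro k
    rw [key, map_mul, map_mul (piK I k).mapMatrix, key, key, map_mul]

end Limit

/-! ## 2. The eigen-piece -/

section Piece

variable {𝒪 : Type} [CommRing 𝒪] [IsDomain 𝒪] {R : Type} [CommRing R] {r : ℕ}

/-- The integer matrix `M t` with entries in `A`. -/
abbrev Mc (A : Type) [Ring A] (M : R →+* Matrix (Fin r) (Fin r) ℤ) (t : R) :
    Matrix (Fin r) (Fin r) A :=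
  (M t).map (Int.cast : ℤ → A)

/-- The `χ`-eigenspace over the fraction field. -/
def eigW (M : R →+* Matrix (Fin r) (Fin r) ℤ) (χ : R →+* 𝒪) :
    Submodule (FractionRing 𝒪) (Fin r → FractionRing 𝒪) where
  carrier := {w | ∀ t, (Mc (FractionRing 𝒪) M t).mulVec w = algebraMap 𝒪 (FractionRing 𝒪) (χ t) • w}
  add_mem' := by
    intro a b ha hb t
    rw [Matrix.mulVec_add, ha t, hb t, smul_add]
  zero_mem' := by
    intro t
    rw [Matrix.mulVec_zero, smul_zero]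
  smul_mem' := by
    intro c a ha t
    rw [Matrix.mulVec_smul, ha t, smul_comm]

lemma mem_eigW_of_mul_eq (M : R →+* Matrix (Fin r) (Fin r) ℤ) (χ : R →+* 𝒪) {d : ℕ}
    (Y : Matrix (Fin r) (Fin d) 𝒪) (hY : ∀ t, Mc 𝒪 M t * Y = χ t • Y) (j : Fin d) :
    (fun i => algebraMap 𝒪 (FractionRing 𝒪) (Y i j)) ∈ eigW M χ := by
  intro t
  funext i
  have h := congrFun (congrFun (hY t) i) j
  simp only [Matrix.mul_apply, Matrix.smul_apply, smul_eq_mul, Matrix.map_apply] at h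
  simp only [Matrix.mulVec, dotProduct, Matrix.map_apply, Pi.smul_apply, smul_eq_mul]
  rw [← map_mul, ← h, map_sum]
  refine Finset.sum_congr rfl fun l _ => ?_
  rw [map_mul, map_intCast]

lemma mul_eq_of_mem_eigW (M : R →+* Matrix (Fin r) (Fin r) ℤ) (χ : R →+* 𝒪) {d : ℕ}
    (Y : Matrix (Fin r) (Fin d) 𝒪)
    (hY : ∀ j, (fun i => algebraMap 𝒪 (FractionRing 𝒪) (Y i j)) ∈ eigW M χ) (t : R) :
    Mc 𝒪 M t * Y = χ t • Y := by
  ext i j
  have h := congrFun (hY j t) i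
  simp only [Matrix.mulVec, dotProduct, Matrix.map_apply, Pi.smul_apply, smul_eq_mul] at h
  simp only [Matrix.mul_apply, Matrix.smul_apply, smul_eq_mul, Matrix.map_apply]
  apply IsFractionRing.injective 𝒪 (FractionRing 𝒪)
  rw [map_mul, ← h, map_sum]
  refine Finset.sum_congr rfl fun l _ => ?_
  rw [map_mul, map_intCast]

/-- The eigen-piece: intertwining matrices for the `χ`-eigenspace. -/
theorem exists_piece (hEig : Betti.Stmt_algEig) (hLat : S30.Stmt_Lattice)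
    [IsPrincipalIdealRing 𝒪] [CharZero 𝒪]
    (M : R →+* Matrix (Fin r) (Fin r) ℤ) (hM : Function.Injective M) (χ : R →+* 𝒪) :
    ∃ (d : ℕ) (P : Matrix (Fin r) (Fin d) 𝒪) (Q : Matrix (Fin d) (Fin r) 𝒪), 0 < d ∧
      Q * P = 1 ∧ (∀ t, Mc 𝒪 M t * P = χ t • P) ∧
      ∀ X : Matrix (Fin r) (Fin r) 𝒪, (∀ t, X * Mc 𝒪 M t = Mc 𝒪 M t * X) →
        P * Q * (X * P) = X * P := by
  have : CharZero (FractionRing 𝒪) :=
    charZero_of_injective_algebraMap (IsFractionRing.injective 𝒪 (FractionRing 𝒪))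
  obtain ⟨v, hv0, hv⟩ := hEig R r M hM (FractionRing 𝒪)
    ((algebraMap 𝒪 (FractionRing 𝒪)).comp χ)
  have hvW : v ∈ eigW M χ := fun t => hv t
  obtain ⟨P, Q, hQP, hPW, hfix⟩ := hLat 𝒪 (FractionRing 𝒪) r (eigW M χ)
  have hd : 0 < Module.finrank (FractionRing 𝒪) (eigW M χ) := by
    have : Nontrivial (eigW M χ) :=
      ⟨⟨⟨v, hvW⟩, 0, fun h => hv0 (congrArg Subtype.val h)⟩⟩
    exact Module.finrank_pos
  have hMP : ∀ t, Mc 𝒪 M t * P = χ t • P := mul_eq_of_mem_eigW M χ P hPW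
  refine ⟨_, P, Q, hd, hQP, hMP, ?_⟩
  intro X hX
  have hXP : ∀ t, Mc 𝒪 M t * (X * P) = χ t • (X * P) := by
    intro t
    rw [← Matrix.mul_assoc, ← hX t, Matrix.mul_assoc, hMP t, Matrix.mul_smul]
  ext i j
  have h := congrFun (hfix (fun i => (X * P) i j) (mem_eigW_of_mul_eq M χ (X * P) hXP j)) i
  rw [Matrix.mul_assoc]
  simp only [Matrix.mulVec, dotProduct] at h
  simp only [Matrix.mul_apply]
  exact h

end Piece

/-! ## 3. Assembly -/

section Assembly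

variable {𝒪 : Type} [CommRing 𝒪] (I : Ideal 𝒪) [IsAdicComplete I 𝒪]
variable (p : ℕ) [Fact p.Prime] (hp : (p : 𝒪) ∈ I) {r : ℕ}

lemma piK_Mc_eq (k : ℕ) (X : Matrix (Fin r) (Fin r) ℤ) :
    (piK I k).mapMatrix (X.map (Int.cast : ℤ → 𝒪)) =
      (cK I p hp k).mapMatrix (X.map (Int.cast : ℤ → ZMod (p ^ k))) := by
  ext i j
  simp only [RingHom.mapMatrix_apply, Matrix.map_apply, map_intCast]

lemma natCast_smul_one (A : Type) [Ring A] (ℓ : ℕ) :
    (ℓ : A) • (1 : Matrix (Fin r) (Fin r) A) = ((ℓ : ℕ) : Matrix (Fin r) (Fin r) A) := by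
  rw [Nat.cast_smul_eq_nsmul, nsmul_one]

end Assembly

/-- **T1**: a Tate system gives the Tate piece of every eigensystem. -/
theorem t1 (hEig : Betti.Stmt_algEig) (hLat : S30.Stmt_Lattice) : Stmt_T1 := by
  intro hTS p _ N _ S hpS hNS 𝒪' _ _ _ _ _ _ hp𝒪' χ
  obtain ⟨r, ρ, M, hTate, hES, hUnr⟩ := hTS p N S hpS hNS
  set I := IsLocalRing.maximalIdeal 𝒪' with hI
  obtain ⟨ρL, hρL⟩ := exists_limit_rep I p hp𝒪' ρ hTate.compat
  -- commutation with the Hecke matrices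
  have hcomm : ∀ σ t, ρL σ * Mc 𝒪' M t = Mc 𝒪' M t * ρL σ := by
    intro σ t
    apply matrix_eq_of_forall_piK I
    intro k
    rw [map_mul, map_mul, hρL, piK_Mc_eq I p hp𝒪', ← map_mul, ← map_mul, hTate.comm k σ t]
  -- Eichler-Shimura on the big module
  have hESbig : ∀ (ℓ : ℕ) (hℓ : ℓ.Prime) (hℓN : ¬ ℓ ∣ N) (hℓS : ℓ ∉ (↑S : Set ℕ)),
      ∀ A : ValuationSubring (AlgebraicClosure ℚ), A.LiesOverPrime ℓ →
        ∀ σ : GQ, A.IsFrobeniusAt σ ℓ →
          ρL σ * ρL σ - Mc 𝒪' M (CuspForm.heckeAlgebra.T hℓ hℓN hℓS) * ρL σ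
            + (ℓ : 𝒪') • (1 : Matrix (Fin r) (Fin r) 𝒪') = 0 := by
    intro ℓ hℓ hℓN hℓS A hA σ hσ
    apply matrix_eq_of_forall_piK I
    intro k
    have h := hES ℓ hℓ hℓN hℓS A hA σ hσ k
    rw [natCast_smul_one] at h ⊢
    rw [map_add, map_sub, map_mul, map_mul, hρL, piK_Mc_eq I p hp𝒪', map_natCast, map_zero]
    have h2 := congrArg (cK I p hp𝒪' k).mapMatrix h
    rw [map_add, map_sub, map_mul, map_mul, map_natCast, map_zero] at h2
    exact h2
  obtain ⟨d, P, Q, hd, hQP, hMP, hfix⟩ := exists_piece hEig hLat M hTate.inj χ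
  have hfixσ : ∀ σ, P * Q * (ρL σ * P) = ρL σ * P := fun σ => hfix (ρL σ) (hcomm σ)
  refine ⟨d, { toFun := fun σ => Q * ρL σ * P, map_one' := ?_, map_mul' := ?_ }, hd, ?_, ?_, ?_⟩
  · rw [map_one, Matrix.mul_one, hQP]
  · intro σ τ
    rw [map_mul]
    calc Q * (ρL σ * ρL τ) * P = Q * ρL σ * (ρL τ * P) := by
          simp only [Matrix.mul_assoc]
      _ = Q * ρL σ * (P * Q * (ρL τ * P)) := by rw [hfixσ τ]
      _ = Q * ρL σ * P * (Q * ρL τ * P) := by simp only [Matrix.mul_assoc]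
  · -- continuity
    intro n
    obtain ⟨L, hL, hLσ⟩ := hTate.cont n
    refine ⟨L, hL, fun σ hσ i j => ?_⟩
    have h1 : ρ n σ = 1 := hLσ σ hσ
    have hent : ∀ a b, (ρL σ - 1) a b ∈ I ^ n := by
      intro a b
      have h2 := hρL n σ
      rw [h1, map_one] at h2
      have h3 : (piK I n).mapMatrix (ρL σ - 1) = 0 := by
        rw [map_sub, h2, map_one, sub_self]
      have h4 := congrFun (congrFun h3 a) b
      simp only [RingHom.mapMatrix_apply, Matrix.map_apply, Matrix.zero_apply] at h4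
      exact Ideal.Quotient.eq_zero_iff_mem.mp h4
    have e : (Q * ρL σ * P - 1 : Matrix (Fin d) (Fin d) 𝒪') = Q * (ρL σ - 1) * P := by
      rw [Matrix.mul_sub, Matrix.sub_mul, Matrix.mul_one, hQP]
    show ((Q * ρL σ * P - 1 : Matrix (Fin d) (Fin d) 𝒪') i j) ∈ I ^ n
    rw [e]
    simp only [Matrix.mul_apply]
    refine Ideal.sum_mem _ fun b _ => Ideal.mul_mem_right _ _ ?_
    exact Ideal.sum_mem _ fun a _ => Ideal.mul_mem_left _ _ (hent a b)
  · -- Eichler-Shimura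
    intro ℓ hℓ hℓN hℓS A hA σ hσ
    have h := hESbig ℓ hℓ hℓN hℓS A hA σ hσ
    set T := CuspForm.heckeAlgebra.T hℓ hℓN hℓS with hT
    show Q * ρL σ * P * (Q * ρL σ * P) - χ T • (Q * ρL σ * P) + (ℓ : 𝒪') • 1 = 0
    have e1 : Q * ρL σ * P * (Q * ρL σ * P) = Q * (ρL σ * ρL σ) * P := by
      calc Q * ρL σ * P * (Q * ρL σ * P) = Q * ρL σ * (P * Q * (ρL σ * P)) := by
            simp only [Matrix.mul_assoc]
        _ = Q * ρL σ * (ρL σ * P) := by rw [hfixσ σ]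
        _ = Q * (ρL σ * ρL σ) * P := by simp only [Matrix.mul_assoc]
    have e2 : χ T • (Q * ρL σ * P) = Q * (Mc 𝒪' M T * ρL σ) * P := by
      rw [← hcomm σ T]
      calc χ T • (Q * ρL σ * P) = Q * ρL σ * (χ T • P) := by rw [Matrix.mul_smul]
        _ = Q * ρL σ * (Mc 𝒪' M T * P) := by rw [hMP T]
        _ = Q * (ρL σ * Mc 𝒪' M T) * P := by simp only [Matrix.mul_assoc]
    have e3 : (ℓ : 𝒪') • (1 : Matrix (Fin d) (Fin d) 𝒪') =
        Q * ((ℓ : 𝒪') • (1 : Matrix (Fin r) (Fin r) 𝒪')) * P := by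
      rw [Matrix.mul_smul, Matrix.mul_one, Matrix.smul_mul, hQP]
    rw [e1, e2, e3, ← Matrix.sub_mul, ← Matrix.mul_sub, ← Matrix.add_mul, ← Matrix.mul_add, h,
      Matrix.mul_zero, Matrix.zero_mul]
  · -- unramified
    intro q hq hqN hqp Pv hPv σ hσ
    have h1 : ρL σ = 1 := by
      apply matrix_eq_of_forall_piK I
      intro k
      rw [hρL, hUnr q hq hqN hqp Pv hPv σ hσ k, map_one, map_one]
    show Q * ρL σ * P = 1
    rw [h1, Matrix.mul_one, hQP]

end Fermat.Agent.GTor.H58T1
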