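import Fermat.Agent.GTor.Defs

/-!
# G-TOR plumbing: `Stmt_BETTI` from `Stmt_MONO`, `Stmt_CHAR`, `Stmt_INJ`, `Stmt_EXIST`  (helper81)
-/

set_option autoImplicit false

noncomputable section

namespace Fermat.Agent.GTor.H81

open AlgebraicCurve ModularCurve UpperHalfPlane Fermat.Agent.GTor
open scoped MatrixGroups

variable (N n : ℕ) [NeZero N]

/-- the character of an unramified function (chosen by `Stmt_MONO`). -/
def charOf (hM : Stmt_MONO N n) (f : unrSubgroup ℂ (FNL ℂ N) n) :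
    homPE (CongruenceSubgroup.Gamma0 N) (ZMod n) :=
  ⟨(hM f).choose, (hM f).choose_spec.1⟩

theorem hasChar_charOf (hM : Stmt_MONO N n) (f : unrSubgroup ℂ (FNL ℂ N) n) :
    HasChar N n ((f : (FNL ℂ N)ˣ) : FNL ℂ N)
      ((charOf N n hM f : homPE (CongruenceSubgroup.Gamma0 N) (ZMod n)) :
        Additive (CongruenceSubgroup.Gamma0 N) →+ ZMod n) :=
  (hM f).choose_spec.2

theorem charOf_eq (hM : Stmt_MONO N n) (hC : Stmt_CHAR N n) (f : unrSubgroup ℂ (FNL ℂ N) n)
    (φ : Additive (CongruenceSubgroup.Gamma0 N) →+ ZMod n)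
    (h : HasChar N n ((f : (FNL ℂ N)ˣ) : FNL ℂ N) φ) :
    ((charOf N n hM f : homPE (CongruenceSubgroup.Gamma0 N) (ZMod n)) :
        Additive (CongruenceSubgroup.Gamma0 N) →+ ZMod n) = φ :=
  hC.1 _ _ _ (f : (FNL ℂ N)ˣ).ne_zero (hasChar_charOf N n hM f) h

/-- the character map as a monoid homomorphism. -/
def charHom (hM : Stmt_MONO N n) (hC : Stmt_CHAR N n) :
    unrSubgroup ℂ (FNL ℂ N) n →* Multiplicative (homPE (CongruenceSubgroup.Gamma0 N) (ZMod n)) where
  toFun f := Multiplicative.ofAdd (charOf N n hM f)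
  map_one' := by
    have h1 : HasChar N n (((1 : unrSubgroup ℂ (FNL ℂ N) n) : (FNL ℂ N)ˣ) : FNL ℂ N) 0 := by
      have := hC.2.2 (1 : FNL ℂ N) one_ne_zero
      simpa using this
    have h2 := charOf_eq N n hM hC 1 0 h1
    have h3 : charOf N n hM 1 = 0 := Subtype.ext h2
    rw [h3]; rfl
  map_mul' f g := by
    have h1 := hC.2.1 _ _ _ _ (f : (FNL ℂ N)ˣ).ne_zero (g : (FNL ℂ N)ˣ).ne_zero
      (hasChar_charOf N n hM f) (hasChar_charOf N n hM g)
    have h2 := charOf_eq N n hM hC (f * g) _ (by simpa using h1)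
    have h3 : charOf N n hM (f * g) = charOf N n hM f + charOf N n hM g := Subtype.ext h2
    rw [h3]; rfl

theorem charHom_apply (hM : Stmt_MONO N n) (hC : Stmt_CHAR N n)
    (f : unrSubgroup ℂ (FNL ℂ N) n) :
    charHom N n hM hC f = Multiplicative.ofAdd (charOf N n hM f) := rfl

theorem charHom_surjective (hM : Stmt_MONO N n) (hC : Stmt_CHAR N n) (hE : Stmt_EXIST N n) :
    Function.Surjective (charHom N n hM hC) := by
  intro φ
  obtain ⟨f, hf⟩ := hE (Multiplicative.toAdd φ).1 (Multiplicative.toAdd φ).2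
  refine ⟨f, ?_⟩
  rw [charHom_apply]
  have h2 := charOf_eq N n hM hC f _ hf
  have h3 : charOf N n hM f = Multiplicative.toAdd φ := Subtype.ext h2
  rw [h3]; rfl

theorem ker_charHom (hM : Stmt_MONO N n) (hC : Stmt_CHAR N n) (hI : Stmt_INJ N n) :
    (charHom N n hM hC).ker = powSubgroup ℂ (FNL ℂ N) n := by
  ext f
  rw [MonoidHom.mem_ker, charHom_apply]
  constructor
  · intro h
    have h0 : charOf N n hM f = 0 := by
      have := congrArg Multiplicative.toAdd h
      simpa using this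
    have h1 := hasChar_charOf N n hM f
    rw [h0] at h1
    obtain ⟨g, hg⟩ := hI _ (f : (FNL ℂ N)ˣ).ne_zero (by simpa using h1)
    rw [powSubgroup, Subgroup.mem_subgroupOf, MonoidHom.mem_range]
    by_cases hg0 : g = 0
    · by_cases hn : n = 0
      · refine ⟨1, ?_⟩
        apply Units.ext
        subst hn
        simp [hg]
      · exfalso
        apply (f : (FNL ℂ N)ˣ).ne_zero
        rw [hg, hg0, zero_pow hn]
    · refine ⟨Units.mk0 g hg0, ?_⟩
      apply Units.ext
      simp [hg]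
  · intro h
    rw [powSubgroup, Subgroup.mem_subgroupOf, MonoidHom.mem_range] at h
    obtain ⟨g, hg⟩ := h
    have h1 := hC.2.2 (g : FNL ℂ N) g.ne_zero
    have h2 : ((f : (FNL ℂ N)ˣ) : FNL ℂ N) = (g : FNL ℂ N) ^ n := by
      rw [← hg]; simp
    rw [← h2] at h1
    have h3 := charOf_eq N n hM hC f 0 h1
    have h4 : charOf N n hM f = 0 := Subtype.ext h3
    rw [h4]; rfl

/-- **BETTI** from its four inputs. -/
theorem betti_of (hM : Stmt_MONO N n) (hC : Stmt_CHAR N n) (hI : Stmt_INJ N n)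
    (hE : Stmt_EXIST N n) : Stmt_BETTI N n := by
  have hker := ker_charHom N n hM hC hI
  let e₁ : UnrKummer ℂ (FNL ℂ N) n ≃* (unrSubgroup ℂ (FNL ℂ N) n ⧸ (charHom N n hM hC).ker) :=
    QuotientGroup.quotientMulEquivOfEq hker.symm
  let e₂ := QuotientGroup.quotientKerEquivOfSurjective (charHom N n hM hC)
    (charHom_surjective N n hM hC hE)
  refine ⟨MulEquiv.toAdditiveLeft (e₁.trans e₂), fun f => ?_⟩
  have : (MulEquiv.toAdditiveLeft (e₁.trans e₂)) (Additive.ofMul (QuotientGroup.mk f))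
      = charOf N n hM f := rfl
  rw [this]
  exact hasChar_charOf N n hM f

end Fermat.Agent.GTor.H81
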