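import Fermat.Agent.GTor.TateDefs

/-!
# G-TOR plumbing: `Stmt_TORc` (hence `Stmt_TOR`) from `Stmt_KUM`, `Stmt_DESC`, `Stmt_BETTI`,
`Stmt_CHAR`  (helper81)
-/

set_option autoImplicit false

noncomputable section

namespace Fermat.Agent.GTor.H81

open AlgebraicCurve ModularCurve Fermat.Agent.GTor
open scoped MatrixGroups

/-! ## The map on Kummer classes induced by a ring homomorphism -/

section KumMap

variable {K₁ F₁ K₂ F₂ : Type*} [Field K₁] [Field F₁] [Algebra K₁ F₁]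
  [Field K₂] [Field F₂] [Algebra K₂ F₂] (bc : F₁ →+* F₂) (n : ℕ)

/-- the map on unramified functions. -/
def unrMap (h : ∀ f : F₁, f ≠ 0 → (∀ v : Place K₁ F₁, (n : ℤ) ∣ v.ord f) →
      ∀ w : Place K₂ F₂, (n : ℤ) ∣ w.ord (bc f)) :
    unrSubgroup K₁ F₁ n →* unrSubgroup K₂ F₂ n where
  toFun f := ⟨Units.map (bc : F₁ →* F₂) (f : F₁ˣ), fun w => by
    have := h ((f : F₁ˣ) : F₁) (f : F₁ˣ).ne_zero f.2 w
    simpa using this⟩
  map_one' := by
    apply Subtype.ext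
    simp
  map_mul' f g := by
    apply Subtype.ext
    simp

@[simp]
theorem coe_unrMap (h : ∀ f : F₁, f ≠ 0 → (∀ v : Place K₁ F₁, (n : ℤ) ∣ v.ord f) →
      ∀ w : Place K₂ F₂, (n : ℤ) ∣ w.ord (bc f)) (f : unrSubgroup K₁ F₁ n) :
    (((unrMap bc n h f : unrSubgroup K₂ F₂ n) : F₂ˣ) : F₂) = bc ((f : F₁ˣ) : F₁) := rfl

theorem mem_powSubgroup_iff {K F : Type*} [Field K] [Field F] [Algebra K F] {n : ℕ}
    (f : unrSubgroup K F n) :
    f ∈ powSubgroup K F n ↔ ∃ h : F, ((f : Fˣ) : F) = h ^ n := by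
  constructor
  · rintro ⟨g, hg⟩
    refine ⟨(g : F), ?_⟩
    have : (g ^ n : Fˣ) = (f : Fˣ) := hg
    rw [← this]
    simp
  · rintro ⟨h, hh⟩
    rcases Nat.eq_zero_or_pos n with h0 | hpos
    · subst h0
      refine ⟨1, ?_⟩
      show (1 : Fˣ) ^ 0 = (f : Fˣ)
      apply Units.ext
      simpa using hh.symm
    · have hne : h ≠ 0 := by
        rintro rfl
        rw [zero_pow hpos.ne'] at hh
        exact (f : Fˣ).ne_zero hh
      refine ⟨Units.mk0 h hne, ?_⟩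
      show (Units.mk0 h hne) ^ n = (f : Fˣ)
      apply Units.ext
      simpa using hh.symm

/-- the map on Kummer classes. -/
def kumMap (h : ∀ f : F₁, f ≠ 0 → (∀ v : Place K₁ F₁, (n : ℤ) ∣ v.ord f) →
      ∀ w : Place K₂ F₂, (n : ℤ) ∣ w.ord (bc f)) :
    UnrKummer K₁ F₁ n →* UnrKummer K₂ F₂ n :=
  QuotientGroup.map (powSubgroup K₁ F₁ n) (powSubgroup K₂ F₂ n) (unrMap bc n h) (by
    intro f hf
    rw [Subgroup.mem_comap, mem_powSubgroup_iff]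
    obtain ⟨g, hg⟩ := (mem_powSubgroup_iff f).1 hf
    exact ⟨bc g, by rw [coe_unrMap, hg, map_pow]⟩)

@[simp]
theorem kumMap_mk (h : ∀ f : F₁, f ≠ 0 → (∀ v : Place K₁ F₁, (n : ℤ) ∣ v.ord f) →
      ∀ w : Place K₂ F₂, (n : ℤ) ∣ w.ord (bc f)) (f : unrSubgroup K₁ F₁ n) :
    kumMap bc n h (QuotientGroup.mk f) = QuotientGroup.mk (unrMap bc n h f) := rfl

theorem kumMap_injective (h : ∀ f : F₁, f ≠ 0 → (∀ v : Place K₁ F₁, (n : ℤ) ∣ v.ord f) →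
      ∀ w : Place K₂ F₂, (n : ℤ) ∣ w.ord (bc f))
    (hinj : ∀ f : F₁, f ≠ 0 → (∃ g : F₂, bc f = g ^ n) → ∃ g₀ : F₁, f = g₀ ^ n) :
    Function.Injective (kumMap bc n h) := by
  rw [injective_iff_map_eq_one]
  intro x hx
  obtain ⟨f, rfl⟩ := QuotientGroup.mk_surjective x
  rw [kumMap_mk, QuotientGroup.eq_one_iff, mem_powSubgroup_iff] at hx
  rw [QuotientGroup.eq_one_iff, mem_powSubgroup_iff]
  obtain ⟨g, hg⟩ := hx
  exact hinj _ (f : F₁ˣ).ne_zero ⟨g, by rw [← hg, coe_unrMap]⟩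

theorem kumMap_surjective (h : ∀ f : F₁, f ≠ 0 → (∀ v : Place K₁ F₁, (n : ℤ) ∣ v.ord f) →
      ∀ w : Place K₂ F₂, (n : ℤ) ∣ w.ord (bc f))
    (hconv : ∀ f : F₁, f ≠ 0 → (∀ w : Place K₂ F₂, (n : ℤ) ∣ w.ord (bc f)) →
      ∀ v : Place K₁ F₁, (n : ℤ) ∣ v.ord f)
    (hsurj : ∀ f : F₂, f ≠ 0 → (∀ w : Place K₂ F₂, (n : ℤ) ∣ w.ord f) →
      ∃ (f₀ : F₁) (g : F₂), f₀ ≠ 0 ∧ g ≠ 0 ∧ f = bc f₀ * g ^ n) :
    Function.Surjective (kumMap bc n h) := by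
  intro y
  obtain ⟨f, rfl⟩ := QuotientGroup.mk_surjective y
  obtain ⟨f₀, g, hf₀, hg, hfg⟩ := hsurj ((f : F₂ˣ) : F₂) (f : F₂ˣ).ne_zero f.2
  have hbc0 : bc f₀ ≠ 0 := by
    intro h0
    rw [h0, zero_mul] at hfg
    exact (f : F₂ˣ).ne_zero hfg
  have hunr : ∀ w : Place K₂ F₂, (n : ℤ) ∣ w.ord (bc f₀) := by
    intro w
    have h1 : bc f₀ = ((f : F₂ˣ) : F₂) * (g ^ n)⁻¹ := by
      rw [hfg]; field_simp
    rw [h1, w.ord_mul (f : F₂ˣ).ne_zero (inv_ne_zero (pow_ne_zero n hg)), w.ord_inv]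
    refine dvd_add (f.2 w) ((dvd_neg).mpr ?_)
    have : w.ord (g ^ n) = (n : ℤ) * w.ord g := by
      have := w.ord_zpow g (n : ℤ)
      simpa using this
    rw [this]
    exact dvd_mul_right _ _
  let f₁ : unrSubgroup K₁ F₁ n := ⟨Units.mk0 f₀ hf₀, fun v => by
    simpa using hconv f₀ hf₀ hunr v⟩
  refine ⟨QuotientGroup.mk f₁, ?_⟩
  rw [kumMap_mk, QuotientGroup.eq, mem_powSubgroup_iff]
  refine ⟨g, ?_⟩
  have h2 : (((unrMap bc n h f₁)⁻¹ * f : unrSubgroup K₂ F₂ n) : F₂ˣ) =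
      (Units.map (bc : F₁ →* F₂) (Units.mk0 f₀ hf₀))⁻¹ * (f : F₂ˣ) := rfl
  rw [h2]
  simp only [Units.val_mul, Units.val_inv_eq_inv_val, Units.coe_map, Units.val_mk0,
    MonoidHom.coe_coe]
  rw [hfg]
  field_simp

/-- the equivalence on Kummer classes. -/
def kumEquiv (h : ∀ f : F₁, f ≠ 0 → (∀ v : Place K₁ F₁, (n : ℤ) ∣ v.ord f) →
      ∀ w : Place K₂ F₂, (n : ℤ) ∣ w.ord (bc f))
    (hconv : ∀ f : F₁, f ≠ 0 → (∀ w : Place K₂ F₂, (n : ℤ) ∣ w.ord (bc f)) →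
      ∀ v : Place K₁ F₁, (n : ℤ) ∣ v.ord f)
    (hinj : ∀ f : F₁, f ≠ 0 → (∃ g : F₂, bc f = g ^ n) → ∃ g₀ : F₁, f = g₀ ^ n)
    (hsurj : ∀ f : F₂, f ≠ 0 → (∀ w : Place K₂ F₂, (n : ℤ) ∣ w.ord f) →
      ∃ (f₀ : F₁) (g : F₂), f₀ ≠ 0 ∧ g ≠ 0 ∧ f = bc f₀ * g ^ n) :
    UnrKummer K₁ F₁ n ≃* UnrKummer K₂ F₂ n :=
  MulEquiv.ofBijective (kumMap bc n h)
    ⟨kumMap_injective bc n h hinj, kumMap_surjective bc n h hconv hsurj⟩

end KumMap

/-! ## `Stmt_TORc` -/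

section Tor

variable (N n : ℕ) [NeZero N]

omit [NeZero N] in
theorem eq_of_isBaseChange {ι : AlgebraicClosure ℚ →+* ℂ}
    {bc : FNL (AlgebraicClosure ℚ) N →+* FNL ℂ N} (hbc : IsBaseChange ι N bc)
    (f : FNL (AlgebraicClosure ℚ) N) (f' : FNL ℂ N)
    (h : ∀ m : ℤ, (f' : LaurentSeries ℂ).coeff m =
      ι ((f : LaurentSeries (AlgebraicClosure ℚ)).coeff m)) : bc f = f' := by
  apply Subtype.ext
  apply HahnSeries.ext
  funext m
  rw [hbc f m, h m]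

/-- **TORc** from KUM over `ℚ̄`, DESC, BETTI and CHAR. -/
theorem torc_of (hK : Stmt_KUM (AlgebraicClosure ℚ) (FNL (AlgebraicClosure ℚ) N) n)
    (hD : Stmt_DESC N n) (hB : Stmt_BETTI N n) (hC : Stmt_CHAR N n) : Stmt_TORc N n := by
  intro ι
  obtain ⟨eK, heK⟩ := hK
  obtain ⟨eB, heB⟩ := hB
  obtain ⟨bc, hbc, h1, h2, h3⟩ := hD ι
  have hfw : ∀ f : FNL (AlgebraicClosure ℚ) N, f ≠ 0 →
      (∀ v : Place (AlgebraicClosure ℚ) (FNL (AlgebraicClosure ℚ) N), (n : ℤ) ∣ v.ord f) →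
      ∀ w : Place ℂ (FNL ℂ N), (n : ℤ) ∣ w.ord (bc f) := fun f hf => (h1 f hf).1
  have hbw : ∀ f : FNL (AlgebraicClosure ℚ) N, f ≠ 0 →
      (∀ w : Place ℂ (FNL ℂ N), (n : ℤ) ∣ w.ord (bc f)) →
      ∀ v : Place (AlgebraicClosure ℚ) (FNL (AlgebraicClosure ℚ) N), (n : ℤ) ∣ v.ord f :=
    fun f hf => (h1 f hf).2
  let eD : UnrKummer (AlgebraicClosure ℚ) (FNL (AlgebraicClosure ℚ) N) n ≃*
      UnrKummer ℂ (FNL ℂ N) n := kumEquiv bc n hfw hbw h2 h3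
  let eD' : Additive (UnrKummer (AlgebraicClosure ℚ) (FNL (AlgebraicClosure ℚ) N) n) ≃+
      Additive (UnrKummer ℂ (FNL ℂ N) n) := MulEquiv.toAdditive eD
  let e : Pic0.torsion (AlgebraicClosure ℚ) (modularFunctionFieldBar N) n ≃+
      homPE (CongruenceSubgroup.Gamma0 N) (ZMod n) := (eK.symm.trans eD').trans eB
  -- the key computation
  have key : ∀ (D : Divisor.degZero (K := AlgebraicClosure ℚ) (F := FNL (AlgebraicClosure ℚ) N))
      (f : FNL (AlgebraicClosure ℚ) N) (f' : FNL ℂ N) (hf : f ≠ 0)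
      (x : Pic0.torsion (AlgebraicClosure ℚ) (modularFunctionFieldBar N) n),
      (x : JZero N) = Pic0.mk D →
      (∀ v : Place (AlgebraicClosure ℚ) (FNL (AlgebraicClosure ℚ) N),
        (n : ℤ) * (D : Divisor (AlgebraicClosure ℚ) (FNL (AlgebraicClosure ℚ) N)) v = v.ord f) →
      (∀ m : ℤ, (f' : LaurentSeries ℂ).coeff m =
        ι ((f : LaurentSeries (AlgebraicClosure ℚ)).coeff m)) →
      HasChar N n f' ((e x : homPE (CongruenceSubgroup.Gamma0 N) (ZMod n)) :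
        Additive (CongruenceSubgroup.Gamma0 N) →+ ZMod n) := by
    intro D f f' hf x hx hdiv hcoef
    let fu : unrSubgroup (AlgebraicClosure ℚ) (FNL (AlgebraicClosure ℚ) N) n :=
      ⟨Units.mk0 f hf, fun v => ⟨_, (hdiv v).symm⟩⟩
    have hx' : eK (Additive.ofMul (QuotientGroup.mk fu)) = x := by
      apply Subtype.ext
      rw [heK fu D (fun v => hdiv v), hx]
    have hx'' : eK.symm x = Additive.ofMul (QuotientGroup.mk fu) := by
      rw [← hx', AddEquiv.symm_apply_apply]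
    have he : e x = eB (Additive.ofMul (QuotientGroup.mk (unrMap bc n hfw fu))) := by
      show eB (eD' (eK.symm x)) = _
      rw [hx'']
      rfl
    rw [he]
    have := heB (unrMap bc n hfw fu)
    rw [coe_unrMap] at this
    have hbcf : bc f = f' := eq_of_isBaseChange N hbc f f' hcoef
    have hfu : ((fu : (FNL (AlgebraicClosure ℚ) N)ˣ) : FNL (AlgebraicClosure ℚ) N) = f := rfl
    rw [hfu, hbcf] at this
    exact this
  refine ⟨e, ?_, ?_⟩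
  · intro x
    obtain ⟨D, hD⟩ := Pic0.mk_surjective (x : JZero N)
    have hxn : (n : ℤ) • (x : JZero N) = 0 := Pic0.mem_torsion.1 x.2
    have hprin : ((n : ℤ) • D : Divisor.degZero (K := AlgebraicClosure ℚ)
        (F := FNL (AlgebraicClosure ℚ) N)) ∈
        (Divisor.principal (K := AlgebraicClosure ℚ)
          (F := FNL (AlgebraicClosure ℚ) N)).addSubgroupOf Divisor.degZero := by
      rw [← QuotientAddGroup.eq_zero_iff]
      have : ((QuotientAddGroup.mk ((n : ℤ) • D)) : JZero N) = (n : ℤ) • Pic0.mk D := rfl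
      rw [this, hD]
      exact hxn
    obtain ⟨f, hf, hfD⟩ := hprin
    refine ⟨D, f, bc f, hf, hD.symm, fun v => ?_, fun m => hbc f m, ?_⟩
    · rw [← hfD v]
      simp
    · refine key D f (bc f) hf x hD.symm (fun v => ?_) (fun m => hbc f m)
      rw [← hfD v]
      simp
  · rintro x φ ⟨D, f, f', hf, hx, hdiv, hcoef, hchar⟩
    have h := key D f f' hf x hx hdiv hcoef
    have hf' : f' ≠ 0 := by
      intro h0
      have hbcf : bc f = f' := eq_of_isBaseChange N hbc f f' hcoef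
      rw [h0] at hbcf
      exact hf ((map_eq_zero bc).1 hbcf)
    exact hC.1 f' _ _ hf' hchar h

/-- `Stmt_TOR` from `Stmt_TORc`. -/
theorem tor_of_torc (h : Stmt_TORc N n) : Stmt_TOR N n := by
  have : Algebra.IsAlgebraic ℚ (AlgebraicClosure ℚ) := AlgebraicClosure.isAlgebraic ℚ
  obtain ⟨ι⟩ : Nonempty (AlgebraicClosure ℚ →+* ℂ) :=
    ⟨((IsAlgClosed.lift : AlgebraicClosure ℚ →ₐ[ℚ] ℂ) : AlgebraicClosure ℚ →+* ℂ)⟩
  obtain ⟨e, -, -⟩ := h ι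
  exact ⟨e⟩

end Tor

end Fermat.Agent.GTor.H81
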