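import Fermat.Agent.GTor.TateDefs
import Fermat.Agent.S37.H36_Wiring

/-!
# G-TOR plumbing: inertia and Eichler–Shimura on `p`-power torsion from G-RED's `RedPackage`
(helper81)
-/

set_option autoImplicit false

noncomputable section

namespace Fermat.Agent.GTor.H81

open AlgebraicCurve ModularCurve Fermat.Agent.GTor Fermat.Agent.S37

variable (N p : ℕ) [NeZero N]

/-- The hypothesis of G-RED: a reduction package at every place over every prime `ℓ ∤ N p`. -/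
def AllRed : Prop :=
  ∀ ℓ : ℕ, (hℓ : ℓ.Prime) → ¬ ℓ ∣ N * p →
    ∀ A : ValuationSubring (AlgebraicClosure ℚ), A.LiesOverPrime ℓ →
      haveI : NeZero ℓ := ⟨hℓ.ne_zero⟩
      RedPackage N p ℓ A

variable {N p}

omit [NeZero N] in
theorem not_dvd_mul_of_prime (hp : p.Prime) {q : ℕ} (hq : q.Prime) (hqN : ¬ q ∣ N)
    (hqp : q ≠ p) : ¬ q ∣ N * p := by
  intro h
  rcases (Nat.Prime.dvd_mul hq).1 h with h | h
  · exact hqN h
  · exact hqp ((Nat.prime_dvd_prime_iff_eq hq hp).1 h)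

/-- the action of a Galois element as an additive map. -/
def galHom (N : ℕ) [NeZero N] (σ : GQ) : JZero N →+ JZero N where
  toFun x := σ • x
  map_zero' := smul_zero σ
  map_add' := smul_add σ

@[simp] theorem galHom_apply (σ : GQ) (x : JZero N) : galHom N σ x = σ • x := rfl

theorem gal_nsmul (σ : GQ) (m : ℕ) (x : JZero N) : m • (σ • x) = σ • (m • x) :=
  ((galHom N σ).map_nsmul m x).symm

theorem gal_sub (σ : GQ) (x y : JZero N) : σ • (x - y) = σ • x - σ • y :=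
  (galHom N σ).map_sub x y

theorem gal_zero (σ : GQ) : σ • (0 : JZero N) = 0 := (galHom N σ).map_zero

theorem torsion_smul (σ : GQ) {x : JZero N} (hx : ∃ n : ℕ, p ^ n • x = 0) :
    ∃ n : ℕ, p ^ n • (σ • x) = 0 := by
  obtain ⟨n, hn⟩ := hx
  exact ⟨n, by rw [gal_nsmul, hn, gal_zero]⟩

/-- inertia acts trivially on `p`-power torsion. -/
theorem torsUnram_of_red (hp : p.Prime) (hred : AllRed N p) : Stmt_TorsUnram N p := by
  intro q hq hqN hqp P hP σ hσ x hx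
  have : NeZero q := ⟨hq.ne_zero⟩
  obtain ⟨Y, _, red, σ₀, -, h1, -, h3, -⟩ := hred q hq (not_dvd_mul_of_prime hp hq hqN hqp) P hP
  obtain ⟨n, hn⟩ := hx
  have h0 : red (σ • x - x) = 0 := by rw [map_sub, h1 σ hσ x, sub_self]
  have ht : p ^ n • (σ • x - x) = 0 := by
    rw [nsmul_sub, gal_nsmul, hn, gal_zero, sub_zero]
  exact sub_eq_zero.1 (h3 _ ⟨n, ht⟩ h0)

/-- the Eichler–Shimura relation on `p`-power torsion, for all Frobenius elements. -/
theorem torsES_of_red (hp : p.Prime) (hred : AllRed N p) : Stmt_TorsES N p := by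
  intro ℓ hℓ hℓN hℓp A hA σ hσ x hx
  have : NeZero ℓ := ⟨hℓ.ne_zero⟩
  have hunr := torsUnram_of_red hp hred ℓ hℓ hℓN hℓp A hA
  obtain ⟨Y, _, red, σ₀, hσ₀, -, -, h3, h4⟩ :=
    hred ℓ hℓ (not_dvd_mul_of_prime hp hℓ hℓN hℓp) A hA
  -- `σ = σ₀ τ` with `τ` in inertia
  have hτ := frobenius_div_mem_inertia A ℓ σ₀ σ hσ₀ hσ
  have hσx : ∀ y : JZero N, (∃ n : ℕ, p ^ n • y = 0) → σ • y = σ₀ • y := by
    intro y hy
    have h := hunr (σ₀⁻¹ * σ) hτ y hy
    have : σ • y = σ₀ • ((σ₀⁻¹ * σ) • y) := by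
      rw [← mul_smul, mul_inv_cancel_left]
    rw [this, h]
  rw [hσx x hx, hσx (σ₀ • x) (torsion_smul σ₀ hx)]
  obtain ⟨n, hn⟩ := hx
  have hT : heckeOperatorBar N ⟨ℓ, hℓ⟩ (σ₀ • x) =
      heckeOperatorAlong (AlgebraicClosure ℚ) N ℓ (σ₀ • x) := rfl
  rw [hT]
  refine h3 _ ⟨n, ?_⟩ (h4 x)
  have e1 : p ^ n • (σ₀ • σ₀ • x) = 0 := by
    rw [gal_nsmul, gal_nsmul, hn, gal_zero, gal_zero]
  have e2 : p ^ n • (heckeOperatorAlong (AlgebraicClosure ℚ) N ℓ (σ₀ • x)) = 0 := by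
    rw [← map_nsmul, gal_nsmul, hn, gal_zero, map_zero]
  have e3 : p ^ n • (ℓ • x) = 0 := by
    rw [smul_comm, hn, smul_zero]
  rw [nsmul_add, nsmul_sub, e1, e2, e3, sub_zero, add_zero]

end Fermat.Agent.GTor.H81
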