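/-
helper96: package MONO of cluster G-TOR.

`stmt_MONO : n ≠ 0 → Stmt_A1 N → Stmt_A3 N → Stmt_A4 N → Stmt_MONO N n`:
an unramified function `f = A / B` has a character in `homPE`: the holomorphic `n`-th root `R`
of `A * B ^ (n - 1)` (package NR) transforms under `Γ₀(N)` by a character `χ` with values in
`μ_n`, which is trivial on elliptic elements (LOC-ELL), on parabolic elements (LOC-CUSP) and
on `-1`.
-/
import Fermat.Agent.GTor.H96_MonoAux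

set_option autoImplicit false

noncomputable section

namespace Fermat.Agent.GTor.H96

open Complex UpperHalfPlane Filter Topology Function ModularForm
open scoped MatrixGroups ModularForm Manifold Real

variable {N : ℕ} {n : ℕ} {k : ℤ}

theorem exists_ne_zero_of_ne_zero {A : ModularForm (CongruenceSubgroup.Gamma0 N) k}
    (hA : A ≠ 0) : ∃ τ : ℍ, A τ ≠ 0 := by
  by_contra h
  push Not at h
  exact hA (by ext z; simpa using h z)

theorem coe_ne_zero_of_ne_zero {A : ModularForm (CongruenceSubgroup.Gamma0 N) k}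
    (hA : A ≠ 0) : (A : ℍ → ℂ) ≠ 0 := by
  obtain ⟨τ, hτ⟩ := exists_ne_zero_of_ne_zero hA
  intro h
  exact hτ (by rw [h]; rfl)

/-- The product `A * B ^ (n - 1)` of nonzero modular forms is not identically zero. -/
theorem exists_mul_pow_ne_zero [NeZero N] (A B : ModularForm (CongruenceSubgroup.Gamma0 N) k)
    (hA : A ≠ 0) (hB : B ≠ 0) (m : ℕ) : ∃ τ : ℍ, A τ * B τ ^ m ≠ 0 := by
  have hA' := (isCuspRegular_slash A 1)
  have hB' := (isCuspRegular_slash B 1)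
  rw [SlashAction.slash_one] at hA' hB'
  have hN : (0 : ℝ) < (N : ℝ) := by exact_mod_cast Nat.pos_of_ne_zero (NeZero.ne N)
  have h1 : qExpansion (N : ℝ) ((A : ℍ → ℂ) * (B : ℍ → ℂ) ^ m) ≠ 0 := by
    rw [hA'.qExpansion_mul hN (hB'.pow m), hB'.qExpansion_pow hN]
    exact mul_ne_zero (hA'.qExpansion_ne_zero hN (coe_ne_zero_of_ne_zero hA))
      (pow_ne_zero _ (hB'.qExpansion_ne_zero hN (coe_ne_zero_of_ne_zero hB)))
  by_contra h
  push Not at h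
  apply h1
  have : ((A : ℍ → ℂ) * (B : ℍ → ℂ) ^ m) = 0 := by
    funext z
    simpa using h z
  rw [this, UpperHalfPlane.qExpansion_zero]

theorem mdiff_coe (A : ModularForm (CongruenceSubgroup.Gamma0 N) k) :
    MDifferentiable 𝓘(ℂ) 𝓘(ℂ) (A : ℍ → ℂ) := A.holo'

/-- The orders of vanishing of a root of `A * B ^ (n - 1)`. -/
theorem ordAt_root (hn : n ≠ 0) (A B : ModularForm (CongruenceSubgroup.Gamma0 N) k)
    (hA : A ≠ 0) (hB : B ≠ 0) {R : ℍ → ℂ} (hR : MDifferentiable 𝓘(ℂ) 𝓘(ℂ) R)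
    (hRn : ∀ z : ℍ, R z ^ n = A z * B z ^ (n - 1)) (z : ℍ) :
    (n : ℤ) * ordAt R z = ordAt A z + ((n : ℤ) - 1) * ordAt B z := by
  have hAan := Fermat.Agent.Lib.NthRoot.analyticOnNhd_comp_ofComplex (mdiff_coe A) z z.im_pos
  have hBan := Fermat.Agent.Lib.NthRoot.analyticOnNhd_comp_ofComplex (mdiff_coe B) z z.im_pos
  have hRan := Fermat.Agent.Lib.NthRoot.analyticOnNhd_comp_ofComplex hR z z.im_pos
  have hAtop := analyticOrderAt_ne_top_of_mdifferentiable (mdiff_coe A)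
    (exists_ne_zero_of_ne_zero hA) z
  have hBtop := analyticOrderAt_ne_top_of_mdifferentiable (mdiff_coe B)
    (exists_ne_zero_of_ne_zero hB) z
  have hfun : (R ∘ UpperHalfPlane.ofComplex) ^ n
      = ((A : ℍ → ℂ) ∘ UpperHalfPlane.ofComplex) *
        ((B : ℍ → ℂ) ∘ UpperHalfPlane.ofComplex) ^ (n - 1) := by
    funext x
    simp only [Pi.pow_apply, Pi.mul_apply, Function.comp_apply]
    exact hRn _
  have hBpow : analyticOrderAt (((B : ℍ → ℂ) ∘ UpperHalfPlane.ofComplex) ^ (n - 1)) (z : ℂ) ≠ ⊤ := by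
    rw [analyticOrderAt_pow hBan]
    lift analyticOrderAt ((B : ℍ → ℂ) ∘ UpperHalfPlane.ofComplex) (z : ℂ) to ℕ using hBtop with b
    rw [nsmul_eq_mul]
    exact_mod_cast ENat.natCast_ne_top _
  have h1 := congrArg (fun g => analyticOrderNatAt g (z : ℂ)) hfun
  beta_reduce at h1
  rw [analyticOrderNatAt_pow hRan, analyticOrderNatAt_mul hAan (hBan.pow _) hAtop hBpow,
    analyticOrderNatAt_pow hBan] at h1
  have hn1 : (((n - 1 : ℕ) : ℕ) : ℤ) = (n : ℤ) - 1 := by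
    have : 1 ≤ n := Nat.one_le_iff_ne_zero.mpr hn
    push_cast [Nat.cast_sub this]
    ring
  unfold ordAt
  have h2 : ((n • analyticOrderNatAt (R ∘ UpperHalfPlane.ofComplex) (z : ℂ) : ℕ) : ℤ)
      = ((analyticOrderNatAt ((A : ℍ → ℂ) ∘ UpperHalfPlane.ofComplex) (z : ℂ)
        + (n - 1) • analyticOrderNatAt ((B : ℍ → ℂ) ∘ UpperHalfPlane.ofComplex) (z : ℂ) : ℕ) : ℤ) := by
    rw [h1]
  simp only [smul_eq_mul, Nat.cast_mul, Nat.cast_add, hn1] at h2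
  exact h2

theorem exists_root_ne_zero [NeZero N] (hn : n ≠ 0)
    (A B : ModularForm (CongruenceSubgroup.Gamma0 N) k)
    (hA : A ≠ 0) (hB : B ≠ 0) {R : ℍ → ℂ}
    (hRn : ∀ z : ℍ, R z ^ n = A z * B z ^ (n - 1)) : ∃ τ : ℍ, R τ ≠ 0 := by
  obtain ⟨τ, hτ⟩ := exists_mul_pow_ne_zero A B hA hB (n - 1)
  refine ⟨τ, fun h0 => hτ ?_⟩
  rw [← hRn, h0, zero_pow hn]

/-- **MONO, elliptic points.** The character of the root is trivial on the stabiliser of a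
point at which the order of `A / B` is divisible by `n * ellOrder`. -/
theorem chi_eq_one_of_fixed [NeZero N] (hn : n ≠ 0)
    (A B : ModularForm (CongruenceSubgroup.Gamma0 N) k)
    (hA : A ≠ 0) (hB : B ≠ 0) {R : ℍ → ℂ} (hR : MDifferentiable 𝓘(ℂ) 𝓘(ℂ) R)
    (hRn : ∀ z : ℍ, R z ^ n = A z * B z ^ (n - 1))
    {χ : CongruenceSubgroup.Gamma0 N →* ℂˣ}
    (hχ : ∀ γ : CongruenceSubgroup.Gamma0 N,
      R ∣[k] (γ : SL(2, ℤ)) = fun z => ((χ γ : ℂˣ) : ℂ) * R z)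
    {γ : CongruenceSubgroup.Gamma0 N} {z₀ : ℍ} (hfix : ((γ : SL(2, ℤ))) • z₀ = z₀)
    (he : 0 < ellOrder N z₀) {t : ℤ}
    (ht : ordAt A z₀ - ordAt B z₀ = (ellOrder N z₀ : ℤ) * ((n : ℤ) * t)) : χ γ = 1 := by
  set j : ℂ := denom ((γ : SL(2, ℤ))) z₀ with hj
  have hj0 : j ≠ 0 := UpperHalfPlane.denom_ne_zero _ z₀
  have h1 : ((χ γ : ℂˣ) : ℂ) = j ^ (-k - 2 * ordAt R z₀) :=
    multiplier_at_fixed_point hR (exists_root_ne_zero hn A B hA hB hRn) hfix (hχ γ)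
  have h2 : (1 : ℂ) = j ^ (-k - 2 * ordAt B z₀) :=
    multiplier_at_fixed_point (mdiff_coe B) (exists_ne_zero_of_ne_zero hB) hfix
      (by rw [slash_eq_of_mem_Gamma0 B γ]; funext z; rw [one_mul])
  have h3 := ordAt_root hn A B hA hB hR hRn z₀
  have hnZ : (n : ℤ) ≠ 0 := by exact_mod_cast hn
  have h4 : ordAt R z₀ - ordAt B z₀ = (ellOrder N z₀ : ℤ) * t := by
    have : (n : ℤ) * (ordAt R z₀ - ordAt B z₀) = (n : ℤ) * ((ellOrder N z₀ : ℤ) * t) := by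
      linear_combination h3 + ht
    exact mul_left_cancel₀ hnZ this
  have h5 : j ^ (2 * ellOrder N z₀) = 1 := denom_pow_two_mul_ellOrder he hfix
  have h6 : (-k - 2 * ordAt R z₀) = (-k - 2 * ordAt B z₀) + ((2 * ellOrder N z₀ : ℕ) : ℤ) * (-t) := by
    push_cast
    linear_combination -2 * h4
  apply Units.ext
  rw [h1, h6, zpow_add₀ hj0, ← h2, one_mul, zpow_mul, zpow_natCast, h5, one_zpow, Units.val_one]

theorem cuspWidth_eq_sInf (N : ℕ) (σ : SL(2, ℤ)) :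
    cuspWidth N σ = sInf {h : ℕ | 0 < h ∧
      (σ * ModularGroup.T * σ⁻¹) ^ h ∈ CongruenceSubgroup.Gamma0 N} := by
  unfold cuspWidth
  congr 1
  ext h
  simp only [Set.mem_ofPred_eq, conj_pow]

theorem conj_T_cuspWidth_mem {N : ℕ} {σ : SL(2, ℤ)} (hw : 0 < cuspWidth N σ) :
    σ * ModularGroup.T ^ ((cuspWidth N σ : ℕ) : ℤ) * σ⁻¹ ∈ CongruenceSubgroup.Gamma0 N := by
  have hne : {h : ℕ | 0 < h ∧ σ * ModularGroup.T ^ h * σ⁻¹
      ∈ CongruenceSubgroup.Gamma0 N}.Nonempty := by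
    by_contra hempty
    rw [Set.not_nonempty_iff_eq_empty] at hempty
    unfold cuspWidth at hw
    rw [hempty, Nat.sInf_empty] at hw
    exact lt_irrefl 0 hw
  have := (Nat.sInf_mem hne).2
  rw [zpow_natCast]
  exact this

theorem cuspWidth_dvd_of_mem {N : ℕ} {σ : SL(2, ℤ)} (hw : 0 < cuspWidth N σ) {j : ℤ}
    (hj : σ * ModularGroup.T ^ j * σ⁻¹ ∈ CongruenceSubgroup.Gamma0 N) :
    ((cuspWidth N σ : ℕ) : ℤ) ∣ j := by
  rw [cuspWidth_eq_sInf] at hw ⊢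
  refine sInf_dvd_of_zpow_mem (CongruenceSubgroup.Gamma0 N) (σ * ModularGroup.T * σ⁻¹) hw ?_
  rw [conj_zpow]
  exact hj

/-- **MONO, cusps.** The character of the root is trivial on the parabolic elements
`σ T^j σ⁻¹ ∈ Γ₀(N)`, if the order of `A / B` at the cusp `σ∞` is divisible by `n`. -/
theorem chi_eq_one_of_conj_T [NeZero N] (hn : n ≠ 0)
    (A B : ModularForm (CongruenceSubgroup.Gamma0 N) k)
    (hA : A ≠ 0) (hB : B ≠ 0) {R : ℍ → ℂ} (hR : MDifferentiable 𝓘(ℂ) 𝓘(ℂ) R)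
    (hRn : ∀ z : ℍ, R z ^ n = A z * B z ^ (n - 1))
    {χ : CongruenceSubgroup.Gamma0 N →* ℂˣ}
    (hχ : ∀ γ : CongruenceSubgroup.Gamma0 N,
      R ∣[k] (γ : SL(2, ℤ)) = fun z => ((χ γ : ℂˣ) : ℂ) * R z)
    (σ : SL(2, ℤ)) (hw : 0 < cuspWidth N σ) (hwN : cuspWidth N σ ∣ N) {t : ℤ}
    (ht : ordCusp N k A σ - ordCusp N k B σ
      = ((N / cuspWidth N σ : ℕ) : ℤ) * ((n : ℤ) * t))
    {δ : CongruenceSubgroup.Gamma0 N} {j : ℤ}
    (hδ : (δ : SL(2, ℤ)) = σ * ModularGroup.T ^ j * σ⁻¹) : χ δ = 1 := by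
  set w : ℕ := cuspWidth N σ with hwdef
  have hmem := conj_T_cuspWidth_mem hw
  set δw : CongruenceSubgroup.Gamma0 N := ⟨σ * ModularGroup.T ^ ((w : ℕ) : ℤ) * σ⁻¹, hmem⟩
    with hδw
  obtain ⟨j', hj'⟩ := cuspWidth_dvd_of_mem hw (j := j) (by rw [← hδ]; exact δ.2)
  have hδpow : δ = δw ^ j' := by
    apply Subtype.ext
    rw [hδ, Subgroup.coe_zpow, hδw]
    simp only
    rw [← conj_zpow, ← conj_zpow, ← zpow_mul, hj']
  -- it suffices to treat `δw`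
  suffices h : χ δw = 1 by rw [hδpow, map_zpow, h, one_zpow]
  have hN : (0 : ℝ) < (N : ℝ) := by exact_mod_cast Nat.pos_of_ne_zero (NeZero.ne N)
  have hRfun : (R ^ n : ℍ → ℂ) = (A : ℍ → ℂ) * (B : ℍ → ℂ) ^ (n - 1) := by
    funext z
    simpa using hRn z
  have hGn : ∀ z : ℍ, (R ∣[k] σ) z ^ n
      = ((A : ℍ → ℂ) ∣[k] σ) z * ((B : ℍ → ℂ) ∣[k] σ) z ^ (n - 1) := by
    intro z
    have h1 := congrFun (pow_slash_SL'' R k n σ) z
    have h2 := congrFun (mul_pow_slash_SL (A : ℍ → ℂ) (B : ℍ → ℂ) k hn σ) z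
    rw [hRfun] at h1
    rw [h1] at h2
    simpa using h2
  have hcast : (((w : ℕ) : ℤ) : ℝ) = (w : ℝ) := by push_cast; rfl
  have hGw : ∀ z : ℍ, (R ∣[k] σ) ((w : ℝ) +ᵥ z) = ((χ δw : ℂˣ) : ℂ) * (R ∣[k] σ) z := by
    intro z
    have := slash_vadd_of_conj (R := R) (k := k) (σ := σ) (δ := (δw : SL(2, ℤ)))
      (j := ((w : ℕ) : ℤ)) (c := ((χ δw : ℂˣ) : ℂ)) rfl (hχ δw) z
    rwa [hcast] at this
  have hBw : ∀ z : ℍ, ((B : ℍ → ℂ) ∣[k] σ) ((w : ℝ) +ᵥ z) = ((B : ℍ → ℂ) ∣[k] σ) z := by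
    intro z
    have := slash_vadd_of_conj (R := (B : ℍ → ℂ)) (k := k) (σ := σ) (δ := (δw : SL(2, ℤ)))
      (j := ((w : ℕ) : ℤ)) (c := 1) rfl
      (by rw [slash_eq_of_mem_Gamma0 B δw]; funext z; rw [one_mul]) z
    rw [hcast, one_mul] at this
    exact this
  have hL : ((((qExpansion (N : ℝ) ((A : ℍ → ℂ) ∣[k] σ)).order.toNat : ℕ)) : ℤ)
      = ((((qExpansion (N : ℝ) ((B : ℍ → ℂ) ∣[k] σ)).order.toNat : ℕ)) : ℤ)
        + (n : ℤ) * (((N / w : ℕ) : ℤ) * t) := by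
    unfold ordCusp at ht
    linear_combination ht
  have hwL : ∃ m : ℤ, (w : ℝ) * ((((N / w : ℕ) : ℤ) * t : ℤ) : ℝ) = (N : ℝ) * m := by
    refine ⟨t, ?_⟩
    have h1 : (w : ℤ) * ((N / w : ℕ) : ℤ) = (N : ℤ) := by
      exact_mod_cast Nat.mul_div_cancel' hwN
    have h2 : ((w : ℤ) : ℝ) * (((N / w : ℕ) : ℤ) : ℝ) = ((N : ℤ) : ℝ) := by exact_mod_cast h1
    push_cast at h2 ⊢
    linear_combination (t : ℝ) * h2
  have key := cusp_multiplier_eq_one hN (w := (w : ℝ)) hn (isCuspRegular_slash A σ)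
    (isCuspRegular_slash B σ) (slash_ne_zero (coe_ne_zero_of_ne_zero hA) k σ)
    (slash_ne_zero (coe_ne_zero_of_ne_zero hB) k σ) (hR.slash k (σ : GL (Fin 2) ℝ)) hGn hL hwL
    hGw hBw
  exact Units.ext (by simpa using key)

/-- The order of vanishing of `A * B ^ m` at a point. -/
theorem analyticOrderNatAt_mul_pow (A B : ModularForm (CongruenceSubgroup.Gamma0 N) k)
    (hA : A ≠ 0) (hB : B ≠ 0) (m : ℕ) (z : ℍ) :
    analyticOrderNatAt (((A : ℍ → ℂ) * (B : ℍ → ℂ) ^ m) ∘ UpperHalfPlane.ofComplex) (z : ℂ)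
      = analyticOrderNatAt ((A : ℍ → ℂ) ∘ UpperHalfPlane.ofComplex) (z : ℂ)
        + m * analyticOrderNatAt ((B : ℍ → ℂ) ∘ UpperHalfPlane.ofComplex) (z : ℂ) := by
  have hAan := Fermat.Agent.Lib.NthRoot.analyticOnNhd_comp_ofComplex (mdiff_coe A) z z.im_pos
  have hBan := Fermat.Agent.Lib.NthRoot.analyticOnNhd_comp_ofComplex (mdiff_coe B) z z.im_pos
  have hAtop := analyticOrderAt_ne_top_of_mdifferentiable (mdiff_coe A)
    (exists_ne_zero_of_ne_zero hA) z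
  have hBtop := analyticOrderAt_ne_top_of_mdifferentiable (mdiff_coe B)
    (exists_ne_zero_of_ne_zero hB) z
  have hfun : (((A : ℍ → ℂ) * (B : ℍ → ℂ) ^ m) ∘ UpperHalfPlane.ofComplex)
      = ((A : ℍ → ℂ) ∘ UpperHalfPlane.ofComplex) *
        ((B : ℍ → ℂ) ∘ UpperHalfPlane.ofComplex) ^ m := by
    funext x
    simp only [Pi.pow_apply, Pi.mul_apply, Function.comp_apply]
  have hBpow : analyticOrderAt (((B : ℍ → ℂ) ∘ UpperHalfPlane.ofComplex) ^ m) (z : ℂ) ≠ ⊤ := by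
    rw [analyticOrderAt_pow hBan]
    lift analyticOrderAt ((B : ℍ → ℂ) ∘ UpperHalfPlane.ofComplex) (z : ℂ) to ℕ using hBtop with b
    rw [nsmul_eq_mul]
    exact_mod_cast ENat.natCast_ne_top _
  rw [hfun, analyticOrderNatAt_mul hAan (hBan.pow _) hAtop hBpow, analyticOrderNatAt_pow hBan,
    smul_eq_mul]

/-- **MONO.** An unramified function has a character trivial on parabolic and elliptic
elements. -/
theorem stmt_MONO (N n : ℕ) [NeZero N] (hn : n ≠ 0) (hA1 : Stmt_A1 N) (hA3 : Stmt_A3 N)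
    (hA4 : Stmt_A4 N) : Stmt_MONO N n := by
  intro f
  set f' : FNL ℂ N := ((f : (FNL ℂ N)ˣ) : FNL ℂ N) with hf'
  have hf0 : f' ≠ 0 := Units.ne_zero _
  have hunr : ∀ v : AlgebraicCurve.Place ℂ (FNL ℂ N), (n : ℤ) ∣ v.ord f' := f.2
  obtain ⟨k, A, B, hB0, hAB⟩ := hA1 f'
  have hn1 : (((n - 1 : ℕ) : ℕ) : ℤ) = (n : ℤ) - 1 := by
    have : 1 ≤ n := Nat.one_le_iff_ne_zero.mpr hn
    push_cast [Nat.cast_sub this]
    ring
  -- `A ≠ 0`
  have hA0 : A ≠ 0 := by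
    rintro rfl
    have h0 : qLaurent ((0 : ModularForm (CongruenceSubgroup.Gamma0 N) k) : ℍ → ℂ) = 0 :=
      Fermat.Agent.GTor.H56.qLaurent_zero
    rw [h0] at hAB
    rcases mul_eq_zero.mp hAB.symm with h1 | h1
    · exact hf0 (by exact_mod_cast h1)
    · have := (Fermat.Agent.GTor.H56.qLaurent_eq_zero_iff
        (Fermat.Agent.GTor.H56.nice_of_gamma0 B)).mp h1
      exact hB0 (DFunLike.coe_injective this)
  have hk : Even k := even_weight_of_ne_zero hB0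
  -- the function `A * B ^ (n - 1)` and its root
  have hmd : MDifferentiable 𝓘(ℂ) 𝓘(ℂ) ((A : ℍ → ℂ) * (B : ℍ → ℂ) ^ (n - 1)) :=
    (mdiff_coe A).mul ((mdiff_coe B).pow _)
  have hne : ∃ τ : ℍ, ((A : ℍ → ℂ) * (B : ℍ → ℂ) ^ (n - 1)) τ ≠ 0 := by
    obtain ⟨τ, hτ⟩ := exists_mul_pow_ne_zero A B hA0 hB0 (n - 1)
    exact ⟨τ, by simpa using hτ⟩
  have hdiv : ∀ τ : ℍ, n ∣ analyticOrderNatAt
      (((A : ℍ → ℂ) * (B : ℍ → ℂ) ^ (n - 1)) ∘ UpperHalfPlane.ofComplex) (τ : ℂ) := by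
    intro τ
    obtain ⟨-, v, hv⟩ := hA3 τ
    have h1 := hv f' k A B hf0 ⟨hB0, hAB⟩
    obtain ⟨t, ht⟩ := hunr v
    rw [analyticOrderNatAt_mul_pow A B hA0 hB0]
    rw [← Int.natCast_dvd_natCast]
    refine ⟨(ellOrder N τ : ℤ) * t + ordAt B τ, ?_⟩
    unfold ordAt at h1 ⊢
    rw [ht] at h1
    push_cast
    rw [hn1]
    simp only [analyticOrderNatAt] at h1 ⊢
    linear_combination h1
  obtain ⟨R, hR, hRn'⟩ :=
    Fermat.Agent.Lib.NthRoot.exists_nthRoot_of_mdifferentiable hn hmd hne hdiv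
  have hRn : ∀ z : ℍ, R z ^ n = A z * B z ^ (n - 1) := fun z => by
    simpa using hRn' z
  have hR0 : ∃ τ : ℍ, R τ ≠ 0 := exists_root_ne_zero hn A B hA0 hB0 hRn
  have hRfun : (R ^ n : ℍ → ℂ) = (A : ℍ → ℂ) * (B : ℍ → ℂ) ^ (n - 1) := by
    funext z
    simpa using hRn z
  -- the character
  have hinv : ∀ γ ∈ CongruenceSubgroup.Gamma0 N, (R ^ n) ∣[k * n] γ = R ^ n := by
    intro γ hγ
    rw [hRfun, mul_pow_slash_SL _ _ k hn γ, slash_eq_of_mem_Gamma0 A ⟨γ, hγ⟩,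
      slash_eq_of_mem_Gamma0 B ⟨γ, hγ⟩]
  obtain ⟨χ, hχn, hχ⟩ := Fermat.Agent.Lib.NthRoot.exists_character_of_root
    (CongruenceSubgroup.Gamma0 N) hn hR hR0 hinv
  obtain ⟨φ, hφ⟩ := exists_additive_of_character hn χ hχn
  have hφ0 : ∀ γ : CongruenceSubgroup.Gamma0 N, χ γ = 1 → φ (Additive.ofMul γ) = 0 := by
    intro γ h1
    rw [← zetaPow_eq_one_iff hn, hφ, h1, Units.val_one]
  -- `χ (-1) = 1`
  have hneg : χ ⟨-1, neg_one_mem_Gamma0' N⟩ = 1 := by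
    obtain ⟨τ, hτ⟩ := hR0
    have h1 := congrFun (hχ ⟨-1, neg_one_mem_Gamma0' N⟩) τ
    rw [slash_neg_one_of_even hk] at h1
    have h2 : ((χ ⟨-1, neg_one_mem_Gamma0' N⟩ : ℂˣ) : ℂ) = 1 := by
      have h3 : (((χ ⟨-1, neg_one_mem_Gamma0' N⟩ : ℂˣ) : ℂ) - 1) * R τ = 0 := by
        linear_combination -h1
      rcases mul_eq_zero.mp h3 with h4 | h4
      · exact sub_eq_zero.mp h4
      · exact absurd h4 hτ
    exact Units.ext h2
  refine ⟨φ, ⟨?_, ?_⟩, k, R, B, ⟨hR, ?_, ?_⟩, hB0, ?_⟩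
  · -- parabolic elements
    intro γ hγ
    apply hφ0
    obtain ⟨σ, j, hcase⟩ := trace_sq_eq_four_cases (γ : SL(2, ℤ)) hγ
    obtain ⟨hw, hwN, v, hv⟩ := hA4 σ
    have h1 := hv f' k A B hf0 ⟨hB0, hAB⟩
    obtain ⟨t, ht⟩ := hunr v
    rw [ht] at h1
    rcases hcase with h | h
    · exact chi_eq_one_of_conj_T hn A B hA0 hB0 hR hRn hχ σ hw hwN h1 h
    · -- `γ = -(σ T^j σ⁻¹)`
      have hmem : σ * ModularGroup.T ^ j * σ⁻¹ ∈ CongruenceSubgroup.Gamma0 N := by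
        have : σ * ModularGroup.T ^ j * σ⁻¹ = (-1 : SL(2, ℤ)) * (γ : SL(2, ℤ)) := by
          rw [h]; simp
        rw [this]
        exact (CongruenceSubgroup.Gamma0 N).mul_mem (neg_one_mem_Gamma0' N) γ.2
      have h2 : χ ⟨σ * ModularGroup.T ^ j * σ⁻¹, hmem⟩ = 1 :=
        chi_eq_one_of_conj_T hn A B hA0 hB0 hR hRn hχ σ hw hwN h1 rfl
      have h3 : γ = ⟨-1, neg_one_mem_Gamma0' N⟩ * ⟨σ * ModularGroup.T ^ j * σ⁻¹, hmem⟩ := by
        apply Subtype.ext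
        rw [Subgroup.coe_mul, h]
        simp
      rw [h3, map_mul, hneg, h2, one_mul]
  · -- elements of finite order
    intro γ hγ
    apply hφ0
    have hfin : IsOfFinOrder (γ : SL(2, ℤ)) := by
      obtain ⟨m, hm, hpow⟩ := isOfFinOrder_iff_pow_eq_one.mp hγ
      exact isOfFinOrder_iff_pow_eq_one.mpr ⟨m, hm, by
        have := congrArg (fun g : CongruenceSubgroup.Gamma0 N => (g : SL(2, ℤ))) hpow
        simpa using this⟩
    rcases finOrder_cases (γ : SL(2, ℤ)) hfin with h | h | ⟨z₀, hz₀⟩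
    · have : γ = 1 := Subtype.ext h
      rw [this, map_one]
    · have : γ = ⟨-1, neg_one_mem_Gamma0' N⟩ := Subtype.ext h
      rw [this, hneg]
    · obtain ⟨he, v, hv⟩ := hA3 z₀
      have h1 := hv f' k A B hf0 ⟨hB0, hAB⟩
      obtain ⟨t, ht⟩ := hunr v
      rw [ht] at h1
      exact chi_eq_one_of_fixed hn A B hA0 hB0 hR hRn hχ hz₀ he h1
  · -- the transformation law
    intro γ
    rw [hχ γ, hφ γ]
    rfl
  · -- boundedness at the cusps
    intro σ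
    apply Fermat.Agent.Lib.NthRoot.isBoundedAtImInfty_of_pow hn
    rw [← pow_slash_SL'' R k n σ, hRfun, mul_pow_slash_SL _ _ k hn σ]
    exact (ModularFormClass.bdd_at_infty_slash A σ).mul
      ((isCuspRegular_slash B σ).pow (n - 1)).bdd
  · -- the `q`-expansion identity
    have hNA := Fermat.Agent.GTor.H56.nice_of_gamma0 A
    have hNB := Fermat.Agent.GTor.H56.nice_of_gamma0 B
    have e1 : (fun z => R z ^ n) = (A : ℍ → ℂ) * (fun z => B z ^ (n - 1)) := by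
      funext z
      simpa using hRn z
    have hNBp : Fermat.Agent.S23.H22.Nice 1 (fun z => B z ^ (n - 1)) := hNB.pow (n - 1)
    rw [e1, Fermat.Agent.GTor.H56.qLaurent_mul hNA hNBp, Fermat.Agent.GTor.H56.qLaurent_pow hNB,
      Fermat.Agent.GTor.H56.qLaurent_pow hNB, hAB, mul_assoc, ← pow_succ',
      Nat.sub_add_cancel (Nat.one_le_iff_ne_zero.mpr hn)]

end Fermat.Agent.GTor.H96
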