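/-
helper96: package LOC-CUSP for MONO / EXIST (local analysis at the cusp `i∞`).

* `IsCuspRegular h X`: `X` is `h`-periodic, holomorphic, bounded at `i∞`;
  `.one`, `.mul`, `.pow`, `.qExpansion_mul`, `.qExpansion_pow`,
  `.order_qExpansion_pow` (C-b), `.order_toNat_qExpansion_pow`, `.order_toNat_qExpansion_mul`;
* `IsCuspRegular.analyticOrderAt_eq`: order of the cusp function = order of the `q`-expansion;
* `IsCuspRegular.eventually_eq_leading`: `X = q^M * u(q)` near `i∞`, `u` analytic, `u 0 ≠ 0`;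
* `IsCuspRegular.tendsto_mul_qPow`: `X * q^(-M) → a ≠ 0`;
* `qPow h e z = exp (2 π i e z / h)` with its algebra;
* `tendsto_of_pow_eq_comp_qParam` (ROOT-LIM): a holomorphic root of `u(q)` has a nonzero limit;
* `multiplier_of_tendsto` (LC): `G (w + z) = c G z`, `G q^e → a ≠ 0` ⇒ `c exp(2πi e w/h) = 1`;
* `IsCuspRegular.exists_int_of_periodic`, `IsCuspRegular.div_dvd_order` (C-a);
* `cusp_multiplier_eq_one` (LOC-CUSP).
-/
import Fermat.Agent.Lib.NthRoot

set_option autoImplicit false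

noncomputable section

namespace Fermat.Agent.GTor.H96

open Complex UpperHalfPlane Filter Topology Function
open scoped MatrixGroups ModularForm Manifold Real

/-- A function on `ℍ` that is `h`-periodic, holomorphic and bounded at `i∞`. -/
structure IsCuspRegular (h : ℝ) (X : ℍ → ℂ) : Prop where
  per : Function.Periodic (X ∘ UpperHalfPlane.ofComplex) h
  hol : MDifferentiable 𝓘(ℂ) 𝓘(ℂ) X
  bdd : IsBoundedAtImInfty X

variable {h : ℝ} {X : ℍ → ℂ}

theorem IsCuspRegular.analyticAt (hh : 0 < h) (hX : IsCuspRegular h X) :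
    AnalyticAt ℂ (cuspFunction h X) 0 :=
  UpperHalfPlane.analyticAt_cuspFunction_zero hh hX.per hX.hol hX.bdd

theorem IsCuspRegular.eq_cuspFunction (hh : 0 < h) (hX : IsCuspRegular h X) (z : ℍ) :
    cuspFunction h X (Function.Periodic.qParam h (z : ℂ)) = X z :=
  UpperHalfPlane.eq_cuspFunction z hh.ne' hX.per

theorem IsCuspRegular.qExpansion_ne_zero (hh : 0 < h) (hX : IsCuspRegular h X) (hX0 : X ≠ 0) :
    qExpansion h X ≠ 0 := fun h0 =>
  hX0 ((UpperHalfPlane.qExpansion_eq_zero_iff hh hX.per hX.hol hX.bdd).mp h0)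

/-- The order of the cusp function at `0` is the order of the `q`-expansion. -/
theorem IsCuspRegular.analyticOrderAt_eq (hh : 0 < h) (hX : IsCuspRegular h X) (hX0 : X ≠ 0) :
    analyticOrderAt (cuspFunction h X) 0 = (((qExpansion h X).order.toNat : ℕ) : ℕ∞) := by
  have hne := hX.qExpansion_ne_zero hh hX0
  have hord : (qExpansion h X).order = (((qExpansion h X).order.toNat : ℕ) : ℕ∞) :=
    (PowerSeries.coe_toNat_order hne).symm
  obtain ⟨hc, hlt⟩ := PowerSeries.order_eq_nat.mp hord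
  rw [analyticOrderAt_eq_nat_iff_iteratedDeriv_eq_zero (hX.analyticAt hh)]
  constructor
  · intro i hi
    have := hlt i hi
    rw [UpperHalfPlane.qExpansion_coeff] at this
    rcases mul_eq_zero.mp this with h1 | h1
    · exact absurd h1 (inv_ne_zero (Nat.cast_ne_zero.mpr (Nat.factorial_ne_zero i)))
    · exact h1
  · intro h0
    apply hc
    rw [UpperHalfPlane.qExpansion_coeff, h0, mul_zero]

/-- The leading term factorisation of the cusp function. -/
theorem IsCuspRegular.exists_leading_factor (hh : 0 < h) (hX : IsCuspRegular h X) (hX0 : X ≠ 0) :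
    ∃ u : ℂ → ℂ, AnalyticAt ℂ u 0 ∧ u 0 ≠ 0 ∧
      ∀ᶠ q in 𝓝 (0 : ℂ), cuspFunction h X q = q ^ ((qExpansion h X).order.toNat) * u q := by
  obtain ⟨u, hu, hu0, hev⟩ :=
    (hX.analyticAt hh).analyticOrderAt_eq_natCast.mp (hX.analyticOrderAt_eq hh hX0)
  refine ⟨u, hu, hu0, ?_⟩
  filter_upwards [hev] with q hq
  simpa using hq

/-- The leading term factorisation near `i∞`. -/
theorem IsCuspRegular.eventually_eq_leading (hh : 0 < h) (hX : IsCuspRegular h X) (hX0 : X ≠ 0) :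
    ∃ u : ℂ → ℂ, AnalyticAt ℂ u 0 ∧ u 0 ≠ 0 ∧
      ∀ᶠ z : ℍ in atImInfty, X z = (Function.Periodic.qParam h (z : ℂ)) ^
        ((qExpansion h X).order.toNat) * u (Function.Periodic.qParam h (z : ℂ)) := by
  obtain ⟨u, hu, hu0, hev⟩ := hX.exists_leading_factor hh hX0
  refine ⟨u, hu, hu0, ?_⟩
  have ht := UpperHalfPlane.qParam_tendsto_atImInfty hh
  filter_upwards [ht.eventually hev] with z hz
  rw [← hz, hX.eq_cuspFunction hh]

/-! ### Integer powers of the parameter `q` -/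

/-- `qPow h e z = exp (2 π i e z / h)`, the `e`-th power of `q_h`, `e ∈ ℤ`. -/
def qPow (h : ℝ) (e : ℤ) (z : ℂ) : ℂ := Complex.exp (2 * π * Complex.I * e * z / h)

theorem qPow_ne_zero (h : ℝ) (e : ℤ) (z : ℂ) : qPow h e z ≠ 0 := Complex.exp_ne_zero _

theorem qPow_zero (h : ℝ) (z : ℂ) : qPow h 0 z = 1 := by simp [qPow]

theorem qPow_add (h : ℝ) (e₁ e₂ : ℤ) (z : ℂ) :
    qPow h (e₁ + e₂) z = qPow h e₁ z * qPow h e₂ z := by
  unfold qPow
  rw [← Complex.exp_add]
  congr 1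
  push_cast
  ring

theorem qPow_neg (h : ℝ) (e : ℤ) (z : ℂ) : qPow h (-e) z = (qPow h e z)⁻¹ := by
  unfold qPow
  rw [← Complex.exp_neg]
  congr 1
  push_cast
  ring

theorem qPow_natCast (h : ℝ) (M : ℕ) (z : ℂ) :
    qPow h (M : ℤ) z = (Function.Periodic.qParam h z) ^ M := by
  unfold qPow Function.Periodic.qParam
  rw [← Complex.exp_nat_mul]
  congr 1
  push_cast
  ring

theorem qPow_pow (h : ℝ) (e : ℤ) (n : ℕ) (z : ℂ) : qPow h e z ^ n = qPow h (n * e) z := by
  unfold qPow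
  rw [← Complex.exp_nat_mul]
  congr 1
  push_cast
  ring

theorem qPow_add_real (h : ℝ) (e : ℤ) (w : ℝ) (z : ℂ) :
    qPow h e (w + z) = Complex.exp (2 * π * Complex.I * e * w / h) * qPow h e z := by
  unfold qPow
  rw [← Complex.exp_add]
  congr 1
  ring

theorem differentiable_qPow (h : ℝ) (e : ℤ) : Differentiable ℂ (qPow h e) := by
  unfold qPow
  fun_prop

theorem mdifferentiable_qPow (h : ℝ) (e : ℤ) :
    MDifferentiable 𝓘(ℂ) 𝓘(ℂ) (fun z : ℍ => qPow h e (z : ℂ)) :=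
  Fermat.Agent.Lib.NthRoot.mdifferentiable_comp_coe
    ((differentiable_qPow h e).differentiableOn.analyticOnNhd isOpen_upperHalfPlaneSet)

/-- If `w * e` is an integer multiple of `h`, then `qPow h e` is `w`-periodic. -/
theorem qPow_add_real_of_int {h : ℝ} (hh : h ≠ 0) {e : ℤ} {w : ℝ} (hw : ∃ m : ℤ, w * e = h * m)
    (z : ℂ) : qPow h e (w + z) = qPow h e z := by
  obtain ⟨m, hm⟩ := hw
  rw [qPow_add_real]
  have : (2 * π * Complex.I * e * w / h : ℂ) = m * (2 * π * Complex.I) := by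
    have hmC : (w : ℂ) * (e : ℂ) = (h : ℂ) * (m : ℂ) := by exact_mod_cast hm
    have hhC : (h : ℂ) ≠ 0 := by exact_mod_cast hh
    field_simp
    linear_combination hmC
  rw [this, Complex.exp_int_mul_two_pi_mul_I, one_mul]

/-- Conversely, if `exp (2 π i e w / h) = 1` then `w * e` is an integer multiple of `h`. -/
theorem exists_int_of_exp_eq_one {h : ℝ} (hh : h ≠ 0) {e : ℤ} {w : ℝ}
    (hw : Complex.exp (2 * π * Complex.I * e * w / h) = 1) : ∃ m : ℤ, w * e = h * m := by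
  obtain ⟨m, hm⟩ := Complex.exp_eq_one_iff.mp hw
  refine ⟨m, ?_⟩
  have hhC : (h : ℂ) ≠ 0 := by exact_mod_cast hh
  have h2 : (2 * π * Complex.I : ℂ) ≠ 0 := Complex.two_pi_I_ne_zero
  have h3 : ((w * e : ℝ) : ℂ) = ((h * m : ℝ) : ℂ) := by
    push_cast
    have e1 : (2 * π * Complex.I) * ((w : ℂ) * e) = (2 * π * Complex.I) * ((h : ℂ) * m) := by
      field_simp at hm
      linear_combination (2 * π * Complex.I) * hm
    exact mul_left_cancel₀ h2 e1
  exact_mod_cast h3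

theorem tendsto_vadd_atImInfty (w : ℝ) :
    Tendsto (fun z : ℍ => w +ᵥ z) atImInfty atImInfty := by
  unfold atImInfty
  rw [tendsto_comap_iff]
  have : (UpperHalfPlane.im ∘ fun z : ℍ => w +ᵥ z) = UpperHalfPlane.im := by
    funext z
    simp [UpperHalfPlane.vadd_im]
  rw [this]
  exact tendsto_comap

/-- **ROOT-LIM.** A holomorphic function on `ℍ` whose `n`-th power is, near `i∞`, an analytic
non-vanishing function of `q_h` has a non-zero limit at `i∞`. -/
theorem tendsto_of_pow_eq_comp_qParam {h : ℝ} (hh : 0 < h) {n : ℕ} (hn : n ≠ 0) {Q : ℍ → ℂ}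
    (hQ : MDifferentiable 𝓘(ℂ) 𝓘(ℂ) Q) {u : ℂ → ℂ} (hu : AnalyticAt ℂ u 0) (hu0 : u 0 ≠ 0)
    (hev : ∀ᶠ z : ℍ in atImInfty, Q z ^ n = u (Function.Periodic.qParam h (z : ℂ))) :
    ∃ a : ℂ, a ≠ 0 ∧ Tendsto Q atImInfty (𝓝 a) := by
  -- a disc on which `u` is analytic and non-vanishing
  have h1 : ∀ᶠ y in 𝓝 (0 : ℂ), AnalyticAt ℂ u y ∧ u y ≠ 0 :=
    hu.eventually_analyticAt.and (hu.continuousAt.eventually_ne hu0)
  obtain ⟨ε, hε, hball⟩ := Metric.eventually_nhds_iff_ball.mp h1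
  have huan : AnalyticOnNhd ℂ u (Metric.ball 0 ε) := fun y hy => (hball y hy).1
  have hune : ∀ y ∈ Metric.ball (0 : ℂ) ε, u y ≠ 0 := fun y hy => (hball y hy).2
  obtain ⟨V, hV, hVp⟩ := Fermat.Agent.Lib.NthRoot.exists_root_on_ball_of_ne_zero hn huan hune
  have h0ball : (0 : ℂ) ∈ Metric.ball (0 : ℂ) ε := Metric.mem_ball_self hε
  -- a half plane on which everything holds
  have hq : ∀ᶠ z : ℍ in atImInfty, Function.Periodic.qParam h (z : ℂ) ∈ Metric.ball (0 : ℂ) ε :=
    (UpperHalfPlane.qParam_tendsto_atImInfty hh).eventually (Metric.ball_mem_nhds 0 hε)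
  obtain ⟨Y, hY⟩ := (UpperHalfPlane.atImInfty_mem _).mp (hev.and hq)
  set Y' : ℝ := max Y 1 with hY'
  have hYpos : 0 < Y' := lt_of_lt_of_le one_pos (le_max_right Y 1)
  set U : Set ℂ := {z : ℂ | Y' < z.im} with hU
  have hUpre : IsPreconnected U := (convex_halfSpace_im_gt Y').isPreconnected
  have hUsub : U ⊆ {z : ℂ | 0 < z.im} := fun z hz => lt_trans hYpos hz
  have hUY : ∀ z ∈ U, ∀ hz : 0 < z.im, Y ≤ UpperHalfPlane.im ⟨z, hz⟩ := fun z hz _ =>
    le_trans (le_max_left Y 1) (le_of_lt hz)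
  have hG₂ : AnalyticOnNhd ℂ (Q ∘ UpperHalfPlane.ofComplex) U :=
    (Fermat.Agent.Lib.NthRoot.analyticOnNhd_comp_ofComplex hQ).mono hUsub
  have hG₁ : AnalyticOnNhd ℂ (fun z : ℂ => V (Function.Periodic.qParam h z)) U := by
    intro z hz
    have hzpos : 0 < z.im := hUsub hz
    have hmem := (hY ⟨z, hzpos⟩ (hUY z hz hzpos)).2
    have hVat : AnalyticAt ℂ V (Function.Periodic.qParam h z) := hV _ hmem
    have hqat : AnalyticAt ℂ (Function.Periodic.qParam h) z :=
      (Function.Periodic.differentiable_qParam.analyticAt z)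
    exact AnalyticAt.comp (f := Function.Periodic.qParam h) (g := V) hVat hqat
  have hpow : ∀ z ∈ U, (Q ∘ UpperHalfPlane.ofComplex) z ^ n
      = (fun z : ℂ => V (Function.Periodic.qParam h z)) z ^ n := by
    intro z hz
    have hzpos : 0 < z.im := hUsub hz
    have := hY ⟨z, hzpos⟩ (hUY z hz hzpos)
    simp only [Function.comp_apply, UpperHalfPlane.ofComplex_apply_of_im_pos hzpos]
    rw [hVp _ this.2]
    exact this.1
  obtain ⟨ζ, hζ, hζeq⟩ := Fermat.Agent.Lib.NthRoot.exists_root_of_unity_of_pow_eq hn hUpre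
    hG₁ hG₂ hpow
  have hζ0 : ζ ≠ 0 := by
    rintro rfl
    rw [zero_pow hn] at hζ
    exact zero_ne_one hζ
  have hV0 : V 0 ≠ 0 := by
    intro h0
    have := hVp 0 h0ball
    rw [h0, zero_pow hn] at this
    exact hu0 this.symm
  refine ⟨ζ * V 0, mul_ne_zero hζ0 hV0, ?_⟩
  have hlim : Tendsto (fun z : ℍ => ζ * V (Function.Periodic.qParam h (z : ℂ))) atImInfty
      (𝓝 (ζ * V 0)) := by
    refine Tendsto.const_mul ζ ?_
    exact ((hV 0 h0ball).continuousAt.tendsto).comp (UpperHalfPlane.qParam_tendsto_atImInfty hh)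
  refine hlim.congr' ?_
  have hevU : ∀ᶠ z : ℍ in atImInfty, Y' + 1 ≤ z.im :=
    (UpperHalfPlane.atImInfty_mem _).mpr ⟨Y' + 1, fun z hz => hz⟩
  filter_upwards [hevU] with z hz
  have hzU : (z : ℂ) ∈ U := by
    show Y' < (z : ℂ).im
    have : (z : ℂ).im = z.im := rfl
    rw [this]
    linarith
  have := hζeq (z : ℂ) hzU
  simp only [Function.comp_apply, UpperHalfPlane.ofComplex_apply] at this
  exact this.symm

/-- The leading coefficient limit: `X z * q^(-M) → u 0 ≠ 0`. -/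
theorem IsCuspRegular.tendsto_mul_qPow {h : ℝ} {X : ℍ → ℂ} (hh : 0 < h)
    (hX : IsCuspRegular h X) (hX0 : X ≠ 0) :
    ∃ a : ℂ, a ≠ 0 ∧ Tendsto (fun z : ℍ => X z *
      qPow h (-(((qExpansion h X).order.toNat : ℕ) : ℤ)) (z : ℂ)) atImInfty (𝓝 a) := by
  obtain ⟨u, hu, hu0, hev⟩ := hX.eventually_eq_leading hh hX0
  refine ⟨u 0, hu0, ?_⟩
  have hlim : Tendsto (fun z : ℍ => u (Function.Periodic.qParam h (z : ℂ))) atImInfty
      (𝓝 (u 0)) :=
    (hu.continuousAt.tendsto).comp (UpperHalfPlane.qParam_tendsto_atImInfty hh)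
  refine hlim.congr' ?_
  filter_upwards [hev] with z hz
  rw [hz, qPow_neg, qPow_natCast]
  have hq : Function.Periodic.qParam h (z : ℂ) ^ ((qExpansion h X).order.toNat) ≠ 0 :=
    pow_ne_zero _ (Function.Periodic.qParam_ne_zero _)
  field_simp

/-- **(LC)** The multiplier under a real translation is determined by the leading exponent. -/
theorem multiplier_of_tendsto {h : ℝ} {G : ℍ → ℂ} {e : ℤ} {a : ℂ} (ha : a ≠ 0)
    (hlim : Tendsto (fun z : ℍ => G z * qPow h e (z : ℂ)) atImInfty (𝓝 a))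
    {w : ℝ} {c : ℂ} (hGw : ∀ z : ℍ, G (w +ᵥ z) = c * G z) :
    c * Complex.exp (2 * π * Complex.I * e * w / h) = 1 := by
  have h1 : Tendsto (fun z : ℍ => G (w +ᵥ z) * qPow h e ((w +ᵥ z : ℍ) : ℂ)) atImInfty (𝓝 a) :=
    hlim.comp (tendsto_vadd_atImInfty w)
  have h2 : (fun z : ℍ => G (w +ᵥ z) * qPow h e ((w +ᵥ z : ℍ) : ℂ))
      = fun z : ℍ => (c * Complex.exp (2 * π * Complex.I * e * w / h)) *
          (G z * qPow h e (z : ℂ)) := by
    funext z
    rw [hGw, UpperHalfPlane.coe_vadd, qPow_add_real]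
    ring
  rw [h2] at h1
  have h3 := tendsto_nhds_unique h1 (hlim.const_mul _)
  have h4 : (c * Complex.exp (2 * π * Complex.I * e * w / h) - 1) * a = 0 := by
    linear_combination -h3
  rcases mul_eq_zero.mp h4 with h5 | h5
  · exact sub_eq_zero.mp h5
  · exact absurd h5 ha

/-- **(C-a), real form.** If a cusp-regular function is also `w`-periodic, then `w * M` is an
integer multiple of `h`, `M` the order of the `q_h`-expansion. -/
theorem IsCuspRegular.exists_int_of_periodic {h : ℝ} {X : ℍ → ℂ} (hh : 0 < h)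
    (hX : IsCuspRegular h X) (hX0 : X ≠ 0) {w : ℝ} (hXw : ∀ z : ℍ, X (w +ᵥ z) = X z) :
    ∃ m : ℤ, w * (((qExpansion h X).order.toNat : ℕ) : ℤ) = h * m := by
  obtain ⟨a, ha, hlim⟩ := hX.tendsto_mul_qPow hh hX0
  have h1 := multiplier_of_tendsto (c := 1) ha hlim (w := w) (fun z => by rw [hXw, one_mul])
  rw [one_mul] at h1
  obtain ⟨m, hm⟩ := exists_int_of_exp_eq_one hh.ne' h1
  refine ⟨-m, ?_⟩
  push_cast at hm ⊢
  linarith

/-- **(C-a).** If a function is cusp-regular for the period `N` and also `w`-periodic with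
`w ∣ N`, then `N / w` divides the order of its `q_N`-expansion. -/
theorem IsCuspRegular.div_dvd_order {N w : ℕ} {X : ℍ → ℂ} (hN : 0 < N) (hw : 0 < w)
    (hwN : w ∣ N) (hX : IsCuspRegular (N : ℝ) X) (hX0 : X ≠ 0)
    (hXw : ∀ z : ℍ, X ((w : ℝ) +ᵥ z) = X z) :
    (N / w) ∣ (qExpansion (N : ℝ) X).order.toNat := by
  obtain ⟨m, hm⟩ := hX.exists_int_of_periodic (by exact_mod_cast hN) hX0 hXw
  obtain ⟨d, rfl⟩ := hwN
  rw [Nat.mul_div_cancel_left d hw]
  have hm' : ((w : ℤ)) * (((qExpansion ((w * d : ℕ) : ℝ) X).order.toNat : ℕ) : ℤ)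
      = ((w : ℤ) * d) * m := by
    have : ((w : ℝ)) * ((((qExpansion ((w * d : ℕ) : ℝ) X).order.toNat : ℕ) : ℤ) : ℝ)
        = (((w * d : ℕ) : ℝ)) * (m : ℝ) := hm
    push_cast at this
    exact_mod_cast this
  have hw0 : (w : ℤ) ≠ 0 := by exact_mod_cast hw.ne'
  have h2 : (((qExpansion ((w * d : ℕ) : ℝ) X).order.toNat : ℕ) : ℤ) = d * m := by
    have : (w : ℤ) * (((qExpansion ((w * d : ℕ) : ℝ) X).order.toNat : ℕ) : ℤ)
        = (w : ℤ) * (d * m) := by rw [hm']; ring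
    exact mul_left_cancel₀ hw0 this
  exact Int.natCast_dvd_natCast.mp ⟨m, h2⟩

/-! ### Products and powers of cusp-regular functions -/

theorem IsCuspRegular.one (h : ℝ) : IsCuspRegular h (1 : ℍ → ℂ) where
  per := fun z => rfl
  hol := mdifferentiable_const
  bdd := by
    rw [UpperHalfPlane.isBoundedAtImInfty_iff]
    exact ⟨1, 0, fun z _ => by simp⟩

theorem IsCuspRegular.mul {h : ℝ} {X Y : ℍ → ℂ} (hX : IsCuspRegular h X)
    (hY : IsCuspRegular h Y) : IsCuspRegular h (X * Y) where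
  per := fun z => by
    have h1 := hX.per z
    have h2 := hY.per z
    simp only [Function.comp_apply, Pi.mul_apply] at h1 h2 ⊢
    rw [h1, h2]
  hol := hX.hol.mul hY.hol
  bdd := hX.bdd.mul hY.bdd

theorem IsCuspRegular.pow {h : ℝ} {X : ℍ → ℂ} (hX : IsCuspRegular h X) (n : ℕ) :
    IsCuspRegular h (X ^ n) := by
  induction n with
  | zero => simpa using IsCuspRegular.one h
  | succ n ih => rw [pow_succ]; exact ih.mul hX

theorem IsCuspRegular.qExpansion_mul {h : ℝ} {X Y : ℍ → ℂ} (hh : 0 < h)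
    (hX : IsCuspRegular h X) (hY : IsCuspRegular h Y) :
    qExpansion h (X * Y) = qExpansion h X * qExpansion h Y :=
  UpperHalfPlane.qExpansion_mul (hX.analyticAt hh) (hY.analyticAt hh)

theorem IsCuspRegular.qExpansion_pow {h : ℝ} {X : ℍ → ℂ} (hh : 0 < h)
    (hX : IsCuspRegular h X) (n : ℕ) :
    qExpansion h (X ^ n) = qExpansion h X ^ n := by
  induction n with
  | zero => simpa using UpperHalfPlane.qExpansion_one h
  | succ n ih => rw [pow_succ, (hX.pow n).qExpansion_mul hh hX, ih, pow_succ]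

/-- **(C-b).** The order of the `q`-expansion of a power. -/
theorem IsCuspRegular.order_qExpansion_pow {h : ℝ} {X : ℍ → ℂ} (hh : 0 < h)
    (hX : IsCuspRegular h X) (n : ℕ) :
    (qExpansion h (X ^ n)).order = n • (qExpansion h X).order := by
  rw [hX.qExpansion_pow hh, PowerSeries.order_pow]

theorem IsCuspRegular.order_toNat_qExpansion_pow {h : ℝ} {X : ℍ → ℂ} (hh : 0 < h)
    (hX : IsCuspRegular h X) (n : ℕ) :
    (qExpansion h (X ^ n)).order.toNat = n * (qExpansion h X).order.toNat := by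
  rw [hX.order_qExpansion_pow hh]
  simp

theorem IsCuspRegular.order_toNat_qExpansion_mul {h : ℝ} {X Y : ℍ → ℂ} (hh : 0 < h)
    (hX : IsCuspRegular h X) (hY : IsCuspRegular h Y) (hX0 : X ≠ 0) (hY0 : Y ≠ 0) :
    (qExpansion h (X * Y)).order.toNat
      = (qExpansion h X).order.toNat + (qExpansion h Y).order.toNat := by
  rw [hX.qExpansion_mul hh hY, PowerSeries.order_mul,
    ← PowerSeries.coe_toNat_order (hX.qExpansion_ne_zero hh hX0),
    ← PowerSeries.coe_toNat_order (hY.qExpansion_ne_zero hh hY0)]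
  simp [← Nat.cast_add]

/-! ### The multiplier at a cusp -/

/-- **LOC-CUSP.** Let `A'`, `B'` be cusp-regular for the period `h`, `G` holomorphic with
`G ^ n = A' * B' ^ (n - 1)`, and suppose the orders of the `q_h`-expansions satisfy
`ord A' = ord B' + n * L` with `w * L ∈ h ℤ`.  If `B'` is `w`-periodic and `G` is `w`-periodic up
to the constant `c`, then `c = 1`. -/
theorem cusp_multiplier_eq_one {h : ℝ} (hh : 0 < h) {w : ℝ} {n : ℕ} (hn : n ≠ 0)
    {A' B' G : ℍ → ℂ} (hA : IsCuspRegular h A') (hB : IsCuspRegular h B')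
    (hA0 : A' ≠ 0) (hB0 : B' ≠ 0) (hG : MDifferentiable 𝓘(ℂ) 𝓘(ℂ) G)
    (hGn : ∀ z : ℍ, G z ^ n = A' z * B' z ^ (n - 1)) {L : ℤ}
    (hL : (((qExpansion h A').order.toNat : ℕ) : ℤ)
      = (((qExpansion h B').order.toNat : ℕ) : ℤ) + n * L)
    (hwL : ∃ m : ℤ, w * L = h * m) {c : ℂ} (hGw : ∀ z : ℍ, G (w +ᵥ z) = c * G z)
    (hBw : ∀ z : ℍ, B' (w +ᵥ z) = B' z) : c = 1 := by
  set MA : ℕ := (qExpansion h A').order.toNat with hMA
  set MB : ℕ := (qExpansion h B').order.toNat with hMB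
  obtain ⟨uA, huA, huA0, hevA⟩ := hA.eventually_eq_leading hh hA0
  obtain ⟨uB, huB, huB0, hevB⟩ := hB.eventually_eq_leading hh hB0
  set e : ℤ := -((MB : ℤ) + L) with he
  -- the auxiliary function
  have hQ : MDifferentiable 𝓘(ℂ) 𝓘(ℂ) (fun z : ℍ => G z * qPow h e (z : ℂ)) :=
    hG.mul (mdifferentiable_qPow h e)
  have hu : AnalyticAt ℂ (fun q => uA q * uB q ^ (n - 1)) 0 := huA.mul (huB.pow _)
  have hu0 : (fun q => uA q * uB q ^ (n - 1)) 0 ≠ 0 := mul_ne_zero huA0 (pow_ne_zero _ huB0)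
  have hn1 : (((n - 1 : ℕ) : ℕ) : ℤ) = (n : ℤ) - 1 := by
    have : 1 ≤ n := Nat.one_le_iff_ne_zero.mpr hn
    push_cast [Nat.cast_sub this]
    ring
  have hev : ∀ᶠ z : ℍ in atImInfty, (fun z : ℍ => G z * qPow h e (z : ℂ)) z ^ n
      = (fun q => uA q * uB q ^ (n - 1)) (Function.Periodic.qParam h (z : ℂ)) := by
    filter_upwards [hevA, hevB] with z hzA hzB
    rw [mul_pow, hGn, hzA, hzB, qPow_pow, mul_pow, ← qPow_natCast, ← qPow_natCast, qPow_pow]
    have hexp : qPow h (MA : ℤ) (z : ℂ) * qPow h (((n - 1 : ℕ) : ℤ) * (MB : ℤ)) (z : ℂ) *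
        qPow h ((n : ℤ) * e) (z : ℂ) = 1 := by
      rw [← qPow_add, ← qPow_add]
      have : (MA : ℤ) + ((n - 1 : ℕ) : ℤ) * (MB : ℤ) + (n : ℤ) * e = 0 := by
        rw [hn1, he, hL]
        ring
      rw [this, qPow_zero]
    linear_combination (uA (Function.Periodic.qParam h (z : ℂ)) *
      uB (Function.Periodic.qParam h (z : ℂ)) ^ (n - 1)) * hexp
  obtain ⟨a, ha, hlim⟩ := tendsto_of_pow_eq_comp_qParam hh hn hQ hu hu0 hev
  have h1 := multiplier_of_tendsto ha hlim hGw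
  -- the exponential factor is trivial
  obtain ⟨mB, hmB⟩ := hB.exists_int_of_periodic hh hB0 hBw
  obtain ⟨mL, hmL⟩ := hwL
  have h2 : Complex.exp (2 * π * Complex.I * e * w / h) = 1 := by
    have : (2 * π * Complex.I * e * w / h : ℂ) = ((-(mB + mL) : ℤ) : ℂ) * (2 * π * Complex.I) := by
      have hhC : (h : ℂ) ≠ 0 := by exact_mod_cast hh.ne'
      have e1 : (w : ℂ) * ((MB : ℤ) : ℂ) = (h : ℂ) * (mB : ℂ) := by exact_mod_cast hmB
      have e2 : (w : ℂ) * (L : ℂ) = (h : ℂ) * (mL : ℂ) := by exact_mod_cast hmL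
      rw [he]
      field_simp
      push_cast
      linear_combination -e1 - e2
    rw [this, Complex.exp_int_mul_two_pi_mul_I]
  rw [h2, mul_one] at h1
  exact h1

end Fermat.Agent.GTor.H96
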