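import Fermat.Agent.GTor.H98_Exist
import Fermat.Agent.GTor.H96_LocCusp

/-!
# G-TOR package EXIST, final form (helper98)

* `stmt_LocCusp : Stmt_LocCusp` (from helper96's LOC-CUSP package);
* `exist : n ≠ 0 → Stmt_A2 N → Stmt_A5 N → Stmt_EXIST N n`.
-/

set_option autoImplicit false

noncomputable section

namespace Fermat.Agent.GTor.H98

open AlgebraicCurve ModularCurve UpperHalfPlane Filter Topology CongruenceSubgroup
open scoped MatrixGroups ModularForm Manifold

/-- Invariance under `T ^ w` in terms of the additive action. -/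
theorem vadd_invariant_of_T_pow {G : ℍ → ℂ} {w : ℕ}
    (hGp : ∀ z : ℍ, G ((ModularGroup.T ^ w : SL(2, ℤ)) • z) = G z) (z : ℍ) :
    G (((w : ℕ) : ℝ) +ᵥ z) = G z := by
  have h := UpperHalfPlane.modular_T_zpow_smul z (w : ℤ)
  rw [zpow_natCast] at h
  have h2 : (((w : ℤ) : ℝ)) = ((w : ℕ) : ℝ) := by push_cast; rfl
  rw [h2] at h
  rw [← h]
  exact hGp z

theorem vadd_invariant_mul {G : ℍ → ℂ} {w : ℕ}
    (hG : ∀ z : ℍ, G (((w : ℕ) : ℝ) +ᵥ z) = G z) (d : ℕ) (z : ℍ) :
    G ((((w * d : ℕ)) : ℝ) +ᵥ z) = G z := by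
  induction d generalizing z with
  | zero => simp
  | succ d ih =>
    have h1 : (((w * (d + 1) : ℕ)) : ℝ) = ((w : ℕ) : ℝ) + (((w * d : ℕ)) : ℝ) := by
      push_cast; ring
    rw [h1, add_vadd, hG, ih]

theorem periodic_comp_ofComplex_of_vadd {G : ℍ → ℂ} {h : ℝ}
    (hG : ∀ z : ℍ, G (h +ᵥ z) = G z) :
    Function.Periodic (G ∘ UpperHalfPlane.ofComplex) h := by
  intro x
  simp only [Function.comp_apply]
  by_cases hx : 0 < x.im
  · have hx' : 0 < (x + (h : ℂ)).im := by simpa using hx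
    rw [UpperHalfPlane.ofComplex_apply_of_im_pos hx, UpperHalfPlane.ofComplex_apply_of_im_pos hx']
    rw [← hG ⟨x, hx⟩]
    congr 1
    apply UpperHalfPlane.ext
    simp [UpperHalfPlane.coe_vadd, add_comm]
  · have hx1 : x.im ≤ 0 := not_lt.mp hx
    have hx' : (x + (h : ℂ)).im ≤ 0 := by simpa using hx1
    rw [UpperHalfPlane.ofComplex_apply_of_im_nonpos hx1,
      UpperHalfPlane.ofComplex_apply_of_im_nonpos hx']

/-- The local statement at the cusps, from helper96's package LOC-CUSP. -/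
theorem stmt_LocCusp : Stmt_LocCusp := by
  intro N w hN hw hwN G hGm hGb hG0 hGp
  have hv : ∀ z : ℍ, G (((w : ℕ) : ℝ) +ᵥ z) = G z := vadd_invariant_of_T_pow hGp
  have hvN : ∀ z : ℍ, G (((N : ℕ) : ℝ) +ᵥ z) = G z := by
    obtain ⟨d, rfl⟩ := hwN
    exact vadd_invariant_mul hv d
  have hX : H96.IsCuspRegular (N : ℝ) G :=
    ⟨periodic_comp_ofComplex_of_vadd hvN, hGm, hGb⟩
  have hX0 : G ≠ 0 := by
    obtain ⟨τ, hτ⟩ := hG0
    intro h
    exact hτ (by rw [h]; rfl)
  refine ⟨H96.IsCuspRegular.div_dvd_order hN hw hwN hX hX0 hv, fun n => ?_⟩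
  have hNr : (0 : ℝ) < (N : ℝ) := by exact_mod_cast hN
  exact hX.order_toNat_qExpansion_pow hNr n

/-- **EXIST** (final form): every character in `homPE` is the character of an unramified
function, given the packages A2 and A5. -/
theorem exist {N n : ℕ} [NeZero N] (hn : n ≠ 0) (hA2 : Stmt_A2 N) (hA5 : Stmt_A5 N) :
    Stmt_EXIST N n :=
  exist_of hn hA2 hA5 stmt_LocCusp

end Fermat.Agent.GTor.H98
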