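import Fermat.Agent.GTor.H81_T2
import Fermat.Agent.GTor.H81_Tor
import Fermat.Agent.GTor.H81_Betti
import Fermat.Agent.GTor.H81_TorsRed
import Fermat.Agent.GTor.H58_T1
import Fermat.Agent.GTor.H58_A1
import Fermat.Agent.GTor.H58_A2
import Fermat.Agent.GTor.H56_Char
import Fermat.Agent.GTor.H56_Inj
import Fermat.Agent.GTor.H96_MONO
import Fermat.Agent.GTor.H98_ExistFinal
import Fermat.Agent.GTor.H33_CurveL
import Fermat.Agent.GTor.H2_GalHecke
import Fermat.Agent.Betti.H21_AlgEigStmt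
import Fermat.Agent.S30.H56_Lattice
import Fermat.Agent.S17.OpenStab

/-!
# G-TOR: assembly of `S30.Stmt_TatePiece`  (helper81)

`tatePiece_of` derives cluster R's interface `Stmt_TatePiece` from the packages that are still
open (as hypotheses), using every package that has landed:

* `Stmt_A3`, `Stmt_A4`, `Stmt_A5`  (points and cusps ↔ places of `F_ℂ`; helper23)
* `Stmt_DESC`                      (descent `ℂ → ℚ̄`; helper75)
* `Stmt_HK`                        (Hecke compatibility; helper2, helper44, helper76, helper95)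
* `Stmt_torsLift`                  (TORSLIFT; helper77)
* `AllRed`                         (G-RED reduction packages; helper36)
* `Betti.Stmt_basis`, `Betti.Stmt_matrixRep`  (helper20, helper76)
-/

set_option autoImplicit false

noncomputable section

namespace Fermat.Agent.GTor.H81

open AlgebraicCurve ModularCurve Fermat.Agent.GTor Fermat.Agent.Betti

/-- **GAL**: every point of `J₀(N)` is fixed by the Galois group of a number field. -/
theorem stmt_GAL (N : ℕ) [NeZero N] : Stmt_GAL N := by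
  have hZ : Fermat.Agent.S17.Stmt_zeros_finite N := by
    intro x hx
    haveI := H33.hasPrincipalDivisors_FNL (AlgebraicClosure ℚ) N
    obtain ⟨D, hD, -⟩ := HasPrincipalDivisors.exists_divisor (K := AlgebraicClosure ℚ) x hx
    refine D.support.finite_toSet.subset fun v hv => ?_
    have h0 : 0 < v.ord x := hv
    rw [Finset.mem_coe, Finsupp.mem_support_iff, hD v]
    exact h0.ne'
  intro y
  obtain ⟨F, hF, h⟩ := Fermat.Agent.S17.open_stab_of_zeros_finite N hZ y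
  exact ⟨F, hF, fun σ hσ => h σ ((IntermediateField.mem_fixingSubgroup_iff F σ).2 hσ)⟩

/-- **BETTI** from A3, A4, A5. -/
theorem stmt_BETTI (N n : ℕ) [NeZero N] (hn : n ≠ 0) (hA3 : Stmt_A3 N) (hA4 : Stmt_A4 N)
    (hA5 : Stmt_A5 N) : Stmt_BETTI N n :=
  betti_of N n (H96.stmt_MONO N n hn (H58.stmt_A1 N) hA3 hA4) (H56.stmt_CHAR hn (H58.stmt_A1 N))
    (H56.stmt_INJ (H58.stmt_A2 N)) (H98.exist hn (H58.stmt_A2 N) hA5)

/-- **TORc** from A3, A4, A5 and DESC. -/
theorem stmt_TORc (N n : ℕ) [NeZero N] (hn : n ≠ 0) (hA3 : Stmt_A3 N) (hA4 : Stmt_A4 N)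
    (hA5 : Stmt_A5 N) (hD : Stmt_DESC N n) : Stmt_TORc N n :=
  torc_of N n (H33.stmt_KUM_FNL (AlgebraicClosure ℚ) N hn) hD (stmt_BETTI N n hn hA3 hA4 hA5)
    (H56.stmt_CHAR hn (H58.stmt_A1 N))

/-- **TOR**: `J₀(N)[n] ≃ homPE(Γ₀(N), ℤ/n)`. -/
theorem stmt_TOR (N n : ℕ) [NeZero N] (hn : n ≠ 0) (hA3 : Stmt_A3 N) (hA4 : Stmt_A4 N)
    (hA5 : Stmt_A5 N) (hD : Stmt_DESC N n) : Stmt_TOR N n :=
  tor_of_torc N n (stmt_TORc N n hn hA3 hA4 hA5 hD)

/-- **The Tate system of `J₀(N)`** from the open packages. -/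
theorem stmt_TateSystem (N p : ℕ) [NeZero N] (S : Finset ℕ) (hp : p.Prime) (hpS : p ∈ S)
    (hNS : ∀ q : ℕ, q.Prime → q ∣ N → q ∈ S)
    (hA3 : Stmt_A3 N) (hA4 : Stmt_A4 N) (hA5 : Stmt_A5 N)
    (hD : ∀ n : ℕ, n ≠ 0 → Stmt_DESC N n) (hHK : ∀ n : ℕ, n ≠ 0 → Stmt_HK N n)
    (hLift : Stmt_torsLift N) (hRed : AllRed N p)
    (hBasis : Betti.Stmt_basis) (hMat : Betti.Stmt_matrixRep) : Stmt_TateSystem N p S :=
  t2 N p S hp hpS hNS
    (fun k => stmt_TORc N (p ^ k) (pow_ne_zero k hp.ne_zero) hA3 hA4 hA5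
      (hD _ (pow_ne_zero k hp.ne_zero)))
    (fun k => hHK _ (pow_ne_zero k hp.ne_zero)) hLift (H2.stmt_GalHecke N)
    (torsUnram_of_red hp hRed) (torsES_of_red hp hRed) (stmt_GAL N) hBasis hMat

/-- **`Stmt_TatePiece`** (interface of cluster R) from the open packages. -/
theorem tatePiece_of
    (hA3 : ∀ (N : ℕ) [NeZero N], Stmt_A3 N) (hA4 : ∀ (N : ℕ) [NeZero N], Stmt_A4 N)
    (hA5 : ∀ (N : ℕ) [NeZero N], Stmt_A5 N)
    (hD : ∀ (N : ℕ) [NeZero N] (n : ℕ), n ≠ 0 → Stmt_DESC N n)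
    (hHK : ∀ (N : ℕ) [NeZero N] (n : ℕ), n ≠ 0 → Stmt_HK N n)
    (hLift : ∀ (N : ℕ) [NeZero N], Stmt_torsLift N)
    (hRed : ∀ (N : ℕ) [NeZero N] (p : ℕ), p.Prime → AllRed N p)
    (hBasis : Betti.Stmt_basis) (hMat : Betti.Stmt_matrixRep) : S30.Stmt_TatePiece :=
  H58T1.t1 Betti.H21.stmt_algEig Fermat.Agent.S30.H56.stmt_lattice
    (fun p hp N _ S hpS hNS =>
      stmt_TateSystem N p S hp.out hpS hNS (hA3 N) (hA4 N) (hA5 N) (hD N) (hHK N) (hLift N)
        (hRed N p hp.out) hBasis hMat)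

end Fermat.Agent.GTor.H81
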