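/-
helper96: package LOC-ELL for MONO.  The multiplier of a holomorphic function transforming by a
constant under an element of `SL(2, ℤ)` fixing a point `z₀ ∈ ℍ` is determined by the order of
vanishing at `z₀`:  `c = (denom γ z₀) ^ (-k - 2 * ord_{z₀} G)`.
-/
import Fermat.Agent.Lib.NthRoot

set_option autoImplicit false

noncomputable section

namespace Fermat.Agent.GTor.H96

open Complex UpperHalfPlane Filter Topology Matrix.SpecialLinearGroup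
open scoped MatrixGroups ModularForm Manifold

/-- The order of vanishing of a holomorphic function on `ℍ`, not identically zero, is finite. -/
theorem analyticOrderAt_ne_top_of_mdifferentiable {G : ℍ → ℂ}
    (hG : MDifferentiable 𝓘(ℂ) 𝓘(ℂ) G) (hG0 : ∃ τ : ℍ, G τ ≠ 0) (z : ℍ) :
    analyticOrderAt (G ∘ UpperHalfPlane.ofComplex) (z : ℂ) ≠ ⊤ := by
  obtain ⟨τ₀, hτ₀⟩ := hG0
  have han := Fermat.Agent.Lib.NthRoot.analyticOnNhd_comp_ofComplex hG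
  have hpre : IsPreconnected {z : ℂ | 0 < z.im} := (convex_halfSpace_im_gt 0).isPreconnected
  have hord₀ : analyticOrderAt (G ∘ UpperHalfPlane.ofComplex) (τ₀ : ℂ) ≠ ⊤ := by
    rw [(han τ₀ τ₀.im_pos).analyticOrderAt_eq_zero.mpr
      (by simpa [UpperHalfPlane.ofComplex_apply] using hτ₀)]
    exact ENat.zero_ne_top
  exact han.analyticOrderAt_ne_top_of_isPreconnected hpre τ₀.im_pos z.im_pos hord₀

/-- The Möbius transformation attached to `γ`, as a function on `ℂ`. -/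
def moeb (γ : SL(2, ℤ)) (z : ℂ) : ℂ :=
  ((((γ : Matrix (Fin 2) (Fin 2) ℤ) 0 0 : ℤ) : ℂ) * z + (((γ : Matrix (Fin 2) (Fin 2) ℤ) 0 1 : ℤ) : ℂ)) /
    ((((γ : Matrix (Fin 2) (Fin 2) ℤ) 1 0 : ℤ) : ℂ) * z + (((γ : Matrix (Fin 2) (Fin 2) ℤ) 1 1 : ℤ) : ℂ))

/-- The automorphy factor attached to `γ`, as a function on `ℂ`. -/
def autj (γ : SL(2, ℤ)) (z : ℂ) : ℂ :=
  (((γ : Matrix (Fin 2) (Fin 2) ℤ) 1 0 : ℤ) : ℂ) * z + (((γ : Matrix (Fin 2) (Fin 2) ℤ) 1 1 : ℤ) : ℂ)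

theorem coe_smul_eq_moeb (γ : SL(2, ℤ)) (τ : ℍ) : ((γ • τ : ℍ) : ℂ) = moeb γ (τ : ℂ) := by
  rw [UpperHalfPlane.coe_specialLinearGroup_apply]
  simp [moeb]

theorem denom_eq_autj (γ : SL(2, ℤ)) (τ : ℍ) : denom γ τ = autj γ (τ : ℂ) := by
  rw [ModularGroup.denom_apply]
  simp [autj]

theorem autj_ne_zero (γ : SL(2, ℤ)) {z : ℂ} (hz : 0 < z.im) : autj γ z ≠ 0 := by
  have := UpperHalfPlane.denom_ne_zero (γ : GL (Fin 2) ℝ) ⟨z, hz⟩
  rw [← denom_eq_autj γ ⟨z, hz⟩]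
  exact this

theorem continuous_autj (γ : SL(2, ℤ)) : Continuous (autj γ) := by
  unfold autj
  fun_prop

theorem continuousAt_moeb (γ : SL(2, ℤ)) {z : ℂ} (hz : 0 < z.im) : ContinuousAt (moeb γ) z := by
  unfold moeb
  refine ContinuousAt.div (by fun_prop) (by fun_prop) ?_
  exact autj_ne_zero γ hz

theorem moeb_sub_moeb (γ : SL(2, ℤ)) {z w : ℂ} (hz : 0 < z.im) (hw : 0 < w.im) :
    moeb γ z - moeb γ w = (z - w) / (autj γ z * autj γ w) := by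
  have h1 := autj_ne_zero γ hz
  have h2 := autj_ne_zero γ hw
  have hdet : ((((γ : Matrix (Fin 2) (Fin 2) ℤ) 0 0 : ℤ) : ℂ)) *
      (((γ : Matrix (Fin 2) (Fin 2) ℤ) 1 1 : ℤ) : ℂ) -
      (((γ : Matrix (Fin 2) (Fin 2) ℤ) 0 1 : ℤ) : ℂ) *
      (((γ : Matrix (Fin 2) (Fin 2) ℤ) 1 0 : ℤ) : ℂ) = 1 := by
    have := γ.2
    rw [Matrix.det_fin_two] at this
    exact_mod_cast this
  unfold moeb
  unfold autj at h1 h2 ⊢
  rw [div_sub_div _ _ h1 h2, div_left_inj' (mul_ne_zero h1 h2)]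
  linear_combination (z - w) * hdet

/-- **LOC-ELL.** If `G ∣[k] γ = c * G` and `γ` fixes `z₀`, then
`c = (denom γ z₀) ^ (-k - 2 * ord_{z₀} G)`. -/
theorem multiplier_at_fixed_point {G : ℍ → ℂ} (hG : MDifferentiable 𝓘(ℂ) 𝓘(ℂ) G)
    (hG0 : ∃ τ : ℍ, G τ ≠ 0) {k : ℤ} {γ : SL(2, ℤ)} {z₀ : ℍ} (hfix : γ • z₀ = z₀) {c : ℂ}
    (hc : G ∣[k] γ = fun z => c * G z) :
    c = (denom γ z₀) ^
      (-k - 2 * (analyticOrderNatAt (G ∘ UpperHalfPlane.ofComplex) (z₀ : ℂ) : ℤ)) := by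
  set g₀ : ℂ → ℂ := G ∘ UpperHalfPlane.ofComplex with hg₀
  set M : ℕ := analyticOrderNatAt g₀ (z₀ : ℂ) with hM
  have han := Fermat.Agent.Lib.NthRoot.analyticOnNhd_comp_ofComplex hG
  have hord : analyticOrderAt g₀ (z₀ : ℂ) = (M : ℕ∞) :=
    (Nat.cast_analyticOrderNatAt (analyticOrderAt_ne_top_of_mdifferentiable hG hG0 z₀)).symm
  obtain ⟨u, hu_an, hu0, hu_eq⟩ := (han z₀ z₀.im_pos).analyticOrderAt_eq_natCast.mp hord
  have hz₀ : (0 : ℝ) < (z₀ : ℂ).im := z₀.im_pos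
  -- the transformation law on the upper half plane set
  have hlaw : ∀ z : ℂ, 0 < z.im → c * g₀ z = g₀ (moeb γ z) * (autj γ z) ^ (-k) := by
    intro z hz
    have h1 := congrFun hc ⟨z, hz⟩
    rw [ModularForm.SL_slash_apply] at h1
    have h2 : g₀ z = G ⟨z, hz⟩ := by
      simp only [hg₀, Function.comp_apply, UpperHalfPlane.ofComplex_apply_of_im_pos hz]
    have h3 : g₀ (moeb γ z) = G (γ • ⟨z, hz⟩) := by
      have : moeb γ z = ((γ • (⟨z, hz⟩ : ℍ) : ℍ) : ℂ) := (coe_smul_eq_moeb γ ⟨z, hz⟩).symm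
      simp only [hg₀, Function.comp_apply, this, UpperHalfPlane.ofComplex_apply]
    rw [h2, h3, ← denom_eq_autj γ ⟨z, hz⟩]
    exact h1.symm
  have hmz₀ : moeb γ (z₀ : ℂ) = (z₀ : ℂ) := by
    rw [← coe_smul_eq_moeb, hfix]
  have hmcont : ContinuousAt (moeb γ) (z₀ : ℂ) := continuousAt_moeb γ hz₀
  -- the local identities
  have hev1 : ∀ᶠ z in 𝓝 (z₀ : ℂ), g₀ (moeb γ z) = (moeb γ z - z₀) ^ M • u (moeb γ z) := by
    have : Tendsto (moeb γ) (𝓝 (z₀ : ℂ)) (𝓝 (z₀ : ℂ)) := by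
      have := hmcont.tendsto
      rwa [hmz₀] at this
    exact this.eventually hu_eq
  have hev2 : ∀ᶠ z in 𝓝 (z₀ : ℂ), 0 < z.im :=
    isOpen_upperHalfPlaneSet.mem_nhds hz₀
  have hj₀ : autj γ (z₀ : ℂ) ≠ 0 := autj_ne_zero γ hz₀
  have hkey : ∀ᶠ z in 𝓝[≠] (z₀ : ℂ),
      c * u z = u (moeb γ z) * ((autj γ z * autj γ (z₀ : ℂ)) ^ M)⁻¹ * (autj γ z) ^ (-k) := by
    have hne : ∀ᶠ z in 𝓝[≠] (z₀ : ℂ), z ≠ (z₀ : ℂ) := eventually_mem_nhdsWithin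
    filter_upwards [nhdsWithin_le_nhds hu_eq, nhdsWithin_le_nhds hev1, nhdsWithin_le_nhds hev2,
      hne] with z h1 h2 h3 h4
    have hlz := hlaw z h3
    have h1' : g₀ z = (z - (z₀ : ℂ)) ^ M • u z := h1
    rw [h1', h2] at hlz
    have hsub : moeb γ z - (z₀ : ℂ) = (z - z₀) / (autj γ z * autj γ (z₀ : ℂ)) := by
      conv_lhs => rw [← hmz₀]
      exact moeb_sub_moeb γ h3 hz₀
    rw [hsub, div_pow] at hlz
    have hzz : (z - (z₀ : ℂ)) ^ M ≠ 0 := pow_ne_zero _ (sub_ne_zero.mpr h4)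
    simp only [smul_eq_mul] at hlz
    have e : (z - (z₀ : ℂ)) ^ M * (c * u z) = (z - (z₀ : ℂ)) ^ M *
        (u (moeb γ z) * ((autj γ z * autj γ (z₀ : ℂ)) ^ M)⁻¹ * (autj γ z) ^ (-k)) := by
      rw [div_eq_mul_inv] at hlz
      linear_combination hlz
    exact mul_left_cancel₀ hzz e
  -- pass to the limit
  have hlim1 : Tendsto (fun z => c * u z) (𝓝[≠] (z₀ : ℂ)) (𝓝 (c * u (z₀ : ℂ))) :=
    ((continuousAt_const.mul hu_an.continuousAt).tendsto).mono_left nhdsWithin_le_nhds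
  have hucomp : ContinuousAt (fun z => u (moeb γ z)) (z₀ : ℂ) := by
    have h1 : ContinuousAt u (moeb γ (z₀ : ℂ)) := by rw [hmz₀]; exact hu_an.continuousAt
    exact ContinuousAt.comp (f := moeb γ) (g := u) h1 hmcont
  have hlim2 : Tendsto (fun z => u (moeb γ z) * ((autj γ z * autj γ (z₀ : ℂ)) ^ M)⁻¹ *
      (autj γ z) ^ (-k)) (𝓝[≠] (z₀ : ℂ))
      (𝓝 (u (moeb γ (z₀ : ℂ)) * ((autj γ (z₀ : ℂ) * autj γ (z₀ : ℂ)) ^ M)⁻¹ *
        (autj γ (z₀ : ℂ)) ^ (-k))) := by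
    have hc1 : ContinuousAt (fun z => ((autj γ z * autj γ (z₀ : ℂ)) ^ M)⁻¹) (z₀ : ℂ) := by
      refine ContinuousAt.inv₀ ?_ (pow_ne_zero _ (mul_ne_zero hj₀ hj₀))
      exact (((continuous_autj γ).mul continuous_const).pow M).continuousAt
    have hc2 : ContinuousAt (fun z => (autj γ z) ^ (-k)) (z₀ : ℂ) :=
      (continuous_autj γ).continuousAt.zpow₀ (-k) (Or.inl hj₀)
    exact (((hucomp.mul hc1).mul hc2).tendsto).mono_left nhdsWithin_le_nhds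
  have hEq := tendsto_nhds_unique (hlim1.congr' hkey) hlim2
  rw [hmz₀] at hEq
  have hfinal : c = ((autj γ (z₀ : ℂ) * autj γ (z₀ : ℂ)) ^ M)⁻¹ * (autj γ (z₀ : ℂ)) ^ (-k) := by
    have e : u (z₀ : ℂ) * c = u (z₀ : ℂ) *
        (((autj γ (z₀ : ℂ) * autj γ (z₀ : ℂ)) ^ M)⁻¹ * (autj γ (z₀ : ℂ)) ^ (-k)) := by
      linear_combination hEq
    exact mul_left_cancel₀ hu0 e
  rw [hfinal, denom_eq_autj,
    show (-k - 2 * (M : ℤ)) = -(((2 * M : ℕ) : ℤ)) + -k by push_cast; ring,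
    zpow_add₀ hj₀, zpow_neg _ ((2 * M : ℕ) : ℤ), zpow_natCast, pow_mul, sq]

end Fermat.Agent.GTor.H96
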