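/-
helper96: elementary facts on `SL(2, ℤ)` for the package MONO.

* `eq_one_or_neg_one_of_pow_eq_one`: an element of finite order with `|trace| ≥ 2` is `±1`;
* `exists_fixed_point_of_trace`: an element with `|trace| ≤ 1` fixes a point of `ℍ`;
* `finOrder_cases`: an element of finite order is `±1` or fixes a point of `ℍ`;
* `exists_conj_T_zpow_of_trace_eq_two`: an element of trace `2` is conjugate to a power of `T`.
-/
import Mathlib

set_option autoImplicit false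

noncomputable section

namespace Fermat.Agent.GTor.H96

open Complex UpperHalfPlane Matrix Matrix.SpecialLinearGroup
open scoped MatrixGroups

/-! ### Powers of a `2 × 2` matrix of determinant one -/

/-- The Chebyshev-like sequence `u 0 = 0`, `u 1 = 1`, `u (m+2) = t * u (m+1) - u m`. -/
def chebU (t : ℤ) : ℕ → ℤ
  | 0 => 0
  | 1 => 1
  | (m + 2) => t * chebU t (m + 1) - chebU t m

theorem chebU_zero (t : ℤ) : chebU t 0 = 0 := rfl

theorem chebU_one (t : ℤ) : chebU t 1 = 1 := rfl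

theorem chebU_succ_succ (t : ℤ) (m : ℕ) :
    chebU t (m + 2) = t * chebU t (m + 1) - chebU t m := rfl

theorem sq_eq_trace_mul_sub_one (M : Matrix (Fin 2) (Fin 2) ℤ) (hdet : M.det = 1) :
    M * M = M.trace • M - (1 : Matrix (Fin 2) (Fin 2) ℤ) := by
  rw [Matrix.det_fin_two] at hdet
  have h : ∀ i j, (M * M) i j
      = M.trace * M i j - (1 : Matrix (Fin 2) (Fin 2) ℤ) i j := by
    intro i j
    fin_cases i <;> fin_cases j <;>
      simp [Matrix.mul_apply, Fin.sum_univ_two, Matrix.trace_fin_two] <;>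
      first | linear_combination hdet | linear_combination -hdet | ring
  ext i j
  rw [h]
  simp only [Matrix.sub_apply, Matrix.smul_apply, smul_eq_mul]

theorem pow_succ_eq_chebU (M : Matrix (Fin 2) (Fin 2) ℤ) (hdet : M.det = 1) (m : ℕ) :
    M ^ (m + 1) = chebU M.trace (m + 1) • M - chebU M.trace m • (1 : Matrix (Fin 2) (Fin 2) ℤ) := by
  induction m with
  | zero => simp [chebU_zero, chebU_one]
  | succ m ih =>
    rw [pow_succ, ih, sub_mul, Matrix.smul_mul, Matrix.smul_mul, one_mul,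
      sq_eq_trace_mul_sub_one M hdet, chebU_succ_succ]
    simp only [smul_sub, smul_smul, sub_smul]
    module

theorem abs_chebU_succ_ge {t : ℤ} (ht : 2 ≤ |t|) (m : ℕ) :
    |chebU t m| + 1 ≤ |chebU t (m + 1)| := by
  induction m with
  | zero => simp [chebU_zero, chebU_one]
  | succ m ih =>
    rw [chebU_succ_succ]
    have h1 : |t * chebU t (m + 1)| - |chebU t m| ≤ |t * chebU t (m + 1) - chebU t m| :=
      abs_sub_abs_le_abs_sub _ _
    have h2 : |t * chebU t (m + 1)| = |t| * |chebU t (m + 1)| := abs_mul _ _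
    have h3 : 0 ≤ |chebU t (m + 1)| := abs_nonneg _
    nlinarith

theorem chebU_succ_ne_zero {t : ℤ} (ht : 2 ≤ |t|) (m : ℕ) : chebU t (m + 1) ≠ 0 := by
  have h := abs_chebU_succ_ge ht m
  have h0 : 0 ≤ |chebU t m| := abs_nonneg _
  intro h1
  rw [h1, abs_zero] at h
  linarith

/-- A matrix of determinant one and finite order with `|trace| ≥ 2` is `±1`. -/
theorem eq_one_or_neg_one_of_pow_eq_one (γ : SL(2, ℤ))
    (ht : 2 ≤ |(γ : Matrix (Fin 2) (Fin 2) ℤ).trace|) {m : ℕ} (hm : 0 < m) (hpow : γ ^ m = 1) :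
    γ = 1 ∨ γ = -1 := by
  obtain ⟨m, rfl⟩ : ∃ m', m = m' + 1 := ⟨m - 1, by omega⟩
  have h1 : ((γ : Matrix (Fin 2) (Fin 2) ℤ)) ^ (m + 1) = 1 := by
    rw [← Matrix.SpecialLinearGroup.coe_pow, hpow, Matrix.SpecialLinearGroup.coe_one]
  rw [pow_succ_eq_chebU _ γ.2] at h1
  have hu := chebU_succ_ne_zero ht m
  have h01 := congrFun (congrFun h1 0) 1
  have h10 := congrFun (congrFun h1 1) 0
  simp only [Matrix.sub_apply, Matrix.smul_apply, smul_eq_mul, Matrix.one_apply_ne (zero_ne_one),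
    Matrix.one_apply_ne (one_ne_zero), mul_zero, sub_zero] at h01 h10
  have hb : (γ : Matrix (Fin 2) (Fin 2) ℤ) 0 1 = 0 := (mul_eq_zero.mp h01).resolve_left hu
  have hc : (γ : Matrix (Fin 2) (Fin 2) ℤ) 1 0 = 0 := (mul_eq_zero.mp h10).resolve_left hu
  have hdet := γ.2
  rw [Matrix.det_fin_two, hb, hc, mul_zero, sub_zero] at hdet
  rcases Int.eq_one_or_neg_one_of_mul_eq_one' hdet with ⟨ha, hd⟩ | ⟨ha, hd⟩
  · left
    ext i j
    fin_cases i <;> fin_cases j <;> simp [ha, hd, hb, hc]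
  · right
    ext i j
    fin_cases i <;> fin_cases j <;> simp [ha, hd, hb, hc]

/-- An element of `SL(2, ℤ)` with `|trace| ≤ 1` fixes a point of the upper half plane. -/
theorem exists_fixed_point_of_trace (γ : SL(2, ℤ))
    (ht : |(γ : Matrix (Fin 2) (Fin 2) ℤ).trace| ≤ 1) : ∃ z : ℍ, γ • z = z := by
  set a : ℤ := (γ : Matrix (Fin 2) (Fin 2) ℤ) 0 0 with ha
  set b : ℤ := (γ : Matrix (Fin 2) (Fin 2) ℤ) 0 1 with hb
  set c : ℤ := (γ : Matrix (Fin 2) (Fin 2) ℤ) 1 0 with hc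
  set d : ℤ := (γ : Matrix (Fin 2) (Fin 2) ℤ) 1 1 with hd
  have hdet : a * d - b * c = 1 := by
    have := γ.2
    rwa [Matrix.det_fin_two] at this
  have htr : |a + d| ≤ 1 := by
    rwa [Matrix.trace_fin_two] at ht
  have hc0 : c ≠ 0 := by
    intro h0
    rw [h0, mul_zero, sub_zero] at hdet
    rcases Int.eq_one_or_neg_one_of_mul_eq_one' hdet with ⟨h1, h2⟩ | ⟨h1, h2⟩
    · rw [h1, h2] at htr; norm_num at htr
    · rw [h1, h2] at htr; norm_num at htr
  have hcR : (c : ℝ) ≠ 0 := by exact_mod_cast hc0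
  have habs : (0 : ℝ) < |(c : ℝ)| := abs_pos.mpr hcR
  have htR : ((a : ℝ) + d) ^ 2 ≤ 1 := by
    have h1 : |((a : ℝ) + d)| ≤ 1 := by exact_mod_cast htr
    have := abs_le.mp h1
    nlinarith
  have hpos : (0 : ℝ) < 4 - ((a : ℝ) + d) ^ 2 := by linarith
  set y : ℝ := Real.sqrt (4 - ((a : ℝ) + d) ^ 2) / (2 * |(c : ℝ)|) with hy
  set x : ℝ := ((a : ℝ) - d) / (2 * c) with hx
  have hy0 : 0 < y := div_pos (Real.sqrt_pos.mpr hpos) (by positivity)
  have hy2 : y ^ 2 * (4 * (c : ℝ) ^ 2) = 4 - ((a : ℝ) + d) ^ 2 := by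
    rw [hy, div_pow, Real.sq_sqrt hpos.le, mul_pow, sq_abs]
    field_simp
    ring
  have hxc : x * (2 * c) = (a : ℝ) - d := by
    rw [hx]; field_simp
  have hdetR : (a : ℝ) * d - b * c = 1 := by exact_mod_cast hdet
  let z : ℍ := ⟨⟨x, y⟩, hy0⟩
  refine ⟨z, ?_⟩
  apply UpperHalfPlane.ext
  rw [UpperHalfPlane.coe_specialLinearGroup_apply]
  have hden : ((algebraMap ℤ ℝ ((γ : Matrix (Fin 2) (Fin 2) ℤ) 1 0) : ℂ) * (z : ℂ)
      + (algebraMap ℤ ℝ ((γ : Matrix (Fin 2) (Fin 2) ℤ) 1 1) : ℂ)) ≠ 0 := by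
    have := UpperHalfPlane.denom_ne_zero (γ : GL (Fin 2) ℝ) z
    simpa [UpperHalfPlane.denom] using this
  rw [div_eq_iff hden]
  have hz : (z : ℂ) = ⟨x, y⟩ := rfl
  rw [hz]
  simp only [algebraMap_int_eq, eq_intCast, ← ha, ← hb, ← hc, ← hd]
  apply Complex.ext
  · simp only [Complex.add_re, Complex.mul_re, Complex.ofReal_intCast, Complex.intCast_re,
      Complex.intCast_im, Complex.add_im, Complex.mul_im]
    ring_nf
    have hcc : (c : ℝ) * c * x ^ 2 * 4 = ((a : ℝ) - d) ^ 2 := by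
      rw [← hxc]; ring
    have key : (c : ℝ) * ((a : ℝ) * x + b - (x * (c * x + d) - y * (c * y))) = 0 := by
      have e1 : (c : ℝ) * ((a : ℝ) * x + b - (x * (c * x + d) - y * (c * y)))
          = ((a - d) * (x * (2 * c)) / 2 + b * c - (x * (2 * c)) ^ 2 / 4
              + y ^ 2 * (4 * (c : ℝ) ^ 2) / 4) := by ring
      rw [e1, hxc, hy2]
      linear_combination -hdetR
    have := (mul_eq_zero.mp key).resolve_left hcR
    linarith
  · simp only [Complex.add_re, Complex.mul_re, Complex.ofReal_intCast, Complex.intCast_re,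
      Complex.intCast_im, Complex.add_im, Complex.mul_im]
    ring_nf
    have : (a : ℝ) * y - (x * (c * y) + y * (c * x + d)) = 0 := by
      have e1 : (a : ℝ) * y - (x * (c * y) + y * (c * x + d)) = y * ((a - d) - x * (2 * c)) := by
        ring
      rw [e1, hxc, sub_self, mul_zero]
    linarith

/-- A matrix in `SL(2, ℤ)` fixing the first basis vector is a power of `T`. -/
theorem eq_T_zpow_of_col (δ : SL(2, ℤ)) (h00 : (δ : Matrix (Fin 2) (Fin 2) ℤ) 0 0 = 1)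
    (h10 : (δ : Matrix (Fin 2) (Fin 2) ℤ) 1 0 = 0) :
    δ = ModularGroup.T ^ ((δ : Matrix (Fin 2) (Fin 2) ℤ) 0 1) := by
  have hdet := δ.2
  rw [Matrix.det_fin_two, h00, h10, mul_zero, sub_zero, one_mul] at hdet
  ext i j
  rw [ModularGroup.coe_T_zpow]
  fin_cases i <;> fin_cases j <;> simp [h00, h10, hdet]

/-- An element of `SL(2, ℤ)` fixing a primitive vector is conjugate to a power of `T`. -/
theorem exists_conj_T_zpow_of_fixed_vector (γ : SL(2, ℤ)) {p q : ℤ} (hpq : IsCoprime p q)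
    (h0 : (γ : Matrix (Fin 2) (Fin 2) ℤ) 0 0 * p + (γ : Matrix (Fin 2) (Fin 2) ℤ) 0 1 * q = p)
    (h1 : (γ : Matrix (Fin 2) (Fin 2) ℤ) 1 0 * p + (γ : Matrix (Fin 2) (Fin 2) ℤ) 1 1 * q = q) :
    ∃ (σ : SL(2, ℤ)) (j : ℤ), γ = σ * ModularGroup.T ^ j * σ⁻¹ := by
  obtain ⟨σ, hσ0, hσ1⟩ := hpq.exists_SL2_col 0
  have hσdet := σ.2
  rw [Matrix.det_fin_two, hσ0, hσ1] at hσdet
  set δ : SL(2, ℤ) := σ⁻¹ * γ * σ with hδ
  have hδ00 : (δ : Matrix (Fin 2) (Fin 2) ℤ) 0 0 = 1 := by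
    rw [hδ]
    simp only [Matrix.SpecialLinearGroup.coe_mul, Matrix.SpecialLinearGroup.coe_inv,
      Matrix.adjugate_fin_two, Matrix.mul_apply, Fin.sum_univ_two, Matrix.of_apply,
      Matrix.cons_val_zero, Matrix.cons_val_one, Matrix.cons_val', Matrix.cons_val_fin_one,
      hσ0, hσ1]
    linear_combination (σ.1 1 1) * h0 - (σ.1 0 1) * h1 + hσdet
  have hδ10 : (δ : Matrix (Fin 2) (Fin 2) ℤ) 1 0 = 0 := by
    rw [hδ]
    simp only [Matrix.SpecialLinearGroup.coe_mul, Matrix.SpecialLinearGroup.coe_inv,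
      Matrix.adjugate_fin_two, Matrix.mul_apply, Fin.sum_univ_two, Matrix.of_apply,
      Matrix.cons_val_zero, Matrix.cons_val_one, Matrix.cons_val', Matrix.cons_val_fin_one,
      hσ0, hσ1]
    linear_combination (-q) * h0 + p * h1
  refine ⟨σ, (δ : Matrix (Fin 2) (Fin 2) ℤ) 0 1, ?_⟩
  rw [← eq_T_zpow_of_col δ hδ00 hδ10, hδ]
  group

/-- An element of `SL(2, ℤ)` of trace `2` is conjugate to a power of `T`. -/
theorem exists_conj_T_zpow_of_trace_eq_two (γ : SL(2, ℤ))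
    (ht : (γ : Matrix (Fin 2) (Fin 2) ℤ).trace = 2) :
    ∃ (σ : SL(2, ℤ)) (j : ℤ), γ = σ * ModularGroup.T ^ j * σ⁻¹ := by
  have hdet := γ.2
  rw [Matrix.det_fin_two] at hdet
  rw [Matrix.trace_fin_two] at ht
  set a : ℤ := (γ : Matrix (Fin 2) (Fin 2) ℤ) 0 0 with ha
  set b : ℤ := (γ : Matrix (Fin 2) (Fin 2) ℤ) 0 1 with hb
  set c : ℤ := (γ : Matrix (Fin 2) (Fin 2) ℤ) 1 0 with hc
  set d : ℤ := (γ : Matrix (Fin 2) (Fin 2) ℤ) 1 1 with hd
  by_cases hg : Int.gcd (a - 1) c = 0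
  · -- `a = 1`, `c = 0`
    have ha1 : a - 1 = 0 := (Int.gcd_eq_zero_iff.mp hg).1
    have hc0 : c = 0 := (Int.gcd_eq_zero_iff.mp hg).2
    refine exists_conj_T_zpow_of_fixed_vector γ (p := 1) (q := 0) isCoprime_one_left ?_ ?_
    · rw [← ha, ← hb]; linarith
    · rw [← hc, ← hd, hc0]; ring
  · obtain ⟨p, q, hpq, hp, hq⟩ := Int.exists_gcd_one (Nat.pos_of_ne_zero hg)
    have hg0 : ((Int.gcd (a - 1) c : ℕ) : ℤ) ≠ 0 := by exact_mod_cast hg
    set g : ℤ := ((Int.gcd (a - 1) c : ℕ) : ℤ) with hgdef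
    refine exists_conj_T_zpow_of_fixed_vector γ (p := p) (q := q)
      (Int.isCoprime_iff_gcd_eq_one.mpr hpq) ?_ ?_
    · rw [← ha, ← hb]
      have key : g * (a * p + b * q - p) = 0 := by
        have e : g * (a * p + b * q - p) = (a - 1) * (p * g) + b * (q * g) := by ring
        rw [e, ← hp, ← hq]
        linear_combination (a) * ht - hdet
      have := (mul_eq_zero.mp key).resolve_left hg0
      linarith
    · rw [← hc, ← hd]
      have key : g * (c * p + d * q - q) = 0 := by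
        have e : g * (c * p + d * q - q) = c * (p * g) + (d - 1) * (q * g) := by ring
        rw [e, ← hp, ← hq]
        linear_combination c * ht
      have := (mul_eq_zero.mp key).resolve_left hg0
      linarith

/-- An element of finite order of `SL(2, ℤ)` is `±1` or fixes a point of `ℍ`. -/
theorem finOrder_cases (γ : SL(2, ℤ)) (h : IsOfFinOrder γ) :
    γ = 1 ∨ γ = -1 ∨ ∃ z : ℍ, γ • z = z := by
  by_cases ht : 2 ≤ |(γ : Matrix (Fin 2) (Fin 2) ℤ).trace|
  · obtain ⟨m, hm, hpow⟩ := isOfFinOrder_iff_pow_eq_one.mp h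
    rcases eq_one_or_neg_one_of_pow_eq_one γ ht hm hpow with h1 | h1
    · exact Or.inl h1
    · exact Or.inr (Or.inl h1)
  · exact Or.inr (Or.inr (exists_fixed_point_of_trace γ (by omega)))

/-- An element of `SL(2, ℤ)` with `trace ^ 2 = 4` is, up to sign, conjugate to a power
of `T`. -/
theorem trace_sq_eq_four_cases (γ : SL(2, ℤ))
    (ht : (γ : Matrix (Fin 2) (Fin 2) ℤ).trace ^ 2 = 4) :
    ∃ (σ : SL(2, ℤ)) (j : ℤ), γ = σ * ModularGroup.T ^ j * σ⁻¹ ∨
      γ = -(σ * ModularGroup.T ^ j * σ⁻¹) := by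
  have h' : ((γ : Matrix (Fin 2) (Fin 2) ℤ).trace - 2) *
      ((γ : Matrix (Fin 2) (Fin 2) ℤ).trace + 2) = 0 := by linear_combination ht
  rcases mul_eq_zero.mp h' with h1 | h1
  · obtain ⟨σ, j, h⟩ := exists_conj_T_zpow_of_trace_eq_two γ (by linarith)
    exact ⟨σ, j, Or.inl h⟩
  · have hneg : ((-γ : SL(2, ℤ)) : Matrix (Fin 2) (Fin 2) ℤ).trace = 2 := by
      rw [Matrix.SpecialLinearGroup.coe_neg, Matrix.trace_neg]
      linarith
    obtain ⟨σ, j, h⟩ := exists_conj_T_zpow_of_trace_eq_two (-γ) hneg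
    exact ⟨σ, j, Or.inr (by rw [← h, neg_neg])⟩

/-! ### Minimal exponents -/

/-- If `w` is the least positive exponent with `g ^ w ∈ H`, then `g ^ j ∈ H` implies `w ∣ j`. -/
theorem sInf_dvd_of_zpow_mem {G : Type*} [Group G] (H : Subgroup G) (g : G)
    (hw : 0 < sInf {h : ℕ | 0 < h ∧ g ^ h ∈ H}) {j : ℤ} (hj : g ^ j ∈ H) :
    ((sInf {h : ℕ | 0 < h ∧ g ^ h ∈ H} : ℕ) : ℤ) ∣ j := by
  set S : Set ℕ := {h : ℕ | 0 < h ∧ g ^ h ∈ H} with hS
  set w : ℕ := sInf S with hwdef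
  have hne : S.Nonempty := by
    by_contra hempty
    rw [Set.not_nonempty_iff_eq_empty] at hempty
    rw [hwdef, hempty, Nat.sInf_empty] at hw
    exact lt_irrefl 0 hw
  have hwS : w ∈ S := Nat.sInf_mem hne
  have hwpos : (0 : ℤ) < (w : ℤ) := by exact_mod_cast hw
  have hr0 : 0 ≤ j % (w : ℤ) := Int.emod_nonneg j hwpos.ne'
  have hrw : j % (w : ℤ) < w := Int.emod_lt_of_pos j hwpos
  have hmem : g ^ (j % (w : ℤ)) ∈ H := by
    have e : j % (w : ℤ) = j - (w : ℤ) * (j / (w : ℤ)) := by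
      have := Int.emod_add_mul_ediv j (w : ℤ)
      linarith
    rw [e, _root_.zpow_sub, _root_.zpow_mul, zpow_natCast]
    exact H.mul_mem hj (H.inv_mem (H.zpow_mem hwS.2 _))
  by_contra hdvd
  have hrne : j % (w : ℤ) ≠ 0 := fun h0 => hdvd (Int.dvd_of_emod_eq_zero h0)
  have hrpos : 0 < j % (w : ℤ) := lt_of_le_of_ne hr0 (Ne.symm hrne)
  have hmemS : (j % (w : ℤ)).toNat ∈ S := by
    refine ⟨by omega, ?_⟩
    have : ((j % (w : ℤ)).toNat : ℤ) = j % (w : ℤ) := Int.toNat_of_nonneg hr0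
    rw [← zpow_natCast, this]
    exact hmem
  have := Nat.sInf_le hmemS
  omega

end Fermat.Agent.GTor.H96
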