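import Fermat.Agent.GTor.H44_NormSeries
import Fermat.Prelude.Thm_ModularCurve_coeffMap_qExpand

/-!
# G-TOR, HK: base change of the formal Hecke norm series (helper44)

`coeffMap_normSeries`: for a ring homomorphism `ι : K → L` of fields, `K` containing a primitive
`ℓ`-th root of unity, `coeffMap ι (normSeries K ℓ s) = normSeries L ℓ (coeffMap ι s)`.

Also `zetaUnit ℓ : ℂˣ`, the primitive root `exp(2πi/ℓ)`, and the explicit form of
`heckeNormSeries`.
-/

set_option autoImplicit false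

noncomputable section

namespace Fermat.Agent.GTor.H44

open HahnSeries ModularCurve

section BaseChange

variable {K L : Type*} [Field K] [Field L] (ι : K →+* L) {ℓ : ℕ} [NeZero ℓ]

theorem coeffMap_twistBy (c : Kˣ) (s : LaurentSeries K) :
    coeffMap ι (twistBy c s) = twistBy (Units.map (ι : K →* L) c) (coeffMap ι s) := by
  ext m
  rw [coeffMap_coeff, twistBy_coeff, twistBy_coeff, coeffMap_coeff, map_mul, ← map_zpow]
  rfl

theorem coeffMap_descend (P : LaurentSeries K) :
    coeffMap ι (descend ℓ P) = descend ℓ (coeffMap ι P) := by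
  ext m
  rw [coeffMap_coeff, descend_coeff, descend_coeff, coeffMap_coeff]

theorem coeffMap_twistProd {ζ₀ : Kˣ} (hζ : IsPrimitiveRoot ζ₀ ℓ) (s : LaurentSeries K) :
    coeffMap ι (twistProd K ℓ s) = twistProd L ℓ (coeffMap ι s) := by
  have hinj : Function.Injective (Units.map (ι : K →* L)) :=
    Units.map_injective ι.injective
  have hζ' : IsPrimitiveRoot (Units.map (ι : K →* L) ζ₀) ℓ := hζ.map_of_injective hinj
  rw [twistProd_eq_prod_range hζ, twistProd_eq_prod_range hζ', map_prod]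
  refine Finset.prod_congr rfl fun j _ => ?_
  rw [coeffMap_twistBy, map_pow]

theorem coeffMap_normSeries {ζ₀ : Kˣ} (hζ : IsPrimitiveRoot ζ₀ ℓ) (s : LaurentSeries K) :
    coeffMap ι (normSeries K ℓ s) = normSeries L ℓ (coeffMap ι s) := by
  unfold normSeries
  rw [map_mul, ModularCurve.coeffMap_qExpand, coeffMap_descend, coeffMap_twistProd ι hζ]

end BaseChange

section Complex

variable (ℓ : ℕ) [NeZero ℓ]

/-- `exp(2πi/ℓ)` as a unit of `ℂ`. -/
def zetaUnit : ℂˣ :=
  Units.mk0 (Complex.exp (2 * Real.pi * Complex.I / ℓ)) (Complex.exp_ne_zero _)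

@[simp] theorem coe_zetaUnit :
    ((zetaUnit ℓ : ℂˣ) : ℂ) = Complex.exp (2 * Real.pi * Complex.I / ℓ) := rfl

theorem isPrimitiveRoot_zetaUnit : IsPrimitiveRoot (zetaUnit ℓ) ℓ := by
  rw [← IsPrimitiveRoot.coe_units_iff, coe_zetaUnit]
  exact Complex.isPrimitiveRoot_exp ℓ (NeZero.ne ℓ)

theorem heckeNormSeries_mul (s t : LaurentSeries ℂ) :
    heckeNormSeries ℓ (s * t) = heckeNormSeries ℓ s * heckeNormSeries ℓ t :=
  normSeries_mul (isPrimitiveRoot_zetaUnit ℓ) s t

theorem heckeNormSeries_pow (s : LaurentSeries ℂ) (n : ℕ) :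
    heckeNormSeries ℓ (s ^ n) = heckeNormSeries ℓ s ^ n :=
  normSeries_pow (isPrimitiveRoot_zetaUnit ℓ) s n

theorem heckeNormSeries_one : heckeNormSeries ℓ (1 : LaurentSeries ℂ) = 1 := normSeries_one

/-- the explicit form -/
theorem heckeNormSeries_eq (s : LaurentSeries ℂ) :
    heckeNormSeries ℓ s =
      qExpand ℂ ℓ s * descend ℓ (∏ j ∈ Finset.range ℓ, twistBy (zetaUnit ℓ ^ j) s) := by
  unfold heckeNormSeries normSeries
  rw [twistProd_eq_prod_range (isPrimitiveRoot_zetaUnit ℓ)]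

/-- how to recognise the Hecke norm series -/
theorem eq_heckeNormSeries_of_qExpand {s g : LaurentSeries ℂ}
    (h : qExpand ℂ ℓ g =
      qExpand ℂ ℓ (qExpand ℂ ℓ s) * ∏ j ∈ Finset.range ℓ, twistBy (zetaUnit ℓ ^ j) s) :
    g = heckeNormSeries ℓ s := by
  refine eq_normSeries_of_qExpand (isPrimitiveRoot_zetaUnit ℓ) ?_
  rw [twistProd_eq_prod_range (isPrimitiveRoot_zetaUnit ℓ)]
  exact h

theorem heckeNormSeries_ne_zero {s : LaurentSeries ℂ} (hs : s ≠ 0) :
    heckeNormSeries ℓ s ≠ 0 := by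
  intro h
  have h1 := heckeNormSeries_mul ℓ s s⁻¹
  rw [mul_inv_cancel₀ hs, heckeNormSeries_one, h, zero_mul] at h1
  exact one_ne_zero h1

theorem heckeNormSeries_inv (s : LaurentSeries ℂ) :
    heckeNormSeries ℓ s⁻¹ = (heckeNormSeries ℓ s)⁻¹ := by
  by_cases hs : s = 0
  · subst hs
    have h0 : heckeNormSeries ℓ (0 : LaurentSeries ℂ) = 0 := by
      unfold heckeNormSeries normSeries
      rw [map_zero, zero_mul]
    rw [inv_zero, h0, inv_zero]
  · have h1 := heckeNormSeries_mul ℓ s s⁻¹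
    rw [mul_inv_cancel₀ hs, heckeNormSeries_one] at h1
    exact eq_inv_of_mul_eq_one_right h1.symm

theorem heckeNormSeries_div (s t : LaurentSeries ℂ) :
    heckeNormSeries ℓ (s / t) = heckeNormSeries ℓ s / heckeNormSeries ℓ t := by
  rw [div_eq_mul_inv, heckeNormSeries_mul, heckeNormSeries_inv, div_eq_mul_inv]

end Complex

end Fermat.Agent.GTor.H44
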