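import Fermat.Agent.GTor.H2_HKalg
import Fermat.Agent.GTor.H44_NormSeriesBC

/-!
# G-TOR, package HK-alg (helper2): `Stmt_HKC` from `hk_an`, the norm series and base change

* `Stmt_HKan N n` : the analytic statement (helper44 / helper76): if `f' ∈ F_ℂ` has character `φ`
  then `heckeNormSeries ℓ f'` is the expansion of some `g' ∈ F_ℂ` with character `T_ℓ^B φ`.
* `Stmt_NormSeries N` : the expansion of `Norm_α (β f)` is `normSeries ℚ̄ ℓ f` (helper95).
* `hkc_of : Stmt_HKan N n → Stmt_NormSeries N → Stmt_HKC N n`,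
* `hk_of : (∀ ℓ, HeckeInputsAlong ℚ̄ N ℓ) → Stmt_HKan N n → Stmt_NormSeries N → Stmt_HK N n`.
-/

set_option autoImplicit false
set_option linter.style.haveILetI false
set_option linter.unusedSectionVars false
set_option linter.dupNamespace false

noncomputable section

namespace Fermat.Agent.GTor.H2

open AlgebraicCurve ModularCurve

/-- **HK-an** (helper44, helper76): the analytic half of HK. -/
def Stmt_HKan (N n : ℕ) [NeZero N] : Prop :=
  ∀ (ℓ : ℕ) (hℓ : ℓ.Prime) (hℓN : ¬ ℓ ∣ N) (f' : FNL ℂ N)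
    (φ : Additive (CongruenceSubgroup.Gamma0 N) →+ ZMod n),
    f' ≠ 0 → HasChar N n f' φ →
    ∃ g' : FNL ℂ N,
      (g' : LaurentSeries ℂ)
        = (haveI : NeZero ℓ := ⟨hℓ.ne_zero⟩; H44.heckeNormSeries ℓ (f' : LaurentSeries ℂ)) ∧
      HasChar N n g' (Betti.TB N (ZMod n) hℓ hℓN φ)

/-- **NormSeries** (helper95): the `q`-expansion of `Norm_α (β f)`. -/
def Stmt_NormSeries (N : ℕ) [NeZero N] : Prop :=
  ∀ (ℓ : ℕ) (hℓ : ℓ.Prime) (_ : ¬ ℓ ∣ N) (f : FNL (AlgebraicClosure ℚ) N),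
    haveI : NeZero ℓ := ⟨hℓ.ne_zero⟩
    ((heckeNormFn (AlgebraicClosure ℚ) N ℓ f : FNL (AlgebraicClosure ℚ) N) :
        LaurentSeries (AlgebraicClosure ℚ))
      = H44.normSeries (AlgebraicClosure ℚ) ℓ (f : LaurentSeries (AlgebraicClosure ℚ))

/-- `ℚ̄` contains a primitive `ℓ`-th root of unity. -/
theorem exists_primitiveRoot_Qbar (ℓ : ℕ) [NeZero ℓ] :
    ∃ ζ : (AlgebraicClosure ℚ)ˣ, IsPrimitiveRoot ζ ℓ := by
  obtain ⟨z, hz⟩ := HasEnoughRootsOfUnity.exists_primitiveRoot (AlgebraicClosure ℚ) ℓ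
  have hz0 : z ≠ 0 := hz.ne_zero (NeZero.ne ℓ)
  exact ⟨Units.mk0 z hz0, IsPrimitiveRoot.coe_units_iff.mp (by simpa using hz)⟩

theorem hkc_of (N n : ℕ) [NeZero N] (han : Stmt_HKan N n) (hns : Stmt_NormSeries N) :
    Stmt_HKC N n := by
  intro ι ℓ hℓ hℓN f f' φ hf hco hch
  haveI : NeZero ℓ := ⟨hℓ.ne_zero⟩
  have hcoe : (f' : LaurentSeries ℂ) = coeffMap ι (f : LaurentSeries (AlgebraicClosure ℚ)) := by
    ext m
    rw [hco m, coeffMap_coeff]
  have hf' : f' ≠ 0 := by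
    intro h0
    apply hf
    apply Subtype.ext
    ext m
    have h1 := hco m
    rw [h0] at h1
    have h2 : ι ((f : LaurentSeries (AlgebraicClosure ℚ)).coeff m) = 0 := by
      rw [← h1]
      rfl
    have h3 := (map_eq_zero ι).mp h2
    rw [h3]
    rfl
  obtain ⟨g', hg', hch'⟩ := han ℓ hℓ hℓN f' φ hf' hch
  obtain ⟨ζ, hζ⟩ := exists_primitiveRoot_Qbar ℓ
  refine ⟨g', fun m => ?_, hch'⟩
  rw [hg', hns ℓ hℓ hℓN f, ← coeffMap_coeff, H44.coeffMap_normSeries ι hζ, ← hcoe]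
  rfl

/-- **HK-alg**: `Stmt_HK` from the Hecke inputs, `hk_an` and the norm series. -/
theorem hk_of (N n : ℕ) [NeZero N]
    (hIn : ∀ (ℓ : ℕ) [NeZero ℓ], HeckeInputsAlong (AlgebraicClosure ℚ) N ℓ)
    (han : Stmt_HKan N n) (hns : Stmt_NormSeries N) : Stmt_HK N n :=
  hk_of_HKC N n hIn (hkc_of N n han hns)

end Fermat.Agent.GTor.H2
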