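import Fermat.Agent.GTor.H2_HKalgC
import Fermat.Agent.RED.ES.H95_ES2

/-!
# G-TOR, package HK-alg (helper2): the norm series from `Norm_α (β f) = Norm_β (α f)`

helper95's ES-2 (`H95.norm_alpha_qExpand_zetaL`) computes the expansion of `Norm_β (α g)`.
`Stmt_NormSwap N` says `Norm_α (β f) = Norm_β (α f)`; together they give `Stmt_NormSeries N`.
-/

set_option autoImplicit false
set_option linter.style.haveILetI false
set_option linter.unusedSectionVars false
set_option linter.dupNamespace false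

noncomputable section

namespace Fermat.Agent.GTor.H2

open AlgebraicCurve ModularCurve Fermat.Agent.S24 Fermat.Agent.RED.H95

/-- The Kummer function of the transposed correspondence: the norm along `β` of `α f`. -/
def heckeNormFnT (L : Type) [Field L] [Algebra ℚ L] (N ℓ : ℕ) [NeZero N] [NeZero ℓ]
    (f : FNL L N) : FNL L N :=
  letI := algebraAlong (heckeBetaBar L N ℓ)
  Algebra.norm (FNL L N) (heckeAlphaBar L N ℓ f)

/-- **NormSwap**: `Norm_α (β f) = Norm_β (α f)`. -/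
def Stmt_NormSwap (N : ℕ) [NeZero N] : Prop :=
  ∀ (ℓ : ℕ) (hℓ : ℓ.Prime) (_ : ¬ ℓ ∣ N) (f : FNL (AlgebraicClosure ℚ) N),
    haveI : NeZero ℓ := ⟨hℓ.ne_zero⟩
    heckeNormFn (AlgebraicClosure ℚ) N ℓ f = heckeNormFnT (AlgebraicClosure ℚ) N ℓ f

theorem twist_eq_twistBy {K : Type*} [Field K] (z : Kˣ) (s : LaurentSeries K) :
    twist (z : K) s = H44.twistBy z s := by
  ext m
  rw [twist_coeff, H44.twistBy_coeff, Units.val_zpow_eq_zpow_val]

/-- The expansion of `Norm_β (α f)` is the norm series. -/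
theorem heckeNormFnT_coe (N ℓ : ℕ) [NeZero N] [NeZero ℓ] (hℓ : ℓ.Prime) (hN : ¬ ℓ ∣ N)
    (f : FNL (AlgebraicClosure ℚ) N) :
    ((heckeNormFnT (AlgebraicClosure ℚ) N ℓ f : FNL (AlgebraicClosure ℚ) N) :
        LaurentSeries (AlgebraicClosure ℚ))
      = H44.normSeries (AlgebraicClosure ℚ) ℓ (f : LaurentSeries (AlgebraicClosure ℚ)) := by
  have hz : IsPrimitiveRoot (zetaL N ℓ) ℓ := isPrimitiveRoot_zetaL
  have hz0 : zetaL N ℓ ≠ 0 := hz.ne_zero (NeZero.ne ℓ)
  have hζ : IsPrimitiveRoot (Units.mk0 (zetaL N ℓ) hz0) ℓ :=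
    IsPrimitiveRoot.coe_units_iff.mp (by simpa using hz)
  refine H44.eq_normSeries_of_qExpand hζ ?_
  have h := norm_alpha_qExpand_zetaL (N := N) (ℓ := ℓ) hℓ hN f
  rw [H44.twistProd_eq_prod_range hζ, ← Fin.prod_univ_eq_prod_range]
  refine h.trans ?_
  congr 1
  refine Finset.prod_congr rfl fun b _ => ?_
  rw [← twist_eq_twistBy, Units.val_pow_eq_pow_val, Units.val_mk0]

theorem normSeries_of_swap (N : ℕ) [NeZero N] (h : Stmt_NormSwap N) : Stmt_NormSeries N := by
  intro ℓ hℓ hℓN f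
  haveI : NeZero ℓ := ⟨hℓ.ne_zero⟩
  show ((heckeNormFn (AlgebraicClosure ℚ) N ℓ f : FNL (AlgebraicClosure ℚ) N) :
        LaurentSeries (AlgebraicClosure ℚ)) = _
  rw [h ℓ hℓ hℓN f]
  exact heckeNormFnT_coe N ℓ hℓ hℓN f

end Fermat.Agent.GTor.H2
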