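import Mathlib
import Fermat.Agent.GTor.Defs

/-!
# Cluster G-TOR, package KUM (helper33): `Pic⁰(F)[n] ≃ U_n(F)`

For a field `K` in which every element is an `n`-th power (e.g. `K` algebraically closed),
a function field `F` over `K` with principal divisors (`HasPrincipalDivisors K F`) in which the
functions without zeros and poles are constant, and `n ≠ 0`:

  `Additive (UnrKummer K F n) ≃+ Pic0.torsion K F n`,   `[f] ↦ [(1/n) div f]`.
-/

set_option autoImplicit false

noncomputable section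

namespace Fermat.Agent.GTor.H33

open AlgebraicCurve Fermat.Agent.GTor

variable {K F : Type*} [Field K] [Field F] [Algebra K F]

/-- The divisor `(1/n) div f` of an unramified function exists. -/
theorem exists_divQuot [HasPrincipalDivisors K F] {n : ℕ} (hn : n ≠ 0) (f : unrSubgroup K F n) :
    ∃ D : Divisor K F, (∀ v : Place K F, (n : ℤ) * D v = v.ord ((f : Fˣ) : F)) ∧
      Divisor.degree D = 0 := by
  obtain ⟨D₀, hD₀, hdeg⟩ :=
    HasPrincipalDivisors.exists_divisor (K := K) ((f : Fˣ) : F) (Units.ne_zero _)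
  have hmul : ∀ v : Place K F, (n : ℤ) * (D₀ v / (n : ℤ)) = D₀ v := fun v =>
    Int.mul_ediv_cancel' (by rw [hD₀ v]; exact f.2 v)
  refine ⟨D₀.mapRange (fun z => z / (n : ℤ)) (by simp), ?_, ?_⟩
  · intro v
    rw [Finsupp.mapRange_apply, hmul v, hD₀ v]
  · have h : (n : ℤ) • (D₀.mapRange (fun z => z / (n : ℤ)) (by simp)) = D₀ := by
      ext v
      rw [Finsupp.smul_apply, Finsupp.mapRange_apply, smul_eq_mul, hmul v]
    have h2 := congrArg Divisor.degree h
    rw [map_zsmul, hdeg, smul_eq_mul] at h2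
    rcases mul_eq_zero.mp h2 with h3 | h3
    · exact absurd (Int.natCast_eq_zero.mp h3) hn
    · exact h3

/-- The divisor `(1/n) div f`, of degree `0`. -/
def divQuot [HasPrincipalDivisors K F] {n : ℕ} (hn : n ≠ 0) (f : unrSubgroup K F n) :
    Divisor.degZero (K := K) (F := F) :=
  ⟨(exists_divQuot hn f).choose, (exists_divQuot hn f).choose_spec.2⟩

theorem divQuot_apply [HasPrincipalDivisors K F] {n : ℕ} (hn : n ≠ 0) (f : unrSubgroup K F n)
    (v : Place K F) : (n : ℤ) * (divQuot hn f : Divisor K F) v = v.ord ((f : Fˣ) : F) :=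
  (exists_divQuot hn f).choose_spec.1 v

/-- Uniqueness: a degree-zero divisor `D` with `n D = div f` is `divQuot f`. -/
theorem eq_divQuot [HasPrincipalDivisors K F] {n : ℕ} (hn : n ≠ 0) (f : unrSubgroup K F n)
    (D : Divisor.degZero (K := K) (F := F))
    (h : ∀ v : Place K F, (n : ℤ) * (D : Divisor K F) v = v.ord ((f : Fˣ) : F)) :
    D = divQuot hn f := by
  apply Subtype.ext
  ext v
  have h1 := h v
  rw [← divQuot_apply hn f v] at h1
  exact mul_left_cancel₀ (Int.natCast_ne_zero.mpr hn) h1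

theorem divQuot_mul [HasPrincipalDivisors K F] {n : ℕ} (hn : n ≠ 0) (f g : unrSubgroup K F n) :
    divQuot hn (f * g) = divQuot hn f + divQuot hn g := by
  symm
  apply eq_divQuot
  intro v
  have hf : ((f : Fˣ) : F) ≠ 0 := Units.ne_zero _
  have hg : ((g : Fˣ) : F) ≠ 0 := Units.ne_zero _
  show (n : ℤ) * ((divQuot hn f : Divisor K F) + (divQuot hn g : Divisor K F)) v = _
  rw [Finsupp.add_apply, mul_add, divQuot_apply, divQuot_apply]
  show _ = v.ord (((f : Fˣ) * (g : Fˣ) : Fˣ) : F)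
  rw [Units.val_mul, v.ord_mul hf hg]


theorem divQuot_one [HasPrincipalDivisors K F] {n : ℕ} (hn : n ≠ 0) :
    divQuot hn (1 : unrSubgroup K F n) = 0 := by
  have h := divQuot_mul hn (1 : unrSubgroup K F n) 1
  rw [mul_one] at h
  exact (add_eq_left.mp h.symm)

/-- `f ↦ [(1/n) div f]`. -/
def kumHom [HasPrincipalDivisors K F] {n : ℕ} (hn : n ≠ 0) :
    unrSubgroup K F n →* Multiplicative (Pic0 K F) where
  toFun f := Multiplicative.ofAdd (Pic0.mk (divQuot hn f))
  map_one' := by rw [divQuot_one hn]; rfl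
  map_mul' f g := by rw [divQuot_mul hn f g, Pic0.mk_add]; rfl

theorem kumHom_apply [HasPrincipalDivisors K F] {n : ℕ} (hn : n ≠ 0) (f : unrSubgroup K F n) :
    Multiplicative.toAdd (kumHom hn f) = Pic0.mk (divQuot hn f) := rfl

theorem mk_eq_zero_iff (D : Divisor.degZero (K := K) (F := F)) :
    Pic0.mk D = 0 ↔ Divisor.IsPrincipal (D : Divisor K F) := by
  unfold Pic0.mk
  rw [QuotientAddGroup.eq_zero_iff, AddSubgroup.mem_addSubgroupOf, Divisor.mem_principal]

/-- `n`-th powers have trivial class. -/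
theorem kumHom_pow [HasPrincipalDivisors K F] {n : ℕ} (hn : n ≠ 0) (f : unrSubgroup K F n)
    (g : Fˣ) (hg : g ^ n = (f : Fˣ)) : kumHom hn f = 1 := by
  obtain ⟨D, hD, hdeg⟩ :=
    HasPrincipalDivisors.exists_divisor (K := K) ((g : Fˣ) : F) (Units.ne_zero _)
  have h1 : (⟨D, hdeg⟩ : Divisor.degZero (K := K) (F := F)) = divQuot hn f := by
    apply eq_divQuot
    intro v
    show (n : ℤ) * D v = _
    rw [hD v, ← hg, Units.val_pow_eq_pow_val, ← zpow_natCast, v.ord_zpow]
  show Multiplicative.ofAdd (Pic0.mk (divQuot hn f)) = 1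
  rw [← h1]
  have : Pic0.mk (⟨D, hdeg⟩ : Divisor.degZero (K := K) (F := F)) = 0 :=
    (mk_eq_zero_iff _).mpr ⟨(g : F), Units.ne_zero _, hD⟩
  rw [this]
  rfl

/-- The induced map on Kummer classes. -/
def kumLift [HasPrincipalDivisors K F] {n : ℕ} (hn : n ≠ 0) :
    UnrKummer K F n →* Multiplicative (Pic0 K F) :=
  QuotientGroup.lift (powSubgroup K F n) (kumHom hn) (by
    intro f hf
    rw [powSubgroup, Subgroup.mem_subgroupOf, MonoidHom.mem_range] at hf
    obtain ⟨g, hg⟩ := hf
    exact kumHom_pow hn f g hg)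

theorem kumLift_mk [HasPrincipalDivisors K F] {n : ℕ} (hn : n ≠ 0) (f : unrSubgroup K F n) :
    kumLift hn (QuotientGroup.mk f) = kumHom hn f := rfl

theorem nsmul_mk_divQuot [HasPrincipalDivisors K F] {n : ℕ} (hn : n ≠ 0)
    (f : unrSubgroup K F n) : (n : ℤ) • Pic0.mk (divQuot hn f) = 0 := by
  have h : (n : ℤ) • Pic0.mk (divQuot hn f) = Pic0.mk ((n : ℤ) • divQuot hn f) := rfl
  rw [h, mk_eq_zero_iff]
  refine ⟨((f : Fˣ) : F), Units.ne_zero _, fun v => ?_⟩
  show ((n : ℤ) • (divQuot hn f : Divisor K F)) v = _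
  rw [Finsupp.smul_apply, smul_eq_mul, divQuot_apply]

/-- The Kummer map `U_n(F) → Pic⁰(F)[n]`. -/
def kumAdd [HasPrincipalDivisors K F] {n : ℕ} (hn : n ≠ 0) :
    Additive (UnrKummer K F n) →+ Pic0.torsion K F n :=
  AddMonoidHom.codRestrict (MonoidHom.toAdditiveLeft (kumLift hn)) (Pic0.torsion K F n) (by
    intro x
    induction x using Additive.rec with
    | ofMul x =>
      induction x using QuotientGroup.induction_on with
      | H f =>
        rw [Pic0.mem_torsion]
        exact nsmul_mk_divQuot hn f)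

theorem kumAdd_mk [HasPrincipalDivisors K F] {n : ℕ} (hn : n ≠ 0) (f : unrSubgroup K F n) :
    ((kumAdd hn (Additive.ofMul (QuotientGroup.mk f)) : Pic0.torsion K F n) : Pic0 K F) =
      Pic0.mk (divQuot hn f) := rfl

theorem kumAdd_injective [HasPrincipalDivisors K F] {n : ℕ} (hn : n ≠ 0)
    (hconst : ∀ f : F, f ≠ 0 → (∀ v : Place K F, v.ord f = 0) → ∃ c : K, algebraMap K F c = f)
    (hpow : ∀ c : K, ∃ d : K, d ^ n = c) :
    Function.Injective (kumAdd (K := K) (F := F) hn) := by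
  rw [injective_iff_map_eq_zero]
  intro x hx
  induction x using Additive.rec with
  | ofMul x =>
    induction x using QuotientGroup.induction_on with
    | H f =>
      have h1 : Pic0.mk (divQuot hn f) = 0 := by
        rw [← kumAdd_mk hn f, hx]; rfl
      obtain ⟨g, hg0, hg⟩ := (mk_eq_zero_iff _).mp h1
      have hf0 : ((f : Fˣ) : F) ≠ 0 := Units.ne_zero _
      have hquot : ∀ v : Place K F, v.ord (((f : Fˣ) : F) * (g ^ n)⁻¹) = 0 := by
        intro v
        rw [v.ord_mul hf0 (inv_ne_zero (pow_ne_zero n hg0)), v.ord_inv, ← zpow_natCast,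
          v.ord_zpow, ← hg v, ← divQuot_apply hn f v]
        ring
      obtain ⟨c, hc⟩ := hconst _ (mul_ne_zero hf0 (inv_ne_zero (pow_ne_zero n hg0))) hquot
      obtain ⟨d, hd⟩ := hpow c
      have hd0 : d ≠ 0 := by
        rintro rfl
        rw [zero_pow hn] at hd
        rw [← hd, map_zero] at hc
        exact (mul_ne_zero hf0 (inv_ne_zero (pow_ne_zero n hg0))) hc.symm
      have hfe : ((f : Fˣ) : F) = (algebraMap K F d * g) ^ n := by
        rw [mul_pow, ← map_pow, hd, hc]
        field_simp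
      have hu : algebraMap K F d * g ≠ 0 :=
        mul_ne_zero ((map_ne_zero _).mpr hd0) hg0
      have hmem : f ∈ powSubgroup K F n := by
        rw [powSubgroup, Subgroup.mem_subgroupOf, MonoidHom.mem_range]
        refine ⟨Units.mk0 _ hu, ?_⟩
        apply Units.ext
        rw [powMonoidHom_apply, Units.val_pow_eq_pow_val, Units.val_mk0, hfe]
      show Additive.ofMul (QuotientGroup.mk f : UnrKummer K F n) = 0
      rw [(QuotientGroup.eq_one_iff f).mpr hmem]
      rfl

theorem kumAdd_surjective [HasPrincipalDivisors K F] {n : ℕ} (hn : n ≠ 0) :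
    Function.Surjective (kumAdd (K := K) (F := F) hn) := by
  rintro ⟨y, hy⟩
  obtain ⟨D, rfl⟩ := Pic0.mk_surjective y
  rw [Pic0.mem_torsion] at hy
  have h : (n : ℤ) • Pic0.mk D = Pic0.mk ((n : ℤ) • D) := rfl
  rw [h, mk_eq_zero_iff] at hy
  obtain ⟨f, hf0, hf⟩ := hy
  have hfv : ∀ v : Place K F, (n : ℤ) * (D : Divisor K F) v = v.ord f := by
    intro v
    rw [← hf v]
    show _ = ((n : ℤ) • (D : Divisor K F)) v
    rw [Finsupp.smul_apply, smul_eq_mul]
  have hmem : Units.mk0 f hf0 ∈ unrSubgroup K F n := by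
    intro v
    rw [Units.val_mk0, ← hfv v]
    exact dvd_mul_right _ _
  refine ⟨Additive.ofMul (QuotientGroup.mk ⟨Units.mk0 f hf0, hmem⟩), ?_⟩
  apply Subtype.ext
  rw [kumAdd_mk]
  congr 1
  symm
  apply eq_divQuot
  intro v
  exact hfv v

/-- **KUM** -/
theorem stmt_KUM_of [HasPrincipalDivisors K F] {n : ℕ} (hn : n ≠ 0)
    (hconst : ∀ f : F, f ≠ 0 → (∀ v : Place K F, v.ord f = 0) → ∃ c : K, algebraMap K F c = f)
    (hpow : ∀ c : K, ∃ d : K, d ^ n = c) : Stmt_KUM K F n := by
  refine ⟨AddEquiv.ofBijective (kumAdd hn)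
    ⟨kumAdd_injective hn hconst hpow, kumAdd_surjective hn⟩, ?_⟩
  intro f D hD
  show ((kumAdd hn (Additive.ofMul (QuotientGroup.mk f)) : Pic0.torsion K F n) : Pic0 K F) =
    Pic0.mk D
  rw [kumAdd_mk, eq_divQuot hn f D hD]

/-- **KUM** over an algebraically closed field of constants. -/
theorem stmt_KUM [IsAlgClosed K] [HasPrincipalDivisors K F] {n : ℕ} (hn : n ≠ 0)
    (hconst : ∀ f : F, f ≠ 0 → (∀ v : Place K F, v.ord f = 0) → ∃ c : K, algebraMap K F c = f) :
    Stmt_KUM K F n :=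
  stmt_KUM_of hn hconst fun c => IsAlgClosed.exists_pow_nat_eq c (Nat.pos_of_ne_zero hn)

end Fermat.Agent.GTor.H33
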