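import Mathlib
import Fermat.Agent.GTor.Defs
import Fermat.Agent.GTor.H33_KUM
import Fermat.Agent.S24.H72_FF1
import Fermat.Agent.S24.H72_FF1b
import Fermat.Agent.S24.H72_FF1d

/-!
# Cluster G-TOR, package CURVE (helper33), generic part

`K` algebraically closed of characteristic `0`, `F / K` a function field of one variable
(`x : F` transcendental over `K`, `F / K(x)` finite).  Then

* `hasPrincipalDivisors_of_finite`: `HasPrincipalDivisors K F`;
* `exists_algebraMap_eq_of_forall_ord_eq_zero`: a function without zeros and poles is constant;
* `stmt_KUM_of_finite`: `Stmt_KUM K F n` for `n ≠ 0`.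
-/

set_option autoImplicit false

noncomputable section

namespace Fermat.Agent.GTor.H33

open AlgebraicCurve IntermediateField Fermat.Agent.GTor Fermat.Agent.S24

variable {K F : Type*} [Field K] [Field F] [Algebra K F] [IsAlgClosed K] [CharZero K]

/-- Principal divisors exist and have degree `0`. -/
theorem hasPrincipalDivisors_of_finite (x : F) (hx : Transcendental K x)
    [FiniteDimensional K⟮x⟯ F] : HasPrincipalDivisors K F := by
  refine ⟨fun f hf => ?_⟩
  obtain ⟨hfin, hdeg⟩ := ff_degree_principal x hx f hf
  have hsupp : (Function.support fun v : Place K F => v.ord f).Finite := hfin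
  refine ⟨Finsupp.ofSupportFinite (fun v : Place K F => v.ord f) hsupp, fun v => rfl, ?_⟩
  exact hdeg _ fun v => rfl

/-- An element algebraic over an algebraically closed field of constants is a constant. -/
theorem exists_algebraMap_eq_of_isAlgebraic {f : F} (hf : IsAlgebraic K f) :
    ∃ c : K, algebraMap K F c = f := by
  have hint : IsIntegral K f := hf.isIntegral
  have hdeg1 : (minpoly K f).degree = 1 :=
    IsAlgClosed.degree_eq_one_of_irreducible K (minpoly.irreducible hint)
  exact minpoly.mem_range_of_degree_eq_one K f hdeg1

/-- A function without zeros and poles is constant. -/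
theorem exists_algebraMap_eq_of_forall_ord_eq_zero (x : F) (hx : Transcendental K x)
    [FiniteDimensional K⟮x⟯ F] (f : F) (_hf : f ≠ 0) (h : ∀ v : Place K F, v.ord f = 0) :
    ∃ c : K, algebraMap K F c = f := by
  by_contra hcon
  have htr : Transcendental K f := fun halg =>
    hcon (exists_algebraMap_eq_of_isAlgebraic halg)
  haveI : FiniteDimensional K⟮f⟯ F := ff_finite_of_transcendental x hx f htr
  obtain ⟨-, hsum⟩ := ff_zeros (K := K) f htr
  have hempty : {v : Place K F | 0 < v.ord f} = ∅ := by
    ext v
    simp only [Set.mem_setOf_eq, Set.mem_empty_iff_false, iff_false, not_lt]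
    rw [h v]
  rw [hempty, finsum_mem_empty] at hsum
  have hpos : 0 < Module.finrank K⟮f⟯ F := Module.finrank_pos
  have : (Module.finrank K⟮f⟯ F : ℤ) = 0 := hsum.symm
  omega

/-- **KUM** for a function field of one variable over an algebraically closed field of
characteristic `0`. -/
theorem stmt_KUM_of_finite (x : F) (hx : Transcendental K x) [FiniteDimensional K⟮x⟯ F]
    {n : ℕ} (hn : n ≠ 0) : Stmt_KUM K F n :=
  haveI := hasPrincipalDivisors_of_finite x hx
  stmt_KUM hn (exists_algebraMap_eq_of_forall_ord_eq_zero x hx)

end Fermat.Agent.GTor.H33
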