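import Fermat.Agent.GTor.H33_GaussExt
import Fermat.Agent.GTor.H75_DescDefs

/-!
# G-TOR package DESC-UP (helper33): places of degree one extend under base change

`stmt_DescPlaceUp : H75.Stmt_DescPlaceUp k K F₀`: for fields `k → K` and `F₀ ⊆ ℚ((q))`, every place
`v` of `F_k = k(F₀)` of degree one extends to a place `w` of `F_K = K(F₀)` with
`ord_w (bc g) = ord_v g`.

Proof: `F_k ⊗[k] K → F_K ⊆ K((q))` is injective (compare coefficients with respect to a `k`-basis
of `K`) and `F_K` is its field of fractions; apply the Gauss extension `exists_place_extension`.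
-/

set_option autoImplicit false
set_option linter.style.haveILetI false
set_option linter.unusedSectionVars false

noncomputable section

namespace Fermat.Agent.GTor.H33

open AlgebraicCurve ModularCurve TensorProduct

section LinearDisjoint

variable {k K F M : Type*} [Field k] [Field K] [Field F] [Field M] [Algebra k K] [Algebra k F]
  [Algebra K M] [Algebra k M] [IsScalarTower k K M]
variable (eF : F →ₐ[k] LaurentSeries k) (eM : M →ₐ[K] LaurentSeries K) (ψ : F →ₐ[k] M)
variable {I : Type*} (b : Module.Basis I k K)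

theorem coeff_mul_algebraMap {R : Type*} [Field R] (x : LaurentSeries R) (c : R) (m : ℤ) :
    (x * algebraMap R (LaurentSeries R) c).coeff m = x.coeff m * c := by
  rw [algebraMap_laurentSeries_eq_single, HahnSeries.coeff_mul_single_zero]

/-- Coefficients of the image of `F ⊗ K` in `K((q))`, in coordinates. -/
theorem repr_coeff_tensorToField
    (hψ : ∀ f : F, eM (ψ f) = coeffMap (algebraMap k K) (eF f))
    (x : F ⊗[k] K) (m : ℤ) (i : I) :
    b.repr ((eM (tensorToField ψ x)).coeff m) i =
      (eF ((Algebra.TensorProduct.basis F b).repr x i)).coeff m := by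
  induction x using TensorProduct.induction_on with
  | zero => simp
  | tmul f c =>
    rw [tensorToField_tmul, Algebra.TensorProduct.basis_repr_tmul]
    simp only [Finsupp.smul_apply, Finsupp.mapRange_apply, smul_eq_mul, map_mul, hψ,
      AlgHom.commutes]
    rw [coeff_mul_algebraMap, coeff_mul_algebraMap, coeffMap_coeff, ← Algebra.smul_def, map_smul,
      Finsupp.smul_apply, smul_eq_mul]
  | add x y hx hy =>
    simp only [map_add, HahnSeries.coeff_add, Finsupp.add_apply, hx, hy]

/-- `F ⊗[k] K → K((q))` is injective: `k((q))` and `K` are linearly disjoint over `k`. -/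
theorem tensorToField_injective
    (hψ : ∀ f : F, eM (ψ f) = coeffMap (algebraMap k K) (eF f)) :
    Function.Injective (tensorToField (K := K) ψ) := by
  rw [injective_iff_map_eq_zero]
  intro x hx
  let b := Module.Basis.ofVectorSpace k K
  apply (Algebra.TensorProduct.basis F b).repr.injective
  ext i : 1
  rw [map_zero, Finsupp.zero_apply]
  apply eF.toRingHom.injective
  rw [map_zero]
  ext m
  have h := repr_coeff_tensorToField eF eM ψ b hψ x m i
  rw [hx] at h
  simpa using h.symm

end LinearDisjoint

section Quot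

variable {k K F M : Type*} [Field k] [Field K] [Field F] [Field M] [Algebra k K] [Algebra k F]
  [Algebra K M] [Algebra k M] [IsScalarTower k K M] (ψ : F →ₐ[k] M)

/-- The set of quotients of elements of the image of `F ⊗ K`, as a subfield. -/
def quotSubfield : Subfield M where
  carrier := {m | ∃ x y : F ⊗[k] K, m = tensorToField ψ x / tensorToField ψ y}
  mul_mem' := by
    rintro _ _ ⟨x, s, rfl⟩ ⟨x', s', rfl⟩
    exact ⟨x * x', s * s', by rw [map_mul, map_mul, div_mul_div_comm]⟩
  one_mem' := ⟨1, 1, by simp⟩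
  add_mem' := by
    rintro _ _ ⟨x, s, rfl⟩ ⟨x', s', rfl⟩
    by_cases hs : tensorToField (K := K) ψ s = 0
    · exact ⟨x', s', by rw [hs, div_zero, zero_add]⟩
    by_cases hs' : tensorToField (K := K) ψ s' = 0
    · exact ⟨x, s, by rw [hs', div_zero, add_zero]⟩
    exact ⟨x * s' + s * x', s * s', by
      rw [map_add, map_mul, map_mul, map_mul, div_add_div _ _ hs hs']⟩
  zero_mem' := ⟨0, 1, by simp⟩
  neg_mem' := by
    rintro _ ⟨x, s, rfl⟩
    exact ⟨-x, s, by rw [map_neg, neg_div]⟩
  inv_mem' := by
    rintro _ ⟨x, s, rfl⟩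
    exact ⟨s, x, by rw [inv_div]⟩

theorem mem_quotSubfield {m : M} :
    m ∈ quotSubfield (K := K) ψ ↔ ∃ x y : F ⊗[k] K, m = tensorToField ψ x / tensorToField ψ y :=
  Iff.rfl

theorem algebraMap_mem_quotSubfield (c : K) : algebraMap K M c ∈ quotSubfield (K := K) ψ :=
  ⟨(1 : F) ⊗ₜ[k] c, 1, by simp⟩

theorem map_mem_quotSubfield (f : F) : ψ f ∈ quotSubfield (K := K) ψ :=
  ⟨f ⊗ₜ[k] (1 : K), 1, by simp⟩

/-- If `M` is generated as a field by `K` and `ψ(F)`, every element of `M` is a quotient of
elements of the image of `F ⊗ K`. -/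
theorem exists_quot_of_closure
    (h : Subfield.closure (Set.range (algebraMap K M) ∪ Set.range ψ) = ⊤) (m : M) :
    ∃ x y : F ⊗[k] K, m = tensorToField ψ x / tensorToField ψ y := by
  have hle : Subfield.closure (Set.range (algebraMap K M) ∪ Set.range ψ) ≤
      quotSubfield (K := K) ψ := by
    rw [Subfield.closure_le]
    rintro _ (⟨c, rfl⟩ | ⟨f, rfl⟩)
    · exact algebraMap_mem_quotSubfield ψ c
    · exact map_mem_quotSubfield ψ f
  rw [h] at hle
  exact hle (Subfield.mem_top m)

end Quot

section Main

variable (k K : Type) [Field k] [Field K] [Algebra ℚ k] [Algebra ℚ K]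
variable (F₀ : IntermediateField ℚ (LaurentSeries ℚ))

set_option synthInstance.maxHeartbeats 400000 in
set_option maxHeartbeats 1600000 in
/-- `F_K` is generated by `K` and the image of `F_k`. -/
theorem closure_bcHom_eq_top (ι : k →+* K) :
    Subfield.closure (Set.range (algebraMap K ↥(laurentBaseChange K F₀)) ∪
      Set.range (H75.bcHom ι F₀)) = ⊤ := by
  rw [eq_top_iff]
  rintro ⟨y, hy⟩ -
  have hy' := hy
  rw [mem_laurentBaseChange_iff] at hy'
  have hsub : (Set.range (algebraMap K (LaurentSeries K)) ∪
      (⇑(coeffEmb K) '' (F₀ : Set (LaurentSeries ℚ)))) ⊆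
      ⇑(laurentBaseChange K F₀).val.toRingHom ''
        (Set.range (algebraMap K ↥(laurentBaseChange K F₀)) ∪ Set.range (H75.bcHom ι F₀)) := by
    rintro _ (⟨c, rfl⟩ | ⟨z, hz, rfl⟩)
    · exact ⟨algebraMap K ↥(laurentBaseChange K F₀) c, Or.inl ⟨c, rfl⟩, rfl⟩
    · refine ⟨H75.bcHom ι F₀ ⟨coeffEmb k z, coeffEmb_mem_laurentBaseChange k hz⟩,
        Or.inr ⟨_, rfl⟩, ?_⟩
      exact H75.coeffMap_coeffEmb' ι z
  have h1 := Subfield.closure_mono hsub hy'
  rw [← RingHom.map_field_closure] at h1
  obtain ⟨m, hm, hmy⟩ := h1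
  have : m = ⟨y, hy⟩ := Subtype.ext hmy
  rwa [← this]

set_option synthInstance.maxHeartbeats 400000 in
set_option maxHeartbeats 1600000 in
/-- **DESC-UP**: a place of degree one of `F_k` extends to `F_K` with ramification index one. -/
theorem stmt_DescPlaceUp : H75.Stmt_DescPlaceUp k K F₀ := by
  intro ι v hdeg
  letI : Algebra k K := ι.toAlgebra
  letI : Algebra k ↥(laurentBaseChange K F₀) :=
    ((algebraMap K ↥(laurentBaseChange K F₀)).comp ι).toAlgebra
  haveI : IsScalarTower k K ↥(laurentBaseChange K F₀) := IsScalarTower.of_algebraMap_eq fun _ => rfl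
  let ψ : ↥(laurentBaseChange k F₀) →ₐ[k] ↥(laurentBaseChange K F₀) :=
    { H75.bcHom ι F₀ with commutes' := fun c => H75.bcHom_algebraMap ι F₀ c }
  have hψ : ∀ f : ↥(laurentBaseChange k F₀),
      (laurentBaseChange K F₀).val (ψ f) =
        coeffMap (algebraMap k K) ((laurentBaseChange k F₀).val f) := fun f => rfl
  have hinj : Function.Injective (tensorToField (K := K) ψ) :=
    tensorToField_injective (laurentBaseChange k F₀).val (laurentBaseChange K F₀).val ψ hψ
  have hgen : ∀ m : ↥(laurentBaseChange K F₀), ∃ x y : ↥(laurentBaseChange k F₀) ⊗[k] K,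
      m = tensorToField ψ x / tensorToField ψ y :=
    exists_quot_of_closure ψ (closure_bcHom_eq_top k K F₀ ι)
  exact exists_place_extension ψ hinj hgen v hdeg

end Main

end Fermat.Agent.GTor.H33
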