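import Fermat.Agent.S24.FF.Dict

/-!
# Gauss extension of places (helper33, cluster G-TOR, package DESC-UP)

* `exists_place_of_valuation`: a normalised discrete valuation on `F`, trivial on `K`, is `-ord` of a
  place of `F / K`;
* `gaussValuation`: for a place `v` of `F / k` of degree one and a field extension `K / k`, the
  Gauss valuation `∑ fᵢ ⊗ bᵢ ↦ max v(fᵢ)` on `F ⊗[k] K` (`bᵢ` a `k`-basis of `K`); it is
  multiplicative because the reduction `O_v ⊗ K → K` is a ring homomorphism into a field;
* `exists_place_extension`: if `M = Frac (F ⊗[k] K)`, then `v` extends to a place `w` of `M / K`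
  with `ord_w (ψ g) = ord_v g`.
-/

set_option autoImplicit false
set_option linter.style.haveILetI false

noncomputable section

namespace Fermat.Agent.GTor.H33

open AlgebraicCurve WithZero IsLocalRing TensorProduct

section ValPlace

variable {K F : Type*} [Field K] [Field F] [Algebra K F]

/-- If the valuation ring of the place `v` is the valuation ring of a normalised valuation `W`,
then `v.ord = -log W`.  (Copy of `S24.ord_eq_of_valuationSubring_eq` for a general `W`.) -/
theorem ord_eq_of_mem_iff (v : Place K F) (W : Valuation F ℤᵐ⁰)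
    (hmem : ∀ x : F, x ∈ v.toValuationSubring ↔ W x ≤ 1) {π : F} (hπ : W π = exp (-1 : ℤ))
    {f : F} (hf : f ≠ 0) : v.ord f = -(WithZero.log (W f)) := by
  have hπ0 : π ≠ 0 := by
    rintro rfl
    rw [map_zero] at hπ
    exact exp_ne_zero hπ.symm
  have hπw : W π < 1 := by
    rw [hπ]; exact (exp_lt_exp.mpr (by norm_num : (-1 : ℤ) < 0)).trans_eq exp_zero
  have hπmem : π ∈ v.toValuationSubring := (hmem π).mpr hπw.le
  set n : ℤ := -(WithZero.log (W f)) with hn
  have hwf : W f = exp (-n) := by
    rw [hn, neg_neg, exp_log ((Valuation.ne_zero_iff _).mpr hf)]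
  set u : F := f * (π ^ n)⁻¹ with hu
  have hwu : W u = 1 := by
    rw [hu, map_mul, map_inv₀, map_zpow₀, hπ, hwf, ← exp_zsmul, smul_eq_mul, mul_neg, mul_one]
    exact mul_inv_cancel₀ (by simp)
  have hu0 : u ≠ 0 := by
    intro h
    rw [h, map_zero] at hwu
    exact zero_ne_one hwu
  have humem : u ∈ v.toValuationSubring := (hmem u).mpr hwu.le
  have huinv : u⁻¹ ∈ v.toValuationSubring := by
    rw [hmem, map_inv₀, hwu, inv_one]
  have hfu : f = u * π ^ n := by
    rw [hu, mul_assoc, inv_mul_cancel₀ (zpow_ne_zero n hπ0), mul_one]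
  let U : v.toValuationSubringˣ :=
    ⟨⟨u, humem⟩, ⟨u⁻¹, huinv⟩, Subtype.ext (mul_inv_cancel₀ hu0), Subtype.ext (inv_mul_cancel₀ hu0)⟩
  have hirr : Irreducible (⟨π, hπmem⟩ : v.toValuationSubring) := by
    obtain ⟨ϖ, hϖ⟩ := IsDiscreteValuationRing.exists_irreducible v.toValuationSubring
    have hϖ0 : (ϖ : F) ≠ 0 := by
      simpa [ne_eq, ZeroMemClass.coe_eq_zero] using hϖ.ne_zero
    have hϖw : W (ϖ : F) < 1 := by
      by_contra hcon
      have h1 : W (ϖ : F) = 1 := le_antisymm ((hmem _).mp ϖ.2) (not_lt.mp hcon)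
      have hinv : (ϖ : F)⁻¹ ∈ v.toValuationSubring := by
        rw [hmem, map_inv₀, h1, inv_one]
      have : IsUnit ϖ := by
        refine ⟨⟨ϖ, ⟨_, hinv⟩, Subtype.ext (mul_inv_cancel₀ hϖ0), Subtype.ext (inv_mul_cancel₀ hϖ0)⟩,
          rfl⟩
      exact hϖ.not_isUnit this
    have hle : W (ϖ : F) ≤ W π := by
      rw [hπ]
      have hne : W (ϖ : F) ≠ 0 := (Valuation.ne_zero_iff _).mpr hϖ0
      rw [← exp_log hne] at hϖw ⊢
      rw [← exp_zero, exp_lt_exp] at hϖw
      rw [exp_le_exp]
      omega
    have hdiv : (ϖ : F) * π⁻¹ ∈ v.toValuationSubring := by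
      rw [hmem, map_mul, map_inv₀]
      exact mul_inv_le_one_of_le₀ hle zero_le
    have hπnu : ¬ IsUnit (⟨π, hπmem⟩ : v.toValuationSubring) := by
      rintro ⟨a, ha⟩
      have h1 : W ((a⁻¹ : v.toValuationSubringˣ) : v.toValuationSubring) ≤ 1 :=
        (hmem _).mp ((a⁻¹ : v.toValuationSubringˣ) : v.toValuationSubring).2
      have h2 : (((a⁻¹ : v.toValuationSubringˣ) : v.toValuationSubring) : F) * π = 1 := by
        have := congrArg (Subtype.val) (a.inv_mul)
        rw [ha] at this
        simpa using this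
      have h3 := congrArg W h2
      rw [map_mul, map_one] at h3
      have : W π = 1 := by
        apply le_antisymm hπw.le
        calc (1 : ℤᵐ⁰) = _ * W π := h3.symm
          _ ≤ 1 * W π := by gcongr
          _ = W π := one_mul _
      exact hπw.ne this
    have hprod : ϖ = ⟨(ϖ : F) * π⁻¹, hdiv⟩ * ⟨π, hπmem⟩ := by
      ext
      simp [mul_assoc, inv_mul_cancel₀ hπ0]
    have hunit : IsUnit (⟨(ϖ : F) * π⁻¹, hdiv⟩ : v.toValuationSubring) :=
      (hϖ.isUnit_or_isUnit hprod).resolve_right hπnu
    have hassoc : Associated ϖ (⟨π, hπmem⟩ : v.toValuationSubring) := by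
      obtain ⟨c, hc⟩ := hunit
      refine ⟨c⁻¹, ?_⟩
      rw [Units.mul_inv_eq_iff_eq_mul, hc, mul_comm]
      exact hprod
    exact hassoc.irreducible hϖ
  have key := v.ord_unit_smul_zpow U hirr n
  rw [hfu]
  exact key

/-- A normalised discrete valuation which is trivial on `K` gives a place. -/
theorem exists_place_of_valuation (W : Valuation F ℤᵐ⁰) (hK : ∀ c : K, W (algebraMap K F c) ≤ 1)
    {π : F} (hπ : W π = exp (-1 : ℤ)) :
    ∃ w : Place K F, ∀ f : F, f ≠ 0 → w.ord f = -(WithZero.log (W f)) := by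
  have hπ0 : π ≠ 0 := by
    rintro rfl
    rw [map_zero] at hπ
    exact exp_ne_zero hπ.symm
  haveI : Nontrivial (MonoidWithZeroHom.valueGroup (.ofClass W)) := by
    have hu : (Units.mk0 (W π) ((Valuation.ne_zero_iff _).mpr hπ0)) ∈
        MonoidWithZeroHom.valueGroup (.ofClass W) :=
      MonoidWithZeroHom.mem_valueGroup _ ⟨π, rfl⟩
    refine ⟨⟨⟨_, hu⟩, 1, ?_⟩⟩
    intro h
    have h1 : W π = 1 := by
      have := congrArg (fun x : MonoidWithZeroHom.valueGroup (.ofClass W) => ((x : ℤᵐ⁰ˣ) : ℤᵐ⁰)) h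
      simpa using this
    rw [hπ] at h1
    have : (-1 : ℤ) = 0 := by
      rw [← exp_zero] at h1
      exact exp_injective h1
    omega
  let w : Place K F :=
    { toValuationSubring := W.valuationSubring
      algebraMap_mem' := fun a => (Valuation.mem_valuationSubring_iff _ _).mpr (hK a)
      ne_top' := by
        intro htop
        have hmem : π⁻¹ ∈ W.valuationSubring := by rw [htop]; exact ValuationSubring.mem_top _
        rw [Valuation.mem_valuationSubring_iff, map_inv₀, hπ, ← exp_neg, neg_neg, ← exp_zero,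
          exp_le_exp] at hmem
        omega
      isPrincipalIdealRing' := Valuation.valuationSubring_isPrincipalIdealRing W }
  exact ⟨w, fun f hf => ord_eq_of_mem_iff w W (fun x => Valuation.mem_valuationSubring_iff _ _) hπ hf⟩

end ValPlace

section Gauss

variable {k K F : Type*} [Field k] [Field K] [Field F] [Algebra k K] [Algebra k F]
variable (v : Place k F)

theorem adicValuation_le_one_of_mem {f : F} (h : f ∈ v.toValuationSubring) :
    v.adicValuation f ≤ 1 := by
  have := v.adicValuation_coe ⟨f, h⟩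
  rw [show ((⟨f, h⟩ : v.toValuationSubring) : F) = f from rfl] at this
  rw [this]
  exact IsDedekindDomain.HeightOneSpectrum.intValuation_le_one _ _

theorem mem_of_adicValuation_le_one {f : F} (h : v.adicValuation f ≤ 1) :
    f ∈ v.toValuationSubring := by
  obtain ⟨a, ha⟩ := IsDiscreteValuationRing.exists_lift_of_le_one (A := v.toValuationSubring) h
  rw [← ha]
  exact a.2

theorem adicValuation_lt_one_iff (a : v.toValuationSubring) :
    v.adicValuation (a : F) < 1 ↔ a ∈ maximalIdeal v.toValuationSubring := by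
  rw [v.adicValuation_coe, IsDedekindDomain.HeightOneSpectrum.intValuation_lt_one_iff_mem,
    v.heightOneSpectrum_asIdeal]

/-- The residue map `O_v → k` of a place of degree one. -/
theorem exists_residue (hdeg : v.deg = 1) :
    ∃ ε : v.toValuationSubring →ₐ[k] k, ∀ a, ε a = 0 ↔ v.adicValuation (a : F) < 1 := by
  have hsurj : Function.Surjective (algebraMap k v.ResidueField) := by
    have h : (⊥ : Subalgebra k v.ResidueField) = ⊤ := Subalgebra.bot_eq_top_of_finrank_eq_one hdeg
    intro x
    have hx : x ∈ (⊥ : Subalgebra k v.ResidueField) := by rw [h]; exact Algebra.mem_top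
    exact Algebra.mem_bot.mp hx
  have hinj : Function.Injective (algebraMap k v.ResidueField) :=
    (algebraMap k v.ResidueField).injective
  let e : k ≃ₐ[k] v.ResidueField := AlgEquiv.ofBijective (Algebra.ofId k v.ResidueField) ⟨hinj, hsurj⟩
  let r : v.toValuationSubring →ₐ[k] v.ResidueField :=
    IsScalarTower.toAlgHom k v.toValuationSubring v.ResidueField
  refine ⟨(e.symm : v.ResidueField →ₐ[k] k).comp r, fun a => ?_⟩
  rw [adicValuation_lt_one_iff, ← IsLocalRing.residue_eq_zero_iff]
  have h1 : ((e.symm : v.ResidueField →ₐ[k] k).comp r) a = e.symm (r a) := rfl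
  rw [h1, map_eq_zero_iff _ e.symm.injective]
  rfl

variable {I : Type*} (b : Module.Basis I k K)

/-- The inclusion `O_v ⊗ K → F ⊗ K`. -/
def gaussIncl : v.toValuationSubring ⊗[k] K →ₐ[k] F ⊗[k] K :=
  Algebra.TensorProduct.map (IsScalarTower.toAlgHom k v.toValuationSubring F) (AlgHom.id k K)

/-- The reduction `O_v ⊗ K → K` attached to a residue map `ε`. -/
def gaussRed (ε : v.toValuationSubring →ₐ[k] k) : v.toValuationSubring ⊗[k] K →ₐ[k] K :=
  Algebra.TensorProduct.lift ((Algebra.ofId k K).comp ε) (AlgHom.id k K) (fun _ _ => Commute.all _ _)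

theorem repr_gaussIncl (x : v.toValuationSubring ⊗[k] K) (i : I) :
    (Algebra.TensorProduct.basis F b).repr (gaussIncl v x) i =
      (((Algebra.TensorProduct.basis v.toValuationSubring b).repr x i : v.toValuationSubring) : F) := by
  induction x using TensorProduct.induction_on with
  | zero => simp
  | tmul a c =>
    simp only [gaussIncl, Algebra.TensorProduct.map_tmul, Algebra.TensorProduct.basis_repr_tmul,
      Finsupp.smul_apply, Finsupp.mapRange_apply, smul_eq_mul, AlgHom.id_apply]
    rfl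
  | add x y hx hy => simp [hx, hy]

theorem repr_gaussRed (ε : v.toValuationSubring →ₐ[k] k) (x : v.toValuationSubring ⊗[k] K) (i : I) :
    b.repr (gaussRed v ε x) i = ε ((Algebra.TensorProduct.basis v.toValuationSubring b).repr x i) := by
  induction x using TensorProduct.induction_on with
  | zero => simp
  | tmul a c =>
    simp only [gaussRed, Algebra.TensorProduct.lift_tmul, Algebra.TensorProduct.basis_repr_tmul,
      Finsupp.smul_apply, Finsupp.mapRange_apply, smul_eq_mul, AlgHom.id_apply, map_mul,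
      AlgHom.comp_apply, Algebra.ofId_apply, AlgHom.commutes]
    rw [← Algebra.smul_def, map_smul, Finsupp.smul_apply, smul_eq_mul]
    rfl
  | add x y hx hy => simp [hx, hy]

/-- The Gauss valuation, as a function. -/
def gaussFun (x : F ⊗[k] K) : ℤᵐ⁰ :=
  ((Algebra.TensorProduct.basis F b).repr x).support.sup
    fun i => v.adicValuation ((Algebra.TensorProduct.basis F b).repr x i)

theorem gaussFun_le_iff {x : F ⊗[k] K} {γ : ℤᵐ⁰} :
    gaussFun v b x ≤ γ ↔ ∀ i, v.adicValuation ((Algebra.TensorProduct.basis F b).repr x i) ≤ γ := by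
  rw [gaussFun, Finset.sup_le_iff]
  constructor
  · intro h i
    by_cases hi : i ∈ ((Algebra.TensorProduct.basis F b).repr x).support
    · exact h i hi
    · rw [Finsupp.notMem_support_iff.mp hi, map_zero]
      exact zero_le
  · intro h i _
    exact h i

theorem gaussFun_lt_iff {x : F ⊗[k] K} {γ : ℤᵐ⁰} (hγ : 0 < γ) :
    gaussFun v b x < γ ↔ ∀ i, v.adicValuation ((Algebra.TensorProduct.basis F b).repr x i) < γ := by
  rw [gaussFun, Finset.sup_lt_iff (by simpa using hγ)]
  constructor
  · intro h i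
    by_cases hi : i ∈ ((Algebra.TensorProduct.basis F b).repr x).support
    · exact h i hi
    · rw [Finsupp.notMem_support_iff.mp hi, map_zero]
      exact hγ
  · intro h i _
    exact h i

theorem gaussFun_zero : gaussFun v b (0 : F ⊗[k] K) = 0 := by
  simp [gaussFun]

theorem exists_gaussFun_eq {x : F ⊗[k] K} (hx : x ≠ 0) :
    ∃ i, (Algebra.TensorProduct.basis F b).repr x i ≠ 0 ∧
      gaussFun v b x = v.adicValuation ((Algebra.TensorProduct.basis F b).repr x i) := by
  have hne : ((Algebra.TensorProduct.basis F b).repr x).support.Nonempty := by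
    rw [Finsupp.support_nonempty_iff]
    simpa using hx
  obtain ⟨i, hi, h⟩ := Finset.exists_mem_eq_sup _ hne
    (fun i => v.adicValuation ((Algebra.TensorProduct.basis F b).repr x i))
  exact ⟨i, Finsupp.mem_support_iff.mp hi, h⟩

theorem gaussFun_eq_zero_iff {x : F ⊗[k] K} : gaussFun v b x = 0 ↔ x = 0 := by
  constructor
  · intro h
    by_contra hx
    obtain ⟨i, hi, hW⟩ := exists_gaussFun_eq v b hx
    rw [h] at hW
    exact v.adicValuation_ne_zero hi hW.symm
  · rintro rfl
    exact gaussFun_zero v b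

theorem gaussFun_smul_le (f : F) (x : F ⊗[k] K) :
    gaussFun v b (f • x) ≤ v.adicValuation f * gaussFun v b x := by
  rw [gaussFun_le_iff]
  intro i
  rw [map_smul, Finsupp.smul_apply, smul_eq_mul, map_mul]
  exact mul_le_mul' le_rfl ((gaussFun_le_iff v b).mp le_rfl i)

theorem gaussFun_smul (f : F) (x : F ⊗[k] K) :
    gaussFun v b (f • x) = v.adicValuation f * gaussFun v b x := by
  rcases eq_or_ne f 0 with rfl | hf
  · simp [gaussFun_zero]
  apply le_antisymm (gaussFun_smul_le v b f x)
  have h := gaussFun_smul_le v b f⁻¹ (f • x)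
  rw [smul_smul, inv_mul_cancel₀ hf, one_smul, map_inv₀] at h
  have hV : v.adicValuation f ≠ 0 := v.adicValuation_ne_zero hf
  calc v.adicValuation f * gaussFun v b x
      ≤ v.adicValuation f * ((v.adicValuation f)⁻¹ * gaussFun v b (f • x)) :=
        mul_le_mul' le_rfl h
    _ = gaussFun v b (f • x) := by rw [← mul_assoc, mul_inv_cancel₀ hV, one_mul]

theorem gaussFun_add (x y : F ⊗[k] K) :
    gaussFun v b (x + y) ≤ max (gaussFun v b x) (gaussFun v b y) := by
  rw [gaussFun_le_iff]
  intro i
  rw [map_add, Finsupp.add_apply]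
  refine (v.adicValuation.map_add _ _).trans (max_le_max ?_ ?_)
  · exact (gaussFun_le_iff v b).mp le_rfl i
  · exact (gaussFun_le_iff v b).mp le_rfl i

theorem gaussFun_gaussIncl_le (x : v.toValuationSubring ⊗[k] K) :
    gaussFun v b (gaussIncl v x) ≤ 1 := by
  rw [gaussFun_le_iff]
  intro i
  rw [repr_gaussIncl]
  exact adicValuation_le_one_of_mem v (Subtype.mem _)

theorem gaussFun_gaussIncl_lt_iff (ε : v.toValuationSubring →ₐ[k] k)
    (hε : ∀ a, ε a = 0 ↔ v.adicValuation (a : F) < 1) (x : v.toValuationSubring ⊗[k] K) :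
    gaussFun v b (gaussIncl v x) < 1 ↔ gaussRed v ε x = 0 := by
  rw [gaussFun_lt_iff v b zero_lt_one]
  constructor
  · intro h
    apply b.repr.injective
    ext i
    rw [repr_gaussRed, map_zero, Finsupp.zero_apply, hε, ← repr_gaussIncl]
    exact h i
  · intro h i
    rw [repr_gaussIncl, ← hε, ← repr_gaussRed, h, map_zero, Finsupp.zero_apply]

theorem exists_gaussIncl_eq {x : F ⊗[k] K} (hx : gaussFun v b x ≤ 1) :
    ∃ y : v.toValuationSubring ⊗[k] K, gaussIncl v y = x := by
  classical
  have hmem : ∀ i, (Algebra.TensorProduct.basis F b).repr x i ∈ v.toValuationSubring := fun i =>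
    mem_of_adicValuation_le_one v ((gaussFun_le_iff v b).mp hx i)
  let c : I →₀ v.toValuationSubring :=
    Finsupp.onFinset ((Algebra.TensorProduct.basis F b).repr x).support
      (fun i => ⟨(Algebra.TensorProduct.basis F b).repr x i, hmem i⟩)
      (fun i hi => by
        rw [Finsupp.mem_support_iff]
        intro h0
        apply hi
        exact Subtype.ext h0)
  refine ⟨(Algebra.TensorProduct.basis v.toValuationSubring b).repr.symm c, ?_⟩
  apply (Algebra.TensorProduct.basis F b).repr.injective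
  ext i
  rw [repr_gaussIncl, LinearEquiv.apply_symm_apply]
  rfl

section Mul

variable (ε : v.toValuationSubring →ₐ[k] k) (hε : ∀ a, ε a = 0 ↔ v.adicValuation (a : F) < 1)
include hε

theorem gaussFun_mul_eq_one {x y : F ⊗[k] K} (hx : gaussFun v b x = 1) (hy : gaussFun v b y = 1) :
    gaussFun v b (x * y) = 1 := by
  obtain ⟨x', rfl⟩ := exists_gaussIncl_eq v b hx.le
  obtain ⟨y', rfl⟩ := exists_gaussIncl_eq v b hy.le
  rw [← map_mul]
  apply le_antisymm (gaussFun_gaussIncl_le v b _)
  rw [← not_lt, gaussFun_gaussIncl_lt_iff v b ε hε, map_mul]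
  have h1 : gaussRed v ε x' ≠ 0 := by
    rw [Ne, ← gaussFun_gaussIncl_lt_iff v b ε hε, hx]
    exact lt_irrefl _
  have h2 : gaussRed v ε y' ≠ 0 := by
    rw [Ne, ← gaussFun_gaussIncl_lt_iff v b ε hε, hy]
    exact lt_irrefl _
  exact mul_ne_zero h1 h2

theorem gaussFun_one : gaussFun v b (1 : F ⊗[k] K) = 1 := by
  have h1 : (1 : F ⊗[k] K) = gaussIncl v 1 := (map_one _).symm
  rw [h1]
  apply le_antisymm (gaussFun_gaussIncl_le v b _)
  rw [← not_lt, gaussFun_gaussIncl_lt_iff v b ε hε, map_one]
  exact one_ne_zero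

theorem gaussFun_mul (x y : F ⊗[k] K) :
    gaussFun v b (x * y) = gaussFun v b x * gaussFun v b y := by
  rcases eq_or_ne x 0 with rfl | hx
  · simp [gaussFun_zero]
  rcases eq_or_ne y 0 with rfl | hy
  · simp [gaussFun_zero]
  obtain ⟨i, hi, hWx⟩ := exists_gaussFun_eq v b hx
  obtain ⟨j, hj, hWy⟩ := exists_gaussFun_eq v b hy
  set f := (Algebra.TensorProduct.basis F b).repr x i with hf
  set g := (Algebra.TensorProduct.basis F b).repr y j with hg
  have hVf : v.adicValuation f ≠ 0 := v.adicValuation_ne_zero hi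
  have hVg : v.adicValuation g ≠ 0 := v.adicValuation_ne_zero hj
  have hx' : gaussFun v b (f⁻¹ • x) = 1 := by
    rw [gaussFun_smul, map_inv₀, hWx, inv_mul_cancel₀ hVf]
  have hy' : gaussFun v b (g⁻¹ • y) = 1 := by
    rw [gaussFun_smul, map_inv₀, hWy, inv_mul_cancel₀ hVg]
  have hxy : x * y = (f * g) • ((f⁻¹ • x) * (g⁻¹ • y)) := by
    rw [smul_mul_smul_comm, smul_smul]
    have : f * g * (f⁻¹ * g⁻¹) = 1 := by field_simp
    rw [this, one_smul]
  rw [hxy, gaussFun_smul, gaussFun_mul_eq_one v b ε hε hx' hy', mul_one, map_mul, hWx, hWy]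

/-- The Gauss valuation on `F ⊗ K` attached to a place of degree one of `F`. -/
def gaussValuation : Valuation (F ⊗[k] K) ℤᵐ⁰ where
  toFun := gaussFun v b
  map_zero' := gaussFun_zero v b
  map_one' := gaussFun_one v b ε hε
  map_mul' := gaussFun_mul v b ε hε
  map_add_le_max' := gaussFun_add v b

theorem gaussValuation_apply (x : F ⊗[k] K) : gaussValuation v b ε hε x = gaussFun v b x := rfl

theorem gaussFun_tmul_one (f : F) : gaussFun v b (f ⊗ₜ[k] (1 : K)) = v.adicValuation f := by
  have h : f ⊗ₜ[k] (1 : K) = f • (1 : F ⊗[k] K) := by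
    rw [Algebra.TensorProduct.one_def, TensorProduct.smul_tmul', smul_eq_mul, mul_one]
  rw [h, gaussFun_smul, gaussFun_one v b ε hε, mul_one]

omit hε in
theorem gaussFun_one_tmul_le (c : K) : gaussFun v b ((1 : F) ⊗ₜ[k] c) ≤ 1 := by
  have h : (1 : F) ⊗ₜ[k] c = gaussIncl v ((1 : v.toValuationSubring) ⊗ₜ[k] c) := by
    simp [gaussIncl]
  rw [h]
  exact gaussFun_gaussIncl_le v b _

end Mul

end Gauss

section Extension

variable {k K F M : Type*} [Field k] [Field K] [Field F] [Field M] [Algebra k K] [Algebra k F]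
  [Algebra K M] [Algebra k M] [IsScalarTower k K M]

/-- The natural map `F ⊗ K → M`. -/
def tensorToField (ψ : F →ₐ[k] M) : F ⊗[k] K →ₐ[k] M :=
  Algebra.TensorProduct.lift ψ (IsScalarTower.toAlgHom k K M) (fun _ _ => Commute.all _ _)

@[simp]
theorem tensorToField_tmul (ψ : F →ₐ[k] M) (f : F) (c : K) :
    tensorToField ψ (f ⊗ₜ[k] c) = ψ f * algebraMap K M c := by
  simp [tensorToField]

/-- **Gauss extension of places.**  Let `M = Frac (F ⊗ K)` (`F / k` and `K / k` linearly disjoint
in `M`, which they generate).  Every place of `F / k` of degree one extends to a place of `M / K`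
with ramification index one. -/
theorem exists_place_extension (ψ : F →ₐ[k] M)
    (hinj : Function.Injective (tensorToField (K := K) ψ))
    (hgen : ∀ m : M, ∃ x y : F ⊗[k] K, m = tensorToField ψ x / tensorToField ψ y)
    (v : Place k F) (hdeg : v.deg = 1) :
    ∃ w : Place K M, ∀ g : F, w.ord (ψ g) = v.ord g := by
  obtain ⟨ε, hε⟩ := exists_residue v hdeg
  let b := Module.Basis.ofVectorSpace k K
  let W := gaussValuation v b ε hε
  letI : Algebra (F ⊗[k] K) M := (tensorToField (K := K) ψ).toRingHom.toAlgebra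
  have halg : ∀ x : F ⊗[k] K, algebraMap (F ⊗[k] K) M x = tensorToField ψ x := fun _ => rfl
  haveI : FaithfulSMul (F ⊗[k] K) M := (faithfulSMul_iff_algebraMap_injective _ _).mpr hinj
  haveI : IsFractionRing (F ⊗[k] K) M := IsFractionRing.of_field _ _ hgen
  haveI : Nontrivial (F ⊗[k] K) := (tensorToField (K := K) ψ).toRingHom.domain_nontrivial
  have hS : nonZeroDivisors (F ⊗[k] K) ≤ W.supp.primeCompl := by
    intro s hs
    rw [Ideal.primeCompl, Submonoid.mem_mk, Subsemigroup.mem_mk]
    show s ∉ W.supp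
    rw [Valuation.mem_supp_iff]
    show gaussFun v b s ≠ 0
    rw [Ne, gaussFun_eq_zero_iff]
    exact nonZeroDivisors.ne_zero hs
  let W' : Valuation M ℤᵐ⁰ := W.extendToLocalization hS M
  have hW' : ∀ x : F ⊗[k] K, W' (tensorToField ψ x) = gaussFun v b x := fun x =>
    Valuation.extendToLocalization_apply_map_apply W hS M x
  obtain ⟨ϖ, hϖ⟩ := IsDiscreteValuationRing.exists_irreducible v.toValuationSubring
  have hψ : ∀ g : F, W' (ψ g) = v.adicValuation g := fun g => by
    have h := hW' (g ⊗ₜ[k] (1 : K))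
    rwa [tensorToField_tmul, map_one, mul_one, gaussFun_tmul_one v b ε hε] at h
  have hπ : W' (ψ (ϖ : F)) = exp (-1 : ℤ) := by
    rw [hψ, v.adicValuation_coe_irreducible hϖ]
  have hK : ∀ c : K, W' (algebraMap K M c) ≤ 1 := fun c => by
    have h := hW' ((1 : F) ⊗ₜ[k] c)
    rw [tensorToField_tmul, map_one, one_mul] at h
    rw [h]
    exact gaussFun_one_tmul_le v b c
  obtain ⟨w, hw⟩ := exists_place_of_valuation (K := K) W' hK hπ
  refine ⟨w, fun g => ?_⟩
  rcases eq_or_ne g 0 with rfl | hg
  · simp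
  rw [hw _ ((map_ne_zero ψ).mpr hg), hψ]
  rfl

end Extension

end Fermat.Agent.GTor.H33
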