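import Mathlib.SetTheory.Cardinal.Subfield
import Mathlib.RingTheory.Algebraic.Cardinality
import Mathlib.Analysis.Complex.Cardinality
import Mathlib.FieldTheory.IsAlgClosed.AlgebraicClosure
import Mathlib.FieldTheory.IntermediateField.Algebraic

/-!
# `ℂ` has infinite transcendence degree over `ℚ̄` (helper33, for G-TOR DESC)

`exists_not_isAlgebraic_closure`: for a field `k` with countably many elements, a ring
homomorphism `ι : k →+* K` into an uncountable field and a finite (or countable) set `s ⊆ K`, some
`x : K` is transcendental over the subfield generated by `ι(k)` and `s`.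
`exists_not_isAlgebraic_complex` is the case `k = ℚ̄`, `K = ℂ` (hypothesis of
`H75.Stmt_DescCore`).
-/

set_option autoImplicit false
set_option linter.style.haveILetI false

noncomputable section

namespace Fermat.Agent.GTor.H33

open Cardinal

/-- Over a countable subfield of an uncountable field there are transcendental elements. -/
theorem exists_not_isAlgebraic_of_countable {K : Type*} [Field K] (L : Subfield K)
    (hL : #L ≤ ℵ₀) (hK : ℵ₀ < #K) : ∃ x : K, ¬ IsAlgebraic L x := by
  by_contra hcon
  push Not at hcon
  haveI : Algebra.IsAlgebraic L K := ⟨hcon⟩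
  have h1 : #K ≤ max #L ℵ₀ := Algebra.IsAlgebraic.cardinalMk_le_max L K
  have h2 : max #L ℵ₀ ≤ ℵ₀ := max_le hL le_rfl
  exact absurd (h1.trans h2) (not_le.mpr hK)

/-- The subfield generated by the image of a countable field and a countable set is countable. -/
theorem cardinalMk_closure_range_union_le {k K : Type*} [Field k] [Field K] (ι : k →+* K)
    (hk : #k ≤ ℵ₀) (s : Set K) (hs : s.Countable) :
    #(Subfield.closure (Set.range ι ∪ s)) ≤ ℵ₀ := by
  have hr : (Set.range ι).Countable := by
    haveI : Countable k := Cardinal.mk_le_aleph0_iff.mp hk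
    exact Set.countable_range _
  have hu : (Set.range ι ∪ s).Countable := hr.union hs
  have h1 : #(Set.range ι ∪ s : Set K) ≤ ℵ₀ := Cardinal.le_aleph0_iff_set_countable.mpr hu
  exact (Subfield.cardinalMk_closure_le_max _).trans (max_le h1 le_rfl)

theorem exists_not_isAlgebraic_closure {k K : Type*} [Field k] [Field K] (ι : k →+* K)
    (hk : #k ≤ ℵ₀) (hK : ℵ₀ < #K) (s : Finset K) :
    ∃ x : K, ¬ IsAlgebraic ↥(Subfield.closure (Set.range ι ∪ (↑s : Set K))) x :=
  exists_not_isAlgebraic_of_countable _
    (cardinalMk_closure_range_union_le ι hk _ s.countable_toSet) hK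

theorem cardinalMk_algebraicClosure_rat : #(AlgebraicClosure ℚ) ≤ ℵ₀ := by
  haveI : Algebra.IsAlgebraic ℚ (AlgebraicClosure ℚ) := AlgebraicClosure.isAlgebraic ℚ
  have h := Algebra.IsAlgebraic.cardinalMk_le_max ℚ (AlgebraicClosure ℚ)
  simpa using h

/-- `ℂ` has infinite transcendence degree over `ℚ̄`: the hypothesis of `H75.Stmt_DescCore`. -/
theorem exists_not_isAlgebraic_complex (ι : AlgebraicClosure ℚ →+* ℂ) (s : Finset ℂ) :
    ∃ x : ℂ, ¬ IsAlgebraic ↥(Subfield.closure (Set.range ι ∪ (↑s : Set ℂ))) x :=
  exists_not_isAlgebraic_closure ι cardinalMk_algebraicClosure_rat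
    (by rw [Cardinal.mk_complex]; exact Cardinal.aleph0_lt_continuum) s

end Fermat.Agent.GTor.H33
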