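import Fermat.Agent.GTor.H56_Common
import Fermat.Agent.Betti.Defs

/-!
# G-TOR, package HK-an, parts (1)+(2)  (helper76)

For a prime `ℓ ∤ N` and a function `R` on the upper half plane put

  `heckeProd k ℓ R = (∏_{j < ℓ} R ∣[k] [1,j;0,ℓ]) * R ∣[k] [ℓ,0;0,1]`,

the product of the slashes of `R` by the representatives of `T_ℓ`.

* `heckeProd_eq_prod_onePoint`: it is the product over `heckeRep ℓ x`, `x ∈ P¹(𝔽_ℓ)`;
* `isTwistedForm_heckeProd`: if `R` is a twisted form of weight `k` with multiplier `ζ^φ` then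
  `heckeProd k ℓ R` is a twisted form of weight `k (ℓ + 1)` with multiplier `ζ^(T_ℓ φ)`,
  `T_ℓ = Betti.TB` the Betti Hecke operator;
* `heckeProdForm`: for a modular form `B` on `Γ₀(N)`, the modular form `heckeProd k ℓ B` of weight
  `k (ℓ + 1)`; `heckeProdForm_ne_zero`;
* `heckeProd_pow`: `heckeProd (n k) ℓ (Rⁿ) = ℓ^((n-1)(ℓ+1)) • (heckeProd k ℓ R)ⁿ`;
* `heckeProd_apply`: the explicit formula.
-/

set_option autoImplicit false
set_option linter.style.haveILetI false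

open UpperHalfPlane ModularForm CongruenceSubgroup Matrix.SpecialLinearGroup
open scoped MatrixGroups ModularForm Manifold
open P2MW.S_ModularForm_heckeT_slash_eq_self_of_mem_Gamma0.ModularForm.HeckeSlashInvariance

noncomputable section

namespace Fermat.Agent.GTor.H76

/-- The product of the slashes of `R` by the representatives of the Hecke correspondence `T_ℓ`. -/
def heckeProd (k : ℤ) (ℓ : ℕ) (R : ℍ → ℂ) : ℍ → ℂ :=
  (∏ j ∈ Finset.range ℓ, R ∣[k] heckeMatrix ℓ j) * R ∣[k] heckeDiagMatrix ℓ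

theorem heckeProd_def (k : ℤ) (ℓ : ℕ) (R : ℍ → ℂ) :
    heckeProd k ℓ R = (∏ j ∈ Finset.range ℓ, R ∣[k] heckeMatrix ℓ j) * R ∣[k] heckeDiagMatrix ℓ :=
  rfl

theorem heckeProd_apply (k : ℤ) {ℓ : ℕ} (hℓ : ℓ ≠ 0) (R : ℍ → ℂ) (τ : ℍ) :
    heckeProd k ℓ R τ = (∏ j ∈ Finset.range ℓ, ((ℓ : ℂ)⁻¹ * R (heckeMatrix ℓ j • τ)))
      * ((ℓ : ℂ) ^ (k - 1) * R (heckeDiagMatrix ℓ • τ)) := by
  simp only [heckeProd, Pi.mul_apply, Finset.prod_apply, slash_heckeMatrix_apply k hℓ,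
    slash_heckeDiagMatrix_apply k hℓ]

theorem prod_range_eq_prod_zmod {ℓ : ℕ} [NeZero ℓ] {M : Type*} [CommMonoid M] (F : ℕ → M) :
    ∏ j ∈ Finset.range ℓ, F j = ∏ x : ZMod ℓ, F x.val := by
  refine Finset.prod_nbij' (fun j : ℕ ↦ (j : ZMod ℓ)) (fun x : ZMod ℓ ↦ x.val)
    (fun _ _ ↦ Finset.mem_univ _)
    (fun x _ ↦ Finset.mem_range.mpr x.val_lt) (fun j hj ↦ ?_) (fun x _ ↦ ?_) (fun j hj ↦ ?_)
  · exact ZMod.val_cast_of_lt (Finset.mem_range.mp hj)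
  · exact ZMod.natCast_zmod_val x
  · rw [ZMod.val_cast_of_lt (Finset.mem_range.mp hj)]

theorem heckeProd_eq_prod_onePoint (k : ℤ) (ℓ : ℕ) [NeZero ℓ] (R : ℍ → ℂ) :
    heckeProd k ℓ R = ∏ x : OnePoint (ZMod ℓ), R ∣[k] heckeRep ℓ x := by
  rw [heckeProd, prod_range_eq_prod_zmod, mul_comm]
  exact (Fintype.prod_option (fun x : OnePoint (ZMod ℓ) ↦ R ∣[k] heckeRep ℓ x)).symm

/-! ### The representatives -/

theorem heckeRep_apply_one_zero (ℓ : ℕ) (x : OnePoint (ZMod ℓ)) :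
    (heckeRep ℓ x : GL (Fin 2) ℝ) 1 0 = 0 := by
  rcases eq_or_ne ℓ 0 with rfl | hℓ
  · induction x using OnePoint.rec with
    | infty => simp [heckeRep_infty]
    | coe j => simp [heckeRep_coe]
  · induction x using OnePoint.rec with
    | infty => simp [heckeRep_infty, val_heckeDiagMatrix hℓ]
    | coe j => simp [heckeRep_coe, val_heckeMatrix hℓ]

theorem σ_heckeRep (ℓ : ℕ) (x : OnePoint (ZMod ℓ)) :
    UpperHalfPlane.σ (heckeRep ℓ x) = .refl ℝ ℂ := by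
  induction x using OnePoint.rec with
  | infty => exact σ_heckeDiagMatrix ℓ
  | coe j => exact σ_heckeMatrix ℓ _

theorem smul_slash_heckeRep (k : ℤ) (ℓ : ℕ) (x : OnePoint (ZMod ℓ)) (c : ℂ) (F : ℍ → ℂ) :
    (c • F) ∣[k] heckeRep ℓ x = c • (F ∣[k] heckeRep ℓ x) := by
  rw [ModularForm.smul_slash, σ_heckeRep, ContinuousAlgEquiv.refl_apply]

/-! ### Products and slashes -/

theorem slash_mapGL (k : ℤ) (F : ℍ → ℂ) (γ : SL(2, ℤ)) : F ∣[k] mapGL ℝ γ = F ∣[k] γ := rfl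

theorem prod_slash_mapGL {ι : Type*} (k : ℤ) (s : Finset ι) (F : ι → ℍ → ℂ) (γ : SL(2, ℤ)) :
    (∏ i ∈ s, F i) ∣[k * (s.card : ℤ)] (mapGL ℝ γ) = ∏ i ∈ s, F i ∣[k] (mapGL ℝ γ) := by
  rw [ModularForm.prod_slash]
  have : |((mapGL ℝ γ : GL (Fin 2) ℝ).det : ℝ)| = 1 := by
    simp
  rw [this, one_zpow, one_smul]

theorem zetaPow_sum {ι : Type*} (n : ℕ) (s : Finset ι) (a : ι → ZMod n) :
    zetaPow n (∑ i ∈ s, a i) = ∏ i ∈ s, zetaPow n (a i) := by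
  classical
  induction s using Finset.induction_on with
  | empty => simp [H56.zetaPow_zero]
  | insert i t hi ih => rw [Finset.sum_insert hi, Finset.prod_insert hi, H56.zetaPow_add, ih]

theorem prod_smul_fun {ι : Type*} (s : Finset ι) (c : ι → ℂ) (F : ι → ℍ → ℂ) :
    ∏ i ∈ s, (c i • F i) = (∏ i ∈ s, c i) • ∏ i ∈ s, F i := by
  classical
  induction s using Finset.induction_on with
  | empty => simp
  | insert i t hi ih =>
    rw [Finset.prod_insert hi, Finset.prod_insert hi, Finset.prod_insert hi, ih]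
    funext z
    simp only [Pi.mul_apply, Pi.smul_apply, smul_eq_mul]
    ring

theorem card_onePoint_zmod (ℓ : ℕ) [NeZero ℓ] :
    ((Finset.univ : Finset (OnePoint (ZMod ℓ))).card : ℤ) = (ℓ : ℤ) + 1 := by
  rw [Finset.card_univ]
  have : Fintype.card (OnePoint (ZMod ℓ)) = ℓ + 1 := by
    have := Fintype.card_option (α := ZMod ℓ)
    rw [ZMod.card] at this
    exact this
  rw [this]
  push_cast
  rfl

/-! ### Part (1): the product is a twisted form with multiplier `T_ℓ φ` -/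

section Twisted

variable {N n : ℕ} {k : ℤ} {φ : Additive (Gamma0 N) →+ ZMod n} {R : ℍ → ℂ}

theorem mdifferentiable_heckeProd (k : ℤ) (ℓ : ℕ) {R : ℍ → ℂ} (hR : MDifferentiable 𝓘(ℂ) 𝓘(ℂ) R) :
    MDifferentiable 𝓘(ℂ) 𝓘(ℂ) (heckeProd k ℓ R) := by
  rw [heckeProd]
  exact (MDifferentiable.prod fun j _ => hR.slash k _).mul (hR.slash k _)

/-- The slash of `heckeProd` by an element of `SL₂(ℤ)` is the product of the slashes by the
matrices `rep x * γ`. -/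
theorem heckeProd_slash (k : ℤ) (ℓ : ℕ) [NeZero ℓ] (R : ℍ → ℂ) (γ : SL(2, ℤ)) :
    (heckeProd k ℓ R) ∣[k * ((ℓ : ℤ) + 1)] γ
      = ∏ x : OnePoint (ZMod ℓ), R ∣[k] (heckeRep ℓ x * mapGL ℝ γ) := by
  rw [heckeProd_eq_prod_onePoint, ← slash_mapGL, ← card_onePoint_zmod, prod_slash_mapGL]
  refine Finset.prod_congr rfl fun x _ => ?_
  rw [SlashAction.slash_mul]

theorem isTwistedForm_heckeProd {ℓ : ℕ} (hℓ : ℓ.Prime) (hℓN : ¬ ℓ ∣ N)
    (h : IsTwistedForm N n k φ R) :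
    IsTwistedForm N n (k * ((ℓ : ℤ) + 1)) (Betti.TB N (ZMod n) hℓ hℓN φ) (heckeProd k ℓ R) := by
  haveI : Fact ℓ.Prime := ⟨hℓ⟩
  haveI : NeZero ℓ := ⟨hℓ.ne_zero⟩
  refine ⟨mdifferentiable_heckeProd k ℓ h.mdiff, fun γ => ?_, fun σ => ?_⟩
  · -- the multiplier
    set H := Betti.isHeckeFamily_T N hℓN with hH
    rw [heckeProd_slash, Betti.TB_apply_apply, zetaPow_sum]
    have hterm : ∀ x : OnePoint (ZMod ℓ),
        R ∣[k] (heckeRep ℓ x * mapGL ℝ (γ : SL(2, ℤ)))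
          = zetaPow n (φ (Additive.ofMul (H.kap γ x))) • (R ∣[k] heckeRep ℓ (H.perm γ x)) := by
      intro x
      have h1 := H.rep_mul γ x
      rw [Betti.incl_apply, Betti.incl_apply] at h1
      have h2 : R ∣[k] mapGL ℝ ((H.kap γ x : Gamma0 N) : SL(2, ℤ))
          = zetaPow n (φ (Additive.ofMul (H.kap γ x))) • R := h.slash (H.kap γ x)
      rw [h1, SlashAction.slash_mul, h2, smul_slash_heckeRep]
    rw [Finset.prod_congr rfl fun x _ => hterm x, prod_smul_fun, heckeProd_eq_prod_onePoint]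
    congr 1
    exact Equiv.prod_comp (H.permEquiv (Betti.incl_injective N) γ)
      (fun x => R ∣[k] heckeRep ℓ x)
  · -- bounded at the cusps
    rw [heckeProd_slash]
    have hb : ∀ x : OnePoint (ZMod ℓ),
        IsBoundedAtImInfty (R ∣[k] (heckeRep ℓ x * mapGL ℝ σ)) := by
      intro x
      obtain ⟨g', -, hg'⟩ := heckeRep_mul (N := 1) (p := ℓ) hℓ.not_dvd_one σ (by simp) x
      rw [hg', SlashAction.slash_mul, slash_mapGL]
      exact (h.bdd g').slash k (heckeRep_apply_one_zero ℓ _)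
    rw [IsBoundedAtImInfty]
    exact Filter.BoundedAtFilter.prod _ fun x _ => hb x

end Twisted

/-! ### Part (2): the product of a modular form is a nonzero modular form -/

section Form

variable {N : ℕ} [NeZero N] {k : ℤ} {ℓ : ℕ}

theorem isTwistedForm_heckeProd_zero (hℓ : ℓ.Prime) (hℓN : ¬ ℓ ∣ N)
    (B : ModularForm (Gamma0 N) k) :
    IsTwistedForm N 1 (k * ((ℓ : ℤ) + 1)) 0 (heckeProd k ℓ B) := by
  have h := isTwistedForm_heckeProd hℓ hℓN (H56.isTwistedForm_of_modularForm 1 B)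
  rwa [map_zero] at h

/-- The modular form `∏_x B ∣[k] rep x` of weight `k (ℓ + 1)` on `Γ₀(N)`. -/
def heckeProdForm (hℓ : ℓ.Prime) (hℓN : ¬ ℓ ∣ N) (B : ModularForm (Gamma0 N) k) :
    ModularForm (Gamma0 N) (k * ((ℓ : ℤ) + 1)) :=
  H56.toModularForm (isTwistedForm_heckeProd_zero hℓ hℓN B)

@[simp] theorem coe_heckeProdForm (hℓ : ℓ.Prime) (hℓN : ¬ ℓ ∣ N) (B : ModularForm (Gamma0 N) k) :
    (heckeProdForm hℓ hℓN B : ℍ → ℂ) = heckeProd k ℓ B := rfl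

theorem slash_eq_zero_iff (k : ℤ) (g : GL (Fin 2) ℝ) (F : ℍ → ℂ) : F ∣[k] g = 0 ↔ F = 0 := by
  constructor
  · intro h
    have h1 : (F ∣[k] g) ∣[k] g⁻¹ = 0 := by rw [h, SlashAction.zero_slash]
    rwa [← SlashAction.slash_mul, mul_inv_cancel, SlashAction.slash_one] at h1
  · rintro rfl
    exact SlashAction.zero_slash _ _

theorem heckeProd_eq_zero_iff (k : ℤ) {ℓ : ℕ} {F : ℍ → ℂ} (hF : MDifferentiable 𝓘(ℂ) 𝓘(ℂ) F) :
    heckeProd k ℓ F = 0 ↔ F = 0 := by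
  rw [heckeProd, UpperHalfPlane.mul_eq_zero_iff (MDifferentiable.prod fun j _ => hF.slash k _)
    (hF.slash k _), UpperHalfPlane.prod_eq_zero_iff (fun j _ => hF.slash k _)]
  simp only [slash_eq_zero_iff]
  constructor
  · rintro (⟨_, _, h⟩ | h) <;> exact h
  · intro h
    exact Or.inr h

theorem heckeProdForm_ne_zero (hℓ : ℓ.Prime) (hℓN : ¬ ℓ ∣ N) {B : ModularForm (Gamma0 N) k}
    (hB : B ≠ 0) : heckeProdForm hℓ hℓN B ≠ 0 := by
  intro h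
  apply hB
  have h1 : heckeProd k ℓ (B : ℍ → ℂ) = 0 := by
    rw [← coe_heckeProdForm hℓ hℓN B, h]
    rfl
  have h2 := (heckeProd_eq_zero_iff k B.holo').mp h1
  exact DFunLike.coe_injective h2

end Form

/-! ### Powers and products -/

theorem heckeProd_pow_aux (L : ℂ) (hL : L ≠ 0) (ℓ n : ℕ) (k : ℤ) (P D : ℂ) :
    (L⁻¹ ^ ℓ * P ^ n) * (L ^ ((n : ℤ) * k - 1) * D ^ n)
      = (L ^ ((n : ℤ) - 1)) ^ (ℓ + 1) * ((L⁻¹ ^ ℓ * P) * (L ^ (k - 1) * D)) ^ n := by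
  have e0 : L ^ ((n : ℤ) - 1) * (L⁻¹) ^ n = L⁻¹ := by
    rw [inv_pow, ← zpow_natCast L n, ← zpow_neg, ← zpow_add₀ hL, ← zpow_neg_one]
    congr 1
    ring
  have e1 : L ^ ((n : ℤ) * k - 1) = L ^ ((n : ℤ) - 1) * (L ^ (k - 1)) ^ n := by
    rw [← zpow_natCast (L ^ (k - 1)) n, ← zpow_mul, ← zpow_add₀ hL]
    congr 1
    ring
  have e2 : L⁻¹ ^ ℓ = (L ^ ((n : ℤ) - 1)) ^ ℓ * (L⁻¹ ^ ℓ) ^ n := by
    rw [pow_right_comm, ← mul_pow, e0]
  rw [e1]
  conv_lhs => rw [e2]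
  ring

theorem heckeProd_pow (k : ℤ) {ℓ : ℕ} (hℓ : ℓ ≠ 0) (n : ℕ) (R : ℍ → ℂ) :
    heckeProd ((n : ℤ) * k) ℓ (fun z => R z ^ n)
      = (((ℓ : ℂ) ^ ((n : ℤ) - 1)) ^ (ℓ + 1)) • fun z => heckeProd k ℓ R z ^ n := by
  have hℓ' : (ℓ : ℂ) ≠ 0 := by exact_mod_cast hℓ
  funext τ
  rw [Pi.smul_apply, heckeProd_apply _ hℓ, heckeProd_apply _ hℓ, smul_eq_mul]
  have hA : ∏ j ∈ Finset.range ℓ, ((ℓ : ℂ)⁻¹ * R (heckeMatrix ℓ j • τ) ^ n)
      = ((ℓ : ℂ)⁻¹) ^ ℓ * (∏ j ∈ Finset.range ℓ, R (heckeMatrix ℓ j • τ)) ^ n := by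
    rw [Finset.prod_mul_distrib, Finset.prod_const, Finset.card_range, Finset.prod_pow]
  have hB : ∏ j ∈ Finset.range ℓ, ((ℓ : ℂ)⁻¹ * R (heckeMatrix ℓ j • τ))
      = ((ℓ : ℂ)⁻¹) ^ ℓ * ∏ j ∈ Finset.range ℓ, R (heckeMatrix ℓ j • τ) := by
    rw [Finset.prod_mul_distrib, Finset.prod_const, Finset.card_range]
  rw [hA, hB]
  exact heckeProd_pow_aux _ hℓ' _ _ _ _ _

/-- The constant of `heckeProd_pow` is nonzero. -/
theorem heckeProd_pow_const_ne_zero {ℓ : ℕ} (hℓ : ℓ ≠ 0) (n : ℕ) :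
    (((ℓ : ℂ) ^ ((n : ℤ) - 1)) ^ (ℓ + 1)) ≠ 0 :=
  pow_ne_zero _ (zpow_ne_zero _ (by exact_mod_cast hℓ))

/-! ### Packaging for `HasChar` -/

/-- If `R` is a twisted form with multiplier `ζ^φ`, `B ≠ 0` a modular form of the same weight and
`g'` is the ratio of the `q`-expansions of `(heckeProd R)ⁿ` and `(heckeProd B)ⁿ`, then `g'` has
character `T_ℓ φ`. -/
theorem hasChar_heckeProd {N n : ℕ} [NeZero N] {k : ℤ} {ℓ : ℕ} (hℓ : ℓ.Prime) (hℓN : ¬ ℓ ∣ N)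
    {φ : Additive (Gamma0 N) →+ ZMod n} {R : ℍ → ℂ} (hR : IsTwistedForm N n k φ R)
    {B : ModularForm (Gamma0 N) k} (hB : B ≠ 0) (g' : FNL ℂ N)
    (hq : qLaurent (fun z => heckeProd k ℓ R z ^ n)
      = (g' : LaurentSeries ℂ) * qLaurent (fun z => heckeProd k ℓ (B : ℍ → ℂ) z ^ n)) :
    HasChar N n g' (Betti.TB N (ZMod n) hℓ hℓN φ) :=
  ⟨k * ((ℓ : ℤ) + 1), heckeProd k ℓ R, heckeProdForm hℓ hℓN B, isTwistedForm_heckeProd hℓ hℓN hR,
    heckeProdForm_ne_zero hℓ hℓN hB, hq⟩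

end Fermat.Agent.GTor.H76
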