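import Fermat.Agent.GTor.H76_HKanExp
import Fermat.Agent.GTor.H76_HKan
import Fermat.Agent.GTor.H58_A2
import Fermat.Agent.GTor.H2_HKalgC
import Fermat.Agent.S28.H76_Bridge

/-!
# G-TOR, package HK-an, parts (3)+(4) and the final statement  (helper44)

* `qLaurent_heckeProd`: for `A` nice of period one such that `heckeProd K ℓ A` is again of period
  one, `qLaurent (heckeProd K ℓ A) = C c * heckeNormSeries ℓ (qLaurent A)` with
  `c = heckeConst K ℓ = ℓ^(-ℓ) ℓ^(K-1)`;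
* `hk_an : H2.Stmt_HKan N n`: if `f' ∈ F_ℂ` has character `φ` then `heckeNormSeries ℓ f'` is the
  expansion of some `g' ∈ F_ℂ` with character `T_ℓ φ`.
-/

set_option autoImplicit false
set_option linter.style.haveILetI false
set_option linter.unusedSectionVars false

open UpperHalfPlane ModularForm CongruenceSubgroup ModularCurve
open scoped MatrixGroups ModularForm Manifold

noncomputable section

namespace Fermat.Agent.GTor.H44

open Fermat.Agent.S23.H22 (Nice)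
open Fermat.Agent.S28.H30 (pexp BPH)
open Fermat.Agent.GTor.H76

/-- The constant `ℓ^(-ℓ) ℓ^(K-1)` of the slashes in `heckeProd`. -/
def heckeConst (K : ℤ) (ℓ : ℕ) : ℂ := ((ℓ : ℂ)⁻¹) ^ ℓ * (ℓ : ℂ) ^ (K - 1)

theorem heckeConst_ne_zero (K : ℤ) {ℓ : ℕ} (hℓ : ℓ ≠ 0) : heckeConst K ℓ ≠ 0 := by
  have h : (ℓ : ℂ) ≠ 0 := by exact_mod_cast hℓ
  exact mul_ne_zero (pow_ne_zero _ (inv_ne_zero h)) (zpow_ne_zero _ h)

theorem heckeProd_eq_smul (K : ℤ) {ℓ : ℕ} (hℓ : ℓ ≠ 0) (A : ℍ → ℂ) :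
    heckeProd K ℓ A = heckeConst K ℓ •
      ((∏ j ∈ Finset.range ℓ, fun z => A (heckeMatrix ℓ j • z)) *
        fun z => A (heckeDiagMatrix ℓ • z)) := by
  funext τ
  rw [heckeProd_apply K hℓ, Pi.smul_apply, Pi.mul_apply, Finset.prod_apply, smul_eq_mul,
    Finset.prod_mul_distrib, Finset.prod_const, Finset.card_range, heckeConst]
  ring

theorem pexp_heckeProd (K : ℤ) (ℓ : ℕ) [NeZero ℓ] {A : ℍ → ℂ} (hA : Nice 1 A) :
    pexp ℓ (heckeProd K ℓ A) = HahnSeries.C (heckeConst K ℓ) *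
      ((∏ j ∈ Finset.range ℓ, twistBy (zetaUnit ℓ ^ j) (qLaurent A)) *
        qExpand ℂ ℓ (qExpand ℂ ℓ (qLaurent A))) := by
  have h1 : ∀ j ∈ Finset.range ℓ, BPH ℓ (fun z => A (heckeMatrix ℓ j • z)) :=
    fun j _ => bph_comp_heckeMatrix ℓ hA j
  have h2 : BPH ℓ (fun z => A (heckeDiagMatrix ℓ • z)) := bph_comp_heckeDiagMatrix ℓ hA
  rw [heckeProd_eq_smul K (NeZero.ne ℓ),
    Fermat.Agent.S28.H30.pexp_smul _ ((BPH.prod _ _ h1).mul h2),
    Fermat.Agent.S28.H30.pexp_mul (BPH.prod _ _ h1) h2,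
    Fermat.Agent.S28.H30.pexp_prod _ _ h1, pexp_comp_heckeDiagMatrix ℓ hA]
  congr 2
  exact Finset.prod_congr rfl fun j _ => pexp_comp_heckeMatrix ℓ hA j

/-- **(3)** the `q`-expansion of the Hecke product. -/
theorem qLaurent_heckeProd (K : ℤ) (ℓ : ℕ) [NeZero ℓ] {A : ℍ → ℂ} (hA : Nice 1 A)
    (hP : Nice 1 (heckeProd K ℓ A)) :
    qLaurent (heckeProd K ℓ A)
      = HahnSeries.C (heckeConst K ℓ) * heckeNormSeries ℓ (qLaurent A) := by
  have h1 : pexp ℓ (heckeProd K ℓ A) = qExpand ℂ ℓ (qLaurent (heckeProd K ℓ A)) :=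
    Fermat.Agent.S28.H76.ofPS_qExpansion_natCast ℓ hP
  apply H44.qExpand_injective (K := ℂ) (ℓ := ℓ)
  rw [← h1, pexp_heckeProd K ℓ hA, map_mul, qExpand_C, heckeNormSeries,
    qExpand_normSeries (isPrimitiveRoot_zetaUnit ℓ),
    twistProd_eq_prod_range (isPrimitiveRoot_zetaUnit ℓ), mul_comm (qExpand ℂ ℓ _)]

theorem qLaurent_smul (c : ℂ) {F : ℍ → ℂ} (hF : Nice 1 F) :
    qLaurent (c • F) = HahnSeries.C c * qLaurent F := by
  have := Fermat.Agent.S28.H30.pexp_smul (N := 1) c (f := F)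
    ⟨by simpa using hF.per, hF.hol, hF.bdd⟩
  simpa [pexp, qLaurent] using this

/-! ### The final statement -/

section Final

variable {N n : ℕ} [NeZero N] {k : ℤ} {ℓ : ℕ}

theorem nice_heckeProd_pow (hℓ : ℓ.Prime) (hℓN : ¬ ℓ ∣ N)
    {φ : Additive (Gamma0 N) →+ ZMod n} {R : ℍ → ℂ} (hR : IsTwistedForm N n k φ R) :
    Nice 1 (fun z => heckeProd k ℓ R z ^ n) :=
  (isTwistedForm_heckeProd hℓ hℓN hR).nice_pow

theorem nice_heckeProd_of_pow (hℓ : ℓ.Prime) (hℓN : ¬ ℓ ∣ N)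
    {φ : Additive (Gamma0 N) →+ ZMod n} {R : ℍ → ℂ} (hR : IsTwistedForm N n k φ R) :
    Nice 1 (heckeProd ((n : ℤ) * k) ℓ (fun z => R z ^ n)) := by
  rw [heckeProd_pow k hℓ.ne_zero n R]
  exact (nice_heckeProd_pow hℓ hℓN hR).smul _

/-- the `q`-expansion of `(heckeProd R)ⁿ` in terms of that of `Rⁿ` -/
theorem qLaurent_heckeProd_pow (hℓ : ℓ.Prime) (hℓN : ¬ ℓ ∣ N)
    {φ : Additive (Gamma0 N) →+ ZMod n} {R : ℍ → ℂ} (hR : IsTwistedForm N n k φ R) :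
    HahnSeries.C (((ℓ : ℂ) ^ ((n : ℤ) - 1)) ^ (ℓ + 1)) * qLaurent (fun z => heckeProd k ℓ R z ^ n)
      = HahnSeries.C (heckeConst ((n : ℤ) * k) ℓ) *
        (haveI : NeZero ℓ := ⟨hℓ.ne_zero⟩; heckeNormSeries ℓ (qLaurent (fun z => R z ^ n))) := by
  haveI : NeZero ℓ := ⟨hℓ.ne_zero⟩
  rw [← qLaurent_smul _ (nice_heckeProd_pow hℓ hℓN hR), ← heckeProd_pow k hℓ.ne_zero n R]
  exact qLaurent_heckeProd _ ℓ hR.nice_pow (nice_heckeProd_of_pow hℓ hℓN hR)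

theorem heckeProd_pow_fun_ne_zero (hℓ : ℓ.Prime) {B : ModularForm (Gamma0 N) k} (hB : B ≠ 0) :
    (fun z => heckeProd k ℓ (B : ℍ → ℂ) z ^ n) ≠ 0 := by
  intro h
  apply hB
  have h1 : heckeProd k ℓ (B : ℍ → ℂ) = 0 := by
    funext z
    have h2 := congrFun h z
    simp only [Pi.zero_apply] at h2 ⊢
    exact eq_zero_of_pow_eq_zero h2
  exact DFunLike.coe_injective ((heckeProd_eq_zero_iff k B.holo').mp h1)

/-- **HK-an**: the analytic half of HK. -/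
theorem hk_an (N n : ℕ) [NeZero N] : H2.Stmt_HKan N n := by
  intro ℓ hℓ hℓN f' φ _ hch
  haveI : NeZero ℓ := ⟨hℓ.ne_zero⟩
  obtain ⟨k, R, B, hR, hB, hq⟩ := hch
  have hBt : IsTwistedForm N n k 0 (B : ℍ → ℂ) := H56.isTwistedForm_of_modularForm n B
  have eR := qLaurent_heckeProd_pow hℓ hℓN hR
  have eB := qLaurent_heckeProd_pow hℓ hℓN hBt
  have hc1 : (((ℓ : ℂ) ^ ((n : ℤ) - 1)) ^ (ℓ + 1)) ≠ 0 := heckeProd_pow_const_ne_zero hℓ.ne_zero n
  have hC : (HahnSeries.C (((ℓ : ℂ) ^ ((n : ℤ) - 1)) ^ (ℓ + 1)) : LaurentSeries ℂ) ≠ 0 := by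
    intro h0
    apply hc1
    have := congrArg (fun s : LaurentSeries ℂ => s.coeff 0) h0
    simpa using this
  have key : qLaurent (fun z => heckeProd k ℓ R z ^ n)
      = heckeNormSeries ℓ (f' : LaurentSeries ℂ)
        * qLaurent (fun z => heckeProd k ℓ (B : ℍ → ℂ) z ^ n) := by
    apply mul_left_cancel₀ hC
    rw [eR, hq, heckeNormSeries_mul, mul_left_comm, ← eB]
    ring
  -- (4): the ratio lies in `F_ℂ`
  have hℬ : H56.toModularForm (isTwistedForm_heckeProd hℓ hℓN hBt).pow ≠ 0 := by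
    intro h0
    apply heckeProd_pow_fun_ne_zero (n := n) hℓ hB
    have := congrArg (fun F : ModularForm (Gamma0 N) _ => (F : ℍ → ℂ)) h0
    exact this
  obtain ⟨g', -, hg'⟩ := H58.stmt_A2 N _
    (H56.toModularForm (isTwistedForm_heckeProd hℓ hℓN hR).pow)
    (H56.toModularForm (isTwistedForm_heckeProd hℓ hℓN hBt).pow) hℬ
  rw [H56.toModularForm_coe, H56.toModularForm_coe] at hg'
  have hne : qLaurent (fun z => heckeProd k ℓ (B : ℍ → ℂ) z ^ n) ≠ 0 := by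
    rw [Ne, H56.qLaurent_eq_zero_iff (nice_heckeProd_pow hℓ hℓN hBt)]
    exact heckeProd_pow_fun_ne_zero hℓ hB
  have hgg : (g' : LaurentSeries ℂ) = heckeNormSeries ℓ (f' : LaurentSeries ℂ) :=
    mul_right_cancel₀ hne (hg'.symm.trans key)
  exact ⟨g', hgg, hasChar_heckeProd hℓ hℓN hR hB g' hg'⟩

end Final

end Fermat.Agent.GTor.H44
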