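import Fermat.Agent.GTor.Defs
import Fermat.Agent.S23.H22_Nice
import Fermat.Prelude.Thm_CongruenceSubgroup_one_mem_strictPeriods_Gamma0

/-!
# G-TOR: common lemmas for the packages CHAR and INJ (helper56)

* `zetaPow_zero`, `zetaPow_add`, `zetaPow_pow`, `zetaPow_injective`;
* `IsTwistedForm.mul`, `IsTwistedForm.pow`, `isTwistedForm_of_modularForm`, `toModularForm`
  (a twisted form with trivial multiplier is a modular form);
* `qLaurent_mul`, `qLaurent_pow`, `qLaurent_eq_zero_iff`, `qLaurent_injective` for functions that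
  are `Nice 1` (periodic, holomorphic, bounded at `i∞`).
-/

set_option autoImplicit false
set_option linter.style.haveILetI false

open UpperHalfPlane ModularForm
open scoped MatrixGroups ModularForm Manifold

noncomputable section

namespace Fermat.Agent.GTor.H56

open Fermat.Agent.S23.H22 (Nice)

lemma zetaPow_zero (n : ℕ) : zetaPow n 0 = 1 := by
  simp [zetaPow]

lemma zetaPow_eq_pow (n : ℕ) (a : ZMod n) :
    zetaPow n a = Complex.exp (2 * Real.pi * Complex.I / (n : ℂ)) ^ (ZMod.val a) := by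
  rw [zetaPow, ← Complex.exp_nat_mul]
  congr 1
  ring

lemma zetaPow_pow (n : ℕ) (a : ZMod n) : zetaPow n a ^ n = 1 := by
  rcases Nat.eq_zero_or_pos n with rfl | hn
  · simp
  · have : Complex.exp (2 * Real.pi * Complex.I / (n : ℂ)) ^ n = 1 :=
      (Complex.isPrimitiveRoot_exp n hn.ne').pow_eq_one
    rw [zetaPow_eq_pow, ← pow_mul, Nat.mul_comm (ZMod.val a) n, pow_mul, this, one_pow]

lemma zetaPow_add (n : ℕ) (a b : ZMod n) : zetaPow n (a + b) = zetaPow n a * zetaPow n b := by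
  rcases Nat.eq_zero_or_pos n with rfl | hn
  · simp [zetaPow]
  · haveI : NeZero n := ⟨hn.ne'⟩
    rw [zetaPow_eq_pow, zetaPow_eq_pow, zetaPow_eq_pow, ← pow_add, ZMod.val_add]
    have h := (Complex.isPrimitiveRoot_exp n hn.ne').pow_eq_one
    conv_rhs => rw [← Nat.mod_add_div (ZMod.val a + ZMod.val b) n]
    rw [pow_add, pow_mul, h, one_pow, mul_one]

lemma zetaPow_injective {n : ℕ} (hn : n ≠ 0) : Function.Injective (zetaPow n) := by
  haveI : NeZero n := ⟨hn⟩
  intro a b h
  rw [zetaPow_eq_pow, zetaPow_eq_pow] at h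
  have := (Complex.isPrimitiveRoot_exp n hn).pow_inj (ZMod.val_lt a) (ZMod.val_lt b) h
  exact ZMod.val_injective n this

/-! ### Twisted forms -/

variable {N n : ℕ} {k k₁ k₂ : ℤ}
  {φ ψ : Additive (CongruenceSubgroup.Gamma0 N) →+ ZMod n} {R R₁ R₂ : ℍ → ℂ}

lemma slash_pow_SL (k : ℤ) (n : ℕ) (γ : SL(2, ℤ)) (R : ℍ → ℂ) :
    (fun z => R z ^ n) ∣[(n : ℤ) * k] γ = fun z => (R ∣[k] γ) z ^ n := by
  funext z
  rw [SL_slash_apply, SL_slash_apply, mul_pow, ← zpow_natCast (denom γ z ^ (-k)) n, ← zpow_mul]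
  congr 2
  ring

lemma isBoundedAtImInfty_pow {F : ℍ → ℂ} (h : IsBoundedAtImInfty F) (n : ℕ) :
    IsBoundedAtImInfty (fun z => F z ^ n) := by
  induction n with
  | zero =>
    have : (fun z : ℍ => F z ^ 0) = fun _ => (1 : ℂ) := by funext z; simp
    rw [this]
    exact Filter.const_boundedAtFilter _ (1 : ℂ)
  | succ m ih =>
    have : (fun z => F z ^ (m + 1)) = (fun z => F z ^ m) * F := by
      funext z; simp [pow_succ]
    rw [this]
    exact ih.mul h

lemma _root_.Fermat.Agent.GTor.IsTwistedForm.pow (h : IsTwistedForm N n k φ R) :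
    IsTwistedForm N n ((n : ℤ) * k) 0 (fun z => R z ^ n) where
  mdiff := by
    have := h.mdiff.pow n
    exact this
  slash γ := by
    rw [slash_pow_SL, h.slash γ]
    funext z
    simp only [Pi.smul_apply, smul_eq_mul, mul_pow, zetaPow_pow, one_mul, AddMonoidHom.zero_apply,
      zetaPow_zero]
  bdd σ := by
    rw [slash_pow_SL]
    exact isBoundedAtImInfty_pow (h.bdd σ) n

lemma _root_.Fermat.Agent.GTor.IsTwistedForm.mul (h₁ : IsTwistedForm N n k₁ φ R₁) (h₂ : IsTwistedForm N n k₂ ψ R₂) :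
    IsTwistedForm N n (k₁ + k₂) (φ + ψ) (R₁ * R₂) where
  mdiff := h₁.mdiff.mul h₂.mdiff
  slash γ := by
    rw [mul_slash_SL2, h₁.slash γ, h₂.slash γ]
    funext z
    simp only [Pi.mul_apply, Pi.smul_apply, smul_eq_mul, AddMonoidHom.add_apply, zetaPow_add]
    ring
  bdd σ := by
    rw [mul_slash_SL2]
    exact (h₁.bdd σ).mul (h₂.bdd σ)

lemma isTwistedForm_of_modularForm [NeZero N] (n : ℕ)
    (A : ModularForm (CongruenceSubgroup.Gamma0 N) k) :
    IsTwistedForm N n k 0 (A : ℍ → ℂ) where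
  mdiff := A.holo'
  slash γ := by
    rw [AddMonoidHom.zero_apply, zetaPow_zero, one_smul, SL_slash]
    exact SlashInvariantFormClass.slash_action_eq A _ ⟨γ, γ.2, rfl⟩
  bdd σ := ModularFormClass.bdd_at_infty_slash A σ

/-- A twisted form with trivial multiplier is a modular form. -/
def toModularForm [NeZero N] (h : IsTwistedForm N n k 0 R) :
    ModularForm (CongruenceSubgroup.Gamma0 N) k where
  toFun := R
  slash_action_eq' g hg := by
    obtain ⟨γ, hγ, rfl⟩ := hg
    have := h.slash ⟨γ, hγ⟩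
    rw [AddMonoidHom.zero_apply, zetaPow_zero, one_smul, SL_slash] at this
    exact this
  holo' := h.mdiff
  bdd_at_cusps' {c} hc := by
    rw [Subgroup.IsArithmetic.isCusp_iff_isCusp_SL2Z] at hc
    rw [OnePoint.isBoundedAt_iff_forall_SL2Z hc]
    intro γ _
    exact h.bdd γ

@[simp] lemma toModularForm_coe [NeZero N] (h : IsTwistedForm N n k 0 R) :
    (toModularForm h : ℍ → ℂ) = R := rfl

lemma nice_of_gamma0 [NeZero N] (A : ModularForm (CongruenceSubgroup.Gamma0 N) k) :
    Nice 1 (A : ℍ → ℂ) :=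
  Fermat.Agent.S23.H22.nice_of_modularForm A one_pos
    (CongruenceSubgroup.one_mem_strictPeriods_Gamma0 N)

lemma _root_.Fermat.Agent.GTor.IsTwistedForm.nice_pow [NeZero N] (h : IsTwistedForm N n k φ R) :
    Nice 1 (fun z => R z ^ n) :=
  nice_of_gamma0 (toModularForm h.pow)

/-! ### `qLaurent` -/

lemma qLaurent_mul {F G : ℍ → ℂ} (hF : Nice 1 F) (hG : Nice 1 G) :
    qLaurent (F * G) = qLaurent F * qLaurent G := by
  rw [qLaurent, qLaurent, qLaurent, hF.qExpansion_mul one_pos hG, map_mul]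

lemma qLaurent_pow {F : ℍ → ℂ} (hF : Nice 1 F) (m : ℕ) :
    qLaurent (fun z => F z ^ m) = qLaurent F ^ m := by
  have : (fun z => F z ^ m) = F ^ m := rfl
  rw [this, qLaurent, qLaurent, hF.qExpansion_pow one_pos, map_pow]

lemma qLaurent_injective {F G : ℍ → ℂ} (hF : Nice 1 F) (hG : Nice 1 G)
    (h : qLaurent F = qLaurent G) : F = G :=
  Nice.eq_of_qExpansion_eq one_pos hF hG (HahnSeries.ofPowerSeries_injective h)

lemma qLaurent_zero : qLaurent (0 : ℍ → ℂ) = 0 := by
  rw [qLaurent, UpperHalfPlane.qExpansion_zero, map_zero]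

lemma qLaurent_eq_zero_iff {F : ℍ → ℂ} (hF : Nice 1 F) : qLaurent F = 0 ↔ F = 0 := by
  constructor
  · intro h
    exact qLaurent_injective hF (Nice.zero 1) (by rw [h, qLaurent_zero])
  · rintro rfl
    exact qLaurent_zero

end Fermat.Agent.GTor.H56
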