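import Fermat.Agent.GTor.H75_DescAutDef

/-!
# G-TOR package DESC, sub-package AUT (helper56)

`stmt_DescAut : H75.Stmt_DescAut k K`: for `K ⊇ k` algebraically closed of infinite transcendence
degree, every finite `c ⊆ K` is algebraic over `k[t]` for an algebraically independent `t`, and
there are `m` automorphisms `σ i` of `K / k` with `(t, σ_i⁻¹ σ_j t)` algebraically independent
for `i ≠ j`.

* `exists_algEquiv_perm`: every permutation of a transcendence basis extends to an automorphism.
-/

set_option autoImplicit false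
set_option linter.style.haveILetI false

noncomputable section

namespace Fermat.Agent.GTor.H56

open Algebra

/-- An algebraically closed field `K` has, for every permutation `e` of a transcendence basis `v`
over `k`, a `k`-automorphism `σ` with `σ (v i) = v (e i)`. -/
theorem exists_algEquiv_perm {k K : Type*} [Field k] [Field K] [Algebra k K] [IsAlgClosed K]
    {I : Type*} (v : I → K) (hv : IsTranscendenceBasis k v) (e : I ≃ I) :
    ∃ σ : K ≃ₐ[k] K, ∀ i, σ (v i) = v (e i) := by
  classical
  haveI := IsAlgClosed.isAlgClosure_of_transcendence_basis v hv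
  let eA : Algebra.adjoin k (Set.range v) ≃ₐ[k] Algebra.adjoin k (Set.range v) :=
    hv.1.aevalEquiv.symm.trans ((MvPolynomial.renameEquiv k e).trans hv.1.aevalEquiv)
  let σ : K ≃+* K := IsAlgClosure.equivOfEquiv K K eA.toRingEquiv
  have hσ : ∀ a : Algebra.adjoin k (Set.range v),
      σ (algebraMap _ K a) = algebraMap _ K (eA a) := fun a =>
    IsAlgClosure.equivOfEquiv_algebraMap K K eA.toRingEquiv a
  have hk : ∀ c : k, σ (algebraMap k K c) = algebraMap k K c := by
    intro c
    have h1 : algebraMap k K c
        = algebraMap (Algebra.adjoin k (Set.range v)) K (algebraMap k _ c) := rfl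
    rw [h1, hσ, AlgEquiv.commutes]
  refine ⟨AlgEquiv.ofRingEquiv (f := σ) hk, fun i => ?_⟩
  have hvi : v i = algebraMap (Algebra.adjoin k (Set.range v)) K
      (hv.1.aevalEquiv (MvPolynomial.X i)) := by
    simp [AlgebraicIndependent.aevalEquiv]
  have hvei : v (e i) = algebraMap (Algebra.adjoin k (Set.range v)) K
      (hv.1.aevalEquiv (MvPolynomial.X (e i))) := by
    simp [AlgebraicIndependent.aevalEquiv]
  show σ (v i) = v (e i)
  rw [hvi, hσ, hvei]
  congr 1
  simp [eA]

/-- If `K` is not algebraic over any finitely generated subfield, every transcendence basis of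
`K / k` is infinite. -/
theorem infinite_of_not_isAlgebraic {k K : Type*} [Field k] [Field K] [Algebra k K]
    (htr : ∀ s : Finset K, ∃ x : K,
      ¬ IsAlgebraic ↥(Subfield.closure (Set.range (algebraMap k K) ∪ (↑s : Set K))) x)
    (B : Set K) (hB : IsTranscendenceBasis k ((↑) : B → K)) : B.Infinite := by
  classical
  intro hfin
  obtain ⟨x, hx⟩ := htr hfin.toFinset
  apply hx
  have halg : IsAlgebraic (adjoin k (Set.range ((↑) : B → K))) x :=
    hB.isAlgebraic.isAlgebraic x
  have hle : ∀ y ∈ adjoin k (Set.range ((↑) : B → K)),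
      y ∈ Subfield.closure (Set.range (algebraMap k K) ∪ (↑hfin.toFinset : Set K)) := by
    intro y hy
    induction hy using Algebra.adjoin_induction with
    | mem y hy =>
      obtain ⟨b, rfl⟩ := hy
      exact Subfield.subset_closure (Or.inr (by simp))
    | algebraMap c => exact Subfield.subset_closure (Or.inl ⟨c, rfl⟩)
    | add _ _ _ _ h1 h2 => exact add_mem h1 h2
    | mul _ _ _ _ h1 h2 => exact mul_mem h1 h2
  let f : adjoin k (Set.range ((↑) : B → K)) →+*
      Subfield.closure (Set.range (algebraMap k K) ∪ (↑hfin.toFinset : Set K)) :=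
    { toFun := fun y => ⟨y, hle y y.2⟩
      map_one' := rfl
      map_mul' := fun _ _ => rfl
      map_zero' := rfl
      map_add' := fun _ _ => rfl }
  have := halg.ringHom_of_comp_eq f (RingHom.id K)
    (fun a b h => Subtype.ext (congrArg (fun z : Subfield.closure
      (Set.range (algebraMap k K) ∪ (↑hfin.toFinset : Set K)) => (z : K)) h)) (by ext; rfl)
  simpa using this

/-- **DESC-AUT**. -/
theorem stmt_DescAut (k K : Type) [Field k] [Field K] [Algebra k K] [IsAlgClosed K] :
    H75.Stmt_DescAut k K := by
  classical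
  intro htr c m
  obtain ⟨u, hu⟩ := (AlgebraicIndependent.matroid k K).exists_isBasis (c : Set K)
  obtain ⟨hu_ind, hu_sub, hu_alg⟩ := AlgebraicIndependent.matroid_isBasis_iff.mp hu
  obtain ⟨B, huB, hB⟩ := exists_isTranscendenceBasis_superset hu_ind
  have hBinf : B.Infinite := infinite_of_not_isAlgebraic htr B hB
  have hufin : u.Finite := (c.finite_toSet).subset hu_sub
  haveI : Fintype ↥u := hufin.fintype
  let tEq : Fin (Fintype.card ↥u) ≃ ↥u := (Fintype.equivFin ↥u).symm
  have hSinf : (B \ (c : Set K)).Infinite := hBinf.sdiff c.finite_toSet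
  let g : ℕ ↪ ↥(B \ (c : Set K)) := hSinf.natEmbedding
  let tB : Fin (Fintype.card ↥u) → ↥B := fun l => ⟨(tEq l : K), huB (tEq l).2⟩
  let uB : Fin m → Fin (Fintype.card ↥u) → ↥B := fun i l =>
    ⟨(g ((finProdFinEquiv (i, l) : Fin (m * Fintype.card ↥u)) : ℕ) : K), (g _).2.1⟩
  have htB_inj : Function.Injective tB := by
    intro l l' h
    have h1 : (tEq l : K) = (tEq l' : K) := congrArg (fun z : ↥B => (z : K)) h
    exact tEq.injective (Subtype.ext h1)
  have huB_inj : ∀ i j l l', uB i l = uB j l' → i = j ∧ l = l' := by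
    intro i j l l' h
    have h1 : (g ((finProdFinEquiv (i, l) : Fin (m * Fintype.card ↥u)) : ℕ) : K)
        = (g ((finProdFinEquiv (j, l') : Fin (m * Fintype.card ↥u)) : ℕ) : K) :=
      congrArg (fun z : ↥B => (z : K)) h
    have h2 := g.injective (Subtype.ext h1)
    have h3 := finProdFinEquiv.injective (Fin.ext h2)
    exact ⟨congrArg Prod.fst h3, congrArg Prod.snd h3⟩
  have htu_ne : ∀ i l l', tB l ≠ uB i l' := by
    intro i l l' h
    have h1 : (tEq l : K) = (g ((finProdFinEquiv (i, l') : Fin (m * Fintype.card ↥u)) : ℕ) : K) :=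
      congrArg (fun z : ↥B => (z : K)) h
    have h2 : (tEq l : K) ∈ (c : Set K) := hu_sub (tEq l).2
    rw [h1] at h2
    exact (g _).2.2 h2
  have hι_inj : ∀ i, Function.Injective (Sum.elim tB (uB i)) := by
    intro i x y h
    rcases x with l | l <;> rcases y with l' | l'
    · simp only [Sum.elim_inl] at h
      rw [htB_inj h]
    · simp only [Sum.elim_inl, Sum.elim_inr] at h
      exact absurd h (htu_ne i l l')
    · simp only [Sum.elim_inl, Sum.elim_inr] at h
      exact absurd h.symm (htu_ne i l' l)
    · simp only [Sum.elim_inr] at h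
      rw [(huB_inj i i l l' h).2]
  let ι : Fin m → (Fin (Fintype.card ↥u) ⊕ Fin (Fintype.card ↥u) ↪ ↥B) := fun i =>
    ⟨Sum.elim tB (uB i), hι_inj i⟩
  let π : Fin m → Equiv.Perm ↥B := fun i =>
    Equiv.Perm.viaFintypeEmbedding
      (Equiv.sumComm (Fin (Fintype.card ↥u)) (Fin (Fintype.card ↥u))) (ι i)
  have hσex : ∀ i, ∃ σ : K ≃ₐ[k] K, ∀ b : ↥B, σ (b : K) = ((π i b : ↥B) : K) := fun i =>
    exists_algEquiv_perm ((↑) : ↥B → K) hB (π i)
  choose σ hσ using hσex
  have hπt : ∀ i l, π i (tB l) = uB i l := by
    intro i l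
    have := Equiv.Perm.viaFintypeEmbedding_apply_image
      (Equiv.sumComm (Fin (Fintype.card ↥u)) (Fin (Fintype.card ↥u))) (ι i) (Sum.inl l)
    simpa [ι, π] using this
  have hπu : ∀ i j l, i ≠ j → π i (uB j l) = uB j l := by
    intro i j l hij
    show Equiv.Perm.viaFintypeEmbedding
      (Equiv.sumComm (Fin (Fintype.card ↥u)) (Fin (Fintype.card ↥u))) (ι i) (uB j l) = uB j l
    apply Equiv.Perm.viaFintypeEmbedding_apply_notMem_range
    rintro ⟨x, hx⟩
    rcases x with l' | l'
    · exact htu_ne j l' l hx
    · exact hij (huB_inj i j l' l hx).1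
  refine ⟨Fintype.card ↥u, fun l => (tEq l : K), σ, ?_, ?_, ?_⟩
  · exact hB.1.comp tB htB_inj
  · intro x hx
    have hrange : Set.range (fun l : Fin (Fintype.card ↥u) => (tEq l : K)) = u := by
      ext y
      constructor
      · rintro ⟨l, rfl⟩
        exact (tEq l).2
      · intro hy
        exact ⟨tEq.symm ⟨y, hy⟩, by simp⟩
    rw [hrange]
    exact hu_alg x hx
  · intro i j hij
    have key : (Sum.elim (fun l => (tEq l : K))
        (fun l => (σ i).symm (σ j ((tEq l : K))))) = ((↑) : ↥B → K) ∘ (ι j) := by
      funext x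
      rcases x with l | l
      · rfl
      · simp only [Sum.elim_inr, Function.comp_apply]
        rw [AlgEquiv.symm_apply_eq]
        have h1 : σ j ((tEq l : K)) = ((uB j l : ↥B) : K) := by
          have := hσ j (tB l)
          rw [hπt] at this
          exact this
        have h2 : σ i ((uB j l : ↥B) : K) = ((uB j l : ↥B) : K) := by
          have := hσ i (uB j l)
          rw [hπu i j l hij] at this
          exact this
        rw [h1]
        show ((uB j l : ↥B) : K) = σ i ((uB j l : ↥B) : K)
        rw [h2]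
    rw [key]
    exact hB.1.comp (ι j) (ι j).injective

end Fermat.Agent.GTor.H56
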