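import Fermat.Agent.GTor.H56_DescBase
import Mathlib.RingTheory.AdicCompletion.Completeness
import Mathlib.RingTheory.Henselian
import Mathlib.RingTheory.RootsOfUnity.AlgebraicallyClosed

/-!
# G-TOR package DESC, sub-package ROOT (helper56)

`stmt_DescRoot : H75.Stmt_DescRoot k K F₀`: if `f ∈ F_k` becomes an `n`-th power in `F_K`
(`k` algebraically closed of characteristic `0`), then `f` is an `n`-th power in `F_k`.

* `mem_of_coeffMap_mem` : `k((q)) ∩ F_K = F_k` (linear algebra, via `linearIndependent_coeffMap`);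
* `exists_pow_eq_laurent` : `n`-th roots in `k((q))` (Hensel in `k⟦q⟧`);
* roots of unity of `K((q))` of order dividing `n` are constants from `k`.
-/

set_option autoImplicit false
set_option linter.style.haveILetI false
set_option linter.unusedSectionVars false

noncomputable section

namespace Fermat.Agent.GTor.H56


open ModularCurve Module

variable {k K : Type} [Field k] [Field K] (ι : k →+* K)

lemma coeffMap_mem_span {S : Set (LaurentSeries k)} {x : LaurentSeries k}
    (hx : x ∈ Submodule.span k S) : coeffMap ι x ∈ Submodule.span K (⇑(coeffMap ι) '' S) := by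
  induction hx using Submodule.span_induction with
  | mem y hy => exact Submodule.subset_span ⟨y, hy, rfl⟩
  | zero => rw [map_zero]; exact zero_mem _
  | add x y _ _ hx hy => rw [map_add]; exact add_mem hx hy
  | smul c x _ hx => rw [coeffMap_smul']; exact Submodule.smul_mem _ _ hx

lemma sum_smul_mul {I : Type*} [Fintype I] {L : Type} [Field L] (c : I → L)
    (v : I → LaurentSeries L) (x : LaurentSeries L) :
    x * ∑ a, c a • v a = ∑ a, c a • (x * v a) := by
  rw [Finset.mul_sum]
  refine Finset.sum_congr rfl fun a _ => ?_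
  rw [smul_eq_algebraMap_mul, smul_eq_algebraMap_mul]
  ring

section Descent

variable [Algebra ℚ k] [Algebra ℚ K] (F₀ : IntermediateField ℚ (LaurentSeries ℚ))

/-- `k((q)) ∩ F_K = F_k`. -/
theorem mem_of_coeffMap_mem {h₁ : LaurentSeries k}
    (h : coeffMap ι h₁ ∈ laurentBaseChange K F₀) : h₁ ∈ laurentBaseChange k F₀ := by
  classical
  obtain ⟨P, hP, Q, hQ, e⟩ := exists_div_of_mem F₀ K h
  by_cases hQ0 : Q = 0
  · have h0 : coeffMap ι h₁ = 0 := by rw [e, hQ0, div_zero]
    have : h₁ = 0 := H75.coeffMap_injective ι (by rw [h0, map_zero])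
    rw [this]; exact zero_mem _
  rw [genSet_eq_image ι F₀] at hP hQ
  obtain ⟨TP, hTP, hP'⟩ := Submodule.mem_span_finite_of_mem_span hP
  obtain ⟨TQ, hTQ, hQ'⟩ := Submodule.mem_span_finite_of_mem_span hQ
  obtain ⟨SP, hSP, rfl⟩ := Finset.subset_set_image_iff.mp hTP
  obtain ⟨SQ, hSQ, rfl⟩ := Finset.subset_set_image_iff.mp hTQ
  set T : Finset (LaurentSeries k) := SP ∪ SQ with hT
  have hTsub : (T : Set (LaurentSeries k)) ⊆ genSet F₀ k := by
    rw [hT, Finset.coe_union]; exact Set.union_subset hSP hSQ
  set U : Submodule k (LaurentSeries k) := Submodule.span k (T : Set (LaurentSeries k)) with hU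
  have hUle : U ≤ Submodule.span k (genSet F₀ k) := Submodule.span_mono hTsub
  let b := Module.finBasis k U
  let u : Fin (finrank k U) → LaurentSeries k := fun j => (b j : LaurentSeries k)
  have hu_li : LinearIndependent k u :=
    b.linearIndependent.map' U.subtype (Submodule.ker_subtype U)
  have hu_span : Submodule.span k (Set.range u) = U := by
    have h1 : Set.range u = U.subtype '' Set.range b := by
      rw [← Set.range_comp]; rfl
    rw [h1, Submodule.span_image, b.span_eq, Submodule.map_top, Submodule.range_subtype]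
  have hu_mem : ∀ j, u j ∈ laurentBaseChange k F₀ := fun j =>
    span_genSet_le F₀ k (hUle (b j).2)
  -- `P` and `Q` are `K`-combinations of the `coeffMap ι (u j)`
  have hW : ∀ X ∈ Submodule.span K (⇑(coeffMap ι) '' (T : Set (LaurentSeries k))),
      ∃ c : Fin (finrank k U) → K, ∑ j, c j • coeffMap ι (u j) = X := by
    intro X hX
    have h2 : Submodule.span K (⇑(coeffMap ι) '' (T : Set (LaurentSeries k)))
        ≤ Submodule.span K (Set.range fun j => coeffMap ι (u j)) := by
      rw [Submodule.span_le]
      rintro _ ⟨t, ht, rfl⟩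
      have ht' : t ∈ Submodule.span k (Set.range u) := by
        rw [hu_span]; exact Submodule.subset_span ht
      have := coeffMap_mem_span ι ht'
      rw [← Set.range_comp] at this
      exact this
    exact (Submodule.mem_span_range_iff_exists_fun K).mp (h2 hX)
  have hPT : P ∈ Submodule.span K (⇑(coeffMap ι) '' (T : Set (LaurentSeries k))) := by
    refine Submodule.span_mono ?_ hP'
    rw [Finset.coe_image]
    exact Set.image_mono (by rw [hT, Finset.coe_union]; exact Set.subset_union_left)
  have hQT : Q ∈ Submodule.span K (⇑(coeffMap ι) '' (T : Set (LaurentSeries k))) := by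
    refine Submodule.span_mono ?_ hQ'
    rw [Finset.coe_image]
    exact Set.image_mono (by rw [hT, Finset.coe_union]; exact Set.subset_union_right)
  obtain ⟨p, hp⟩ := hW P hPT
  obtain ⟨q, hq⟩ := hW Q hQT
  have hrel : coeffMap ι h₁ * Q = P := by
    rw [e, div_mul_cancel₀ _ hQ0]
  -- the family `h₁ * u j`, `u j`
  let w : Fin (finrank k U) ⊕ Fin (finrank k U) → LaurentSeries k :=
    Sum.elim (fun j => h₁ * u j) u
  have hdep : ¬ LinearIndependent k w := by
    intro hli
    have hK := linearIndependent_coeffMap ι w hli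
    rw [Fintype.linearIndependent_iff] at hK
    have hz := hK (Sum.elim q (fun j => - p j)) (by
      rw [Fintype.sum_sum_type]
      simp only [Sum.elim_inl, Sum.elim_inr, w, map_mul, neg_smul, Finset.sum_neg_distrib]
      rw [← sum_smul_mul, hq, hp, hrel, add_neg_cancel])
    apply hQ0
    rw [← hq]
    exact Finset.sum_eq_zero fun j _ => by
      have := hz (Sum.inl j)
      simp only [Sum.elim_inl] at this
      rw [this, zero_smul]
  obtain ⟨g, hg, i, hi⟩ := Fintype.not_linearIndependent_iff.mp hdep
  rw [Fintype.sum_sum_type] at hg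
  simp only [Sum.elim_inl, Sum.elim_inr, w] at hg
  rw [← sum_smul_mul] at hg
  set Q' : LaurentSeries k := ∑ j, g (Sum.inl j) • u j with hQ'def
  set P' : LaurentSeries k := ∑ j, g (Sum.inr j) • u j with hP'def
  have hQ'mem : Q' ∈ laurentBaseChange k F₀ := by
    refine sum_mem fun j _ => ?_
    rw [smul_eq_algebraMap_mul]
    exact mul_mem ((laurentBaseChange k F₀).algebraMap_mem _) (hu_mem j)
  have hP'mem : P' ∈ laurentBaseChange k F₀ := by
    refine sum_mem fun j _ => ?_
    rw [smul_eq_algebraMap_mul]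
    exact mul_mem ((laurentBaseChange k F₀).algebraMap_mem _) (hu_mem j)
  have hQ'ne : Q' ≠ 0 := by
    intro h0
    have hP0 : P' = 0 := by
      rw [h0, mul_zero, zero_add] at hg
      exact hg
    have h1 := (Fintype.linearIndependent_iff.mp hu_li) _ h0
    have h2 := (Fintype.linearIndependent_iff.mp hu_li) _ hP0
    rcases i with j | j
    · exact hi (h1 j)
    · exact hi (h2 j)
  have : h₁ = - P' / Q' := by
    rw [eq_div_iff hQ'ne]
    linear_combination hg
  rw [this]
  exact div_mem (neg_mem hP'mem) hQ'mem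

end Descent




section Roots

variable {k : Type} [Field k]

lemma isUnit_natCast_powerSeries [CharZero k] {n : ℕ} (hn : 0 < n) :
    IsUnit ((n : PowerSeries k)) := by
  rw [PowerSeries.isUnit_iff_constantCoeff, map_natCast, isUnit_iff_ne_zero]
  exact Nat.cast_ne_zero.mpr hn.ne'

/-- `n`-th roots of `1`-units in `k⟦X⟧` (Hensel). -/
lemma exists_pow_eq_powerSeries [CharZero k] {n : ℕ} (hn : 0 < n)
    (u : PowerSeries k) (hu : PowerSeries.constantCoeff u = 1) :
    ∃ a : PowerSeries k, a ^ n = u := by
  have H : HenselianRing (PowerSeries k) (Ideal.span {PowerSeries.X}) := inferInstance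
  have hF : (Polynomial.X ^ n - Polynomial.C u : Polynomial (PowerSeries k)).Monic :=
    Polynomial.monic_X_pow_sub_C u hn.ne'
  obtain ⟨a, ha, -⟩ := H.is_henselian _ hF 1 (by
      simp only [Polynomial.eval_sub, Polynomial.eval_pow, Polynomial.eval_X, one_pow,
        Polynomial.eval_C]
      rw [Ideal.mem_span_singleton, PowerSeries.X_dvd_iff, map_sub, map_one, hu, sub_self]) (by
      apply IsUnit.map
      simp only [Polynomial.derivative_sub, Polynomial.derivative_X_pow, Polynomial.derivative_C,
        sub_zero, Polynomial.eval_mul, Polynomial.eval_C, Polynomial.eval_pow, Polynomial.eval_X,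
        one_pow, mul_one]
      exact isUnit_natCast_powerSeries hn)
  refine ⟨a, ?_⟩
  have := ha
  simp only [Polynomial.IsRoot, Polynomial.eval_sub, Polynomial.eval_pow, Polynomial.eval_X,
    Polynomial.eval_C, sub_eq_zero] at this
  exact this

/-- `n`-th roots in `k((q))`. -/
lemma exists_pow_eq_laurent [IsAlgClosed k] [CharZero k] {n : ℕ} (hn : 0 < n)
    (f : LaurentSeries k) (hf : f ≠ 0) (hord : (n : ℤ) ∣ f.order) :
    ∃ h₁ : LaurentSeries k, h₁ ^ n = f := by
  set c : k := f.coeff f.order with hc
  have hc0 : c ≠ 0 := fun h => hf (HahnSeries.coeff_order_eq_zero.mp h)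
  obtain ⟨c₀, hc₀⟩ := IsAlgClosed.exists_pow_nat_eq c hn
  obtain ⟨m, hm⟩ := hord
  have hu : PowerSeries.constantCoeff (PowerSeries.C c⁻¹ * f.powerSeriesPart) = 1 := by
    rw [map_mul, PowerSeries.constantCoeff_C, ← PowerSeries.coeff_zero_eq_constantCoeff_apply,
      LaurentSeries.powerSeriesPart_coeff]
    simp only [Nat.cast_zero, add_zero]
    exact inv_mul_cancel₀ hc0
  obtain ⟨a, ha⟩ := exists_pow_eq_powerSeries hn _ hu
  refine ⟨HahnSeries.single m c₀ * HahnSeries.ofPowerSeries ℤ k a, ?_⟩
  rw [mul_pow, HahnSeries.single_pow, ← map_pow, ha, map_mul, HahnSeries.ofPowerSeries_C, hc₀,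
    ← mul_assoc, HahnSeries.C_apply, HahnSeries.single_mul_single, mul_inv_cancel₀ hc0, add_zero,
    nsmul_eq_mul, ← hm]
  exact LaurentSeries.single_order_mul_powerSeriesPart f

end Roots

section Order

variable {k K : Type} [Field k] [Field K] (ι : k →+* K)

lemma coeffMap_inj : Function.Injective (coeffMap ι) := by
  intro x y h
  ext m
  have := congrArg (fun z => z.coeff m) h
  simpa using ι.injective this

lemma order_coeffMap (f : LaurentSeries k) : (coeffMap ι f).order = f.order := by
  by_cases hf : f = 0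
  · rw [hf, map_zero, HahnSeries.order_zero, HahnSeries.order_zero]
  have hf' : coeffMap ι f ≠ 0 := fun h => hf (coeffMap_inj ι (by rw [h, map_zero]))
  apply le_antisymm
  · apply HahnSeries.order_le_of_coeff_ne_zero
    rw [coeffMap_coeff]
    exact fun h => hf (HahnSeries.coeff_order_eq_zero.mp (ι.injective (by rw [h, map_zero])))
  · apply HahnSeries.order_le_of_coeff_ne_zero
    intro h
    apply hf'
    apply HahnSeries.coeff_order_eq_zero.mp
    rw [coeffMap_coeff, h, map_zero]

end Order


section Final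

variable (k K : Type) [Field k] [Field K] [Algebra ℚ k] [Algebra ℚ K]
variable (F₀ : IntermediateField ℚ (LaurentSeries ℚ))

/-- **DESC-ROOT**. -/
theorem stmt_DescRoot : H75.Stmt_DescRoot k K F₀ := by
  intro _ _ ι n hn f hf ⟨h, hh⟩
  have hf' : (f : LaurentSeries k) ≠ 0 := fun h0 => hf (Subtype.ext h0)
  have hh' : coeffMap ι (f : LaurentSeries k) = (h : LaurentSeries K) ^ n := by
    have := congrArg Subtype.val hh
    simpa using this
  have hord : (n : ℤ) ∣ (f : LaurentSeries k).order := by
    rw [← order_coeffMap ι, hh', HahnSeries.order_pow, nsmul_eq_mul]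
    exact dvd_mul_right _ _
  obtain ⟨h₁, hh₁⟩ := exists_pow_eq_laurent hn (f : LaurentSeries k) hf' hord
  have hh₁0 : h₁ ≠ 0 := by
    rintro rfl
    rw [zero_pow hn.ne'] at hh₁
    exact hf' hh₁.symm
  have hc0 : coeffMap ι h₁ ≠ 0 := fun h0 => hh₁0 (coeffMap_inj ι (by rw [h0, map_zero]))
  have hpow : ((h : LaurentSeries K) / coeffMap ι h₁) ^ n = 1 := by
    rw [div_pow, ← map_pow, hh₁, hh', div_self]
    rw [← hh']
    exact fun h0 => hf' (coeffMap_inj ι (by rw [h0, map_zero]))
  haveI : NeZero n := ⟨hn.ne'⟩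
  haveI : NeZero ((n : ℕ) : k) := ⟨Nat.cast_ne_zero.mpr hn.ne'⟩
  obtain ⟨ω, hω⟩ := HasEnoughRootsOfUnity.exists_primitiveRoot k n
  have hζ : IsPrimitiveRoot (coeffMap ι (algebraMap k (LaurentSeries k) ω)) n := by
    have h1 : IsPrimitiveRoot (algebraMap k (LaurentSeries k) ω) n :=
      hω.map_of_injective (algebraMap k (LaurentSeries k)).injective
    exact h1.map_of_injective (coeffMap_inj ι)
  obtain ⟨i, -, hi⟩ := hζ.eq_pow_of_pow_eq_one hpow
  set h₀ : LaurentSeries k := algebraMap k (LaurentSeries k) ω ^ i * h₁ with hh₀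
  have hh₀K : coeffMap ι h₀ = (h : LaurentSeries K) := by
    rw [hh₀, map_mul, map_pow, hi, div_mul_cancel₀ _ hc0]
  have hmem : h₀ ∈ laurentBaseChange k F₀ :=
    mem_of_coeffMap_mem ι F₀ (by rw [hh₀K]; exact h.2)
  refine ⟨⟨h₀, hmem⟩, Subtype.ext ?_⟩
  apply coeffMap_inj ι
  have hcoe : ((⟨h₀, hmem⟩ ^ n : ↥(laurentBaseChange k F₀)) : LaurentSeries k) = h₀ ^ n := rfl
  rw [hh', hcoe, map_pow, hh₀K]

end Final

end Fermat.Agent.GTor.H56
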