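import Fermat.Agent.GTor.H75_DescCore
import Fermat.Agent.GTor.H56_DescDown
import Fermat.Agent.GTor.H33_DescUp
import Fermat.Agent.GTor.H33_CurveL
import Fermat.Agent.GTor.H33_Trdeg

/-!
# G-TOR package DESC (helper75): assembly of `Stmt_DESC N n`

Inputs: ROOT, DOWN, AUT (helper56), UP, CURVE, trdeg (helper33), CORE (helper75), and the
finiteness of `U_n(F_ℂ)` (from BETTI).
-/

set_option autoImplicit false
set_option linter.style.haveILetI false
set_option linter.unusedSectionVars false

noncomputable section

namespace Fermat.Agent.GTor.H75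

open ModularCurve AlgebraicCurve

theorem stmt_DESC_of (N n : ℕ) [NeZero N] (hn : n ≠ 0)
    (hPig : Stmt_DescPigeon ℂ (modularFunctionFieldFull N))
    (hfin : Finite (UnrKummer ℂ (FNL ℂ N) n)) : Stmt_DESC N n := by
  intro ι
  have hn' : 0 < n := Nat.pos_of_ne_zero hn
  refine ⟨bcHom ι (modularFunctionFieldFull N), isBaseChange_bcHom ι N, ?_, ?_, ?_⟩
  · intro f hf
    constructor
    · intro h
      exact H56.stmt_DescPlaceDown (AlgebraicClosure ℚ) ℂ (modularFunctionFieldFull N) ι n f hf h
    · intro h v
      have hdeg : v.deg = 1 := by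
        haveI := H33.finiteDimensional_FNL (AlgebraicClosure ℚ) N
        exact Fermat.Agent.S24.ff_deg_eq_one (H33.jL (AlgebraicClosure ℚ) N)
          (H33.transcendental_jL (AlgebraicClosure ℚ) N) v
      obtain ⟨w, hw⟩ := H33.stmt_DescPlaceUp (AlgebraicClosure ℚ) ℂ
        (modularFunctionFieldFull N) ι v hdeg
      rw [← hw f]
      exact h w
  · intro f hf h
    exact H56.stmt_DescRoot (AlgebraicClosure ℚ) ℂ (modularFunctionFieldFull N) ι n hn' f hf h
  · intro f hf h
    exact descCore_of (AlgebraicClosure ℚ) ℂ (modularFunctionFieldFull N) hPig ι n hn'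
      (H33.exists_not_isAlgebraic_complex ι) hfin f hf h

end Fermat.Agent.GTor.H75
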