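import Mathlib

/-!
# G-TOR package DESC (helper75): interface of the automorphism step AUT (pure field theory)

`K ⊇ k` algebraically closed of infinite transcendence degree.  For every finite `c ⊆ K` and `m`
there are `t : Fin d → K` algebraically independent over `k` with `c` algebraic over `k[t]`, and
`m` automorphisms `σ i` of `K/k` such that for `i ≠ j` the family `(t, σ_i⁻¹ σ_j t)` is
algebraically independent over `k`.
(Proof: transcendence basis `B ⊇ t`, `m` pairwise disjoint blocks `u_i ⊆ B \ t` of size `d`,
`σ_i` = extension of the involution of `B` swapping `t` and `u_i`; then `σ_i⁻¹ σ_j t = u_j`.)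
-/

set_option autoImplicit false

namespace Fermat.Agent.GTor.H75

/-- **DESC-AUT**. -/
def Stmt_DescAut (k K : Type) [Field k] [Field K] [Algebra k K] [IsAlgClosed K] : Prop :=
  (∀ s : Finset K, ∃ x : K,
      ¬ IsAlgebraic ↥(Subfield.closure (Set.range (algebraMap k K) ∪ (↑s : Set K))) x) →
    ∀ (c : Finset K) (m : ℕ),
      ∃ (d : ℕ) (t : Fin d → K) (σ : Fin m → (K ≃ₐ[k] K)),
        AlgebraicIndependent k t ∧
        (∀ x ∈ c, IsAlgebraic ↥(Algebra.adjoin k (Set.range t)) x) ∧
        ∀ i j, i ≠ j →
          AlgebraicIndependent k (Sum.elim t (fun l => (σ i).symm (σ j (t l))))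

end Fermat.Agent.GTor.H75
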