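import Fermat.Agent.GTor.H56_DescBase

/-!
# G-TOR package DESC (helper75): finite linear combinations `lc j y a = ∑ a_i · e(y_i)`

`y : I → ℚ((q))` a finite family, `a : I → R` coefficients in a commutative ring `R` (with its
unique ring homomorphism `j : ℚ → R`).  The construction is natural in `R`, and over a field
`L` every element of `F_L = laurentBaseChange L F₀` is a quotient of two such combinations.
-/

set_option autoImplicit false
set_option linter.style.haveILetI false
set_option linter.unusedSectionVars false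

noncomputable section

namespace Fermat.Agent.GTor.H75

open ModularCurve

section LC

variable {R S : Type*} [CommRing R] [CommRing S] {I : Type*} [Fintype I]

/-- `∑ i, a i • e(y i)` -/
def lc (j : ℚ →+* R) (y : I → LaurentSeries ℚ) (a : I → R) : LaurentSeries R :=
  ∑ i, a i • coeffMap j (y i)

theorem lc_coeff (j : ℚ →+* R) (y : I → LaurentSeries ℚ) (a : I → R) (m : ℤ) :
    (lc j y a).coeff m = ∑ i, a i * j ((y i).coeff m) := by
  rw [lc, H56.coeff_sum_smul]
  rfl

theorem coeffMap_lc (φ : R →+* S) (j : ℚ →+* R) (j' : ℚ →+* S) (y : I → LaurentSeries ℚ)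
    (a : I → R) : coeffMap φ (lc j y a) = lc j' y (fun i => φ (a i)) := by
  ext m
  rw [coeffMap_coeff, lc_coeff, lc_coeff, map_sum]
  refine Finset.sum_congr rfl fun i _ => ?_
  rw [map_mul]
  congr 1
  exact RingHom.congr_fun (Subsingleton.elim (φ.comp j) j') _

theorem lc_smul (j : ℚ →+* R) (y : I → LaurentSeries ℚ) (a : I → R) (c : R) :
    lc j y (fun i => c * a i) = HahnSeries.C c * lc j y a := by
  rw [HahnSeries.C_mul_eq_smul]
  ext m
  rw [HahnSeries.coeff_smul, lc_coeff, lc_coeff, smul_eq_mul, Finset.mul_sum]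
  exact Finset.sum_congr rfl fun i _ => mul_assoc _ _ _

theorem coeffMap_C (φ : R →+* S) (c : R) :
    coeffMap φ (HahnSeries.C c : LaurentSeries R) = HahnSeries.C (φ c) := by
  rw [HahnSeries.C_apply, HahnSeries.C_apply, coeffMap_single]

theorem C_ne_zero_of_field {L : Type*} [Field L] {c : L} (hc : c ≠ 0) :
    (HahnSeries.C c : LaurentSeries L) ≠ 0 := by
  intro h
  have := congrArg (fun z : LaurentSeries L => z.coeff 0) h
  simp only [HahnSeries.C_apply, HahnSeries.coeff_single_same, HahnSeries.coeff_zero] at this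
  exact hc this

/-- a nonzero series has a nonzero coefficient -/
theorem exists_coeff_ne_zero {x : LaurentSeries R} (hx : x ≠ 0) : ∃ m : ℤ, x.coeff m ≠ 0 := by
  by_contra h
  push Not at h
  exact hx (HahnSeries.ext (funext h))

end LC

section Field

variable (L : Type) [Field L] [Algebra ℚ L] (F₀ : IntermediateField ℚ (LaurentSeries ℚ))

theorem lc_mem {I : Type*} [Fintype I] (y : I → LaurentSeries ℚ) (hy : ∀ i, y i ∈ F₀)
    (a : I → L) : lc (algebraMap ℚ L) y a ∈ laurentBaseChange L F₀ := by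
  refine H56.span_genSet_le F₀ L ?_
  refine Submodule.sum_mem _ fun i _ => Submodule.smul_mem _ _ (Submodule.subset_span ?_)
  exact ⟨y i, hy i, rfl⟩

theorem exists_lc_of_mem_span {x : LaurentSeries L}
    (hx : x ∈ Submodule.span L (H56.genSet F₀ L)) :
    ∃ (r : ℕ) (y : Fin r → LaurentSeries ℚ) (a : Fin r → L),
      (∀ i, y i ∈ F₀) ∧ x = lc (algebraMap ℚ L) y a := by
  rw [Submodule.mem_span_set'] at hx
  obtain ⟨r, a, g, rfl⟩ := hx
  have hg : ∀ i, ∃ z : LaurentSeries ℚ, z ∈ F₀ ∧ coeffEmb L z = (g i : LaurentSeries L) := by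
    intro i
    obtain ⟨z, hz, hzg⟩ := (g i).2
    exact ⟨z, hz, hzg⟩
  choose y hy hyg using hg
  refine ⟨r, y, a, hy, ?_⟩
  rw [lc]
  refine Finset.sum_congr rfl fun i _ => ?_
  rw [← hyg i]
  rfl

/-- **REP**: a nonzero element of `F_L` is a quotient of two finite linear combinations. -/
theorem exists_lc {f : LaurentSeries L} (hf : f ∈ laurentBaseChange L F₀) (hf0 : f ≠ 0) :
    ∃ (r : ℕ) (y : Fin r → LaurentSeries ℚ) (a : Fin r → L)
      (r' : ℕ) (y' : Fin r' → LaurentSeries ℚ) (b : Fin r' → L),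
      (∀ i, y i ∈ F₀) ∧ (∀ i, y' i ∈ F₀) ∧
      lc (algebraMap ℚ L) y a ≠ 0 ∧ lc (algebraMap ℚ L) y' b ≠ 0 ∧
      f * lc (algebraMap ℚ L) y' b = lc (algebraMap ℚ L) y a := by
  obtain ⟨P, hP, Q, hQ, e⟩ := H56.exists_div_of_mem F₀ L hf
  have hQ0 : Q ≠ 0 := by
    rintro rfl
    rw [div_zero] at e
    exact hf0 e
  have hP0 : P ≠ 0 := by
    rintro rfl
    rw [zero_div] at e
    exact hf0 e
  obtain ⟨r, y, a, hy, rfl⟩ := exists_lc_of_mem_span L F₀ hP
  obtain ⟨r', y', b, hy', rfl⟩ := exists_lc_of_mem_span L F₀ hQ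
  exact ⟨r, y, a, r', y', b, hy, hy', hP0, hQ0, by rw [e, div_mul_cancel₀ _ hQ0]⟩

end Field

end Fermat.Agent.GTor.H75
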