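import Mathlib

/-!
# G-TOR package DESC (helper75): algebraic elements over the image of a ring homomorphism,
and scaling to integral elements (pure commutative algebra)
-/

set_option autoImplicit false
set_option linter.style.haveILetI false

noncomputable section

namespace Fermat.Agent.GTor.H75

open Polynomial

section AlgElem

variable {A A' B B' : Type*} [CommRing A] [CommRing A'] [CommRing B] [CommRing B']

/-- `x` is algebraic over the image of `φ`. -/
def AlgElem (φ : A →+* B) (x : B) : Prop :=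
  ∃ p : A[X], p ≠ 0 ∧ eval₂ φ x p = 0

theorem AlgElem.map {φ : A →+* B} {x : B} (h : AlgElem φ x) (ψ : B →+* B') :
    AlgElem (ψ.comp φ) (ψ x) := by
  obtain ⟨p, hp, hx⟩ := h
  refine ⟨p, hp, ?_⟩
  have := Polynomial.hom_eval₂ p φ ψ x
  rw [← this, hx, map_zero]

theorem AlgElem.of_comp {θ : A' →+* A} (hθ : Function.Injective θ) {φ : A →+* B} {x : B}
    (h : AlgElem (φ.comp θ) x) : AlgElem φ x := by
  obtain ⟨p, hp, hx⟩ := h
  refine ⟨p.map θ, ?_, ?_⟩
  · exact (Polynomial.map_ne_zero_iff hθ).mpr hp
  · rw [Polynomial.eval₂_map]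
    exact hx

theorem AlgElem.exists_integral_multiple {φ : A →+* B} (hφ : Function.Injective φ) {x : B}
    (h : AlgElem φ x) : ∃ y : A, y ≠ 0 ∧ φ.IsIntegralElem (φ y * x) := by
  obtain ⟨p, hp, hx⟩ := h
  refine ⟨p.leadingCoeff, mt Polynomial.leadingCoeff_eq_zero.mp hp,
    p.integralNormalization, monic_integralNormalization hp, ?_⟩
  exact integralNormalization_eval₂_eq_zero φ hx fun a ha => hφ (by rw [ha, map_zero])

theorem exists_integral_multiples [IsDomain A] {φ : A →+* B} (hφ : Function.Injective φ)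
    {I : Type*} [Fintype I] (x : I → B) (hx : ∀ i, AlgElem φ (x i)) :
    ∃ y : A, y ≠ 0 ∧ ∀ i, φ.IsIntegralElem (φ y * x i) := by
  classical
  have h := fun i => (hx i).exists_integral_multiple hφ
  choose y hy0 hy using h
  refine ⟨∏ i, y i, Finset.prod_ne_zero_iff.mpr fun i _ => hy0 i, fun i => ?_⟩
  have : φ (∏ i, y i) * x i = φ (∏ j ∈ Finset.univ.erase i, y j) * (φ (y i) * x i) := by
    rw [← mul_assoc, ← map_mul, Finset.prod_erase_mul _ _ (Finset.mem_univ i)]
  rw [this]
  exact RingHom.IsIntegralElem.mul φ φ.isIntegralElem_map (hy i)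

end AlgElem

section Field

variable {k K : Type*} [Field k] [Field K] [Algebra k K]

theorem algElem_of_isAlgebraic_adjoin {d : ℕ} {t : Fin d → K} (ht : AlgebraicIndependent k t)
    {x : K} (hx : IsAlgebraic ↥(Algebra.adjoin k (Set.range t)) x) :
    AlgElem (MvPolynomial.aeval t : MvPolynomial (Fin d) k →ₐ[k] K).toRingHom x := by
  obtain ⟨p, hp, hpx⟩ := hx
  let e := ht.aevalEquiv
  refine ⟨p.map (e.symm : ↥(Algebra.adjoin k (Set.range t)) →+* MvPolynomial (Fin d) k), ?_, ?_⟩
  · exact (Polynomial.map_ne_zero_iff e.symm.injective).mpr hp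
  · rw [Polynomial.eval₂_map]
    have hcomp : ((MvPolynomial.aeval t : MvPolynomial (Fin d) k →ₐ[k] K).toRingHom).comp
        (e.symm : ↥(Algebra.adjoin k (Set.range t)) →+* MvPolynomial (Fin d) k)
        = algebraMap ↥(Algebra.adjoin k (Set.range t)) K := by
      ext z
      have h1 : ((e (e.symm z) : ↥(Algebra.adjoin k (Set.range t))) : K)
          = MvPolynomial.aeval t (e.symm z) := ht.algebraMap_aevalEquiv (e.symm z)
      rw [e.apply_symm_apply] at h1
      exact h1.symm
    rw [hcomp]
    exact hpx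

theorem isAlgebraic_adjoin_of_algElem {d : ℕ} {t : Fin d → K} (ht : AlgebraicIndependent k t)
    {x : K} (hx : AlgElem (MvPolynomial.aeval t : MvPolynomial (Fin d) k →ₐ[k] K).toRingHom x) :
    IsAlgebraic ↥(Algebra.adjoin k (Set.range t)) x := by
  obtain ⟨p, hp, hpx⟩ := hx
  let e := ht.aevalEquiv
  refine ⟨p.map (e : MvPolynomial (Fin d) k →+* ↥(Algebra.adjoin k (Set.range t))), ?_, ?_⟩
  · exact (Polynomial.map_ne_zero_iff e.injective).mpr hp
  · rw [Polynomial.aeval_def, Polynomial.eval₂_map]
    have hcomp : (algebraMap ↥(Algebra.adjoin k (Set.range t)) K).comp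
        (e : MvPolynomial (Fin d) k →+* ↥(Algebra.adjoin k (Set.range t)))
        = (MvPolynomial.aeval t : MvPolynomial (Fin d) k →ₐ[k] K).toRingHom := by
      refine RingHom.ext fun z => ?_
      have := ht.algebraMap_aevalEquiv z
      exact this
    rw [hcomp]
    exact hpx

/-- transport along an algebra automorphism -/
theorem AlgElem.algHom {d : ℕ} {t : Fin d → K} {x : K}
    (h : AlgElem (MvPolynomial.aeval t : MvPolynomial (Fin d) k →ₐ[k] K).toRingHom x)
    (τ : K →ₐ[k] K) :
    AlgElem (MvPolynomial.aeval (fun i => τ (t i)) : MvPolynomial (Fin d) k →ₐ[k] K).toRingHom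
      (τ x) := by
  have h1 := h.map (τ : K →+* K)
  have h2 : (τ : K →+* K).comp (MvPolynomial.aeval t : MvPolynomial (Fin d) k →ₐ[k] K).toRingHom
      = (MvPolynomial.aeval (fun i => τ (t i)) : MvPolynomial (Fin d) k →ₐ[k] K).toRingHom := by
    have := MvPolynomial.comp_aeval (R := k) t τ
    ext z
    · simp
    · simp
  rw [h2] at h1
  exact h1

variable {E : Type*} [Field E] [Algebra k E] [Algebra E K] [IsScalarTower k E K]

/-- integrality over `k[t]` implies integrality over `E[t]` -/
theorem isIntegralElem_extend {d : ℕ} {t : Fin d → K} {x : K}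
    (h : (MvPolynomial.aeval t : MvPolynomial (Fin d) k →ₐ[k] K).toRingHom.IsIntegralElem x) :
    (MvPolynomial.aeval t : MvPolynomial (Fin d) E →ₐ[E] K).toRingHom.IsIntegralElem x := by
  have h2 : (MvPolynomial.aeval t : MvPolynomial (Fin d) k →ₐ[k] K).toRingHom
      = ((MvPolynomial.aeval t : MvPolynomial (Fin d) E →ₐ[E] K).toRingHom).comp
        (MvPolynomial.map (algebraMap k E)) := by
    ext z
    · simp [IsScalarTower.algebraMap_apply k E K]
    · simp
  rw [h2] at h
  exact RingHom.IsIntegralElem.of_comp h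

/-- algebraicity over `k[t]` implies algebraicity over `E[t]` -/
theorem AlgElem.extend {d : ℕ} {t : Fin d → K} {x : K}
    (h : AlgElem (MvPolynomial.aeval t : MvPolynomial (Fin d) k →ₐ[k] K).toRingHom x) :
    AlgElem (MvPolynomial.aeval t : MvPolynomial (Fin d) E →ₐ[E] K).toRingHom x := by
  have h2 : (MvPolynomial.aeval t : MvPolynomial (Fin d) k →ₐ[k] K).toRingHom
      = ((MvPolynomial.aeval t : MvPolynomial (Fin d) E →ₐ[E] K).toRingHom).comp
        (MvPolynomial.map (algebraMap k E)) := by
    ext z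
    · simp [IsScalarTower.algebraMap_apply k E K]
    · simp
  rw [h2] at h
  exact AlgElem.of_comp (MvPolynomial.map_injective _ (algebraMap k E).injective) h

end Field

end Fermat.Agent.GTor.H75
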