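import Mathlib

/-!
# G-TOR package DESC (helper75): the specialisation lemma (pure commutative algebra)

`E ⊆ K` fields, `E` algebraically closed, `k₀ ⊆ E` algebraically closed, `t' : Fin d → K`
algebraically independent over `E`, `W ⊆ K` integral over `E[t']`, `b₀ ≠ 0` in `C = E[t', W]`.
Then there is an `E`-algebra homomorphism `s : C → E` with `s b₀ ≠ 0`, `s (t' i) ∈ k₀`, and
`s w ∈ k₀` for every `w ∈ W` that is integral over `k₀[t']`.
-/

set_option autoImplicit false
set_option linter.style.haveILetI false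

noncomputable section

namespace Fermat.Agent.GTor.H75

open Polynomial

/-- an element of a field, integral over an algebraically closed subfield, lies in it -/
theorem mem_range_of_isIntegral_of_isAlgClosed {k₀ E : Type*} [Field k₀] [Field E] [Algebra k₀ E]
    [IsAlgClosed k₀] {x : E} (hx : IsIntegral k₀ x) : x ∈ (algebraMap k₀ E).range :=
  minpoly.mem_range_of_degree_eq_one (A := k₀) x
    (IsAlgClosed.degree_eq_one_of_irreducible k₀ (minpoly.irreducible hx))

/-- a nonzero element of a domain which is integral over a subring satisfies a polynomial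
with nonzero constant term -/
theorem exists_coeff_zero_ne_zero_of_isIntegralElem {R S : Type*} [CommRing R] [CommRing S]
    [IsDomain S] (f : R →+* S) {b : S} (hb : f.IsIntegralElem b) (hb0 : b ≠ 0) :
    ∃ q : R[X], f (q.coeff 0) ≠ 0 ∧ eval₂ f b q = 0 := by
  classical
  obtain ⟨p, hp, hpb⟩ := hb
  -- induction on the degree
  suffices H : ∀ n : ℕ, ∀ p : R[X], p.natDegree = n → (p.map f) ≠ 0 → eval₂ f b p = 0 →
      ∃ q : R[X], f (q.coeff 0) ≠ 0 ∧ eval₂ f b q = 0 by
    refine H _ p rfl ?_ hpb
    intro h0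
    have h1 : (p.map f).coeff p.natDegree = 0 := by rw [h0]; simp
    rw [coeff_map, hp.coeff_natDegree, map_one] at h1
    exact one_ne_zero h1
  intro n
  induction n with
  | zero =>
    intro p hp hpm hpb
    rw [natDegree_eq_zero] at hp
    obtain ⟨c, rfl⟩ := hp
    refine ⟨C c, ?_, hpb⟩
    intro h
    apply hpm
    simp only [coeff_C_zero] at h
    rw [map_C, h, map_zero]
  | succ n ih =>
    intro p hp hpm hpb
    by_cases h0 : f (p.coeff 0) = 0
    · -- divide by X
      have hdiv : p = p.divX * X + C (p.coeff 0) := (divX_mul_X_add p).symm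
      have hev : eval₂ f b p.divX * b = 0 := by
        have := hpb
        rw [hdiv, eval₂_add, eval₂_mul, eval₂_X, eval₂_C, h0, add_zero] at this
        exact this
      have hev' : eval₂ f b p.divX = 0 := (mul_eq_zero.mp hev).resolve_right hb0
      refine ih p.divX ?_ ?_ hev'
      · rw [natDegree_divX_eq_natDegree_tsub_one, hp]; rfl
      · intro h
        apply hpm
        rw [hdiv, Polynomial.map_add, Polynomial.map_mul, h, zero_mul, zero_add, map_C, h0, map_zero]
    · exact ⟨p, h0, hpb⟩

variable {k₀ E K : Type*} [Field k₀] [Field E] [Field K] [Algebra k₀ E] [Algebra E K]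
  [Algebra k₀ K] [IsScalarTower k₀ E K] [IsAlgClosed k₀] [IsAlgClosed E]

theorem spec {d : ℕ} (t' : Fin d → K) (ht' : AlgebraicIndependent E t') (W : Set K)
    (hW : ∀ w ∈ W,
      (MvPolynomial.aeval t' : MvPolynomial (Fin d) E →ₐ[E] K).toRingHom.IsIntegralElem w)
    (b₀ : K) (hb₀ : b₀ ∈ Algebra.adjoin E (Set.range t' ∪ W)) (hb₀0 : b₀ ≠ 0) :
    ∃ s : Algebra.adjoin E (Set.range t' ∪ W) →ₐ[E] E,
      s ⟨b₀, hb₀⟩ ≠ 0 ∧
      (∀ i, s ⟨t' i, Algebra.subset_adjoin (Or.inl ⟨i, rfl⟩)⟩ ∈ (algebraMap k₀ E).range) ∧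
      ∀ w (hw : w ∈ W),
        (MvPolynomial.aeval t' : MvPolynomial (Fin d) k₀ →ₐ[k₀] K).toRingHom.IsIntegralElem w →
        s ⟨w, Algebra.subset_adjoin (Or.inr hw)⟩ ∈ (algebraMap k₀ E).range := by
  classical
  set C : Subalgebra E K := Algebra.adjoin E (Set.range t' ∪ W) with hC
  let tC : Fin d → C := fun i => ⟨t' i, Algebra.subset_adjoin (Or.inl ⟨i, rfl⟩)⟩
  let φ : MvPolynomial (Fin d) E →ₐ[E] C := MvPolynomial.aeval tC
  have hφK : ∀ r, ((φ r : C) : K) = MvPolynomial.aeval t' r := by
    intro r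
    have : (C.val.comp φ) = MvPolynomial.aeval t' := by
      apply MvPolynomial.algHom_ext
      intro i
      simp [φ, tC]
    exact congrArg (fun g : MvPolynomial (Fin d) E →ₐ[E] K => g r) this
  have hφinj : Function.Injective φ := by
    intro r r' h
    apply ht'
    have := congrArg (fun x : C => (x : K)) h
    simpa [hφK] using this
  -- integrality of C over R
  have hint : ∀ x : C, φ.toRingHom.IsIntegralElem x := by
    have key : ∀ x : K, x ∈ C → ∃ hx : x ∈ C, φ.toRingHom.IsIntegralElem (⟨x, hx⟩ : C) := by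
      intro x hx
      induction hx using Algebra.adjoin_induction with
      | mem x hx =>
        rcases hx with ⟨i, rfl⟩ | hxW
        · refine ⟨Algebra.subset_adjoin (Or.inl ⟨i, rfl⟩), ?_⟩
          have : (⟨t' i, Algebra.subset_adjoin (Or.inl ⟨i, rfl⟩)⟩ : C)
              = φ.toRingHom (MvPolynomial.X i) := by
            apply Subtype.ext; simp [φ, tC]
          rw [this]
          exact φ.toRingHom.isIntegralElem_map
        · obtain ⟨p, hp, hpw⟩ := hW x hxW
          refine ⟨Algebra.subset_adjoin (Or.inr hxW), p, hp, ?_⟩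
          apply Subtype.ext
          have h1 : C.val.toRingHom
              (eval₂ φ.toRingHom (⟨x, Algebra.subset_adjoin (Or.inr hxW)⟩ : C) p)
              = eval₂ (MvPolynomial.aeval t' : MvPolynomial (Fin d) E →ₐ[E] K).toRingHom x p := by
            rw [Polynomial.hom_eval₂ p φ.toRingHom C.val.toRingHom]
            congr 1
            ext r
            · simp
            · simpa using hφK (MvPolynomial.X _)
          have h2 : ((eval₂ φ.toRingHom (⟨x, Algebra.subset_adjoin (Or.inr hxW)⟩ : C) p : C) : K)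
              = 0 := by
            rw [← hpw, ← h1]; rfl
          rw [h2]; rfl
      | algebraMap r =>
        refine ⟨Subalgebra.algebraMap_mem _ _, ?_⟩
        have : (⟨algebraMap E K r, Subalgebra.algebraMap_mem C r⟩ : C)
            = φ.toRingHom (MvPolynomial.C r) := by
          apply Subtype.ext; simp [φ]
        rw [this]
        exact φ.toRingHom.isIntegralElem_map
      | add x y hx hy hx' hy' =>
        obtain ⟨hx1, hx2⟩ := hx'
        obtain ⟨hy1, hy2⟩ := hy'
        exact ⟨add_mem hx1 hy1, RingHom.IsIntegralElem.add _ hx2 hy2⟩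
      | mul x y hx hy hx' hy' =>
        obtain ⟨hx1, hx2⟩ := hx'
        obtain ⟨hy1, hy2⟩ := hy'
        exact ⟨mul_mem hx1 hy1, RingHom.IsIntegralElem.mul _ hx2 hy2⟩
    intro x
    obtain ⟨_, h⟩ := key x x.2
    exact h
  -- the polynomial for b₀
  obtain ⟨q, hq0, hqb⟩ := exists_coeff_zero_ne_zero_of_isIntegralElem φ.toRingHom
    (hint ⟨b₀, hb₀⟩) (by intro h; exact hb₀0 (congrArg Subtype.val h))
  have hc0 : q.coeff 0 ≠ 0 := by
    intro h; apply hq0; rw [h, map_zero]
  -- a point of k₀^d where c₀ does not vanish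
  obtain ⟨t0, ht0⟩ : ∃ t0 : Fin d → k₀,
      MvPolynomial.eval (fun i => algebraMap k₀ E (t0 i)) (q.coeff 0) ≠ 0 := by
    by_contra hcon
    push Not at hcon
    apply hc0
    refine MvPolynomial.funext_set (fun _ => Set.range (algebraMap k₀ E))
      (fun _ => Set.infinite_range_of_injective (algebraMap k₀ E).injective) ?_
    intro x hx
    have hx' : ∀ i, ∃ y, algebraMap k₀ E y = x i := fun i => hx i (Set.mem_univ i)
    choose y hy using hx'
    have := hcon y
    simp only [hy] at this
    rw [map_zero]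
    convert this
  let ev : MvPolynomial (Fin d) E →ₐ[E] E := MvPolynomial.aeval (fun i => algebraMap k₀ E (t0 i))
  have hevsurj : Function.Surjective ev := fun e => ⟨MvPolynomial.C e, by simp [ev]⟩
  haveI hmax : (RingHom.ker ev.toRingHom).IsMaximal :=
    RingHom.ker_isMaximal_of_surjective ev.toRingHom hevsurj
  letI algRC : Algebra (MvPolynomial (Fin d) E) C := φ.toRingHom.toAlgebra
  haveI : Algebra.IsIntegral (MvPolynomial (Fin d) E) C := ⟨hint⟩
  obtain ⟨Q, hQmax, hQ⟩ := Ideal.exists_ideal_over_maximal_of_isIntegral (S := C)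
    (RingHom.ker ev.toRingHom) (by
      intro r hr
      have : φ r = 0 := hr
      have : r = 0 := hφinj (by rw [this, map_zero])
      rw [this]; exact Ideal.zero_mem _)
  haveI := hQmax
  -- compatibility of the two maps from R to C ⧸ Q
  have hcomp : ∀ r : MvPolynomial (Fin d) E,
      algebraMap E (C ⧸ Q) (ev r) = Ideal.Quotient.mk Q (φ r) := by
    intro r
    have h1 : r - MvPolynomial.C (ev r) ∈ RingHom.ker ev.toRingHom := by
      rw [RingHom.mem_ker]
      simp [ev]
    rw [← hQ] at h1
    have h2 : φ (r - MvPolynomial.C (ev r)) ∈ Q := h1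
    rw [map_sub] at h2
    have h3 := (Ideal.Quotient.mk_eq_mk_iff_sub_mem _ _).mpr h2
    rw [h3]
    have : φ (MvPolynomial.C (ev r)) = algebraMap E C (ev r) := by simp [φ]
    rw [this]
    rfl
  haveI : Algebra.IsIntegral E (C ⧸ Q) := by
    refine ⟨fun x => ?_⟩
    obtain ⟨x, rfl⟩ := Ideal.Quotient.mk_surjective x
    obtain ⟨p, hp, hpx⟩ := hint x
    refine ⟨p.map ev.toRingHom, hp.map _, ?_⟩
    rw [eval₂_map]
    have : (algebraMap E (C ⧸ Q)).comp ev.toRingHom = (Ideal.Quotient.mk Q).comp φ.toRingHom := by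
      ext r
      · simp only [RingHom.comp_apply]
        exact hcomp _
      · simp only [RingHom.comp_apply]
        exact hcomp _
    rw [this, ← Polynomial.hom_eval₂, hpx, map_zero]
  have hbij : Function.Bijective (algebraMap E (C ⧸ Q)) :=
    IsAlgClosed.algebraMap_bijective_of_isIntegral
  let e : E ≃ₐ[E] (C ⧸ Q) := AlgEquiv.ofBijective (Algebra.ofId E (C ⧸ Q)) hbij
  let s : C →ₐ[E] E := (e.symm : (C ⧸ Q) →ₐ[E] E).comp (Ideal.Quotient.mkₐ E Q)
  have hsφ : ∀ r, s (φ r) = ev r := by
    intro r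
    show e.symm (Ideal.Quotient.mk Q (φ r)) = ev r
    rw [← hcomp r]
    exact e.symm_apply_apply (ev r)
  refine ⟨s, ?_, ?_, ?_⟩
  · intro hs0
    have h1 := congrArg s hqb
    rw [map_zero] at h1
    have h2 : s (eval₂ φ.toRingHom (⟨b₀, hb₀⟩ : C) q)
        = eval₂ ((s : C →+* E).comp φ.toRingHom) (s ⟨b₀, hb₀⟩) q :=
      Polynomial.hom_eval₂ q φ.toRingHom (s : C →+* E) _
    rw [h2, hs0, eval₂_at_zero] at h1
    apply ht0
    have : ((s : C →+* E).comp φ.toRingHom) (q.coeff 0) = ev (q.coeff 0) := hsφ _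
    rw [this] at h1
    exact h1
  · intro i
    have : s (tC i) = ev (MvPolynomial.X i) := by
      rw [← hsφ]; simp [φ]
    refine ⟨t0 i, ?_⟩
    show _ = s (tC i)
    rw [this]
    simp [ev]
  · intro w hw ⟨p, hp, hpw⟩
    apply mem_range_of_isIntegral_of_isAlgClosed (k₀ := k₀)
    -- the image of p
    refine ⟨p.map (MvPolynomial.eval t0), hp.map _, ?_⟩
    rw [eval₂_map]
    -- s ∘ φ ∘ map = algebraMap ∘ eval t0
    have hw' : eval₂ (φ.toRingHom.comp (MvPolynomial.map (algebraMap k₀ E)))
        (⟨w, Algebra.subset_adjoin (Or.inr hw)⟩ : C) p = 0 := by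
      apply Subtype.ext
      have h1 : C.val.toRingHom (eval₂ (φ.toRingHom.comp (MvPolynomial.map (algebraMap k₀ E)))
          (⟨w, Algebra.subset_adjoin (Or.inr hw)⟩ : C) p)
          = eval₂ (MvPolynomial.aeval t' : MvPolynomial (Fin d) k₀ →ₐ[k₀] K).toRingHom w p := by
        rw [Polynomial.hom_eval₂ p _ C.val.toRingHom]
        congr 1
        ext r
        · simp [φ, IsScalarTower.algebraMap_apply k₀ E K]
        · simp [φ, tC]
      have h2 : ((eval₂ (φ.toRingHom.comp (MvPolynomial.map (algebraMap k₀ E)))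
          (⟨w, Algebra.subset_adjoin (Or.inr hw)⟩ : C) p : C) : K) = 0 := by
        rw [← hpw, ← h1]; rfl
      rw [h2]; rfl
    have h2 := congrArg s hw'
    rw [map_zero] at h2
    have h3 : s (eval₂ (φ.toRingHom.comp (MvPolynomial.map (algebraMap k₀ E)))
        (⟨w, Algebra.subset_adjoin (Or.inr hw)⟩ : C) p)
        = eval₂ ((s : C →+* E).comp (φ.toRingHom.comp (MvPolynomial.map (algebraMap k₀ E))))
          (s ⟨w, Algebra.subset_adjoin (Or.inr hw)⟩) p :=
      Polynomial.hom_eval₂ p _ (s : C →+* E) _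
    rw [h3] at h2
    have h4 : ((s : C →+* E).comp (φ.toRingHom.comp (MvPolynomial.map (algebraMap k₀ E))))
        = (algebraMap k₀ E).comp (MvPolynomial.eval t0) := by
      apply MvPolynomial.ringHom_ext
      · intro r
        simp only [RingHom.comp_apply, MvPolynomial.map_C, MvPolynomial.eval_C]
        have := hsφ (MvPolynomial.C (algebraMap k₀ E r))
        rw [show (s : C →+* E) (φ.toRingHom (MvPolynomial.C (algebraMap k₀ E r)))
          = s (φ (MvPolynomial.C (algebraMap k₀ E r))) from rfl, this]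
        simp [ev]
      · intro i
        simp only [RingHom.comp_apply, MvPolynomial.map_X, MvPolynomial.eval_X]
        have := hsφ (MvPolynomial.X i)
        rw [show (s : C →+* E) (φ.toRingHom (MvPolynomial.X i))
          = s (φ (MvPolynomial.X i)) from rfl, this]
        simp [ev]
    rw [h4] at h2
    exact h2

end Fermat.Agent.GTor.H75
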