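import Fermat.Agent.GTor.H75_DescIdent
import Fermat.Agent.GTor.H75_DescScale
import Fermat.Agent.GTor.H75_DescSpec

/-!
# G-TOR package DESC (helper75): DESC-CORE, the specialisation step

From an identity `lc(ta)·lc(b)·lc(β)ⁿ = lc(α)ⁿ·lc(a)·lc(tb)` in `K((q))` with `a, b ∈ E`,
`ta, tb` algebraic over `k[t']`, `α, β` algebraic over `E[t']` (`t'` algebraically independent
over the algebraically closed field `E ⊇ k`), we get `f = lc(a)/lc(b) = bc(f₀)·hⁿ`.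
-/

set_option autoImplicit false
set_option linter.style.haveILetI false
set_option linter.unusedSectionVars false
set_option maxHeartbeats 1000000

noncomputable section

namespace Fermat.Agent.GTor.H75

open ModularCurve

variable {k E K : Type} [Field k] [Field E] [Field K] [Algebra ℚ k] [Algebra ℚ K]
  [Algebra k E] [Algebra E K] [Algebra k K] [IsScalarTower k E K]
  [IsAlgClosed k] [IsAlgClosed E]
variable (F₀ : IntermediateField ℚ (LaurentSeries ℚ))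

theorem core_stepBC (jE : ℚ →+* E) (n : ℕ) (hn : 0 < n) {d : ℕ} (t' : Fin d → K)
    (ht' : AlgebraicIndependent E t')
    (f : ↥(laurentBaseChange K F₀))
    {r r' s s' : ℕ} (y : Fin r → LaurentSeries ℚ) (y' : Fin r' → LaurentSeries ℚ)
    (z : Fin s → LaurentSeries ℚ) (z' : Fin s' → LaurentSeries ℚ)
    (hy : ∀ i, y i ∈ F₀) (hy' : ∀ i, y' i ∈ F₀) (hz : ∀ i, z i ∈ F₀) (hz' : ∀ i, z' i ∈ F₀)
    (a : Fin r → K) (b : Fin r' → K)
    (hP : lc (algebraMap ℚ K) y a ≠ 0) (hQ : lc (algebraMap ℚ K) y' b ≠ 0)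
    (hfQ : (f : LaurentSeries K) * lc (algebraMap ℚ K) y' b = lc (algebraMap ℚ K) y a)
    (haE : ∀ i, a i ∈ (algebraMap E K).range) (hbE : ∀ i, b i ∈ (algebraMap E K).range)
    (ta : Fin r → K) (tb : Fin r' → K)
    (hta : ∀ i, AlgElem
      (MvPolynomial.aeval t' : MvPolynomial (Fin d) k →ₐ[k] K).toRingHom (ta i))
    (htb : ∀ i, AlgElem
      (MvPolynomial.aeval t' : MvPolynomial (Fin d) k →ₐ[k] K).toRingHom (tb i))
    (hτQ : lc (algebraMap ℚ K) y' tb ≠ 0)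
    (α : Fin s → K) (β : Fin s' → K)
    (hα : ∀ i, AlgElem
      (MvPolynomial.aeval t' : MvPolynomial (Fin d) E →ₐ[E] K).toRingHom (α i))
    (hβ : ∀ i, AlgElem
      (MvPolynomial.aeval t' : MvPolynomial (Fin d) E →ₐ[E] K).toRingHom (β i))
    (hA : lc (algebraMap ℚ K) z α ≠ 0)
    (hid : Ident (algebraMap ℚ K) y y' z z' n ta b β α a tb) :
    ∃ (f₀ : ↥(laurentBaseChange k F₀)) (h : ↥(laurentBaseChange K F₀)),
      f₀ ≠ 0 ∧ h ≠ 0 ∧ f = bcHom (algebraMap k K) F₀ f₀ * h ^ n := by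
  classical
  -- scaling
  have ht'k : AlgebraicIndependent k t' :=
    ht'.restrictScalars (algebraMap k E).injective
  have hinjk : Function.Injective
      (MvPolynomial.aeval t' : MvPolynomial (Fin d) k →ₐ[k] K).toRingHom := ht'k
  have hinjE : Function.Injective
      (MvPolynomial.aeval t' : MvPolynomial (Fin d) E →ₐ[E] K).toRingHom := ht'
  obtain ⟨y₁, hy₁0, hy₁⟩ := exists_integral_multiples hinjk (Sum.elim ta tb)
    (by rintro (i | i) <;> simp only [Sum.elim_inl, Sum.elim_inr] <;> [exact hta i; exact htb i])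
  obtain ⟨y₂, hy₂0, hy₂⟩ := exists_integral_multiples hinjE (Sum.elim α β)
    (by rintro (i | i) <;> simp only [Sum.elim_inl, Sum.elim_inr] <;> [exact hα i; exact hβ i])
  set Y₁ : K := (MvPolynomial.aeval t' : MvPolynomial (Fin d) k →ₐ[k] K).toRingHom y₁ with hY₁
  set Y₂ : K := (MvPolynomial.aeval t' : MvPolynomial (Fin d) E →ₐ[E] K).toRingHom y₂ with hY₂
  have hY₁0 : Y₁ ≠ 0 := fun h0 => hy₁0 (hinjk (by rw [← hY₁, h0, map_zero]))
  have hY₂0 : Y₂ ≠ 0 := fun h0 => hy₂0 (hinjE (by rw [← hY₂, h0, map_zero]))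
  have hita : ∀ i, (MvPolynomial.aeval t' : MvPolynomial (Fin d) k →ₐ[k] K).toRingHom.IsIntegralElem
      (Y₁ * ta i) := fun i => hy₁ (Sum.inl i)
  have hitb : ∀ i, (MvPolynomial.aeval t' : MvPolynomial (Fin d) k →ₐ[k] K).toRingHom.IsIntegralElem
      (Y₁ * tb i) := fun i => hy₁ (Sum.inr i)
  have hiα : ∀ i, (MvPolynomial.aeval t' : MvPolynomial (Fin d) E →ₐ[E] K).toRingHom.IsIntegralElem
      (Y₂ * α i) := fun i => hy₂ (Sum.inl i)
  have hiβ : ∀ i, (MvPolynomial.aeval t' : MvPolynomial (Fin d) E →ₐ[E] K).toRingHom.IsIntegralElem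
      (Y₂ * β i) := fun i => hy₂ (Sum.inr i)
  have hid2 := hid.scale Y₁ Y₂
  -- the set `W` and the algebra `C`
  set W : Set K := (Set.range (fun i => Y₁ * ta i) ∪ Set.range (fun i => Y₁ * tb i)) ∪
    (Set.range (fun i => Y₂ * α i) ∪ Set.range (fun i => Y₂ * β i)) with hWdef
  have hW : ∀ w ∈ W,
      (MvPolynomial.aeval t' : MvPolynomial (Fin d) E →ₐ[E] K).toRingHom.IsIntegralElem w := by
    rintro w ((⟨i, rfl⟩ | ⟨i, rfl⟩) | (⟨i, rfl⟩ | ⟨i, rfl⟩))
    · exact isIntegralElem_extend (hita i)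
    · exact isIntegralElem_extend (hitb i)
    · exact hiα i
    · exact hiβ i
  have hWta : ∀ i, Y₁ * ta i ∈ W := fun i => Or.inl (Or.inl ⟨i, rfl⟩)
  have hWtb : ∀ i, Y₁ * tb i ∈ W := fun i => Or.inl (Or.inr ⟨i, rfl⟩)
  have hWα : ∀ i, Y₂ * α i ∈ W := fun i => Or.inr (Or.inl ⟨i, rfl⟩)
  have hWβ : ∀ i, Y₂ * β i ∈ W := fun i => Or.inr (Or.inr ⟨i, rfl⟩)
  set C : Subalgebra E K := Algebra.adjoin E (Set.range t' ∪ W) with hCdef
  have hWC : ∀ w ∈ W, w ∈ C := fun w hw => Algebra.subset_adjoin (Or.inr hw)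
  have hEC : ∀ x ∈ (algebraMap E K).range, x ∈ C := by
    rintro x ⟨e, rfl⟩
    exact C.algebraMap_mem e
  let jC : ℚ →+* ↥C := (algebraMap E ↥C).comp jE
  let vC : ↥C →+* K := C.val.toRingHom
  have hvC : Function.Injective vC := Subtype.val_injective
  -- families over `C`
  let A1 : Fin r → ↥C := fun i => ⟨Y₁ * ta i, hWC _ (hWta i)⟩
  let A2 : Fin r' → ↥C := fun i => ⟨b i, hEC _ (hbE i)⟩
  let A3 : Fin s' → ↥C := fun i => ⟨Y₂ * β i, hWC _ (hWβ i)⟩
  let A4 : Fin s → ↥C := fun i => ⟨Y₂ * α i, hWC _ (hWα i)⟩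
  let A5 : Fin r → ↥C := fun i => ⟨a i, hEC _ (haE i)⟩
  let A6 : Fin r' → ↥C := fun i => ⟨Y₁ * tb i, hWC _ (hWtb i)⟩
  have hidC : Ident jC y y' z z' n A1 A2 A3 A4 A5 A6 :=
    Ident.of_map vC hvC (algebraMap ℚ K) hid2
  -- nonzero coefficients
  have h6 : lc (algebraMap ℚ K) y' (fun i => Y₁ * tb i) ≠ 0 := by
    rw [lc_smul]
    exact mul_ne_zero (C_ne_zero_of_field hY₁0) hτQ
  have h4 : lc (algebraMap ℚ K) z (fun i => Y₂ * α i) ≠ 0 := by
    rw [lc_smul]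
    exact mul_ne_zero (C_ne_zero_of_field hY₂0) hA
  obtain ⟨m₁, hm₁⟩ := exists_coeff_ne_zero h6
  obtain ⟨m₂, hm₂⟩ := exists_coeff_ne_zero h4
  have e6 : coeffMap vC (lc jC y' A6) = lc (algebraMap ℚ K) y' (fun i => Y₁ * tb i) :=
    coeffMap_lc vC jC _ y' A6
  have e4 : coeffMap vC (lc jC z A4) = lc (algebraMap ℚ K) z (fun i => Y₂ * α i) :=
    coeffMap_lc vC jC _ z A4
  set c₁ : ↥C := (lc jC y' A6).coeff m₁ with hc₁
  set c₂ : ↥C := (lc jC z A4).coeff m₂ with hc₂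
  have hc₁0 : (c₁ : K) ≠ 0 := by
    have : (c₁ : K) = (coeffMap vC (lc jC y' A6)).coeff m₁ := rfl
    rw [this, e6]
    exact hm₁
  have hc₂0 : (c₂ : K) ≠ 0 := by
    have : (c₂ : K) = (coeffMap vC (lc jC z A4)).coeff m₂ := rfl
    rw [this, e4]
    exact hm₂
  have hb₀0 : ((c₁ * c₂ : ↥C) : K) ≠ 0 := by
    rw [Subalgebra.coe_mul]
    exact mul_ne_zero hc₁0 hc₂0
  obtain ⟨sp, hsp0, -, hspW⟩ := spec (k₀ := k) t' ht' W hW ((c₁ * c₂ : ↥C) : K) (c₁ * c₂).2 hb₀0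
  have hsp0' : sp (c₁ * c₂) ≠ 0 := hsp0
  rw [map_mul] at hsp0'
  have hsc₁ : sp c₁ ≠ 0 := left_ne_zero_of_mul hsp0'
  have hsc₂ : sp c₂ ≠ 0 := right_ne_zero_of_mul hsp0'
  let ψ : ↥C →+* K := (algebraMap E K).comp (sp : ↥C →+* E)
  have hψ : ∀ c : ↥C, ψ c = algebraMap E K (sp c) := fun c => rfl
  have hidψ := hidC.map ψ (algebraMap ℚ K)
  -- `ψ` on `E`
  have hψE : ∀ (x : K) (hx : x ∈ (algebraMap E K).range), ψ ⟨x, hEC x hx⟩ = x := by
    rintro x ⟨e, rfl⟩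
    have : (⟨algebraMap E K e, hEC _ ⟨e, rfl⟩⟩ : ↥C) = algebraMap E ↥C e := Subtype.ext rfl
    rw [hψ, this, sp.commutes]
    rfl
  -- `ψ` on the `k`-integral elements
  have hψk : ∀ (w : K) (hw : w ∈ W),
      (MvPolynomial.aeval t' : MvPolynomial (Fin d) k →ₐ[k] K).toRingHom.IsIntegralElem w →
      ∃ c : k, ψ ⟨w, hWC w hw⟩ = algebraMap k K c := by
    intro w hw hint
    obtain ⟨c, hc⟩ := hspW w hw hint
    refine ⟨c, ?_⟩
    rw [hψ]
    have : sp ⟨w, hWC w hw⟩ = algebraMap k E c := hc.symm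
    rw [this, ← IsScalarTower.algebraMap_apply]
  choose a₀ ha₀ using fun i => hψk _ (hWta i) (hita i)
  choose b₀ hb₀ using fun i => hψk _ (hWtb i) (hitb i)
  have E1 : (fun i => ψ (A1 i)) = fun i => algebraMap k K (a₀ i) := funext ha₀
  have E6 : (fun i => ψ (A6 i)) = fun i => algebraMap k K (b₀ i) := funext hb₀
  have E2 : (fun i => ψ (A2 i)) = b := funext fun i => hψE _ (hbE i)
  have E5 : (fun i => ψ (A5 i)) = a := funext fun i => hψE _ (haE i)
  rw [E1, E2, E5, E6] at hidψ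
  -- nonvanishing after specialisation
  have hQ' : lc (algebraMap ℚ K) y' (fun i => algebraMap k K (b₀ i)) ≠ 0 := by
    rw [← E6, ← coeffMap_lc ψ jC (algebraMap ℚ K) y' A6]
    intro h0
    have := congrArg (fun x : LaurentSeries K => x.coeff m₁) h0
    simp only [coeffMap_coeff, HahnSeries.coeff_zero] at this
    rw [← hc₁, hψ] at this
    exact hsc₁ ((algebraMap E K).injective (by rw [this, map_zero]))
  have hA' : lc (algebraMap ℚ K) z (fun i => ψ (A4 i)) ≠ 0 := by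
    rw [← coeffMap_lc ψ jC (algebraMap ℚ K) z A4]
    intro h0
    have := congrArg (fun x : LaurentSeries K => x.coeff m₂) h0
    simp only [coeffMap_coeff, HahnSeries.coeff_zero] at this
    rw [← hc₂, hψ] at this
    exact hsc₂ ((algebraMap E K).injective (by rw [this, map_zero]))
  exact core_final F₀ (algebraMap k K) n hn f y y' z z' hy hy' hz hz' a b a₀ b₀ _ _ hP hQ hfQ
    hQ' hA' hidψ

end Fermat.Agent.GTor.H75
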