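import Fermat.Agent.GTor.H75_DescCoreA
import Fermat.Agent.GTor.H75_DescCoreBC
import Fermat.Agent.GTor.H75_DescAutDef
import Fermat.Agent.GTor.H56_DescAut

/-!
# G-TOR package DESC (helper75): DESC-CORE (clause 4 of `Stmt_DESC`)
-/

set_option autoImplicit false
set_option linter.style.haveILetI false
set_option linter.unusedSectionVars false
set_option maxHeartbeats 1000000

noncomputable section

namespace Fermat.Agent.GTor.H75

open ModularCurve AlgebraicCurve

/-- The pigeonhole statement (proved by helper56 in `GTor/H56_DescPigeon.lean`). -/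
def Stmt_DescPigeon (K : Type) [Field K] [Algebra ℚ K]
    (F₀ : IntermediateField ℚ (LaurentSeries ℚ)) : Prop :=
  ∀ (n : ℕ), Finite (UnrKummer K ↥(laurentBaseChange K F₀) n) →
    ∀ f : ↥(laurentBaseChange K F₀), f ≠ 0 →
    (∀ w : Place K ↥(laurentBaseChange K F₀), (n : ℤ) ∣ w.ord f) →
    ∀ (m : ℕ), Nat.card (UnrKummer K ↥(laurentBaseChange K F₀) n) < m →
    ∀ σ : Fin m → (K ≃+* K),
    ∃ i j, i ≠ j ∧ ∃ g : ↥(laurentBaseChange K F₀), g ≠ 0 ∧
      coeffMap (((σ i).symm : K →+* K).comp ((σ j : K ≃+* K) : K →+* K)) (f : LaurentSeries K)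
        = (f : LaurentSeries K) * (g : LaurentSeries K) ^ n

theorem descCore_of (k K : Type) [Field k] [Field K] [Algebra ℚ k] [Algebra ℚ K]
    (F₀ : IntermediateField ℚ (LaurentSeries ℚ)) (hPig : Stmt_DescPigeon K F₀) :
    Stmt_DescCore k K F₀ := by
  intro _ _ _ ι n hn htr hfin f hf hunr
  classical
  letI : Algebra k K := ι.toAlgebra
  haveI : CharZero K := charZero_of_injective_ringHom ι.injective
  have hf0 : (f : LaurentSeries K) ≠ 0 := fun h0 => hf (Subtype.ext h0)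
  obtain ⟨r, y, a, r', y', b, hy, hy', hP, hQ, hfQ⟩ := exists_lc K F₀ f.2 hf0
  let c : Finset K := Finset.univ.image a ∪ Finset.univ.image b
  have hac : ∀ i, a i ∈ c := fun i =>
    Finset.mem_union_left _ (Finset.mem_image_of_mem a (Finset.mem_univ i))
  have hbc : ∀ i, b i ∈ c := fun i =>
    Finset.mem_union_right _ (Finset.mem_image_of_mem b (Finset.mem_univ i))
  obtain ⟨d, t, σ, ht, hc, hind⟩ := H56.stmt_DescAut k K htr c
    (Nat.card (UnrKummer K ↥(laurentBaseChange K F₀) n) + 1)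
  obtain ⟨i, j, hij, g, hg, hτ⟩ := hPig n hfin f hf hunr _ (Nat.lt_succ_self _)
    (fun i => (σ i).toRingEquiv)
  let τ : K →ₐ[k] K := ((σ i).symm : K →ₐ[k] K).comp (σ j : K →ₐ[k] K)
  let t' : Fin d → K := fun l => τ (t l)
  have hτ' : coeffMap (τ : K →+* K) (f : LaurentSeries K)
      = (f : LaurentSeries K) * (g : LaurentSeries K) ^ n := hτ
  -- independence of `t'` over the algebraic closure `E` of `k(t)`
  have h1 : AlgebraicIndependent k (Sum.elim t' t) := by
    have := (hind i j hij).comp Sum.swap Sum.swap_leftInverse.injective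
    convert this using 1
    ext (l | l) <;> rfl
  obtain ⟨-, h2⟩ := AlgebraicIndependent.sumElim_iff.mp h1
  have h3 : AlgebraicIndependent ↥(IntermediateField.adjoin k (Set.range t)) t' :=
    IntermediateField.algebraicIndependent_adjoin_iff.mpr h2
  let Ft : IntermediateField k K := IntermediateField.adjoin k (Set.range t)
  let E : IntermediateField ↥Ft K := algebraicClosure ↥Ft K
  have h4 : AlgebraicIndependent ↥E t' := h3.algebraicClosure
  haveI : IsScalarTower k ↥E K := IsScalarTower.of_algebraMap_eq (fun x => rfl)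
  haveI : IsAlgClosed ↥E := IsAlgClosure.isAlgClosed ↥Ft
  let F' : IntermediateField ↥E K := IntermediateField.adjoin ↥E (Set.range t')
  let k₂ : IntermediateField ↥F' K := algebraicClosure ↥F' K
  haveI : IsAlgClosed ↥k₂ := IsAlgClosure.isAlgClosed ↥F'
  -- membership facts
  have hE : ∀ x ∈ c, x ∈ E := fun x hx =>
    mem_algebraicClosure_iff.mpr (IntermediateField.isAlgebraic_adjoin_iff.mpr (hc x hx))
  have hEk₂ : ∀ x : K, x ∈ E → x ∈ k₂ := fun x hx =>
    k₂.algebraMap_mem ⟨x, F'.algebraMap_mem ⟨x, hx⟩⟩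
  have hck : ∀ x ∈ c, AlgElem
      (MvPolynomial.aeval t' : MvPolynomial (Fin d) k →ₐ[k] K).toRingHom (τ x) := fun x hx =>
    (algElem_of_isAlgebraic_adjoin ht (hc x hx)).algHom τ
  have hτk₂ : ∀ x ∈ c, τ x ∈ k₂ := fun x hx =>
    mem_algebraicClosure_iff.mpr (IntermediateField.isAlgebraic_adjoin_iff.mpr
      (isAlgebraic_adjoin_of_algElem h4 (hck x hx).extend))
  have hk₂ : ∀ x : ↥k₂, AlgElem
      (MvPolynomial.aeval t' : MvPolynomial (Fin d) ↥E →ₐ[↥E] K).toRingHom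
        (algebraMap ↥k₂ K x) := fun x =>
    algElem_of_isAlgebraic_adjoin h4 (IntermediateField.isAlgebraic_adjoin_iff.mp
      (mem_algebraicClosure_iff.mp x.2))
  -- step A
  obtain ⟨s, s', z, z', α, β, hz, hz', hα, hβ, hA, hτQ, hid⟩ :=
    core_stepA F₀ (algebraMap ↥k₂ K) n hn f y y' hy hy' a b hP hQ hfQ
      (fun i => ⟨⟨a i, hEk₂ _ (hE _ (hac i))⟩, rfl⟩)
      (fun i => ⟨⟨b i, hEk₂ _ (hE _ (hbc i))⟩, rfl⟩)
      (τ : K →+* K)
      (fun i => ⟨⟨τ (a i), hτk₂ _ (hac i)⟩, rfl⟩)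
      (fun i => ⟨⟨τ (b i), hτk₂ _ (hbc i)⟩, rfl⟩) g hτ'
  -- step BC
  exact core_stepBC (k := k) (E := ↥E) F₀ (algebraMap ℚ ↥E) n hn t' h4 f y y' z z' hy hy' hz hz'
    a b hP hQ hfQ
    (fun i => ⟨⟨a i, hE _ (hac i)⟩, rfl⟩) (fun i => ⟨⟨b i, hE _ (hbc i)⟩, rfl⟩)
    (fun i => τ (a i)) (fun i => τ (b i)) (fun i => hck _ (hac i)) (fun i => hck _ (hbc i)) hτQ
    α β
    (fun i => by obtain ⟨x, hx⟩ := hα i; rw [← hx]; exact hk₂ x)
    (fun i => by obtain ⟨x, hx⟩ := hβ i; rw [← hx]; exact hk₂ x)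
    hA hid

end Fermat.Agent.GTor.H75
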