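import Fermat.Agent.GTor.H75_DescIdent
import Fermat.Agent.GTor.H56_DescRoot

/-!
# G-TOR package DESC (helper75): DESC-CORE, the root step

From `τ f = f · gⁿ` with `f = lc(a)/lc(b)`, all of `a, b, τa, τb` in the algebraically closed
subfield `k₂`, DESC-ROOT over `k₂` gives an `n`-th root with coefficients in `k₂`, whence the
six-term identity `lc(τa)·lc(b)·lc(β)ⁿ = lc(α)ⁿ·lc(a)·lc(τb)` with `α, β ∈ k₂`.
-/

set_option autoImplicit false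
set_option linter.style.haveILetI false
set_option linter.unusedSectionVars false
set_option maxHeartbeats 1000000

noncomputable section

namespace Fermat.Agent.GTor.H75

open ModularCurve

variable {k₂ K : Type} [Field k₂] [Field K] [Algebra ℚ k₂] [Algebra ℚ K]
  [IsAlgClosed k₂] [CharZero k₂]
variable (F₀ : IntermediateField ℚ (LaurentSeries ℚ))

theorem core_stepA (ι₂ : k₂ →+* K) (n : ℕ) (hn : 0 < n)
    (f : ↥(laurentBaseChange K F₀))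
    {r r' : ℕ} (y : Fin r → LaurentSeries ℚ) (y' : Fin r' → LaurentSeries ℚ)
    (hy : ∀ i, y i ∈ F₀) (hy' : ∀ i, y' i ∈ F₀)
    (a : Fin r → K) (b : Fin r' → K)
    (hP : lc (algebraMap ℚ K) y a ≠ 0) (hQ : lc (algebraMap ℚ K) y' b ≠ 0)
    (hfQ : (f : LaurentSeries K) * lc (algebraMap ℚ K) y' b = lc (algebraMap ℚ K) y a)
    (ha₂ : ∀ i, a i ∈ ι₂.range) (hb₂ : ∀ i, b i ∈ ι₂.range)
    (τ : K →+* K)
    (hτa₂ : ∀ i, τ (a i) ∈ ι₂.range) (hτb₂ : ∀ i, τ (b i) ∈ ι₂.range)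
    (g : ↥(laurentBaseChange K F₀))
    (hτ : coeffMap τ (f : LaurentSeries K) = (f : LaurentSeries K) * (g : LaurentSeries K) ^ n) :
    ∃ (s s' : ℕ) (z : Fin s → LaurentSeries ℚ) (z' : Fin s' → LaurentSeries ℚ)
      (α : Fin s → K) (β : Fin s' → K),
      (∀ i, z i ∈ F₀) ∧ (∀ i, z' i ∈ F₀) ∧ (∀ i, α i ∈ ι₂.range) ∧ (∀ i, β i ∈ ι₂.range) ∧
      lc (algebraMap ℚ K) z α ≠ 0 ∧ lc (algebraMap ℚ K) y' (fun i => τ (b i)) ≠ 0 ∧
      Ident (algebraMap ℚ K) y y' z z' n (fun i => τ (a i)) b β α a (fun i => τ (b i)) := by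
  classical
  choose a₂ ha₂' using ha₂
  choose b₂ hb₂' using hb₂
  choose τa₂ hτa₂' using hτa₂
  choose τb₂ hτb₂' using hτb₂
  set P := lc (algebraMap ℚ K) y a with hPdef
  set Q := lc (algebraMap ℚ K) y' b with hQdef
  set τP := lc (algebraMap ℚ K) y (fun i => τ (a i)) with hτPdef
  set τQ := lc (algebraMap ℚ K) y' (fun i => τ (b i)) with hτQdef
  have hτinj : Function.Injective (coeffMap τ) := coeffMap_injective_of_injective τ τ.injective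
  have hι₂inj : Function.Injective (coeffMap ι₂) :=
    coeffMap_injective_of_injective ι₂ ι₂.injective
  have eτP : coeffMap τ P = τP := coeffMap_lc τ _ _ y a
  have eτQ : coeffMap τ Q = τQ := coeffMap_lc τ _ _ y' b
  have hτP0 : τP ≠ 0 := by
    rw [← eτP]; exact fun h0 => hP (hτinj (by rw [h0, map_zero]))
  have hτQ0 : τQ ≠ 0 := by
    rw [← eτQ]; exact fun h0 => hQ (hτinj (by rw [h0, map_zero]))
  have hfτ : (f : LaurentSeries K) * (g : LaurentSeries K) ^ n * τQ = τP := by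
    rw [← hτ, ← eτQ, ← eτP, ← map_mul, hfQ]
  have hf0 : (f : LaurentSeries K) ≠ 0 := by
    intro h0
    rw [h0, zero_mul] at hfQ
    exact hP hfQ.symm
  -- the series over `k₂`
  have eP : coeffMap ι₂ (lc (algebraMap ℚ k₂) y a₂) = P := by
    rw [coeffMap_lc ι₂ _ (algebraMap ℚ K) y a₂, hPdef]
    congr 1
    exact funext ha₂'
  have eQ : coeffMap ι₂ (lc (algebraMap ℚ k₂) y' b₂) = Q := by
    rw [coeffMap_lc ι₂ _ (algebraMap ℚ K) y' b₂, hQdef]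
    congr 1
    exact funext hb₂'
  have eτP₂ : coeffMap ι₂ (lc (algebraMap ℚ k₂) y τa₂) = τP := by
    rw [coeffMap_lc ι₂ _ (algebraMap ℚ K) y τa₂, hτPdef]
    congr 1
    exact funext hτa₂'
  have eτQ₂ : coeffMap ι₂ (lc (algebraMap ℚ k₂) y' τb₂) = τQ := by
    rw [coeffMap_lc ι₂ _ (algebraMap ℚ K) y' τb₂, hτQdef]
    congr 1
    exact funext hτb₂'
  let Pe : ↥(laurentBaseChange k₂ F₀) := ⟨_, lc_mem k₂ F₀ y hy a₂⟩
  let Qe : ↥(laurentBaseChange k₂ F₀) := ⟨_, lc_mem k₂ F₀ y' hy' b₂⟩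
  let τPe : ↥(laurentBaseChange k₂ F₀) := ⟨_, lc_mem k₂ F₀ y hy τa₂⟩
  let τQe : ↥(laurentBaseChange k₂ F₀) := ⟨_, lc_mem k₂ F₀ y' hy' τb₂⟩
  have hne : ∀ (x : LaurentSeries k₂) (X : LaurentSeries K), coeffMap ι₂ x = X → X ≠ 0 → x ≠ 0 := by
    intro x X hx hX h0
    rw [h0, map_zero] at hx
    exact hX hx.symm
  have hPe : Pe ≠ 0 := fun h0 => hne _ _ eP hP (congrArg Subtype.val h0)
  have hQe : Qe ≠ 0 := fun h0 => hne _ _ eQ hQ (congrArg Subtype.val h0)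
  have hτPe : τPe ≠ 0 := fun h0 => hne _ _ eτP₂ hτP0 (congrArg Subtype.val h0)
  have hτQe : τQe ≠ 0 := fun h0 => hne _ _ eτQ₂ hτQ0 (congrArg Subtype.val h0)
  set u₂ : ↥(laurentBaseChange k₂ F₀) := (τPe * Qe) / (Pe * τQe) with hu₂def
  have hu₂0 : u₂ ≠ 0 := div_ne_zero (mul_ne_zero hτPe hQe) (mul_ne_zero hPe hτQe)
  have hu₂coe : coeffMap ι₂ (u₂ : LaurentSeries k₂) = (τP * Q) / (P * τQ) := by
    have : (u₂ : LaurentSeries k₂) = ((τPe : LaurentSeries k₂) * (Qe : LaurentSeries k₂)) /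
        ((Pe : LaurentSeries k₂) * (τQe : LaurentSeries k₂)) := rfl
    rw [this, map_div₀, map_mul, map_mul]
    show coeffMap ι₂ (lc (algebraMap ℚ k₂) y τa₂) * coeffMap ι₂ (lc (algebraMap ℚ k₂) y' b₂) /
      (coeffMap ι₂ (lc (algebraMap ℚ k₂) y a₂) * coeffMap ι₂ (lc (algebraMap ℚ k₂) y' τb₂)) = _
    rw [eP, eQ, eτP₂, eτQ₂]
  have hgn : (τP * Q) / (P * τQ) = (g : LaurentSeries K) ^ n := by
    rw [div_eq_iff (mul_ne_zero hP hτQ0), ← hfτ, ← hfQ]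
    ring
  have hbc : bcHom ι₂ F₀ u₂ = g ^ n := by
    apply Subtype.ext
    show coeffMap ι₂ (u₂ : LaurentSeries k₂) = (g : LaurentSeries K) ^ n
    rw [hu₂coe, hgn]
  obtain ⟨h₂, hh₂⟩ := H56.stmt_DescRoot k₂ K F₀ ι₂ n hn u₂ hu₂0 ⟨g, hbc⟩
  have hh₂0 : h₂ ≠ 0 := by
    rintro rfl
    rw [zero_pow hn.ne'] at hh₂
    exact hu₂0 hh₂
  have hh₂0' : (h₂ : LaurentSeries k₂) ≠ 0 := fun h0 => hh₂0 (Subtype.ext h0)
  obtain ⟨s, z, α₂, s', z', β₂, hz, hz', hA₂, hB₂, hhB⟩ := exists_lc k₂ F₀ h₂.2 hh₂0'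
  refine ⟨s, s', z, z', fun i => ι₂ (α₂ i), fun i => ι₂ (β₂ i), hz, hz',
    fun i => ⟨_, rfl⟩, fun i => ⟨_, rfl⟩, ?_, hτQ0, ?_⟩
  · rw [← coeffMap_lc ι₂ (algebraMap ℚ k₂) (algebraMap ℚ K) z α₂]
    exact fun h0 => hA₂ (hι₂inj (by rw [h0, map_zero]))
  · unfold Ident
    rw [← coeffMap_lc ι₂ (algebraMap ℚ k₂) (algebraMap ℚ K) z α₂,
      ← coeffMap_lc ι₂ (algebraMap ℚ k₂) (algebraMap ℚ K) z' β₂]
    set A := coeffMap ι₂ (lc (algebraMap ℚ k₂) z α₂) with hAdef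
    set B := coeffMap ι₂ (lc (algebraMap ℚ k₂) z' β₂) with hBdef
    set H := coeffMap ι₂ (h₂ : LaurentSeries k₂) with hHdef
    have hHB : H * B = A := by
      rw [hHdef, hBdef, ← map_mul, hhB]
    have hHn : (τP * Q) / (P * τQ) = H ^ n := by
      rw [← hu₂coe, hh₂, hHdef, ← map_pow]
      rfl
    rw [div_eq_iff (mul_ne_zero hP hτQ0)] at hHn
    rw [← hHB, mul_pow]
    linear_combination (B ^ n) * hHn

end Fermat.Agent.GTor.H75
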