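import Fermat.Agent.GTor.H75_DescCoreA
import Fermat.Agent.GTor.H75_DescCoreBC
import Fermat.Agent.GTor.H75_DescAutDef
import Fermat.Agent.GTor.H56_DescAut
import Fermat.Agent.GTor.H56_DescPigeon

/-!
# G-TOR package DESC (helper75): DESC-CORE, torsor form

`k ⊆ K` algebraically closed of characteristic `0`, `K` of infinite transcendence degree over
`k`, `U_n(F_K)` finite.  If `φ ∈ F_K^×` is such that `σ φ / φ` is unramified modulo `n` for every
automorphism `σ` of `K` over `k`, then `φ = bc(φ₀) · hⁿ` with `φ₀ ∈ F_k^×`.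
(For unramified `φ` this is DESC-CORE; for `div φ = n E - bc(D₀)` it is the descent step of the
`n`-divisibility of `Pic⁰(F_k)`.)
-/

set_option autoImplicit false
set_option linter.style.haveILetI false
set_option linter.unusedSectionVars false
set_option maxHeartbeats 1000000

noncomputable section

namespace Fermat.Agent.GTor.H75

open ModularCurve AlgebraicCurve

/-- pigeonhole, torsor form -/
theorem exists_pair_gen (K : Type) [Field K] [Algebra ℚ K]
    (F₀ : IntermediateField ℚ (LaurentSeries ℚ)) (n : ℕ)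
    (hfin : Finite (UnrKummer K ↥(laurentBaseChange K F₀) n))
    (f : ↥(laurentBaseChange K F₀)) (hf : f ≠ 0)
    (m : ℕ) (hm : Nat.card (UnrKummer K ↥(laurentBaseChange K F₀) n) < m) (σ : Fin m → (K ≃+* K))
    (hrel : ∀ i, ∀ w : Place K ↥(laurentBaseChange K F₀),
      (n : ℤ) ∣ w.ord (bcHom ((σ i : K ≃+* K) : K →+* K) F₀ f) - w.ord f) :
    ∃ i j, i ≠ j ∧ ∃ g : ↥(laurentBaseChange K F₀), g ≠ 0 ∧
      coeffMap (((σ i).symm : K →+* K).comp ((σ j : K ≃+* K) : K →+* K)) (f : LaurentSeries K)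
        = (f : LaurentSeries K) * (g : LaurentSeries K) ^ n := by
  classical
  have hne : ∀ i, bcHom ((σ i : K ≃+* K) : K →+* K) F₀ f ≠ 0 := fun i =>
    (map_ne_zero _).mpr hf
  have hq : ∀ i, bcHom ((σ i : K ≃+* K) : K →+* K) F₀ f / f ≠ 0 := fun i =>
    div_ne_zero (hne i) hf
  have hu : ∀ i, Units.mk0 _ (hq i) ∈ unrSubgroup K ↥(laurentBaseChange K F₀) n := fun i w => by
    show (n : ℤ) ∣ w.ord (bcHom ((σ i : K ≃+* K) : K →+* K) F₀ f / f)
    rw [div_eq_mul_inv, w.ord_mul (hne i) (inv_ne_zero hf), w.ord_inv, ← sub_eq_add_neg]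
    exact hrel i w
  let c : Fin m → UnrKummer K ↥(laurentBaseChange K F₀) n := fun i =>
    QuotientGroup.mk ⟨Units.mk0 _ (hq i), hu i⟩
  haveI : Fintype (UnrKummer K ↥(laurentBaseChange K F₀) n) := Fintype.ofFinite _
  have hcard : Fintype.card (UnrKummer K ↥(laurentBaseChange K F₀) n) < Fintype.card (Fin m) := by
    rw [Fintype.card_fin, ← Nat.card_eq_fintype_card]; exact hm
  obtain ⟨i, j, hij, hc⟩ := Fintype.exists_ne_map_eq_of_card_lt c hcard
  refine ⟨i, j, hij, ?_⟩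
  have hmem : (⟨Units.mk0 _ (hq i), hu i⟩ : unrSubgroup K ↥(laurentBaseChange K F₀) n)⁻¹
      * ⟨Units.mk0 _ (hq j), hu j⟩ ∈ powSubgroup K ↥(laurentBaseChange K F₀) n :=
    QuotientGroup.eq.mp hc
  obtain ⟨h, hh0, hh⟩ := H56.exists_eq_pow_of_mem_powSubgroup _ hmem
  have hrel' : bcHom ((σ j : K ≃+* K) : K →+* K) F₀ f
      = bcHom ((σ i : K ≃+* K) : K →+* K) F₀ f * h ^ n := by
    rw [← hh]
    simp only [Subgroup.coe_mul, InvMemClass.coe_inv, Units.val_mul, Units.val_inv_eq_inv_val,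
      Units.val_mk0]
    have h1 := hne i
    field_simp
  refine ⟨bcHom (((σ i).symm : K ≃+* K) : K →+* K) F₀ h, (map_ne_zero _).mpr hh0, ?_⟩
  have h2 := congrArg (fun z => ((bcHom (((σ i).symm : K ≃+* K) : K →+* K) F₀ z :
    ↥(laurentBaseChange K F₀)) : LaurentSeries K)) hrel'
  simp only [map_mul, map_pow, bcHom_coe, MulMemClass.coe_mul, SubmonoidClass.coe_pow,
    coeffMap_coeffMap] at h2
  rw [h2]
  congr 1
  have hid : (((σ i).symm : K ≃+* K) : K →+* K).comp ((σ i : K ≃+* K) : K →+* K)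
      = RingHom.id K := by
    ext x
    simp
  rw [hid, coeffMap_id]

/-- DESC-CORE from the conclusion of the pigeonhole step. -/
theorem descCore_of_pairs (k K : Type) [Field k] [Field K] [Algebra ℚ k] [Algebra ℚ K]
    (F₀ : IntermediateField ℚ (LaurentSeries ℚ))
    [IsAlgClosed k] [IsAlgClosed K] [CharZero k] [Algebra k K] (n : ℕ) (hn : 0 < n)
    (htr : ∀ s : Finset K, ∃ x : K,
      ¬ IsAlgebraic ↥(Subfield.closure (Set.range (algebraMap k K) ∪ (↑s : Set K))) x)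
    (f : ↥(laurentBaseChange K F₀)) (hf : f ≠ 0) (m : ℕ)
    (hPair : ∀ σ : Fin m → (K ≃ₐ[k] K),
      ∃ i j, i ≠ j ∧ ∃ g : ↥(laurentBaseChange K F₀), g ≠ 0 ∧
        coeffMap ((((σ i).toRingEquiv).symm : K →+* K).comp
          (((σ j).toRingEquiv : K ≃+* K) : K →+* K)) (f : LaurentSeries K)
          = (f : LaurentSeries K) * (g : LaurentSeries K) ^ n) :
    ∃ (f₀ : ↥(laurentBaseChange k F₀)) (h : ↥(laurentBaseChange K F₀)),
      f₀ ≠ 0 ∧ h ≠ 0 ∧ f = bcHom (algebraMap k K) F₀ f₀ * h ^ n := by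
  classical
  haveI : CharZero K := charZero_of_injective_ringHom (algebraMap k K).injective
  have hf0 : (f : LaurentSeries K) ≠ 0 := fun h0 => hf (Subtype.ext h0)
  obtain ⟨r, y, a, r', y', b, hy, hy', hP, hQ, hfQ⟩ := exists_lc K F₀ f.2 hf0
  let c : Finset K := Finset.univ.image a ∪ Finset.univ.image b
  have hac : ∀ i, a i ∈ c := fun i =>
    Finset.mem_union_left _ (Finset.mem_image_of_mem a (Finset.mem_univ i))
  have hbc : ∀ i, b i ∈ c := fun i =>
    Finset.mem_union_right _ (Finset.mem_image_of_mem b (Finset.mem_univ i))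
  obtain ⟨d, t, σ, ht, hc, hind⟩ := H56.stmt_DescAut k K htr c m
  obtain ⟨i, j, hij, g, hg, hτ⟩ := hPair σ
  let τ : K →ₐ[k] K := ((σ i).symm : K →ₐ[k] K).comp (σ j : K →ₐ[k] K)
  let t' : Fin d → K := fun l => τ (t l)
  have hτ' : coeffMap (τ : K →+* K) (f : LaurentSeries K)
      = (f : LaurentSeries K) * (g : LaurentSeries K) ^ n := hτ
  have h1 : AlgebraicIndependent k (Sum.elim t' t) := by
    have := (hind i j hij).comp Sum.swap Sum.swap_leftInverse.injective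
    convert this using 1
    ext (l | l) <;> rfl
  obtain ⟨-, h2⟩ := AlgebraicIndependent.sumElim_iff.mp h1
  have h3 : AlgebraicIndependent ↥(IntermediateField.adjoin k (Set.range t)) t' :=
    IntermediateField.algebraicIndependent_adjoin_iff.mpr h2
  let Ft : IntermediateField k K := IntermediateField.adjoin k (Set.range t)
  let E : IntermediateField ↥Ft K := algebraicClosure ↥Ft K
  have h4 : AlgebraicIndependent ↥E t' := h3.algebraicClosure
  haveI : IsScalarTower k ↥E K := IsScalarTower.of_algebraMap_eq (fun x => rfl)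
  haveI : IsAlgClosed ↥E := IsAlgClosure.isAlgClosed ↥Ft
  let F' : IntermediateField ↥E K := IntermediateField.adjoin ↥E (Set.range t')
  let k₂ : IntermediateField ↥F' K := algebraicClosure ↥F' K
  haveI : IsAlgClosed ↥k₂ := IsAlgClosure.isAlgClosed ↥F'
  have hE : ∀ x ∈ c, x ∈ E := fun x hx =>
    mem_algebraicClosure_iff.mpr (IntermediateField.isAlgebraic_adjoin_iff.mpr (hc x hx))
  have hEk₂ : ∀ x : K, x ∈ E → x ∈ k₂ := fun x hx =>
    k₂.algebraMap_mem ⟨x, F'.algebraMap_mem ⟨x, hx⟩⟩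
  have hck : ∀ x ∈ c, AlgElem
      (MvPolynomial.aeval t' : MvPolynomial (Fin d) k →ₐ[k] K).toRingHom (τ x) := fun x hx =>
    (algElem_of_isAlgebraic_adjoin ht (hc x hx)).algHom τ
  have hτk₂ : ∀ x ∈ c, τ x ∈ k₂ := fun x hx =>
    mem_algebraicClosure_iff.mpr (IntermediateField.isAlgebraic_adjoin_iff.mpr
      (isAlgebraic_adjoin_of_algElem h4 (hck x hx).extend))
  have hk₂ : ∀ x : ↥k₂, AlgElem
      (MvPolynomial.aeval t' : MvPolynomial (Fin d) ↥E →ₐ[↥E] K).toRingHom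
        (algebraMap ↥k₂ K x) := fun x =>
    algElem_of_isAlgebraic_adjoin h4 (IntermediateField.isAlgebraic_adjoin_iff.mp
      (mem_algebraicClosure_iff.mp x.2))
  obtain ⟨s, s', z, z', α, β, hz, hz', hα, hβ, hA, hτQ, hid⟩ :=
    core_stepA F₀ (algebraMap ↥k₂ K) n hn f y y' hy hy' a b hP hQ hfQ
      (fun i => ⟨⟨a i, hEk₂ _ (hE _ (hac i))⟩, rfl⟩)
      (fun i => ⟨⟨b i, hEk₂ _ (hE _ (hbc i))⟩, rfl⟩)
      (τ : K →+* K)
      (fun i => ⟨⟨τ (a i), hτk₂ _ (hac i)⟩, rfl⟩)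
      (fun i => ⟨⟨τ (b i), hτk₂ _ (hbc i)⟩, rfl⟩) g hτ'
  exact core_stepBC (k := k) (E := ↥E) F₀ (algebraMap ℚ ↥E) n hn t' h4 f y y' z z' hy hy' hz hz'
    a b hP hQ hfQ
    (fun i => ⟨⟨a i, hE _ (hac i)⟩, rfl⟩) (fun i => ⟨⟨b i, hE _ (hbc i)⟩, rfl⟩)
    (fun i => τ (a i)) (fun i => τ (b i)) (fun i => hck _ (hac i)) (fun i => hck _ (hbc i)) hτQ
    α β
    (fun i => by obtain ⟨x, hx⟩ := hα i; rw [← hx]; exact hk₂ x)
    (fun i => by obtain ⟨x, hx⟩ := hβ i; rw [← hx]; exact hk₂ x)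
    hA hid

/-- **DESC-CORE, torsor form.** -/
theorem descCoreGen (k K : Type) [Field k] [Field K] [Algebra ℚ k] [Algebra ℚ K]
    (F₀ : IntermediateField ℚ (LaurentSeries ℚ))
    [IsAlgClosed k] [IsAlgClosed K] [CharZero k] (ι : k →+* K) (n : ℕ) (hn : 0 < n)
    (htr : ∀ s : Finset K, ∃ x : K,
      ¬ IsAlgebraic ↥(Subfield.closure (Set.range ι ∪ (↑s : Set K))) x)
    (hfin : Finite (UnrKummer K ↥(laurentBaseChange K F₀) n))
    (f : ↥(laurentBaseChange K F₀)) (hf : f ≠ 0)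
    (hσ : ∀ σ : K ≃+* K, (∀ c, σ (ι c) = ι c) → ∀ w : Place K ↥(laurentBaseChange K F₀),
      (n : ℤ) ∣ w.ord (bcHom (σ : K →+* K) F₀ f) - w.ord f) :
    ∃ (f₀ : ↥(laurentBaseChange k F₀)) (h : ↥(laurentBaseChange K F₀)),
      f₀ ≠ 0 ∧ h ≠ 0 ∧ f = bcHom ι F₀ f₀ * h ^ n := by
  letI : Algebra k K := ι.toAlgebra
  refine descCore_of_pairs k K F₀ n hn htr f hf
    (Nat.card (UnrKummer K ↥(laurentBaseChange K F₀) n) + 1) (fun σ => ?_)
  exact exists_pair_gen K F₀ n hfin f hf _ (Nat.lt_succ_self _) (fun i => (σ i).toRingEquiv)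
    (fun i w => hσ (σ i).toRingEquiv (fun c => (σ i).commutes c) w)

end Fermat.Agent.GTor.H75
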