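import Fermat.Agent.GTor.H75_DescComb

/-!
# G-TOR package DESC (helper75): the six-term identity between linear combinations and its
functoriality; the final step of DESC-CORE.
-/

set_option autoImplicit false
set_option linter.style.haveILetI false
set_option linter.unusedSectionVars false

noncomputable section

namespace Fermat.Agent.GTor.H75

open ModularCurve

section Ident

variable {R S : Type*} [CommRing R] [CommRing S]
variable {I I' J J' : Type*} [Fintype I] [Fintype I'] [Fintype J] [Fintype J']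

theorem coeffMap_injective_of_injective (φ : R →+* S) (hφ : Function.Injective φ) :
    Function.Injective (coeffMap φ) := by
  intro x y h
  ext m
  have := congrArg (fun z => z.coeff m) h
  simpa using hφ this

/-- the six-term identity `lc A1 * lc A2 * (lc A3)^n = (lc A4)^n * lc A5 * lc A6` -/
def Ident (j : ℚ →+* R) (y : I → LaurentSeries ℚ) (y' : I' → LaurentSeries ℚ)
    (z : J → LaurentSeries ℚ) (z' : J' → LaurentSeries ℚ) (n : ℕ)
    (A1 : I → R) (A2 : I' → R) (A3 : J' → R) (A4 : J → R) (A5 : I → R) (A6 : I' → R) : Prop :=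
  lc j y A1 * lc j y' A2 * lc j z' A3 ^ n = lc j z A4 ^ n * lc j y A5 * lc j y' A6

variable {j : ℚ →+* R} {y : I → LaurentSeries ℚ} {y' : I' → LaurentSeries ℚ}
  {z : J → LaurentSeries ℚ} {z' : J' → LaurentSeries ℚ} {n : ℕ}
  {A1 : I → R} {A2 : I' → R} {A3 : J' → R} {A4 : J → R} {A5 : I → R} {A6 : I' → R}

theorem Ident.map (h : Ident j y y' z z' n A1 A2 A3 A4 A5 A6) (φ : R →+* S) (j' : ℚ →+* S) :
    Ident j' y y' z z' n (fun i => φ (A1 i)) (fun i => φ (A2 i)) (fun i => φ (A3 i))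
      (fun i => φ (A4 i)) (fun i => φ (A5 i)) (fun i => φ (A6 i)) := by
  have := congrArg (coeffMap φ) h
  simp only [map_mul, map_pow, coeffMap_lc φ j j'] at this
  exact this

theorem Ident.of_map (φ : R →+* S) (hφ : Function.Injective φ) (j' : ℚ →+* S)
    (h : Ident j' y y' z z' n (fun i => φ (A1 i)) (fun i => φ (A2 i)) (fun i => φ (A3 i))
      (fun i => φ (A4 i)) (fun i => φ (A5 i)) (fun i => φ (A6 i))) :
    Ident j y y' z z' n A1 A2 A3 A4 A5 A6 := by
  apply coeffMap_injective_of_injective φ hφ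
  simp only [map_mul, map_pow, coeffMap_lc φ j j']
  exact h

theorem Ident.scale (h : Ident j y y' z z' n A1 A2 A3 A4 A5 A6) (c₁ c₂ : R) :
    Ident j y y' z z' n (fun i => c₁ * A1 i) A2 (fun i => c₂ * A3 i)
      (fun i => c₂ * A4 i) A5 (fun i => c₁ * A6 i) := by
  unfold Ident at h ⊢
  rw [lc_smul, lc_smul, lc_smul, lc_smul, mul_pow, mul_pow]
  linear_combination (HahnSeries.C c₁ * HahnSeries.C c₂ ^ n) * h

end Ident

section Final

variable {k K : Type} [Field k] [Field K] [Algebra ℚ k] [Algebra ℚ K]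
variable (F₀ : IntermediateField ℚ (LaurentSeries ℚ))
variable {I I' J J' : Type*} [Fintype I] [Fintype I'] [Fintype J] [Fintype J']

theorem core_final (ι : k →+* K) (n : ℕ) (hn : 0 < n) (f : ↥(laurentBaseChange K F₀))
    (y : I → LaurentSeries ℚ) (y' : I' → LaurentSeries ℚ)
    (z : J → LaurentSeries ℚ) (z' : J' → LaurentSeries ℚ)
    (hy : ∀ i, y i ∈ F₀) (hy' : ∀ i, y' i ∈ F₀) (hz : ∀ i, z i ∈ F₀) (hz' : ∀ i, z' i ∈ F₀)
    (a : I → K) (b : I' → K) (a₀ : I → k) (b₀ : I' → k) (α : J → K) (β : J' → K)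
    (hP : lc (algebraMap ℚ K) y a ≠ 0) (hQ : lc (algebraMap ℚ K) y' b ≠ 0)
    (hfQ : (f : LaurentSeries K) * lc (algebraMap ℚ K) y' b = lc (algebraMap ℚ K) y a)
    (hQ' : lc (algebraMap ℚ K) y' (fun i => ι (b₀ i)) ≠ 0)
    (hA : lc (algebraMap ℚ K) z α ≠ 0)
    (hid : Ident (algebraMap ℚ K) y y' z z' n (fun i => ι (a₀ i)) b β α a (fun i => ι (b₀ i))) :
    ∃ (f₀ : ↥(laurentBaseChange k F₀)) (h : ↥(laurentBaseChange K F₀)),
      f₀ ≠ 0 ∧ h ≠ 0 ∧ f = bcHom ι F₀ f₀ * h ^ n := by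
  unfold Ident at hid
  set P := lc (algebraMap ℚ K) y a with hPdef
  set Q := lc (algebraMap ℚ K) y' b with hQdef
  set P' := lc (algebraMap ℚ K) y (fun i => ι (a₀ i)) with hP'def
  set Q' := lc (algebraMap ℚ K) y' (fun i => ι (b₀ i)) with hQ'def
  set A := lc (algebraMap ℚ K) z α with hAdef
  set B := lc (algebraMap ℚ K) z' β with hBdef
  -- nonvanishing of the remaining two terms
  have hR : A ^ n * P * Q' ≠ 0 := mul_ne_zero (mul_ne_zero (pow_ne_zero n hA) hP) hQ'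
  rw [← hid] at hR
  have hP' : P' ≠ 0 := fun h0 => hR (by rw [h0, zero_mul, zero_mul])
  have hBn : B ^ n ≠ 0 := fun h0 => hR (by rw [h0, mul_zero])
  have hB : B ≠ 0 := fun h0 => hBn (by rw [h0]; exact zero_pow hn.ne')
  -- the series over `k`
  have hP0eq : coeffMap ι (lc (algebraMap ℚ k) y a₀) = P' := coeffMap_lc ι _ _ y a₀
  have hQ0eq : coeffMap ι (lc (algebraMap ℚ k) y' b₀) = Q' := coeffMap_lc ι _ _ y' b₀
  have hP0 : lc (algebraMap ℚ k) y a₀ ≠ 0 := by
    intro h0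
    rw [h0, map_zero] at hP0eq
    exact hP' hP0eq.symm
  have hQ0 : lc (algebraMap ℚ k) y' b₀ ≠ 0 := by
    intro h0
    rw [h0, map_zero] at hQ0eq
    exact hQ' hQ0eq.symm
  let p₀ : ↥(laurentBaseChange k F₀) := ⟨_, lc_mem k F₀ y hy a₀⟩
  let q₀ : ↥(laurentBaseChange k F₀) := ⟨_, lc_mem k F₀ y' hy' b₀⟩
  let Ae : ↥(laurentBaseChange K F₀) := ⟨A, lc_mem K F₀ z hz α⟩
  let Be : ↥(laurentBaseChange K F₀) := ⟨B, lc_mem K F₀ z' hz' β⟩
  have hp₀ : p₀ ≠ 0 := fun h0 => hP0 (congrArg Subtype.val h0)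
  have hq₀ : q₀ ≠ 0 := fun h0 => hQ0 (congrArg Subtype.val h0)
  have hAe : Ae ≠ 0 := fun h0 => hA (congrArg Subtype.val h0)
  have hBe : Be ≠ 0 := fun h0 => hB (congrArg Subtype.val h0)
  refine ⟨p₀ / q₀, Be / Ae, div_ne_zero hp₀ hq₀, div_ne_zero hBe hAe, ?_⟩
  apply Subtype.ext
  have hf : (f : LaurentSeries K) = P / Q := by
    rw [← hfQ, mul_div_assoc, div_self hQ, mul_one]
  have hbc : ((bcHom ι F₀ (p₀ / q₀) : ↥(laurentBaseChange K F₀)) : LaurentSeries K) = P' / Q' := by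
    rw [map_div₀]
    show ((bcHom ι F₀ p₀ : ↥(laurentBaseChange K F₀)) : LaurentSeries K) /
      ((bcHom ι F₀ q₀ : ↥(laurentBaseChange K F₀)) : LaurentSeries K) = P' / Q'
    rw [bcHom_coe, bcHom_coe]
    show coeffMap ι (lc (algebraMap ℚ k) y a₀) / coeffMap ι (lc (algebraMap ℚ k) y' b₀) = _
    rw [hP0eq, hQ0eq]
  show (f : LaurentSeries K) =
    ((bcHom ι F₀ (p₀ / q₀) : ↥(laurentBaseChange K F₀)) : LaurentSeries K) * (B / A) ^ n
  rw [hbc, hf, div_pow]
  field_simp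
  linear_combination -hid

end Final

end Fermat.Agent.GTor.H75
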