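import Fermat.Agent.GTor.H44_NormSeriesBC
import Fermat.Agent.S28.H30_Pexp
import Fermat.Agent.S23.H22_Nice
import Fermat.Agent.S23.H83_QExp
import Fermat.Agent.GTor.Defs

/-!
# G-TOR, package HK-an (3): the `t`-expansions of the factors of `heckeProd`  (helper76)

For `A` holomorphic on `ℍ`, of period `1` and bounded at `i∞` (`Nice 1 A`), with `q`-expansion
`∑ a_n q^n`, and `t = exp(2πi z/ℓ)`:

* `A ((z + j)/ℓ) = ∑ a_n ζ^(j n) t^n`       (`pexp_comp_heckeMatrix`),
* `A (ℓ z) = ∑ a_n t^(ℓ² n)`                 (`pexp_comp_heckeDiagMatrix`),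

and both functions are `BPH ℓ` (holomorphic, `ℓ`-periodic, bounded at `i∞`).
The general statement is for `z ↦ A ((a z + b)/d)` (`qExpansion_comp_coeff`), generalising
`Fermat.Agent.S23.H83` from level one forms to `Nice 1` functions.
-/

set_option autoImplicit false
set_option linter.style.haveILetI false

open Complex Function Filter
open UpperHalfPlane hiding I
open scoped Real MatrixGroups ModularForm Manifold Topology

noncomputable section

namespace Fermat.Agent.GTor.H76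

open Fermat.Agent.S23.H22 (Nice)
open Fermat.Agent.S28.H30 (pexp BPH)
open Fermat.Agent.S23.H83
open Fermat.Agent.GTor.H44
open ModularCurve (qExpand)

section General

variable {A : ℍ → ℂ} (hA : Nice 1 A) (a b d : ℕ) (h : (a : ℝ) * (d : ℝ) ≠ 0)

include hA in
theorem nice_apply_eq_of_coe_eq_add_nat {τ₁ τ₂ : ℍ} (m : ℕ)
    (hτ : (τ₁ : ℂ) = τ₂ + m) : A τ₁ = A τ₂ := by
  have hper : Periodic (A ∘ ofComplex) ((1 : ℝ) : ℂ) := hA.per
  have h1 : (A ∘ ofComplex) ((τ₂ : ℂ) + m) = (A ∘ ofComplex) (τ₂ : ℂ) := by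
    have := hper.nat_mul m
    rw [Complex.ofReal_one, mul_one] at this
    exact this (τ₂ : ℂ)
  simp only [comp_apply] at h1
  rw [← hτ, ofComplex_apply, ofComplex_apply] at h1
  exact h1

include hA in
theorem nice_comp_apply_eq_of_coe_eq_add {τ τ' : ℍ} (hτ : (τ' : ℂ) = τ + (a * d : ℕ)) :
    A (ModularForm.upperTriangularGL a b d h • τ')
      = A (ModularForm.upperTriangularGL a b d h • τ) := by
  refine nice_apply_eq_of_coe_eq_add_nat hA (a ^ 2) ?_
  rw [coe_upperTriangularGL_smul, coe_upperTriangularGL_smul, hτ]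
  have hd := natCast_d_ne_zero a d h
  push_cast
  field_simp
  ring

/-- The coefficients of the `q_{ad}`-expansion of `A ((a z + b) / d)`. -/
def niceCoeff (A : ℍ → ℂ) (a b d : ℕ) (n : ℕ) : ℂ :=
  if a ^ 2 ∣ n then
    Complex.exp (2 * π * Complex.I * b * ((n / a ^ 2 : ℕ) : ℂ) / d)
      * (qExpansion 1 A).coeff (n / a ^ 2)
  else 0

include hA in
theorem hasSum_nice_comp (τ : ℍ) :
    HasSum (fun n : ℕ ↦ niceCoeff A a b d n • Periodic.qParam ((a * d : ℕ) : ℝ) τ ^ n)
      (A (ModularForm.upperTriangularGL a b d h • τ)) := by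
  have ha : a ≠ 0 := by
    have := natCast_a_ne_zero a d h
    exact_mod_cast this
  have ha2 : a ^ 2 ≠ 0 := pow_ne_zero 2 ha
  have hF := UpperHalfPlane.hasSum_qExpansion one_pos hA.per hA.hol hA.bdd
    (ModularForm.upperTriangularGL a b d h • τ)
  rw [qParam_upperTriangularGL_smul] at hF
  have hinj : Function.Injective (fun l : ℕ ↦ l * a ^ 2) := mul_left_injective₀ ha2
  refine (hinj.hasSum_iff (fun m hm => ?_)).mp ?_
  · have hnd : ¬ a ^ 2 ∣ m := by
      rintro ⟨l, rfl⟩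
      exact hm ⟨l, by simp [mul_comm]⟩
    simp [niceCoeff, hnd]
  · convert hF using 1
    funext l
    simp only [comp_apply, niceCoeff, if_pos (dvd_mul_left (a ^ 2) l),
      Nat.mul_div_cancel _ (Nat.pos_of_ne_zero ha2), smul_eq_mul]
    rw [mul_pow, ← pow_mul, ← Complex.exp_nat_mul, mul_comm l (a ^ 2)]
    have : (l : ℂ) * (2 * π * Complex.I * b / d) = 2 * π * Complex.I * b * (l : ℂ) / d := by ring
    rw [this]
    ring

include hA in
theorem mdifferentiable_nice_comp :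
    MDiff (fun z : ℍ => A (ModularForm.upperTriangularGL a b d h • z)) :=
  hA.hol.comp (mdifferentiable_smul (det_upperTriangularGL_pos a b d h))

include hA in
theorem periodic_nice_comp :
    Periodic ((fun z : ℍ => A (ModularForm.upperTriangularGL a b d h • z)) ∘ ofComplex)
      ((a * d : ℕ) : ℂ) :=
  periodic_comp_ofComplex_of_coe_add (a * d)
    (fun _ _ hτ => nice_comp_apply_eq_of_coe_eq_add hA a b d h hτ)

include hA in
theorem isBoundedAtImInfty_nice_comp :
    IsBoundedAtImInfty (fun z : ℍ => A (ModularForm.upperTriangularGL a b d h • z)) :=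
  isBoundedAtImInfty_of_hasSum_qExpansion (natCast_mul_pos' a d h)
    (hasSum_nice_comp hA a b d h)

include hA in
theorem qExpansion_nice_comp_coeff (n : ℕ) :
    (qExpansion ((a * d : ℕ) : ℝ)
      (fun z : ℍ => A (ModularForm.upperTriangularGL a b d h • z))).coeff n
      = niceCoeff A a b d n := by
  have hper : Periodic ((fun z : ℍ => A (ModularForm.upperTriangularGL a b d h • z)) ∘ ofComplex)
      ((((a * d : ℕ) : ℝ)) : ℂ) := by
    rw [Complex.ofReal_natCast]
    exact periodic_nice_comp hA a b d h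
  have han := analyticAt_cuspFunction_zero (natCast_mul_pos' a d h) hper
    (mdifferentiable_nice_comp hA a b d h)
    (isBoundedAtImInfty_nice_comp hA a b d h)
  exact (UpperHalfPlane.qExpansion_coeff_unique
    (ContinuousMap.mk _ (mdifferentiable_nice_comp hA a b d h).continuous)
    (natCast_mul_pos' a d h) han (hasSum_nice_comp hA a b d h) n).symm

end General

/-! ### The two Hecke matrices -/

section Hecke

variable (ℓ : ℕ) [NeZero ℓ] {A : ℍ → ℂ}

theorem natCast_one_mul_ne_zero : (((1 : ℕ) : ℝ)) * ((ℓ : ℕ) : ℝ) ≠ 0 := by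
  have : (ℓ : ℝ) ≠ 0 := by exact_mod_cast NeZero.ne ℓ
  simpa using this

theorem natCast_mul_one_ne_zero : ((ℓ : ℕ) : ℝ) * (((1 : ℕ) : ℝ)) ≠ 0 := by
  have : (ℓ : ℝ) ≠ 0 := by exact_mod_cast NeZero.ne ℓ
  simpa using this

theorem heckeMatrix_eq_upperTriangularGL (j : ℕ) :
    ModularForm.heckeMatrix ℓ j
      = ModularForm.upperTriangularGL ((1 : ℕ) : ℝ) (j : ℝ) ((ℓ : ℕ) : ℝ)
          (natCast_one_mul_ne_zero ℓ) := by
  apply Units.ext
  rw [ModularForm.val_heckeMatrix (NeZero.ne ℓ), ModularForm.val_upperTriangularGL, Nat.cast_one]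

theorem heckeDiagMatrix_eq_upperTriangularGL :
    ModularForm.heckeDiagMatrix ℓ
      = ModularForm.upperTriangularGL ((ℓ : ℕ) : ℝ) (((0 : ℕ)) : ℝ) ((1 : ℕ) : ℝ)
          (natCast_mul_one_ne_zero ℓ) := by
  apply Units.ext
  rw [ModularForm.val_heckeDiagMatrix (NeZero.ne ℓ), ModularForm.val_upperTriangularGL,
    Nat.cast_one, Nat.cast_zero]

theorem bph_comp_heckeMatrix (hA : Nice 1 A) (j : ℕ) :
    BPH ℓ (fun z => A (ModularForm.heckeMatrix ℓ j • z)) := by
  rw [heckeMatrix_eq_upperTriangularGL]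
  refine ⟨?_, mdifferentiable_nice_comp hA 1 j ℓ _, isBoundedAtImInfty_nice_comp hA 1 j ℓ _⟩
  have := periodic_nice_comp hA 1 j ℓ (natCast_one_mul_ne_zero ℓ)
  rwa [one_mul] at this

theorem bph_comp_heckeDiagMatrix (hA : Nice 1 A) :
    BPH ℓ (fun z => A (ModularForm.heckeDiagMatrix ℓ • z)) := by
  rw [heckeDiagMatrix_eq_upperTriangularGL]
  refine ⟨?_, mdifferentiable_nice_comp hA ℓ 0 1 _, isBoundedAtImInfty_nice_comp hA ℓ 0 1 _⟩
  have := periodic_nice_comp hA ℓ 0 1 (natCast_mul_one_ne_zero ℓ)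
  rwa [mul_one] at this

theorem qExpansion_comp_heckeMatrix_coeff (hA : Nice 1 A) (j n : ℕ) :
    (qExpansion (ℓ : ℝ) (fun z => A (ModularForm.heckeMatrix ℓ j • z))).coeff n
      = Complex.exp (2 * π * Complex.I * j * (n : ℂ) / ℓ) * (qExpansion 1 A).coeff n := by
  rw [heckeMatrix_eq_upperTriangularGL]
  have := qExpansion_nice_comp_coeff hA 1 j ℓ (natCast_one_mul_ne_zero ℓ) n
  rw [one_mul] at this
  rw [this, niceCoeff, one_pow, if_pos (one_dvd n), Nat.div_one]

theorem qExpansion_comp_heckeDiagMatrix_coeff (hA : Nice 1 A) (n : ℕ) :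
    (qExpansion (ℓ : ℝ) (fun z => A (ModularForm.heckeDiagMatrix ℓ • z))).coeff n
      = if ℓ ^ 2 ∣ n then (qExpansion 1 A).coeff (n / ℓ ^ 2) else 0 := by
  rw [heckeDiagMatrix_eq_upperTriangularGL]
  have := qExpansion_nice_comp_coeff hA ℓ 0 1 (natCast_mul_one_ne_zero ℓ) n
  rw [mul_one] at this
  rw [this, niceCoeff]
  split_ifs with h
  · simp
  · rfl

theorem pexp_comp_heckeMatrix (hA : Nice 1 A) (j : ℕ) :
    pexp ℓ (fun z => A (ModularForm.heckeMatrix ℓ j • z))
      = twistBy (zetaUnit ℓ ^ j) (qLaurent A) := by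
  ext m
  rcases lt_or_ge m 0 with hm | hm
  · rw [Fermat.Agent.S28.H30.pexp_coeff_neg _ hm, twistBy_coeff, qLaurent,
      ModularCurve.ofPowerSeries_coeff_of_neg _ hm, mul_zero]
  · obtain ⟨n, rfl⟩ := Int.eq_ofNat_of_zero_le hm
    rw [Fermat.Agent.S28.H30.pexp_coeff_nat, qExpansion_comp_heckeMatrix_coeff ℓ hA, twistBy_coeff,
      qLaurent, HahnSeries.ofPowerSeries_apply_coeff]
    congr 1
    rw [zpow_natCast, ← pow_mul, Units.val_pow_eq_pow_val, coe_zetaUnit, ← Complex.exp_nat_mul]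
    congr 1
    push_cast
    ring

theorem pexp_comp_heckeDiagMatrix (hA : Nice 1 A) :
    pexp ℓ (fun z => A (ModularForm.heckeDiagMatrix ℓ • z))
      = qExpand ℂ ℓ (qExpand ℂ ℓ (qLaurent A)) := by
  rw [ModularCurve.qExpand_qExpand]
  ext m
  rcases lt_or_ge m 0 with hm | hm
  · rw [Fermat.Agent.S28.H30.pexp_coeff_neg _ hm]
    by_cases hd : (((ℓ * ℓ : ℕ)) : ℤ) ∣ m
    · obtain ⟨c, rfl⟩ := hd
      rw [ModularCurve.qExpand_coeff_mul, qLaurent]
      have hc : c < 0 := by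
        by_contra hc
        rw [not_lt] at hc
        have : (0 : ℤ) ≤ ((ℓ * ℓ : ℕ) : ℤ) * c := mul_nonneg (by positivity) hc
        omega
      rw [ModularCurve.ofPowerSeries_coeff_of_neg _ hc]
    · rw [ModularCurve.qExpand_coeff_of_not_dvd _ _ hd]
  · obtain ⟨n, rfl⟩ := Int.eq_ofNat_of_zero_le hm
    rw [Fermat.Agent.S28.H30.pexp_coeff_nat, qExpansion_comp_heckeDiagMatrix_coeff ℓ hA]
    split_ifs with h
    · obtain ⟨c, rfl⟩ := h
      have hℓ2 : 0 < ℓ ^ 2 := pow_pos (Nat.pos_of_ne_zero (NeZero.ne ℓ)) 2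
      rw [Nat.mul_div_cancel_left _ hℓ2]
      have e : ((ℓ ^ 2 * c : ℕ) : ℤ) = ((ℓ * ℓ : ℕ) : ℤ) * (c : ℤ) := by
        push_cast
        ring
      rw [e, ModularCurve.qExpand_coeff_mul, qLaurent, HahnSeries.ofPowerSeries_apply_coeff]
    · rw [ModularCurve.qExpand_coeff_of_not_dvd]
      intro hd
      apply h
      have hd' : ((ℓ ^ 2 : ℕ) : ℤ) ∣ (n : ℤ) := by
        have e : ((ℓ ^ 2 : ℕ) : ℤ) = ((ℓ * ℓ : ℕ) : ℤ) := by
          push_cast
          ring
        rw [e]
        exact hd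
      exact Int.natCast_dvd_natCast.mp hd'

end Hecke

end Fermat.Agent.GTor.H76
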