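import Fermat.Agent.GTor.H81_TateLimit
import Fermat.Agent.GTor.H81_TorsRed
import Fermat.Agent.Betti.H21_AlgEigStmt
import Fermat.Agent.S30.H56_Lattice

/-!
# G-TOR, T-X: clauses of the Tate pieces from torsion-level statements  (helper81)

`C : TateCoords N p S`, `L : TateLimit C 𝒪 hp`, `Pc : SubPiece L.ρL`.

* `limit_ES`, `limit_unram`, `limit_unip` : the Eichler–Shimura relation, unramifiedness and
  unipotence of inertia for the limit matrices `L.ρL σ`, from the torsion-level statements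
  `Stmt_TorsES`, `Stmt_TorsUnram` and (UNIP).
* `piece_ES`, `piece_unram`, `piece_unip` : the same on a piece.
* `exists_piece_eig` : the piece of an eigensystem `χ` (the `χ`-eigenspace).
-/

set_option autoImplicit false
set_option linter.unusedSectionVars false

noncomputable section

namespace Fermat.Agent.GTor.H81

open AlgebraicCurve ModularCurve Fermat.Agent.GTor Fermat.Agent.GTor.H58T1

section Clauses

variable {N p : ℕ} [NeZero N] [Fact p.Prime] {S : Set ℕ} {C : TateCoords N p S}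
variable {𝒪 : Type} [CommRing 𝒪] [IsLocalRing 𝒪]
  [IsAdicComplete (IsLocalRing.maximalIdeal 𝒪) 𝒪]
  {hp : (p : 𝒪) ∈ IsLocalRing.maximalIdeal 𝒪} (L : TateLimit C 𝒪 hp)

theorem pow_nsmul_coe' (k : ℕ) (x : Jtor N (p ^ k)) : ∃ n : ℕ, p ^ n • (x : JZero N) = 0 :=
  ⟨k, pow_nsmul_coe x⟩

/-! ### level `k` -/

theorem rho_ES (hES : Stmt_TorsES N p) {ℓ : ℕ} (hℓ : ℓ.Prime) (hℓN : ¬ ℓ ∣ N) (hℓp : ℓ ≠ p)
    (hℓS : ℓ ∉ S) (A : ValuationSubring (AlgebraicClosure ℚ)) (hA : A.LiesOverPrime ℓ) (σ : GQ)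
    (hσ : A.IsFrobeniusAt σ ℓ) (k : ℕ) :
    C.ρ k σ * C.ρ k σ - Mc (ZMod (p ^ k)) C.M (CuspForm.heckeAlgebra.T hℓ hℓN hℓS) * C.ρ k σ
      + ((ℓ : ℕ) : Matrix (Fin C.r) (Fin C.r) (ZMod (p ^ k))) = 0 := by
  have h0 : C.mat k (TateCoords.galEnd k σ * TateCoords.galEnd k σ
      - TateCoords.heckeEnd k (⟨ℓ, hℓ⟩ : Nat.Primes) * TateCoords.galEnd k σ
      + ((ℓ : ℕ) : AddMonoid.End (Jtor N (p ^ k)))) = 0 := by
    apply C.mat_eq_zero k
    intro x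
    have key := hES ℓ hℓ hℓN hℓp A hA σ hσ (x : JZero N) (pow_nsmul_coe' k x)
    exact key
  have hn : C.mat k ((ℓ : ℕ) : AddMonoid.End (Jtor N (p ^ k))) =
      ((ℓ : ℕ) : Matrix (Fin C.r) (Fin C.r) (ZMod (p ^ k))) := map_natCast (C.mat k) ℓ
  rw [map_add, map_sub, map_mul, map_mul, hn, C.mat_gal, C.mat_hecke k hℓ hℓN hℓS] at h0
  exact h0

theorem rho_unram (hU : Stmt_TorsUnram N p) {q : ℕ} (hq : q.Prime) (hqN : ¬ q ∣ N) (hqp : q ≠ p)
    (P : ValuationSubring (AlgebraicClosure ℚ)) (hP : P.LiesOverPrime q) (σ : GQ)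
    (hσ : σ ∈ P.inertiaSubgroupIn ℚ) (k : ℕ) : C.ρ k σ = 1 := by
  have h0 : C.mat k (TateCoords.galEnd k σ - 1) = 0 := by
    apply C.mat_eq_zero k
    intro x
    have key := hU q hq hqN hqp P hP σ hσ (x : JZero N) (pow_nsmul_coe' k x)
    show σ • (x : JZero N) - (x : JZero N) = 0
    rw [key, sub_self]
  rw [map_sub, map_one, C.mat_gal, sub_eq_zero] at h0
  exact h0

/-- (UNIP) at level `k`. -/
theorem rho_unip {σ τ : GQ}
    (h : ∀ x : JZero N, (∃ n : ℕ, p ^ n • x = 0) → σ • τ • x - σ • x - τ • x + x = 0) (k : ℕ) :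
    (C.ρ k σ - 1) * (C.ρ k τ - 1) = 0 := by
  have h0 : C.mat k (TateCoords.galEnd k σ * TateCoords.galEnd k τ - TateCoords.galEnd k σ
      - TateCoords.galEnd k τ + 1) = 0 := by
    apply C.mat_eq_zero k
    intro x
    exact h (x : JZero N) (pow_nsmul_coe' k x)
  rw [map_add, map_sub, map_sub, map_mul, map_one, C.mat_gal, C.mat_gal] at h0
  rw [← h0]
  noncomm_ring

/-! ### the limit -/

theorem limit_ES (hES : Stmt_TorsES N p) {ℓ : ℕ} (hℓ : ℓ.Prime) (hℓN : ¬ ℓ ∣ N) (hℓp : ℓ ≠ p)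
    (hℓS : ℓ ∉ S) (A : ValuationSubring (AlgebraicClosure ℚ)) (hA : A.LiesOverPrime ℓ) (σ : GQ)
    (hσ : A.IsFrobeniusAt σ ℓ) :
    L.ρL σ * L.ρL σ - Mc 𝒪 C.M (CuspForm.heckeAlgebra.T hℓ hℓN hℓS) * L.ρL σ
      + ((ℓ : ℕ) : Matrix (Fin C.r) (Fin C.r) 𝒪) = 0 :=
  ((((L.spec σ).mul (L.spec σ)).sub ((compat_Mc C.M _).mul (L.spec σ))).add
    (compat_natCast ℓ)).eq_zero (fun k => rho_ES hES hℓ hℓN hℓp hℓS A hA σ hσ k)

theorem limit_unram (hU : Stmt_TorsUnram N p) {q : ℕ} (hq : q.Prime) (hqN : ¬ q ∣ N)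
    (hqp : q ≠ p) (P : ValuationSubring (AlgebraicClosure ℚ)) (hP : P.LiesOverPrime q) (σ : GQ)
    (hσ : σ ∈ P.inertiaSubgroupIn ℚ) : L.ρL σ = 1 :=
  (L.spec σ).eq compat_one (fun k => rho_unram hU hq hqN hqp P hP σ hσ k)

theorem limit_unip {σ τ : GQ}
    (h : ∀ x : JZero N, (∃ n : ℕ, p ^ n • x = 0) → σ • τ • x - σ • x - τ • x + x = 0) :
    (L.ρL σ - 1) * (L.ρL τ - 1) = 0 :=
  (((L.spec σ).sub compat_one).mul ((L.spec τ).sub compat_one)).eq_zero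
    (fun k => rho_unip h k)

/-! ### pieces -/

variable [IsDomain 𝒪] (Pc : SubPiece L.ρL)

theorem piece_ES (hES : Stmt_TorsES N p) {ℓ : ℕ} (hℓ : ℓ.Prime) (hℓN : ¬ ℓ ∣ N) (hℓp : ℓ ≠ p)
    (hℓS : ℓ ∉ S) (a : 𝒪)
    (ha : Mc 𝒪 C.M (CuspForm.heckeAlgebra.T hℓ hℓN hℓS) * Pc.P = a • Pc.P)
    (A : ValuationSubring (AlgebraicClosure ℚ)) (hA : A.LiesOverPrime ℓ) (σ : GQ)
    (hσ : A.IsFrobeniusAt σ ℓ) :
    Pc.rep σ * Pc.rep σ - a • Pc.rep σ + (ℓ : 𝒪) • (1 : Matrix (Fin Pc.d) (Fin Pc.d) 𝒪) = 0 := by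
  have h := limit_ES L hES hℓ hℓN hℓp hℓS A hA σ hσ
  rw [← natCast_smul_one] at h
  have hrel := ((((Pc.rel_rep σ).mul (Pc.rel_rep σ)).sub
    ((SubPiece.rel_of_eig ha).mul (Pc.rel_rep σ))).add (Pc.rel_one.smul (ℓ : 𝒪))).eq_zero' h
  rw [Matrix.smul_mul, Matrix.one_mul] at hrel
  exact hrel

theorem piece_unram (hU : Stmt_TorsUnram N p) {q : ℕ} (hq : q.Prime) (hqN : ¬ q ∣ N)
    (hqp : q ≠ p) : S30.MatUnramAt Pc.rep q := by
  intro P hP σ hσ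
  have h := limit_unram L hU hq hqN hqp P hP σ hσ
  rw [SubPiece.rep_apply, h, Matrix.mul_one, Pc.QP]

theorem piece_unip {σ τ : GQ}
    (h : ∀ x : JZero N, (∃ n : ℕ, p ^ n • x = 0) → σ • τ • x - σ • x - τ • x + x = 0) :
    (Pc.rep σ - 1) * (Pc.rep τ - 1) = 0 :=
  ((((Pc.rel_rep σ).sub Pc.rel_one).mul ((Pc.rel_rep τ).sub Pc.rel_one))).eq_zero'
    (limit_unip L h)

end Clauses

/-! ## The piece of an eigensystem -/

section Eig

variable {N p : ℕ} [NeZero N] [Fact p.Prime] {S : Set ℕ} {C : TateCoords N p S}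
variable {𝒪 : Type} [CommRing 𝒪] [IsLocalRing 𝒪] [IsDomain 𝒪]
  [IsAdicComplete (IsLocalRing.maximalIdeal 𝒪) 𝒪]
  {hp : (p : 𝒪) ∈ IsLocalRing.maximalIdeal 𝒪} (L : TateLimit C 𝒪 hp)

/-- the limit matrices over the fraction field commute with the Hecke matrices. -/
theorem matF_comm (σ : GQ) (t : CuspForm.heckeAlgebra N 2 S) :
    matF (L.ρL σ) * Mc (FractionRing 𝒪) C.M t = Mc (FractionRing 𝒪) C.M t * matF (L.ρL σ) := by
  have h := congrArg (fun X : Matrix (Fin C.r) (Fin C.r) 𝒪 => matF X) (L.comm σ t)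
  simp only [matF, Matrix.map_mul] at h
  rw [← matF_Mc C.M t]
  exact h

/-- the eigenspace of a character is stable under the limit representation. -/
theorem eigW_stable (χ : CuspForm.heckeAlgebra N 2 S →+* 𝒪) (σ : GQ)
    (w : Fin C.r → FractionRing 𝒪) (hw : w ∈ eigW C.M χ) :
    (matF (L.ρL σ)).mulVec w ∈ eigW C.M χ := by
  intro t
  rw [Matrix.mulVec_mulVec, ← matF_comm L σ t, ← Matrix.mulVec_mulVec, hw t, Matrix.mulVec_smul]

/-- **The piece of an eigensystem.** -/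
theorem exists_piece_eig [IsPrincipalIdealRing 𝒪] [CharZero 𝒪]
    (χ : CuspForm.heckeAlgebra N 2 S →+* 𝒪) :
    ∃ Pc : SubPiece L.ρL, ∀ t, Mc 𝒪 C.M t * Pc.P = χ t • Pc.P := by
  have : CharZero (FractionRing 𝒪) :=
    charZero_of_injective_algebraMap (IsFractionRing.injective 𝒪 (FractionRing 𝒪))
  obtain ⟨v, hv0, hv⟩ := Betti.H21.stmt_algEig (CuspForm.heckeAlgebra N 2 S) C.r C.M C.tate.inj
    (FractionRing 𝒪) ((algebraMap 𝒪 (FractionRing 𝒪)).comp χ)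
  have hW : eigW C.M χ ≠ ⊥ := by
    intro h
    have hvW : v ∈ eigW C.M χ := fun t => hv t
    rw [h] at hvW
    exact hv0 ((Submodule.mem_bot _).mp hvW)
  obtain ⟨Pc, hPc⟩ := exists_subPiece Fermat.Agent.S30.H56.stmt_lattice L.ρL (eigW C.M χ) hW
    (fun σ w hw => eigW_stable L χ σ w hw)
  exact ⟨Pc, mul_eq_of_mem_eigW C.M χ Pc.P hPc⟩

end Eig

end Fermat.Agent.GTor.H81
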