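import Fermat.Agent.GTor.H81_Words
import Fermat.Agent.Betti.EigenFinal
import Fermat.Agent.R.H99_SMO

/-!
# G-TOR, T-X: old-killers  (helper81)

* `exists_cusp_eigenvector` : every character `ψ : 𝕋^S(N) → ℂ` of the Hecke algebra has a nonzero
  eigenvector in `S₂(Γ₀(N))` (Betti eigenvector + Eichler–Shimura S21).
* `exists_oldKiller` : for a newform `g` of level `M q` (eigencharacter `chig` of `𝕋^S(M q)`) there
  is a word `w` in the `T_l`, `l ∉ S`, which is zero in `𝕋^S(M)` and with `chig(w) ≠ 0`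
  (otherwise `chig` factors through `𝕋^S(M)` and `g` has a companion of level `M`).
-/

set_option autoImplicit false
set_option linter.unusedSectionVars false

noncomputable section

namespace Fermat.Agent.GTor.H81

open CongruenceSubgroup ModularCurve ModularCurve.Period
open Fermat.Agent.Betti Fermat.Agent.Betti.H76

section Eigen

variable (N : ℕ) [NeZero N] (S : Set ℕ)

/-- the period pair intertwines the words in the Hecke operators. -/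
theorem periodHomPair_word (w : FreeAlgebra ℤ (Gen S)) (f g : CuspForm (Gamma0 N) 2) :
    wordB N S ℂ w (periodHomPair N (f, g)) =
      periodHomPair N (wordS N S w f, wordS N S w g) := by
  obtain ⟨pml, hpml, hdef⟩ := periodHomPair_def N
    (Fermat.Agent.S21.existsPeriodMapLinear_of_partA (Fermat.Agent.S21.partA N))
  rw [hdef]
  simp only [LinearMap.coprod_apply, LinearMap.comp_apply, LinearMap.add_apply,
    LinearMap.sub_apply, LinearMap.id_apply, hpml, map_add, map_sub]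
  rw [← wordB_charInvolution, ← wordB_charInvolution, ← periodMap_wordS, ← periodMap_wordS]

/-- **every character of the Hecke algebra occurs in `S₂(Γ₀(N))`.** -/
theorem exists_cusp_eigenvector (ψ : CuspForm.heckeAlgebra N 2 S →+* ℂ) :
    ∃ v : CuspForm (Gamma0 N) 2, v ≠ 0 ∧
      ∀ (ℓ : ℕ) (hℓ : ℓ.Prime) (hℓN : ¬ ℓ ∣ N) (hℓS : ℓ ∉ S),
        CuspForm.heckeTLin 2 hℓ hℓN v = ψ (CuspForm.heckeAlgebra.T hℓ hℓN hℓS) • v := by
  obtain ⟨φ, hφ0, hφpar, hφT, -⟩ := Fermat.Agent.Betti.stmt_eigen N S ℂ ψ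
  have hφmem : φ ∈ parabolicHoms ℂ (Gamma0 N) ℂ := hφpar
  rw [← (Fermat.Agent.S21.result N).2] at hφmem
  obtain ⟨⟨f, g⟩, hfg⟩ := hφmem
  have hinj := (Fermat.Agent.S21.result N).1
  have key : ∀ (ℓ : ℕ) (hℓ : ℓ.Prime) (hℓN : ¬ ℓ ∣ N) (hℓS : ℓ ∉ S),
      (CuspForm.heckeTLin 2 hℓ hℓN f, CuspForm.heckeTLin 2 hℓ hℓN g) =
        ψ (CuspForm.heckeAlgebra.T hℓ hℓN hℓS) • (f, g) := by
    intro ℓ hℓ hℓN hℓS
    apply hinj
    have h1 := periodHomPair_word N S (FreeAlgebra.ι ℤ (mkGen ℓ hℓ hℓS)) f g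
    rw [wordB_ι, wordS_ι] at h1
    have e1 : genS N S (mkGen ℓ hℓ hℓS) = CuspForm.heckeTLin 2 hℓ hℓN := by
      unfold genS
      rw [dif_neg (show ¬ (mkGen ℓ hℓ hℓS : Gen S).1 ∣ N from hℓN)]
      rfl
    have e2 : genB N S ℂ (mkGen ℓ hℓ hℓS) = (TB N ℂ hℓ hℓN).toIntLinearMap := by
      unfold genB
      rw [dif_neg (show ¬ (mkGen ℓ hℓ hℓS : Gen S).1 ∣ N from hℓN)]
      rfl
    rw [e1, e2] at h1
    rw [← h1, map_smul, hfg]
    exact hφT ℓ hℓ hℓN hℓS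
  have hne : f ≠ 0 ∨ g ≠ 0 := by
    by_contra hcon
    push Not at hcon
    apply hφ0
    rw [← hfg, hcon.1, hcon.2]
    exact map_zero _
  rcases hne with hf | hg
  · exact ⟨f, hf, fun ℓ hℓ hℓN hℓS => congrArg Prod.fst (key ℓ hℓ hℓN hℓS)⟩
  · exact ⟨g, hg, fun ℓ hℓ hℓN hℓS => congrArg Prod.snd (key ℓ hℓ hℓN hℓS)⟩

end Eigen

/-- **Existence of old-killers.** -/
theorem exists_oldKiller (hS30 : Fermat.Agent.R.Stmt_S30) {M q : ℕ} [NeZero M] [NeZero q]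
    (hq : q ≠ 1) {g : CuspForm (Gamma0 (M * q)) 2} (hg : g.IsNewform) (S : Finset ℕ)
    (chig : CuspForm.heckeAlgebra (M * q) 2 (↑S : Set ℕ) →+* ℂ)
    (hchig : ∀ (ℓ : ℕ) (hℓ : ℓ.Prime) (hℓM : ¬ ℓ ∣ M * q) (hℓS : ℓ ∉ (↑S : Set ℕ)),
      chig (CuspForm.heckeAlgebra.T hℓ hℓM hℓS) = ModularFormClass.qCoeff g ℓ) :
    ∃ w : FreeAlgebra ℤ (Gen (↑S : Set ℕ)),
      wordSH M (↑S : Set ℕ) w = 0 ∧ chig (wordSH (M * q) (↑S : Set ℕ) w) ≠ 0 := by
  by_contra hcon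
  push Not at hcon
  have hker : RingHom.ker (wordSH M (↑S : Set ℕ)).toRingHom ≤
      RingHom.ker (chig.comp (wordSH (M * q) (↑S : Set ℕ)).toRingHom) := by
    intro w hw
    rw [RingHom.mem_ker] at hw ⊢
    exact hcon w hw
  let ψ : CuspForm.heckeAlgebra M 2 (↑S : Set ℕ) →+* ℂ :=
    (wordSH M (↑S : Set ℕ)).toRingHom.liftOfSurjective (wordSH_surjective M (↑S : Set ℕ))
      ⟨chig.comp (wordSH (M * q) (↑S : Set ℕ)).toRingHom, hker⟩
  have hψ : ∀ w, ψ (wordSH M (↑S : Set ℕ) w) = chig (wordSH (M * q) (↑S : Set ℕ) w) := fun w =>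
    RingHom.liftOfRightInverse_comp_apply _ _ _ _ w
  obtain ⟨v, hv0, hv⟩ := exists_cusp_eigenvector M (↑S : Set ℕ) ψ
  apply hv0
  have hne : M ≠ M * q := by
    intro h
    have h1 : M * 1 = M * q := by rw [mul_one]; exact h
    exact hq (Nat.eq_of_mul_eq_mul_left (Nat.pos_of_ne_zero (NeZero.ne M)) h1).symm
  refine Fermat.Agent.R.H99.IsNewform.eq_zero_of_eigenvector_away hS30 hg (Dvd.intro q rfl) hne S v
    ?_
  intro ℓ hℓ hℓM hℓMq hℓS
  have hℓS' : ℓ ∉ (↑S : Set ℕ) := fun h => hℓS (Finset.mem_coe.1 h)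
  have e1 : wordSH M (↑S : Set ℕ) (FreeAlgebra.ι ℤ (mkGen ℓ hℓ hℓS')) =
      CuspForm.heckeAlgebra.T hℓ hℓM hℓS' := wordSH_ι M (↑S : Set ℕ) (mkGen ℓ hℓ hℓS') hℓM
  have e2 : wordSH (M * q) (↑S : Set ℕ) (FreeAlgebra.ι ℤ (mkGen ℓ hℓ hℓS')) =
      CuspForm.heckeAlgebra.T hℓ hℓMq hℓS' :=
    wordSH_ι (M * q) (↑S : Set ℕ) (mkGen ℓ hℓ hℓS') hℓMq
  rw [hv ℓ hℓ hℓM hℓS', ← hchig ℓ hℓ hℓMq hℓS', ← e1, ← e2, hψ]

end Fermat.Agent.GTor.H81
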