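import Fermat.Agent.GTor.H58_T1

/-!
# G-TOR, T-X: pieces of a matrix representation cut out by a stable subspace  (helper81)

Pure algebra.  `𝒪` is a principal ideal domain with fraction field `F`, `ρL : G → M_r(𝒪)` a matrix
representation and `W ⊆ F^r` a nonzero `ρL`-stable subspace.  `S30.Stmt_Lattice` gives matrices
`P` (columns: a basis of the saturated lattice `W ∩ 𝒪^r`) and `Q` with `Q P = 1`; then
`ρ' σ = Q ρL(σ) P` is a representation of rank `d = dim W > 0` with `P ρ'(σ) = ρL(σ) P`.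
Identities between matrices are transported from `ρL` to `ρ'` by `SubPiece.Rel`.
-/

set_option autoImplicit false
set_option linter.unusedSectionVars false

noncomputable section

namespace Fermat.Agent.GTor.H81

open Fermat.Agent.GTor

section Sub

variable {𝒪 : Type} [CommRing 𝒪] [IsDomain 𝒪] {r : ℕ}

/-- a column of a matrix, viewed over the fraction field. -/
def colF {d : ℕ} (Y : Matrix (Fin r) (Fin d) 𝒪) (j : Fin d) : Fin r → FractionRing 𝒪 :=
  fun i => algebraMap 𝒪 (FractionRing 𝒪) (Y i j)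

/-- a vector, viewed over the fraction field. -/
def vecF (v : Fin r → 𝒪) : Fin r → FractionRing 𝒪 :=
  fun i => algebraMap 𝒪 (FractionRing 𝒪) (v i)

/-- a matrix over the fraction field. -/
abbrev matF (X : Matrix (Fin r) (Fin r) 𝒪) : Matrix (Fin r) (Fin r) (FractionRing 𝒪) :=
  X.map (algebraMap 𝒪 (FractionRing 𝒪))

theorem colF_mul {d : ℕ} (X : Matrix (Fin r) (Fin r) 𝒪) (Y : Matrix (Fin r) (Fin d) 𝒪)
    (j : Fin d) : colF (X * Y) j = (matF X).mulVec (colF Y j) := by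
  funext i
  simp only [colF, Matrix.mul_apply, Matrix.mulVec, dotProduct, Matrix.map_apply, map_sum,
    map_mul]

theorem vecF_mulVec (X : Matrix (Fin r) (Fin r) 𝒪) (v : Fin r → 𝒪) :
    vecF (X.mulVec v) = (matF X).mulVec (vecF v) := by
  funext i
  simp only [vecF, Matrix.mulVec, dotProduct, Matrix.map_apply, map_sum, map_mul]

theorem vecF_injective : Function.Injective (vecF : (Fin r → 𝒪) → (Fin r → FractionRing 𝒪)) := by
  intro v w h
  funext i
  exact IsFractionRing.injective 𝒪 (FractionRing 𝒪) (congrFun h i)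

theorem colF_mulVec {d : ℕ} (Y : Matrix (Fin r) (Fin d) 𝒪) (v : Fin d → 𝒪) :
    vecF (Y.mulVec v) = ∑ j, algebraMap 𝒪 (FractionRing 𝒪) (v j) • colF Y j := by
  funext i
  simp only [vecF, colF, Matrix.mulVec, dotProduct, map_sum, map_mul, Finset.sum_apply,
    Pi.smul_apply, smul_eq_mul]
  exact Finset.sum_congr rfl fun j _ => mul_comm _ _

theorem matF_Mc {R : Type} [CommRing R] (M : R →+* Matrix (Fin r) (Fin r) ℤ) (t : R) :
    matF (H58T1.Mc 𝒪 M t) = H58T1.Mc (FractionRing 𝒪) M t := by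
  ext i j
  simp only [Matrix.map_apply, map_intCast]

variable {G : Type} [Group G]

/-- A piece of a matrix representation: intertwining matrices for a stable direct summand. -/
structure SubPiece (ρL : G →* Matrix (Fin r) (Fin r) 𝒪) where
  /-- the rank of the piece. -/
  d : ℕ
  /-- the inclusion of the piece. -/
  P : Matrix (Fin r) (Fin d) 𝒪
  /-- a retraction. -/
  Q : Matrix (Fin d) (Fin r) 𝒪
  pos : 0 < d
  QP : Q * P = 1
  stab : ∀ σ, P * Q * (ρL σ * P) = ρL σ * P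

namespace SubPiece

variable {ρL : G →* Matrix (Fin r) (Fin r) 𝒪} (Pc : SubPiece ρL)

/-- the representation on the piece. -/
def rep : G →* Matrix (Fin Pc.d) (Fin Pc.d) 𝒪 where
  toFun σ := Pc.Q * ρL σ * Pc.P
  map_one' := by rw [map_one, Matrix.mul_one, Pc.QP]
  map_mul' σ τ := by
    rw [map_mul]
    calc Pc.Q * (ρL σ * ρL τ) * Pc.P = Pc.Q * ρL σ * (ρL τ * Pc.P) := by
          simp only [Matrix.mul_assoc]
      _ = Pc.Q * ρL σ * (Pc.P * Pc.Q * (ρL τ * Pc.P)) := by rw [Pc.stab τ]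
      _ = Pc.Q * ρL σ * Pc.P * (Pc.Q * ρL τ * Pc.P) := by simp only [Matrix.mul_assoc]

theorem rep_apply (σ : G) : Pc.rep σ = Pc.Q * ρL σ * Pc.P := rfl

/-- `X` on the big module and `X'` on the piece are intertwined by the inclusion `P`. -/
def Rel (X : Matrix (Fin r) (Fin r) 𝒪) (X' : Matrix (Fin Pc.d) (Fin Pc.d) 𝒪) : Prop :=
  X * Pc.P = Pc.P * X'

theorem rel_rep (σ : G) : Pc.Rel (ρL σ) (Pc.rep σ) := by
  show ρL σ * Pc.P = Pc.P * (Pc.Q * ρL σ * Pc.P)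
  rw [Matrix.mul_assoc, ← Matrix.mul_assoc, Pc.stab σ]

theorem rel_one : Pc.Rel 1 1 := by
  show (1 : Matrix (Fin r) (Fin r) 𝒪) * Pc.P = Pc.P * 1
  rw [Matrix.one_mul, Matrix.mul_one]

theorem rel_zero : Pc.Rel 0 0 := by
  show (0 : Matrix (Fin r) (Fin r) 𝒪) * Pc.P = Pc.P * 0
  rw [Matrix.zero_mul, Matrix.mul_zero]

variable {Pc}

theorem Rel.out {X : Matrix (Fin r) (Fin r) 𝒪} {X' : Matrix (Fin Pc.d) (Fin Pc.d) 𝒪}
    (h : Pc.Rel X X') : X * Pc.P = Pc.P * X' := h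

theorem Rel.add {X Y : Matrix (Fin r) (Fin r) 𝒪} {X' Y' : Matrix (Fin Pc.d) (Fin Pc.d) 𝒪}
    (h : Pc.Rel X X') (h' : Pc.Rel Y Y') : Pc.Rel (X + Y) (X' + Y') := by
  show (X + Y) * Pc.P = Pc.P * (X' + Y')
  rw [Matrix.add_mul, Matrix.mul_add, h.out, h'.out]

theorem Rel.sub {X Y : Matrix (Fin r) (Fin r) 𝒪} {X' Y' : Matrix (Fin Pc.d) (Fin Pc.d) 𝒪}
    (h : Pc.Rel X X') (h' : Pc.Rel Y Y') : Pc.Rel (X - Y) (X' - Y') := by
  show (X - Y) * Pc.P = Pc.P * (X' - Y')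
  rw [Matrix.sub_mul, Matrix.mul_sub, h.out, h'.out]

theorem Rel.mul {X Y : Matrix (Fin r) (Fin r) 𝒪} {X' Y' : Matrix (Fin Pc.d) (Fin Pc.d) 𝒪}
    (h : Pc.Rel X X') (h' : Pc.Rel Y Y') : Pc.Rel (X * Y) (X' * Y') := by
  show X * Y * Pc.P = Pc.P * (X' * Y')
  rw [Matrix.mul_assoc, h'.out, ← Matrix.mul_assoc, h.out, Matrix.mul_assoc]

theorem Rel.smul (c : 𝒪) {X : Matrix (Fin r) (Fin r) 𝒪} {X' : Matrix (Fin Pc.d) (Fin Pc.d) 𝒪}
    (h : Pc.Rel X X') : Pc.Rel (c • X) (c • X') := by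
  show c • X * Pc.P = Pc.P * (c • X')
  rw [Matrix.smul_mul, Matrix.mul_smul, h.out]

theorem Rel.pow {X : Matrix (Fin r) (Fin r) 𝒪} {X' : Matrix (Fin Pc.d) (Fin Pc.d) 𝒪}
    (h : Pc.Rel X X') (n : ℕ) : Pc.Rel (X ^ n) (X' ^ n) := by
  induction n with
  | zero => simpa using Pc.rel_one
  | succ n ih => rw [pow_succ, pow_succ]; exact ih.mul h

/-- an identity on the big module holds on the piece. -/
theorem Rel.eq_zero {X : Matrix (Fin r) (Fin r) 𝒪} {X' : Matrix (Fin Pc.d) (Fin Pc.d) 𝒪}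
    (h : Pc.Rel X X') (hX : X * Pc.P = 0) : X' = 0 := by
  have h1 : Pc.P * X' = 0 := by rw [← h.out, hX]
  calc X' = Pc.Q * Pc.P * X' := by rw [Pc.QP, Matrix.one_mul]
    _ = Pc.Q * (Pc.P * X') := Matrix.mul_assoc _ _ _
    _ = 0 := by rw [h1, Matrix.mul_zero]

theorem Rel.eq_zero' {X : Matrix (Fin r) (Fin r) 𝒪} {X' : Matrix (Fin Pc.d) (Fin Pc.d) 𝒪}
    (h : Pc.Rel X X') (hX : X = 0) : X' = 0 :=
  h.eq_zero (by rw [hX, Matrix.zero_mul])

/-- a scalar on the piece. -/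
theorem rel_of_eig {X : Matrix (Fin r) (Fin r) 𝒪} {c : 𝒪} (h : X * Pc.P = c • Pc.P) :
    Pc.Rel X (c • (1 : Matrix (Fin Pc.d) (Fin Pc.d) 𝒪)) := by
  show X * Pc.P = Pc.P * (c • (1 : Matrix (Fin Pc.d) (Fin Pc.d) 𝒪))
  rw [h, Matrix.mul_smul, Matrix.mul_one]

theorem P_mulVec_injective : Function.Injective (fun v : Fin Pc.d → 𝒪 => Pc.P.mulVec v) := by
  intro v w h
  have h' : Pc.P.mulVec v = Pc.P.mulVec w := h
  have := congrArg (fun u => Pc.Q.mulVec u) h'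
  simpa [Matrix.mulVec_mulVec, Pc.QP] using this

theorem Rel.mulVec {X : Matrix (Fin r) (Fin r) 𝒪} {X' : Matrix (Fin Pc.d) (Fin Pc.d) 𝒪}
    (h : Pc.Rel X X') (v : Fin Pc.d → 𝒪) : X.mulVec (Pc.P.mulVec v) = Pc.P.mulVec (X'.mulVec v) := by
  rw [Matrix.mulVec_mulVec, Matrix.mulVec_mulVec, h.out]

end SubPiece

/-- **Pieces from stable subspaces.** -/
theorem exists_subPiece (hLat : S30.Stmt_Lattice) [IsPrincipalIdealRing 𝒪]
    (ρL : G →* Matrix (Fin r) (Fin r) 𝒪)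
    (W : Submodule (FractionRing 𝒪) (Fin r → FractionRing 𝒪)) (hW : W ≠ ⊥)
    (hstab : ∀ σ, ∀ w ∈ W, (matF (ρL σ)).mulVec w ∈ W) :
    ∃ Pc : SubPiece ρL, ∀ j, colF Pc.P j ∈ W := by
  obtain ⟨P, Q, hQP, hPW, hfix⟩ := hLat 𝒪 (FractionRing 𝒪) r W
  have hd : 0 < Module.finrank (FractionRing 𝒪) W := by
    have : Nontrivial W := Submodule.nontrivial_iff_ne_bot.mpr hW
    exact Module.finrank_pos
  refine ⟨⟨_, P, Q, hd, hQP, fun σ => ?_⟩, hPW⟩
  ext i j
  have hcol : colF (ρL σ * P) j ∈ W := by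
    rw [colF_mul]
    exact hstab σ _ (hPW j)
  have h := congrFun (hfix (fun i => (ρL σ * P) i j) hcol) i
  rw [Matrix.mul_assoc]
  simp only [Matrix.mulVec, dotProduct] at h
  simp only [Matrix.mul_apply]
  exact h

end Sub

end Fermat.Agent.GTor.H81
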