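import Mathlib

/-!
# `ℤ/n` is self-injective; factorisation of matrices through common kernels  (helper81)

* `baer_zmod n : Module.Baer (ZMod n) (ZMod n)` (`n ≠ 0`).
* `exists_factor` : if `B v = 0` for every `v ∈ (ℤ/n)^r` killed by all matrices `A i`, then
  `B = ∑ i ∈ J, D i * A i` for a finite set `J` of indices and matrices `D i`.

Used to pass from statements about fixed vectors / kernels modulo `p^k` to statements over a
`p`-adically complete ring (no flat base change needed).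
-/

set_option autoImplicit false

noncomputable section

namespace Fermat.Agent.GTor.H81

open Matrix

/-- In `ℤ/n`: if every `r` with `r a = 0` kills `q₀`, then `q₀` is a multiple of `a`. -/
theorem zmod_dvd_of_ann (n : ℕ) [NeZero n] (a q₀ : ZMod n)
    (h : ∀ r : ZMod n, r * a = 0 → r * q₀ = 0) : ∃ q₁ : ZMod n, q₀ = a * q₁ := by
  obtain ⟨A, rfl⟩ := ZMod.intCast_surjective a
  obtain ⟨Q, rfl⟩ := ZMod.intCast_surjective q₀
  set d : ℤ := ((Int.gcd A n : ℕ) : ℤ) with hd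
  have hdn : d ∣ (n : ℤ) := Int.gcd_dvd_right A n
  have hdA : d ∣ A := Int.gcd_dvd_left A n
  have hn0 : (n : ℤ) ≠ 0 := by exact_mod_cast NeZero.ne n
  have hd0 : d ≠ 0 := fun h0 => hn0 (by rw [h0] at hdn; exact zero_dvd_iff.1 hdn)
  obtain ⟨e, he⟩ := hdn
  obtain ⟨A', hA'⟩ := hdA
  have he0 : e ≠ 0 := fun h0 => hn0 (by rw [he, h0, mul_zero])
  -- `e * A = n * A'`
  have h1 : ((e : ℤ) : ZMod n) * ((A : ℤ) : ZMod n) = 0 := by
    rw [← Int.cast_mul, hA']
    have : e * (d * A') = (n : ℤ) * A' := by rw [he]; ring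
    rw [this, Int.cast_mul, Int.cast_natCast, ZMod.natCast_self, zero_mul]
  have h2 := h _ h1
  rw [← Int.cast_mul, ZMod.intCast_zmod_eq_zero_iff_dvd] at h2
  -- `n ∣ e * Q` gives `d ∣ Q`
  have h3 : d ∣ Q := by
    rw [he] at h2
    have : d * e ∣ Q * e := by rwa [mul_comm Q e]
    exact (mul_dvd_mul_iff_right he0).1 this
  obtain ⟨Q', hQ'⟩ := h3
  -- Bezout
  have hb : d = A * Int.gcdA A n + n * Int.gcdB A n := Int.gcd_eq_gcd_ab A n
  refine ⟨((Int.gcdA A n * Q' : ℤ) : ZMod n), ?_⟩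
  rw [← Int.cast_mul]
  rw [ZMod.intCast_eq_intCast_iff_dvd_sub]
  refine ⟨-(Int.gcdB A n * Q'), ?_⟩
  rw [hQ']
  have : A * (Int.gcdA A ↑n * Q') - d * Q' = (A * Int.gcdA A n - d) * Q' := by ring
  rw [this]
  have hb' : A * Int.gcdA A n - d = -(n * Int.gcdB A n) := by rw [hb]; ring
  rw [hb']
  ring

/-- **`ℤ/n` is self-injective.** -/
theorem baer_zmod (n : ℕ) [NeZero n] : Module.Baer (ZMod n) (ZMod n) := by
  intro I g
  have : IsPrincipalIdealRing (ZMod n) :=
    IsPrincipalIdealRing.of_surjective (Int.castRingHom (ZMod n)) ZMod.intCast_surjective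
  obtain ⟨a, ha⟩ := (IsPrincipalIdealRing.principal I).principal
  have haI : a ∈ I := by rw [ha]; exact Submodule.mem_span_singleton_self a
  obtain ⟨q₁, hq₁⟩ := zmod_dvd_of_ann n a (g ⟨a, haI⟩) (fun r hr => by
    have h1 : r • (⟨a, haI⟩ : I) = 0 := Subtype.ext (by simpa using hr)
    have h2 := congrArg g h1
    rw [map_smul, map_zero, smul_eq_mul] at h2
    exact h2)
  refine ⟨LinearMap.toSpanSingleton (ZMod n) (ZMod n) q₁, fun x hx => ?_⟩
  have hx' := hx
  rw [ha] at hx'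
  obtain ⟨s, rfl⟩ := Submodule.mem_span_singleton.1 hx'
  have h1 : (⟨s • a, hx⟩ : I) = s • (⟨a, haI⟩ : I) := rfl
  have h2 : g ⟨s • a, hx⟩ = s * (a * q₁) := by
    rw [h1, map_smul, hq₁, smul_eq_mul]
  rw [h2, LinearMap.toSpanSingleton_apply]
  simp only [smul_eq_mul]
  ring

/-- extension of linear maps into `(ℤ/n)^t`. -/
theorem exists_extension_pi (n : ℕ) [NeZero n] {t : ℕ} {X Y : Type} [AddCommGroup X]
    [AddCommGroup Y] [Module (ZMod n) X] [Module (ZMod n) Y] (f : X →ₗ[ZMod n] Y)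
    (hf : Function.Injective f) (g : X →ₗ[ZMod n] (Fin t → ZMod n)) :
    ∃ h : Y →ₗ[ZMod n] (Fin t → ZMod n), h ∘ₗ f = g := by
  have hex : ∀ i : Fin t, ∃ h : Y →ₗ[ZMod n] ZMod n, h ∘ₗ f = (LinearMap.proj i) ∘ₗ g :=
    fun i => (baer_zmod n).extension_property f hf _
  choose h hh using hex
  refine ⟨LinearMap.pi h, ?_⟩
  ext x i
  have := congrArg (fun u : X →ₗ[ZMod n] ZMod n => u x) (hh i)
  simpa using this

/-- **Factorisation through a kernel**: if `ker A ⊆ ker B` then `B = D * A`. -/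
theorem exists_factor_one (n : ℕ) [NeZero n] {r t : ℕ} {m : Type} [Fintype m] [DecidableEq m]
    (A : Matrix m (Fin r) (ZMod n))
    (B : Matrix (Fin t) (Fin r) (ZMod n))
    (h : ∀ v : Fin r → ZMod n, A.mulVec v = 0 → B.mulVec v = 0) :
    ∃ D : Matrix (Fin t) m (ZMod n), B = D * A := by
  -- `g : range A → (ℤ/n)^t`
  have hker : LinearMap.ker A.mulVecLin ≤ LinearMap.ker B.mulVecLin := by
    intro v hv
    rw [LinearMap.mem_ker, Matrix.mulVecLin_apply] at hv ⊢
    exact h v hv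
  let e := A.mulVecLin.quotKerEquivRange
  let g : LinearMap.range A.mulVecLin →ₗ[ZMod n] (Fin t → ZMod n) :=
    ((LinearMap.ker A.mulVecLin).liftQ B.mulVecLin hker) ∘ₗ e.symm.toLinearMap
  obtain ⟨D, hD⟩ := exists_extension_pi n (LinearMap.range A.mulVecLin).subtype
    (Submodule.injective_subtype _) g
  refine ⟨LinearMap.toMatrix' D, ?_⟩
  apply Matrix.mulVec_injective
  funext v
  rw [← Matrix.mulVec_mulVec, LinearMap.toMatrix'_mulVec]
  have h1 : D (A.mulVec v) = g ⟨A.mulVecLin v, LinearMap.mem_range_self _ v⟩ := by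
    rw [← hD]
    rfl
  rw [h1]
  show B.mulVec v = ((LinearMap.ker A.mulVecLin).liftQ B.mulVecLin hker)
    (e.symm ⟨A.mulVecLin v, LinearMap.mem_range_self _ v⟩)
  have h2 : e.symm ⟨A.mulVecLin v, LinearMap.mem_range_self _ v⟩ =
      (LinearMap.ker A.mulVecLin).mkQ v := by
    rw [LinearEquiv.symm_apply_eq]
    rfl
  rw [h2]
  rfl

/-- a family of matrices over `ℤ/n` has the same common kernel as a finite subfamily. -/
theorem exists_finset_ker (n : ℕ) [NeZero n] {r : ℕ} {ι : Type}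
    (A : ι → Matrix (Fin r) (Fin r) (ZMod n)) :
    ∃ J : Finset ι, ∀ v : Fin r → ZMod n, (∀ i ∈ J, (A i).mulVec v = 0) →
      ∀ i, (A i).mulVec v = 0 := by
  classical
  have hch : ∀ v : Fin r → ZMod n, ∃ i₀ : Option ι, (∃ i, (A i).mulVec v ≠ 0) →
      ∃ i, i₀ = some i ∧ (A i).mulVec v ≠ 0 := by
    intro v
    by_cases hv : ∃ i, (A i).mulVec v ≠ 0
    · obtain ⟨i, hi⟩ := hv
      exact ⟨some i, fun _ => ⟨i, rfl, hi⟩⟩
    · exact ⟨none, fun h => absurd h hv⟩
  choose f hf using hch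
  refine ⟨(Finset.univ.image f).eraseNone, fun v hv i => ?_⟩
  by_contra hne
  obtain ⟨i₀, hi₀, hi₀v⟩ := hf v ⟨i, hne⟩
  refine hi₀v (hv i₀ ?_)
  rw [Finset.mem_eraseNone, ← hi₀]
  exact Finset.mem_image_of_mem f (Finset.mem_univ v)

/-- **Factorisation through the common kernel of a family.** -/
theorem exists_factor (n : ℕ) [NeZero n] {r t : ℕ} {ι : Type}
    (A : ι → Matrix (Fin r) (Fin r) (ZMod n)) (B : Matrix (Fin t) (Fin r) (ZMod n))
    (h : ∀ v : Fin r → ZMod n, (∀ i, (A i).mulVec v = 0) → B.mulVec v = 0) :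
    ∃ (J : Finset ι) (D : ι → Matrix (Fin t) (Fin r) (ZMod n)), B = ∑ i ∈ J, D i * A i := by
  classical
  obtain ⟨J, hJ⟩ := exists_finset_ker n A
  let Ast : Matrix (J × Fin r) (Fin r) (ZMod n) := fun x b => A x.1 x.2 b
  have hAst : ∀ v : Fin r → ZMod n, Ast.mulVec v = 0 → B.mulVec v = 0 := by
    intro v hv
    refine h v (hJ v fun i hi => ?_)
    funext a
    exact congrFun hv (⟨i, hi⟩, a)
  obtain ⟨D, hD⟩ := exists_factor_one n Ast B hAst
  let D' : ι → Matrix (Fin t) (Fin r) (ZMod n) := fun i =>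
    if hi : i ∈ J then Matrix.of (fun a c => D a (⟨i, hi⟩, c)) else 0
  have hD' : ∀ j : J, D' j = Matrix.of (fun a c => D a (j, c)) := fun j => dif_pos j.2
  refine ⟨J, D', ?_⟩
  rw [hD, ← Finset.sum_coe_sort J]
  ext a b
  rw [Matrix.mul_apply, Fintype.sum_prod_type, Matrix.sum_apply]
  refine Finset.sum_congr rfl fun j _ => ?_
  rw [hD' j, Matrix.mul_apply]
  rfl

/-- **Consequence over any `ℤ/n`-algebra**: a vector killed by all the `A i` is killed by `B`,
as soon as this holds over `ℤ/n`. -/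
theorem mulVec_eq_zero_of_family (n : ℕ) [NeZero n] {r t : ℕ} {ι : Type}
    (A : ι → Matrix (Fin r) (Fin r) (ZMod n)) (B : Matrix (Fin t) (Fin r) (ZMod n))
    (h : ∀ v : Fin r → ZMod n, (∀ i, (A i).mulVec v = 0) → B.mulVec v = 0)
    {R' : Type} [CommRing R'] (c : ZMod n →+* R') (u : Fin r → R')
    (hu : ∀ i, ((A i).map c).mulVec u = 0) : (B.map c).mulVec u = 0 := by
  obtain ⟨J, D, hD⟩ := exists_factor n A B h
  have h1 : B.map c = ∑ i ∈ J, (D i).map c * (A i).map c := by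
    rw [hD]
    ext a b
    simp only [Matrix.map_apply, Matrix.sum_apply, Matrix.mul_apply, map_sum, map_mul]
  rw [h1, Matrix.sum_mulVec]
  refine Finset.sum_eq_zero fun i _ => ?_
  rw [← Matrix.mulVec_mulVec, hu i, Matrix.mulVec_zero]

end Fermat.Agent.GTor.H81
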