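import Fermat.Agent.GTor.H81_Clauses
import Fermat.Agent.GTor.H81_OldKiller
import Fermat.Agent.GTor.H81_SelfInj

/-!
# G-TOR, T-X: the Steinberg and the Carayol clause on a piece  (helper81)

Level `M * q`, `C : TateCoords (M * q) p S`, `L : TateLimit C 𝒪 hp`, `Pc : SubPiece L.ρL` a piece
on which the Hecke algebra acts through `χ`; `w` an old-killer (`wordSH M S w = 0`) with
`χ (wordSH (M * q) S w) ≠ 0`.

* `piece_St` : from the torsion-level statement (St) for `σ`: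
  `ρ'(σ)⁴ - (q² + 1) ρ'(σ)² + q² = 0` on the piece.
* `piece_NU` : from the torsion-level statement (NU) for the inertia group of `A`:
  no nonzero vector of the piece is fixed by inertia.
-/

set_option autoImplicit false
set_option linter.unusedSectionVars false

noncomputable section

namespace Fermat.Agent.GTor.H81

open AlgebraicCurve ModularCurve Fermat.Agent.GTor Fermat.Agent.GTor.H58T1
open Fermat.Agent.Betti.H76 Fermat.Agent.S35.H89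

section Abs

variable {R A : Type} [CommRing R] [AddCommGroup A] {r : ℕ}

/-- abstract form of the (St) computation in coordinates. -/
theorem mulVec_St_abs (θ : A ≃+ (Fin r → R)) (ρ W : Matrix (Fin r) (Fin r) R) (G Wf : A → A)
    (hG : ∀ y, θ (G y) = ρ.mulVec (θ y)) (hW : ∀ x, θ (Wf x) = W.mulVec (θ x))
    (a b c : ℕ) (x : A)
    (hz : a • (G (G (G (G (Wf x)))) - b • G (G (Wf x)) + c • Wf x) = 0) :
    (((a : ℕ) : Matrix (Fin r) (Fin r) R) *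
      (ρ * ρ * ρ * ρ - ((b : ℕ) : Matrix (Fin r) (Fin r) R) * (ρ * ρ)
        + ((c : ℕ) : Matrix (Fin r) (Fin r) R)) * W).mulVec (θ x) = 0 := by
  have e4 : (ρ * ρ * ρ * ρ).mulVec (θ (Wf x)) = θ (G (G (G (G (Wf x))))) := by
    rw [hG, hG, hG, hG]
    simp only [Matrix.mulVec_mulVec, Matrix.mul_assoc]
  have e2 : (ρ * ρ).mulVec (θ (Wf x)) = θ (G (G (Wf x))) := by
    rw [hG, hG]
    simp only [Matrix.mulVec_mulVec]
  have h0 := congrArg θ hz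
  rw [map_zero, map_nsmul, map_add, map_sub, map_nsmul, map_nsmul, ← e4, ← e2] at h0
  rw [← Matrix.mulVec_mulVec, ← hW, ← Matrix.mulVec_mulVec, Matrix.add_mulVec,
    Matrix.sub_mulVec, ← Matrix.mulVec_mulVec _ ((b : ℕ) : Matrix (Fin r) (Fin r) R) (ρ * ρ),
    Matrix.natCast_mulVec, Matrix.natCast_mulVec,
    Matrix.natCast_mulVec, Nat.cast_smul_eq_nsmul, Nat.cast_smul_eq_nsmul,
    Nat.cast_smul_eq_nsmul]
  exact h0

end Abs

section Level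

variable {M q p : ℕ} [NeZero M] [NeZero q] [Fact p.Prime] {S : Set ℕ}
  {C : TateCoords (M * q) p S}

/-- **(St) at level `k`.** -/
theorem rho_St (hY : Stmt_Y1 M q) (hS : ∀ l : ℕ, l.Prime → l ∣ M * q → l ∈ S) {c : ℕ} {σ : GQ}
    (h : ∀ x : JZero (M * q), (∃ n : ℕ, p ^ n • x = 0) → IsQNew M q x →
      p ^ c • (σ • σ • σ • σ • x - (q ^ 2 + 1) • σ • σ • x + q ^ 2 • x) = 0)
    {w : FreeAlgebra ℤ (Gen S)} (hw : wordSH M S w = 0) (k : ℕ) :
    ((p ^ c : ℕ) : Matrix (Fin C.r) (Fin C.r) (ZMod (p ^ k))) *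
      (C.ρ k σ * C.ρ k σ * C.ρ k σ * C.ρ k σ
        - ((q ^ 2 + 1 : ℕ) : Matrix (Fin C.r) (Fin C.r) (ZMod (p ^ k))) * (C.ρ k σ * C.ρ k σ)
        + ((q ^ 2 : ℕ) : Matrix (Fin C.r) (Fin C.r) (ZMod (p ^ k)))) *
      Mc (ZMod (p ^ k)) C.M (wordSH (M * q) S w) = 0 := by
  have hpp : p.Prime := Fact.out
  apply C.matrix_eq_zero
  intro x
  refine mulVec_St_abs (C.θ k) (C.ρ k σ) (Mc (ZMod (p ^ k)) C.M (wordSH (M * q) S w))
    (fun y => JZero.torsionGaloisRep (M * q) (p ^ k) σ y)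
    (fun x => resTor (M * q) (p ^ k) (wordJ (M * q) S w) x)
    (fun y => C.gal k σ y) (fun x => ?_) (p ^ c) (q ^ 2 + 1) (q ^ 2) x ?_
  · rw [← C.mat_word hS k w, C.mat_mulVec]
  · have key := h (wordJ (M * q) S w (x : JZero (M * q)))
      (word_torsion w (pow_nsmul_coe' k x))
      (isQNew_word hpp hY hS hw (x : JZero (M * q)) (pow_nsmul_coe' k x))
    exact Subtype.ext key

/-- **(NU) at level `k`**, in coordinates. -/
theorem rho_NU (hY : Stmt_Y1 M q) (hS : ∀ l : ℕ, l.Prime → l ∣ M * q → l ∈ S) {c : ℕ}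
    {A : ValuationSubring (AlgebraicClosure ℚ)}
    (h : ∀ x : JZero (M * q), (∃ n : ℕ, p ^ n • x = 0) → IsQNew M q x →
      (∀ σ ∈ A.inertiaSubgroupIn ℚ, σ • x = x) → p ^ c • x = 0)
    {w : FreeAlgebra ℤ (Gen S)} (hw : wordSH M S w = 0) (k : ℕ)
    (v : Fin C.r → ZMod (p ^ k))
    (hv : ∀ σ : A.inertiaSubgroupIn ℚ, (C.ρ k (σ : GQ) - 1).mulVec v = 0) :
    (((p ^ c : ℕ) : Matrix (Fin C.r) (Fin C.r) (ZMod (p ^ k))) *
      Mc (ZMod (p ^ k)) C.M (wordSH (M * q) S w)).mulVec v = 0 := by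
  have hpp : p.Prime := Fact.out
  obtain ⟨x, rfl⟩ := (C.θ k).surjective v
  -- `x` is fixed by inertia
  have hfix : ∀ σ ∈ A.inertiaSubgroupIn ℚ, σ • (x : JZero (M * q)) = (x : JZero (M * q)) := by
    intro σ hσ
    have h1 := hv ⟨σ, hσ⟩
    have h2 : C.mat k (TateCoords.galEnd k σ - 1) = C.ρ k σ - 1 := by
      rw [map_sub, map_one, C.mat_gal]
    rw [← h2, C.mat_mulVec] at h1
    have h3 : (TateCoords.galEnd k σ - 1 : AddMonoid.End (Jtor (M * q) (p ^ k))) x = 0 :=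
      (C.θ k).injective (h1.trans (map_zero _).symm)
    have h4 := congrArg (fun y : Jtor (M * q) (p ^ k) => (y : JZero (M * q))) h3
    have h5 : σ • (x : JZero (M * q)) - (x : JZero (M * q)) = 0 := h4
    exact sub_eq_zero.1 h5
  have key := h (wordJ (M * q) S w (x : JZero (M * q)))
    (word_torsion w (pow_nsmul_coe' k x))
    (isQNew_word hpp hY hS hw (x : JZero (M * q)) (pow_nsmul_coe' k x))
    (fun σ hσ => by rw [wordJ_gal, hfix σ hσ])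
  have h0 : (((p ^ c : ℕ) : AddMonoid.End (Jtor (M * q) (p ^ k))) *
      resTor (M * q) (p ^ k) (wordJ (M * q) S w)) x = 0 := Subtype.ext key
  have hn : C.mat k ((p ^ c : ℕ) : AddMonoid.End (Jtor (M * q) (p ^ k))) =
      ((p ^ c : ℕ) : Matrix (Fin C.r) (Fin C.r) (ZMod (p ^ k))) := map_natCast (C.mat k) _
  rw [← C.mat_word hS k w, ← hn, ← map_mul, C.mat_mulVec, h0, map_zero]

end Level

/-! ## The limit and the piece -/

section Piece

variable {M q p : ℕ} [NeZero M] [NeZero q] [Fact p.Prime] {S : Set ℕ}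
  {C : TateCoords (M * q) p S}
variable {𝒪 : Type} [CommRing 𝒪] [IsLocalRing 𝒪]
  [IsAdicComplete (IsLocalRing.maximalIdeal 𝒪) 𝒪]
  {hp : (p : 𝒪) ∈ IsLocalRing.maximalIdeal 𝒪} (L : TateLimit C 𝒪 hp)

/-- **(St) in the limit.** -/
theorem limit_St (hY : Stmt_Y1 M q) (hS : ∀ l : ℕ, l.Prime → l ∣ M * q → l ∈ S) {c : ℕ}
    {σ : GQ}
    (h : ∀ x : JZero (M * q), (∃ n : ℕ, p ^ n • x = 0) → IsQNew M q x →
      p ^ c • (σ • σ • σ • σ • x - (q ^ 2 + 1) • σ • σ • x + q ^ 2 • x) = 0)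
    {w : FreeAlgebra ℤ (Gen S)} (hw : wordSH M S w = 0) :
    ((p ^ c : ℕ) : Matrix (Fin C.r) (Fin C.r) 𝒪) *
      (L.ρL σ * L.ρL σ * L.ρL σ * L.ρL σ
        - ((q ^ 2 + 1 : ℕ) : Matrix (Fin C.r) (Fin C.r) 𝒪) * (L.ρL σ * L.ρL σ)
        + ((q ^ 2 : ℕ) : Matrix (Fin C.r) (Fin C.r) 𝒪)) *
      Mc 𝒪 C.M (wordSH (M * q) S w) = 0 :=
  (((compat_natCast (p ^ c)).mul
    ((((((L.spec σ).mul (L.spec σ)).mul (L.spec σ)).mul (L.spec σ)).sub
      ((compat_natCast (q ^ 2 + 1)).mul ((L.spec σ).mul (L.spec σ)))).add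
      (compat_natCast (q ^ 2)))).mul (compat_Mc C.M _)).eq_zero
    (fun k => rho_St hY hS h hw k)

variable [IsDomain 𝒪] (Pc : SubPiece L.ρL)

/-- a nonzero scalar multiple of a matrix over a domain vanishes only if the matrix does. -/
theorem matrix_eq_zero_of_smul {m n : Type} {a : 𝒪} (ha : a ≠ 0) {Y : Matrix m n 𝒪}
    (h : a • Y = 0) : Y = 0 := by
  ext i j
  have h1 := congrFun (congrFun h i) j
  rw [Matrix.smul_apply, smul_eq_mul, Matrix.zero_apply] at h1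
  exact (mul_eq_zero.1 h1).resolve_left ha

/-- **(St) on the piece.** -/
theorem piece_St (hY : Stmt_Y1 M q) (hS : ∀ l : ℕ, l.Prime → l ∣ M * q → l ∈ S) {c : ℕ}
    {σ : GQ}
    (h : ∀ x : JZero (M * q), (∃ n : ℕ, p ^ n • x = 0) → IsQNew M q x →
      p ^ c • (σ • σ • σ • σ • x - (q ^ 2 + 1) • σ • σ • x + q ^ 2 • x) = 0)
    {w : FreeAlgebra ℤ (Gen S)} (hw : wordSH M S w = 0) (a : 𝒪)
    (ha : Mc 𝒪 C.M (wordSH (M * q) S w) * Pc.P = a • Pc.P) (ha0 : a ≠ 0)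
    (hp0 : (p : 𝒪) ≠ 0) :
    Pc.rep σ * Pc.rep σ * Pc.rep σ * Pc.rep σ
      - ((q ^ 2 + 1 : ℕ) : 𝒪) • (Pc.rep σ * Pc.rep σ)
      + ((q ^ 2 : ℕ) : 𝒪) • (1 : Matrix (Fin Pc.d) (Fin Pc.d) 𝒪) = 0 := by
  have h0 := limit_St L hY hS h hw
  rw [← natCast_smul_one 𝒪 (p ^ c), ← natCast_smul_one 𝒪 (q ^ 2 + 1),
    ← natCast_smul_one 𝒪 (q ^ 2)] at h0
  have hrel := (((Pc.rel_one.smul ((p ^ c : ℕ) : 𝒪)).mul
    ((((((Pc.rel_rep σ).mul (Pc.rel_rep σ)).mul (Pc.rel_rep σ)).mul (Pc.rel_rep σ)).sub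
      ((Pc.rel_one.smul ((q ^ 2 + 1 : ℕ) : 𝒪)).mul ((Pc.rel_rep σ).mul (Pc.rel_rep σ)))).add
      (Pc.rel_one.smul ((q ^ 2 : ℕ) : 𝒪)))).mul (SubPiece.rel_of_eig ha)).eq_zero' h0
  rw [Matrix.smul_mul, Matrix.one_mul, Matrix.mul_smul, Matrix.mul_one, Matrix.smul_mul,
    Matrix.one_mul] at hrel
  have hpc : ((p ^ c : ℕ) : 𝒪) ≠ 0 := by
    rw [Nat.cast_pow]
    exact pow_ne_zero c hp0
  exact matrix_eq_zero_of_smul hpc (matrix_eq_zero_of_smul ha0 hrel)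

/-- **(NU) on the piece.** -/
theorem piece_NU (hY : Stmt_Y1 M q) (hS : ∀ l : ℕ, l.Prime → l ∣ M * q → l ∈ S) {c : ℕ}
    {A : ValuationSubring (AlgebraicClosure ℚ)}
    (h : ∀ x : JZero (M * q), (∃ n : ℕ, p ^ n • x = 0) → IsQNew M q x →
      (∀ σ ∈ A.inertiaSubgroupIn ℚ, σ • x = x) → p ^ c • x = 0)
    {w : FreeAlgebra ℤ (Gen S)} (hw : wordSH M S w = 0) (a : 𝒪)
    (ha : Mc 𝒪 C.M (wordSH (M * q) S w) * Pc.P = a • Pc.P) (ha0 : a ≠ 0)
    (hp0 : (p : 𝒪) ≠ 0) (v : Fin Pc.d → 𝒪)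
    (hv : ∀ σ ∈ A.inertiaSubgroupIn ℚ, (Pc.rep σ).mulVec v = v) : v = 0 := by
  have hpp : p.Prime := Fact.out
  -- the vector on the big module
  have hu₀ : ∀ σ ∈ A.inertiaSubgroupIn ℚ, (L.ρL σ - 1).mulVec (Pc.P.mulVec v) = 0 := by
    intro σ hσ
    rw [Matrix.sub_mulVec, Matrix.one_mulVec, (Pc.rel_rep σ).mulVec v, hv σ hσ, sub_self]
  have hkey : (((p ^ c : ℕ) : Matrix (Fin C.r) (Fin C.r) 𝒪) *
      Mc 𝒪 C.M (wordSH (M * q) S w)).mulVec (Pc.P.mulVec v) = 0 := by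
    generalize Pc.P.mulVec v = u₀ at hu₀ ⊢
    funext i
    apply eq_of_forall_piK (IsLocalRing.maximalIdeal 𝒪)
    intro k
    have : NeZero (p ^ k) := ⟨pow_ne_zero k hpp.ne_zero⟩
    have hk := mulVec_eq_zero_of_family (p ^ k)
      (fun σ : ↥(A.inertiaSubgroupIn ℚ) => C.ρ k (σ : GQ) - 1)
      (((p ^ c : ℕ) : Matrix (Fin C.r) (Fin C.r) (ZMod (p ^ k))) *
        Mc (ZMod (p ^ k)) C.M (wordSH (M * q) S w))
      (fun v hv => rho_NU hY hS h hw k v hv)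
      (cK (IsLocalRing.maximalIdeal 𝒪) p hp k)
      ((piK (IsLocalRing.maximalIdeal 𝒪) k) ∘ u₀) ?_
    · have e : (((p ^ c : ℕ) : Matrix (Fin C.r) (Fin C.r) (ZMod (p ^ k))) *
          Mc (ZMod (p ^ k)) C.M (wordSH (M * q) S w)).map
            (cK (IsLocalRing.maximalIdeal 𝒪) p hp k) =
          (((p ^ c : ℕ) : Matrix (Fin C.r) (Fin C.r) 𝒪) *
            Mc 𝒪 C.M (wordSH (M * q) S w)).map (piK (IsLocalRing.maximalIdeal 𝒪) k) :=
        (((compat_natCast (hp := hp) (p ^ c)).mul (compat_Mc C.M _)) k).symm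
      rw [e] at hk
      have h1 := congrFun hk i
      rw [← RingHom.map_mulVec] at h1
      rw [h1]
      simp
    · intro σ
      have e : (C.ρ k (σ : GQ) - 1).map (cK (IsLocalRing.maximalIdeal 𝒪) p hp k) =
          (L.ρL (σ : GQ) - 1).map (piK (IsLocalRing.maximalIdeal 𝒪) k) :=
        (((L.spec (σ : GQ)).sub compat_one) k).symm
      show ((C.ρ k (σ : GQ) - 1).map (cK (IsLocalRing.maximalIdeal 𝒪) p hp k)).mulVec _ = 0
      rw [e]
      funext i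
      rw [← RingHom.map_mulVec, hu₀ σ σ.2]
      simp
  have h2 : ((p ^ c : ℕ) : 𝒪) • a • Pc.P.mulVec v = 0 := by
    rw [← hkey, Matrix.mulVec_mulVec, Matrix.mul_assoc, ha, ← natCast_smul_one 𝒪 (p ^ c),
      Matrix.smul_mul, Matrix.one_mul, Matrix.smul_mulVec, Matrix.smul_mulVec]
  have hpc : ((p ^ c : ℕ) : 𝒪) ≠ 0 := by
    rw [Nat.cast_pow]
    exact pow_ne_zero c hp0
  have h3 : Pc.P.mulVec v = 0 := by
    funext i
    have h4 := congrFun h2 i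
    simp only [Pi.smul_apply, smul_eq_mul, Pi.zero_apply] at h4
    exact (mul_eq_zero.1 ((mul_eq_zero.1 h4).resolve_left hpc)).resolve_left ha0
  apply SubPiece.P_mulVec_injective (Pc := Pc)
  show Pc.P.mulVec v = Pc.P.mulVec 0
  rw [h3, Matrix.mulVec_zero]

end Piece

end Fermat.Agent.GTor.H81
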