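import Fermat.Agent.GTor.H81_T2d

/-!
# G-TOR plumbing T2: the Tate system of `J₀(N)` from the torsion dictionary  (helper81)

`t2 : Stmt_T2 N p S`.
-/

set_option autoImplicit false

noncomputable section

namespace Fermat.Agent.GTor.H81

open AlgebraicCurve ModularCurve Fermat.Agent.GTor Fermat.Agent.Betti
open scoped MatrixGroups

/-- commutation with a ring of integer matrices, from commutation with generators. -/
theorem comm_of_generators {N : ℕ} [NeZero N] (S : Set ℕ) {r m : ℕ}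
    (M : CuspForm.heckeAlgebra N 2 S →+* Matrix (Fin r) (Fin r) ℤ)
    (ρ : Matrix (Fin r) (Fin r) (ZMod m))
    (hS : ∀ q : ℕ, q.Prime → q ∣ N → q ∈ S)
    (hT : ∀ (ℓ : ℕ) (hℓ : ℓ.Prime) (hℓN : ¬ ℓ ∣ N) (hℓS : ℓ ∉ S),
      ρ * (M (CuspForm.heckeAlgebra.T hℓ hℓN hℓS)).map (Int.cast : ℤ → ZMod m) =
        (M (CuspForm.heckeAlgebra.T hℓ hℓN hℓS)).map (Int.cast : ℤ → ZMod m) * ρ)
    (t : CuspForm.heckeAlgebra N 2 S) :
    ρ * (M t).map (Int.cast : ℤ → ZMod m) = (M t).map (Int.cast : ℤ → ZMod m) * ρ := by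
  let Φ : CuspForm.heckeAlgebra N 2 S →+* Matrix (Fin r) (Fin r) (ZMod m) :=
    (Int.castRingHom (ZMod m)).mapMatrix.comp M
  have hΦ : ∀ t, Φ t = (M t).map (Int.cast : ℤ → ZMod m) := fun t => rfl
  suffices h : ∀ (x : Module.End ℂ (CuspForm (CongruenceSubgroup.Gamma0 N) 2))
      (hx : x ∈ Algebra.adjoin ℤ (CuspForm.heckeGenerators N 2 S)),
      ρ * Φ ⟨x, hx⟩ = Φ ⟨x, hx⟩ * ρ by
    rw [← hΦ]
    exact h t.1 t.2
  intro x hx
  induction hx using Algebra.adjoin_induction with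
  | mem x hx =>
    rcases hx with ⟨ℓ, hℓ, hℓN, hℓS, rfl⟩ | ⟨q, hqN, hq, hqS, rfl⟩
    · exact hT ℓ hℓ hℓN hℓS
    · exact absurd (hS q hq hqN) hqS
  | algebraMap c =>
    have : (⟨algebraMap ℤ _ c, Subalgebra.algebraMap_mem _ c⟩ : CuspForm.heckeAlgebra N 2 S) =
        ((c : ℤ) : CuspForm.heckeAlgebra N 2 S) := by
      apply Subtype.ext
      simp
    rw [this, map_intCast]
    exact (Int.cast_commute c ρ).symm.eq
  | add x y hx hy ihx ihy =>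
    have : (⟨x + y, add_mem hx hy⟩ : CuspForm.heckeAlgebra N 2 S) = ⟨x, hx⟩ + ⟨y, hy⟩ := rfl
    rw [this, map_add, mul_add, add_mul, ihx, ihy]
  | mul x y hx hy ihx ihy =>
    have : (⟨x * y, mul_mem hx hy⟩ : CuspForm.heckeAlgebra N 2 S) = ⟨x, hx⟩ * ⟨y, hy⟩ := rfl
    rw [this, map_mul, ← mul_assoc, ihx, mul_assoc, ihy, mul_assoc]

/-- **T2**: the Tate system of `J₀(N)`. -/
theorem t2 (N p : ℕ) [NeZero N] (S : Finset ℕ) : Stmt_T2 N p S := by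
  intro hp hpS hNS hTOR hHK hLift hGH hU hES hGAL hBasis hMat
  obtain ⟨r, b, hb⟩ := hBasis N
  obtain ⟨M, hMinj, hMT, -⟩ := hMat N (↑S : Set ℕ) r b hb
  have halg : Algebra.IsAlgebraic ℚ (AlgebraicClosure ℚ) := AlgebraicClosure.isAlgebraic ℚ
  obtain ⟨ι⟩ : Nonempty (AlgebraicClosure ℚ →+* ℂ) :=
    ⟨((IsAlgClosed.lift : AlgebraicClosure ℚ →ₐ[ℚ] ℂ) : AlgebraicClosure ℚ →+* ℂ)⟩
  have hE : ∀ k : ℕ, Nonempty (TorIso N (p ^ k) ι) := fun k => nonempty_torIso (hTOR k) ι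
  have hn : ∀ k : ℕ, p ^ k ≠ 0 := fun k => pow_ne_zero k hp.ne_zero
  have hnp : ∀ (k : ℕ) (x : Jtor N (p ^ k)), ∃ j : ℕ, p ^ j • (x : JZero N) = 0 :=
    fun k x => ⟨k, pow_nsmul_coe x⟩
  let E : ∀ k : ℕ, TorIso N (p ^ k) ι := fun k => Classical.choice (hE k)
  refine ⟨r, fun k => rhoMat hb hLift (hn k) (E k), M, ⟨?_, ?_, ?_, hMinj⟩, ?_, ?_⟩
  · -- compatibility
    intro k σ i j
    have h := rhoMat_compat hb hLift (hn (k + 1)) (hn k) (pow_dvd_pow p (Nat.le_succ k))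
      (E (k + 1)) (E k) σ
    have h2 := congrFun (congrFun h i) j
    rw [Matrix.map_apply] at h2
    exact h2
  · -- continuity
    intro k
    exact rhoMat_cont hb hLift (hn k) (E k) hGAL
  · -- commutation with the Hecke algebra
    intro k σ t
    refine comm_of_generators (↑S : Set ℕ) M _ hNS (fun ℓ hℓ hℓN hℓS => ?_) t
    exact rhoMat_comm_T hb hLift (hn k) (E k) hℓ hℓN (hHK k) hGH _ (hMT ℓ hℓ hℓN hℓS) σ
  · -- Eichler–Shimura
    intro ℓ hℓ hℓN hℓS A hA σ hσ k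
    have hℓp : ℓ ≠ p := by
      rintro rfl
      exact hℓS (by exact_mod_cast hpS)
    exact rhoMat_ES hb hLift (hn k) (E k) (hnp k) hℓ hℓN hℓp (hHK k) hES _
      (hMT ℓ hℓ hℓN hℓS) A hA σ hσ
  · -- unramified
    intro q hq hqN hqp P hP σ hσ k
    exact rhoMat_unram hb hLift (hn k) (E k) (hnp k) hU hq hqN hqp P hP σ hσ

end Fermat.Agent.GTor.H81
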