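/-
helper96: the standard identification `ZMod n ≃ μ_n(ℂ)` via `zetaPow`, and the passage from a
character `χ : Γ →* ℂˣ` with `χ ^ n = 1` to an additive homomorphism `Additive Γ →+ ZMod n`.
-/
import Fermat.Agent.GTor.Defs

set_option autoImplicit false

noncomputable section

namespace Fermat.Agent.GTor.H96

open Complex

/-- The standard primitive `n`-th root of unity. -/
def zeta (n : ℕ) : ℂ := Complex.exp (2 * Real.pi * Complex.I / (n : ℂ))

theorem isPrimitiveRoot_zeta {n : ℕ} (hn : n ≠ 0) : IsPrimitiveRoot (zeta n) n :=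
  Complex.isPrimitiveRoot_exp n hn

theorem zetaPow_eq_zeta_pow (n : ℕ) (a : ZMod n) : zetaPow n a = zeta n ^ (ZMod.val a) := by
  unfold zetaPow zeta
  rw [← Complex.exp_nat_mul]
  congr 1
  ring

theorem zeta_pow_mod {n : ℕ} (hn : n ≠ 0) (i : ℕ) : zeta n ^ (i % n) = zeta n ^ i := by
  conv_rhs => rw [← Nat.div_add_mod i n]
  rw [pow_add, pow_mul, (isPrimitiveRoot_zeta hn).pow_eq_one, one_pow, one_mul]

theorem zeta_pow_natCast {n : ℕ} (hn : n ≠ 0) (i : ℕ) :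
    zetaPow n (i : ZMod n) = zeta n ^ i := by
  rw [zetaPow_eq_zeta_pow, ZMod.val_natCast, zeta_pow_mod hn]

theorem zetaPow_zero {n : ℕ} (hn : n ≠ 0) : zetaPow n (0 : ZMod n) = 1 := by
  have : NeZero n := ⟨hn⟩
  rw [zetaPow_eq_zeta_pow, ZMod.val_zero, pow_zero]

theorem zetaPow_add {n : ℕ} (hn : n ≠ 0) (a b : ZMod n) :
    zetaPow n (a + b) = zetaPow n a * zetaPow n b := by
  have : NeZero n := ⟨hn⟩
  rw [zetaPow_eq_zeta_pow, zetaPow_eq_zeta_pow, zetaPow_eq_zeta_pow, ← pow_add, ZMod.val_add,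
    zeta_pow_mod hn]

theorem zetaPow_pow {n : ℕ} (a : ZMod n) : zetaPow n a ^ n = 1 := by
  by_cases hn : n = 0
  · subst hn; simp
  rw [zetaPow_eq_zeta_pow, ← pow_mul, mul_comm, pow_mul, (isPrimitiveRoot_zeta hn).pow_eq_one,
    one_pow]

theorem zetaPow_injective {n : ℕ} (hn : n ≠ 0) : Function.Injective (zetaPow n) := by
  have : NeZero n := ⟨hn⟩
  intro a b h
  rw [zetaPow_eq_zeta_pow, zetaPow_eq_zeta_pow] at h
  have := (isPrimitiveRoot_zeta hn).pow_inj (ZMod.val_lt a) (ZMod.val_lt b) h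
  exact ZMod.val_injective n this

theorem exists_zetaPow_eq {n : ℕ} (hn : n ≠ 0) {ζ : ℂ} (hζ : ζ ^ n = 1) :
    ∃ a : ZMod n, zetaPow n a = ζ := by
  have : NeZero n := ⟨hn⟩
  obtain ⟨i, -, hi⟩ := (isPrimitiveRoot_zeta hn).eq_pow_of_pow_eq_one hζ
  exact ⟨(i : ZMod n), by rw [zeta_pow_natCast hn, hi]⟩

theorem zetaPow_eq_one_iff {n : ℕ} (hn : n ≠ 0) (a : ZMod n) : zetaPow n a = 1 ↔ a = 0 := by
  rw [← zetaPow_zero hn]
  exact (zetaPow_injective hn).eq_iff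

/-- The additive character attached to a multiplicative character with values in `μ_n`. -/
theorem exists_additive_of_character {G : Type*} [Group G] {n : ℕ} (hn : n ≠ 0)
    (χ : G →* ℂˣ) (hχ : ∀ γ, χ γ ^ n = 1) :
    ∃ φ : Additive G →+ ZMod n, ∀ γ : G, zetaPow n (φ (Additive.ofMul γ)) = ((χ γ : ℂˣ) : ℂ) := by
  have hex : ∀ γ : G, ∃ a : ZMod n, zetaPow n a = ((χ γ : ℂˣ) : ℂ) := fun γ =>
    exists_zetaPow_eq hn (by rw [← Units.val_pow_eq_pow_val, hχ γ, Units.val_one])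
  choose φ hφ using hex
  refine ⟨AddMonoidHom.mk' (fun γ => φ (Additive.toMul γ)) ?_, fun γ => hφ γ⟩
  intro γ δ
  apply zetaPow_injective hn
  rw [zetaPow_add hn, hφ, hφ, hφ, toMul_add, map_mul, Units.val_mul]

end Fermat.Agent.GTor.H96
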