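import Fermat.Agent.GTor.TateDefs
import Fermat.Agent.GTor.H56_Common
import Fermat.Agent.GTor.H96_Zeta

/-!
# G-TOR plumbing T2, part a: change of modulus for `HasChar` / `TorChar`, and coordinates on
`homPE(Γ₀(N), ℤ/m)`  (helper81)
-/

set_option autoImplicit false

noncomputable section

namespace Fermat.Agent.GTor.H81

open AlgebraicCurve ModularCurve UpperHalfPlane Fermat.Agent.GTor
open scoped MatrixGroups ModularForm Manifold

/-! ## 1. Roots of unity -/

theorem zeta_pow_div {n m : ℕ} (hmn : m ∣ n) (hn : n ≠ 0) :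
    H96.zeta n ^ (n / m) = H96.zeta m := by
  obtain ⟨d, rfl⟩ := hmn
  have hm : m ≠ 0 := fun h => hn (by rw [h, zero_mul])
  have hd : d ≠ 0 := fun h => hn (by rw [h, mul_zero])
  rw [Nat.mul_div_cancel_left d (Nat.pos_of_ne_zero hm)]
  unfold H96.zeta
  rw [← Complex.exp_nat_mul]
  congr 1
  have hm' : (m : ℂ) ≠ 0 := Nat.cast_ne_zero.2 hm
  have hd' : (d : ℂ) ≠ 0 := Nat.cast_ne_zero.2 hd
  push_cast
  field_simp

/-- `ζ_n^(a · n/m) = ζ_m^(a mod m)`. -/
theorem zetaPow_pow_div {n m : ℕ} (hmn : m ∣ n) (hn : n ≠ 0) (a : ZMod n) :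
    zetaPow n a ^ (n / m) = zetaPow m (ZMod.castHom hmn (ZMod m) a) := by
  have hm : m ≠ 0 := by
    rintro rfl
    exact hn (Nat.eq_zero_of_zero_dvd hmn)
  haveI : NeZero n := ⟨hn⟩
  rw [H96.zetaPow_eq_zeta_pow, ← pow_mul, mul_comm, pow_mul, zeta_pow_div hmn hn,
    ZMod.castHom_apply, ← ZMod.natCast_val, H96.zeta_pow_natCast hm]

/-! ## 2. Change of modulus -/

section Reduce

variable {N n m : ℕ}

/-- reduction of a character modulo `m ∣ n`. -/
def redChar (hmn : m ∣ n) (φ : Additive (CongruenceSubgroup.Gamma0 N) →+ ZMod n) :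
    Additive (CongruenceSubgroup.Gamma0 N) →+ ZMod m :=
  (ZMod.castHom hmn (ZMod m)).toAddMonoidHom.comp φ

@[simp]
theorem redChar_apply (hmn : m ∣ n) (φ : Additive (CongruenceSubgroup.Gamma0 N) →+ ZMod n)
    (γ : Additive (CongruenceSubgroup.Gamma0 N)) :
    redChar hmn φ γ = ZMod.castHom hmn (ZMod m) (φ γ) := rfl

theorem isTwistedForm_reduce (hmn : m ∣ n) (hn : n ≠ 0) {k : ℤ}
    {φ : Additive (CongruenceSubgroup.Gamma0 N) →+ ZMod n} {R : ℍ → ℂ}
    (h : IsTwistedForm N n k φ R) :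
    IsTwistedForm N m (((n / m : ℕ) : ℤ) * k) (redChar hmn φ) (fun z => R z ^ (n / m)) where
  mdiff := by
    have := h.mdiff.pow (n / m)
    exact this
  slash γ := by
    rw [H56.slash_pow_SL, h.slash γ]
    funext z
    simp only [Pi.smul_apply, smul_eq_mul, mul_pow, redChar_apply]
    rw [zetaPow_pow_div hmn hn]
  bdd σ := by
    rw [H56.slash_pow_SL]
    exact H56.isBoundedAtImInfty_pow (h.bdd σ) (n / m)

theorem hasChar_reduce [NeZero N] (hmn : m ∣ n) (hn : n ≠ 0) {f : FNL ℂ N}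
    {φ : Additive (CongruenceSubgroup.Gamma0 N) →+ ZMod n} (h : HasChar N n f φ) :
    HasChar N m f (redChar hmn φ) := by
  obtain ⟨k, R, B, hR, hB, hq⟩ := h
  have hB' : IsTwistedForm N m (((n / m : ℕ) : ℤ) * k) 0 (fun z => (B : ℍ → ℂ) z ^ (n / m)) := by
    have h0 := isTwistedForm_reduce hmn hn (H56.isTwistedForm_of_modularForm (N := N) n B)
    have e : redChar hmn (0 : Additive (CongruenceSubgroup.Gamma0 N) →+ ZMod n) = 0 := by
      ext γ; simp
    rw [e] at h0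
    exact h0
  have hpow : ∀ F : ℍ → ℂ, (fun z => (F z ^ (n / m)) ^ m) = fun z => F z ^ n := by
    intro F
    funext z
    rw [← pow_mul, Nat.div_mul_cancel hmn]
  refine ⟨((n / m : ℕ) : ℤ) * k, fun z => R z ^ (n / m), H56.toModularForm hB',
    isTwistedForm_reduce hmn hn hR, ?_, ?_⟩
  · intro h0
    apply hB
    have h1 : ∀ z, (B : ℍ → ℂ) z ^ (n / m) = 0 := fun z =>
      congrArg (fun F : ModularForm (CongruenceSubgroup.Gamma0 N) _ => (F : ℍ → ℂ) z) h0
    ext z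
    exact pow_eq_zero_iff (Nat.div_pos (Nat.le_of_dvd (Nat.pos_of_ne_zero hn) hmn)
      (Nat.pos_of_ne_zero (fun h => hn (by
        rw [h] at hmn; exact Nat.eq_zero_of_zero_dvd hmn)))).ne' |>.1 (h1 z)
  · have e1 : (fun z => (H56.toModularForm hB' : ℍ → ℂ) z ^ m) = fun z => (B : ℍ → ℂ) z ^ n :=
      hpow B
    rw [hpow R, e1]
    exact hq

theorem torChar_reduce [NeZero N] (hmn : m ∣ n) (hn : n ≠ 0) {ι : AlgebraicClosure ℚ →+* ℂ}
    {x : JZero N} {φ : Additive (CongruenceSubgroup.Gamma0 N) →+ ZMod n}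
    (h : TorChar N n ι x φ) : TorChar N m ι ((n / m) • x) (redChar hmn φ) := by
  obtain ⟨D, f, f', hf, hx, hdiv, hcoef, hchar⟩ := h
  refine ⟨(n / m) • D, f, f', hf, ?_, fun v => ?_, hcoef, hasChar_reduce hmn hn hchar⟩
  · rw [hx]; rfl
  · rw [← hdiv v]
    have : (((n / m) • D : Divisor.degZero (K := AlgebraicClosure ℚ)
        (F := FNL (AlgebraicClosure ℚ) N)) :
        Divisor (AlgebraicClosure ℚ) (FNL (AlgebraicClosure ℚ) N)) v =
        ((n / m : ℕ) : ℤ) * (D : Divisor (AlgebraicClosure ℚ) (FNL (AlgebraicClosure ℚ) N)) v := by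
      simp
    rw [this, ← mul_assoc]
    congr 1
    exact_mod_cast Nat.mul_div_cancel' hmn

end Reduce

end Fermat.Agent.GTor.H81
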