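import Fermat.Agent.GTor.TateDefs

/-!
# G-TOR plumbing T2, part b: coordinates on `homPE(Γ₀(N), ℤ/m)` from a universal parabolic basis
and TORSLIFT; the Betti Hecke operator in coordinates  (helper81)
-/

set_option autoImplicit false

noncomputable section

namespace Fermat.Agent.GTor.H81

open AlgebraicCurve ModularCurve Fermat.Agent.GTor Fermat.Agent.Betti
open scoped MatrixGroups

section Coord

variable {N : ℕ} {r : ℕ} (b : Fin r → (Additive (CongruenceSubgroup.Gamma0 N) →+ ℤ)) (m : ℕ)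

/-- the character with coordinates `a` in the basis `b`, reduced mod `m`. -/
def coordFun (a : Fin r → ZMod m) : Additive (CongruenceSubgroup.Gamma0 N) →+ ZMod m where
  toFun γ := ∑ i, a i * ((b i γ : ℤ) : ZMod m)
  map_zero' := by simp
  map_add' γ δ := by
    simp only [map_add, Int.cast_add, mul_add, Finset.sum_add_distrib]

@[simp]
theorem coordFun_apply (a : Fin r → ZMod m) (γ : Additive (CongruenceSubgroup.Gamma0 N)) :
    coordFun b m a γ = ∑ i, a i * ((b i γ : ℤ) : ZMod m) := rfl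

theorem coordFun_add (a a' : Fin r → ZMod m) :
    coordFun b m (a + a') = coordFun b m a + coordFun b m a' := by
  refine AddMonoidHom.ext fun γ => ?_
  simp [add_mul, Finset.sum_add_distrib]

theorem coordFun_zero : coordFun b m 0 = 0 := by
  refine AddMonoidHom.ext fun γ => ?_
  simp

/-- a hom to a torsion free group kills the elements of finite order. -/
theorem eq_zero_of_isOfFinOrder {A : Type*} [AddCommGroup A] [IsAddTorsionFree A]
    (ψ : Additive (CongruenceSubgroup.Gamma0 N) →+ A) (γ : CongruenceSubgroup.Gamma0 N)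
    (hγ : IsOfFinOrder γ) : ψ (Additive.ofMul γ) = 0 := by
  obtain ⟨k, hk, hγk⟩ := isOfFinOrder_iff_pow_eq_one.1 hγ
  have h1 : k • ψ (Additive.ofMul γ) = 0 := by
    rw [← map_nsmul, ← ofMul_pow, hγk]
    exact map_zero ψ
  exact (nsmul_eq_zero_iff_right hk.ne').1 h1

variable {b}

theorem coordFun_mem (hb : IsParBasis N b) (a : Fin r → ZMod m) :
    coordFun b m a ∈ homPE (CongruenceSubgroup.Gamma0 N) (ZMod m) := by
  refine ⟨fun γ hγ => ?_, fun γ hγ => ?_⟩
  · rw [coordFun_apply]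
    refine Finset.sum_eq_zero fun i _ => ?_
    rw [hb.1 i γ hγ, Int.cast_zero, mul_zero]
  · rw [coordFun_apply]
    refine Finset.sum_eq_zero fun i _ => ?_
    rw [eq_zero_of_isOfFinOrder (b i) γ hγ, Int.cast_zero, mul_zero]

theorem coordFun_surjective [NeZero N] (hb : IsParBasis N b) (hL : Stmt_torsLift N)
    (hm : m ≠ 0) (φ : Additive (CongruenceSubgroup.Gamma0 N) →+ ZMod m)
    (hφ : φ ∈ homPE (CongruenceSubgroup.Gamma0 N) (ZMod m)) :
    ∃ a : Fin r → ZMod m, coordFun b m a = φ := by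
  obtain ⟨ψ, hψ, hψφ⟩ := hL m hm φ hφ
  obtain ⟨a, ha, -⟩ := hb.2 ℤ ψ hψ
  refine ⟨fun i => ((a i : ℤ) : ZMod m), ?_⟩
  refine AddMonoidHom.ext fun γ => ?_
  rw [coordFun_apply, hψφ γ, ha γ]
  push_cast
  refine Finset.sum_congr rfl fun i _ => ?_
  rw [smul_eq_mul, Int.cast_mul, mul_comm]

theorem coordFun_injective (hb : IsParBasis N b) (hm : m ≠ 0) (a : Fin r → ZMod m)
    (h : coordFun b m a = 0) : a = 0 := by
  have : NeZero m := ⟨hm⟩
  -- integer lifts
  let a' : Fin r → ℤ := fun i => ((a i).val : ℤ)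
  have ha' : ∀ i, ((a' i : ℤ) : ZMod m) = a i := fun i => by
    simp [a']
  -- the integral hom `Ψ = ∑ a'_i b_i`
  let Ψ : Additive (CongruenceSubgroup.Gamma0 N) →+ ℤ := ∑ i, a' i • b i
  have hΨ : ∀ γ, Ψ γ = ∑ i, b i γ • a' i := by
    intro γ
    simp only [Ψ, AddMonoidHom.finsetSum_apply, AddMonoidHom.smul_apply, smul_eq_mul]
    exact Finset.sum_congr rfl fun i _ => mul_comm _ _
  have hdvd : ∀ γ, (m : ℤ) ∣ Ψ γ := by
    intro γ
    rw [← ZMod.intCast_zmod_eq_zero_iff_dvd, hΨ γ]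
    have := congrArg (fun φ : Additive (CongruenceSubgroup.Gamma0 N) →+ ZMod m => φ γ) h
    simp only [coordFun_apply, AddMonoidHom.zero_apply] at this
    rw [← this]
    push_cast
    refine Finset.sum_congr rfl fun i _ => ?_
    rw [smul_eq_mul, Int.cast_mul, ha' i, mul_comm]
  have hm' : (m : ℤ) ≠ 0 := Nat.cast_ne_zero.2 hm
  -- `Ψ / m`
  let Ψ' : Additive (CongruenceSubgroup.Gamma0 N) →+ ℤ :=
    { toFun := fun γ => Ψ γ / (m : ℤ)
      map_zero' := by simp
      map_add' := fun γ δ => by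
        show Ψ (γ + δ) / (m : ℤ) = Ψ γ / (m : ℤ) + Ψ δ / (m : ℤ)
        rw [map_add, Int.add_ediv_of_dvd_left (hdvd γ)] }
  have hΨ' : ∀ γ, Ψ γ = (m : ℤ) * Ψ' γ := fun γ => (Int.mul_ediv_cancel' (hdvd γ)).symm
  have hparΨ : Period.IsParabolicHom (CongruenceSubgroup.Gamma0 N) Ψ := by
    intro γ hγ
    rw [hΨ]
    refine Finset.sum_eq_zero fun i _ => ?_
    rw [hb.1 i γ hγ, zero_smul]
  have hparΨ' : Period.IsParabolicHom (CongruenceSubgroup.Gamma0 N) Ψ' := by
    intro γ hγ
    have := hΨ' (Additive.ofMul γ)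
    rw [hparΨ γ hγ] at this
    rcases mul_eq_zero.1 this.symm with h0 | h0
    · exact absurd h0 hm'
    · exact h0
  obtain ⟨c, hc, -⟩ := hb.2 ℤ Ψ' hparΨ'
  obtain ⟨a₀, -, huniq⟩ := hb.2 ℤ Ψ hparΨ
  have e1 : a' = a₀ := huniq a' hΨ
  have e2 : (fun i => (m : ℤ) * c i) = a₀ := by
    refine huniq _ fun γ => ?_
    rw [hΨ' γ, hc γ, Finset.mul_sum]
    refine Finset.sum_congr rfl fun i _ => ?_
    simp only [smul_eq_mul]
    ring
  funext i
  have e3 : a' i = (m : ℤ) * c i := by rw [e1, ← e2]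
  rw [← ha' i, e3]
  simp

/-- the coordinate map as a homomorphism. -/
def coordHom (hb : IsParBasis N b) :
    (Fin r → ZMod m) →+ homPE (CongruenceSubgroup.Gamma0 N) (ZMod m) where
  toFun a := ⟨coordFun b m a, coordFun_mem m hb a⟩
  map_zero' := Subtype.ext (coordFun_zero b m)
  map_add' a a' := Subtype.ext (coordFun_add b m a a')

theorem coordHom_bijective [NeZero N] (hb : IsParBasis N b) (hL : Stmt_torsLift N) (hm : m ≠ 0) :
    Function.Bijective (coordHom m hb) := by
  constructor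
  · rw [injective_iff_map_eq_zero]
    intro a ha
    exact coordFun_injective m hb hm a (congrArg Subtype.val ha)
  · intro φ
    obtain ⟨a, ha⟩ := coordFun_surjective m hb hL hm φ.1 φ.2
    exact ⟨a, Subtype.ext ha⟩

/-- coordinates on `homPE(Γ₀(N), ℤ/m)`. -/
def coordEquiv [NeZero N] (hb : IsParBasis N b) (hL : Stmt_torsLift N) (hm : m ≠ 0) :
    (Fin r → ZMod m) ≃+ homPE (CongruenceSubgroup.Gamma0 N) (ZMod m) :=
  AddEquiv.ofBijective (coordHom m hb) (coordHom_bijective m hb hL hm)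

@[simp]
theorem coe_coordEquiv [NeZero N] (hb : IsParBasis N b) (hL : Stmt_torsLift N) (hm : m ≠ 0)
    (a : Fin r → ZMod m) :
    ((coordEquiv m hb hL hm a : homPE (CongruenceSubgroup.Gamma0 N) (ZMod m)) :
      Additive (CongruenceSubgroup.Gamma0 N) →+ ZMod m) = coordFun b m a := rfl

/-- reduction of coordinates corresponds to reduction of characters. -/
theorem coordFun_cast {n : ℕ} (hmn : m ∣ n) (a : Fin r → ZMod n)
    (γ : Additive (CongruenceSubgroup.Gamma0 N)) :
    ZMod.castHom hmn (ZMod m) (coordFun b n a γ) =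
      coordFun b m (fun i => ZMod.castHom hmn (ZMod m) (a i)) γ := by
  simp only [coordFun_apply, map_sum, map_mul, map_intCast]

/-- the Betti Hecke operator in coordinates. -/
theorem TB_coordFun {ℓ : ℕ} (hℓ : ℓ.Prime) (hℓN : ¬ ℓ ∣ N) (Mat : Matrix (Fin r) (Fin r) ℤ)
    (hMat : ∀ j, TB N ℤ hℓ hℓN (b j) = ∑ i, Mat i j • b i) (a : Fin r → ZMod m) :
    TB N (ZMod m) hℓ hℓN (coordFun b m a) =
      coordFun b m ((Mat.map (Int.cast : ℤ → ZMod m)).mulVec a) := by
  have h1 : coordFun b m a =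
      ∑ j, ((AddMonoidHom.mulLeft (a j)).comp (Int.castAddHom (ZMod m))).comp (b j) := by
    refine AddMonoidHom.ext fun γ => ?_
    simp
  rw [h1, map_sum]
  refine AddMonoidHom.ext fun γ => ?_
  rw [AddMonoidHom.finsetSum_apply, coordFun_apply]
  have h2 : ∀ j, TB N (ZMod m) hℓ hℓN
      (((AddMonoidHom.mulLeft (a j)).comp (Int.castAddHom (ZMod m))).comp (b j)) γ =
      a j * ((∑ i, Mat i j * b i γ : ℤ) : ZMod m) := by
    intro j
    have hc : TB N (ZMod m) hℓ hℓN
        (((AddMonoidHom.mulLeft (a j)).comp (Int.castAddHom (ZMod m))).comp (b j)) =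
        ((AddMonoidHom.mulLeft (a j)).comp (Int.castAddHom (ZMod m))).comp
          (TB N ℤ hℓ hℓN (b j)) := by
      haveI : Fact ℓ.Prime := ⟨hℓ⟩
      exact (isHeckeFamily_T N hℓN).heckeOp_comp (incl_injective N)
        ((AddMonoidHom.mulLeft (a j)).comp (Int.castAddHom (ZMod m))) (b j)
    rw [hc, hMat j]
    simp
  simp only [h2]
  simp only [Matrix.mulVec, dotProduct, Matrix.map_apply, Finset.sum_mul]
  push_cast
  simp only [Finset.mul_sum]
  rw [Finset.sum_comm]
  refine Finset.sum_congr rfl fun i _ => Finset.sum_congr rfl fun j _ => ?_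
  ring

end Coord

end Fermat.Agent.GTor.H81
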