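import Fermat.Agent.GTor.H81_T2a
import Fermat.Agent.GTor.H81_T2b

/-!
# G-TOR plumbing T2, part c: coordinates on `J₀(N)[p^k]` and the matrices of the Galois action
(helper81)
-/

set_option autoImplicit false

noncomputable section

namespace Fermat.Agent.GTor.H81

open AlgebraicCurve ModularCurve Fermat.Agent.GTor Fermat.Agent.Betti
open scoped MatrixGroups

/-- the `n`-torsion of `J₀(N)`. -/
abbrev Jtor (N n : ℕ) [NeZero N] : AddSubgroup (JZero N) :=
  Pic0.torsion (AlgebraicClosure ℚ) (modularFunctionFieldBar N) n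

section Theta

variable {N : ℕ} [NeZero N] {ι : AlgebraicClosure ℚ →+* ℂ}
  {r : ℕ} {b : Fin r → (Additive (CongruenceSubgroup.Gamma0 N) →+ ℤ)}
  (hb : IsParBasis N b) (hL : Stmt_torsLift N)

/-- The data of the torsion dictionary at level `n`. -/
structure TorIso (N n : ℕ) [NeZero N] (ι : AlgebraicClosure ℚ →+* ℂ) where
  e : Jtor N n ≃+ homPE (CongruenceSubgroup.Gamma0 N) (ZMod n)
  spec : ∀ x : Jtor N n, TorChar N n ι (x : JZero N)
    ((e x : homPE (CongruenceSubgroup.Gamma0 N) (ZMod n)) :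
      Additive (CongruenceSubgroup.Gamma0 N) →+ ZMod n)
  uniq : ∀ (x : Jtor N n) (φ : Additive (CongruenceSubgroup.Gamma0 N) →+ ZMod n),
    TorChar N n ι (x : JZero N) φ →
      φ = ((e x : homPE (CongruenceSubgroup.Gamma0 N) (ZMod n)) :
        Additive (CongruenceSubgroup.Gamma0 N) →+ ZMod n)

theorem nonempty_torIso {n : ℕ} (h : Stmt_TORc N n) (ι : AlgebraicClosure ℚ →+* ℂ) :
    Nonempty (TorIso N n ι) := by
  obtain ⟨e, h1, h2⟩ := h ι
  exact ⟨⟨e, h1, h2⟩⟩

variable {n : ℕ} (hn : n ≠ 0) (E : TorIso N n ι)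

/-- coordinates on `J₀(N)[n]`. -/
def theta : Jtor N n ≃+ (Fin r → ZMod n) :=
  E.e.trans (coordEquiv n hb hL hn).symm

theorem coordFun_theta (x : Jtor N n) :
    coordFun b n (theta hb hL hn E x) =
      ((E.e x : homPE (CongruenceSubgroup.Gamma0 N) (ZMod n)) :
        Additive (CongruenceSubgroup.Gamma0 N) →+ ZMod n) := by
  rw [← coe_coordEquiv n hb hL hn]
  congr 1
  exact (coordEquiv n hb hL hn).apply_symm_apply (E.e x)

theorem torChar_theta (x : Jtor N n) :
    TorChar N n ι (x : JZero N) (coordFun b n (theta hb hL hn E x)) := by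
  rw [coordFun_theta]
  exact E.spec x

theorem theta_eq_of_torChar (x : Jtor N n) (a : Fin r → ZMod n)
    (h : TorChar N n ι (x : JZero N) (coordFun b n a)) : theta hb hL hn E x = a := by
  have h1 := E.uniq x _ h
  have h2 : coordEquiv n hb hL hn a = E.e x := Subtype.ext (by rw [coe_coordEquiv]; exact h1)
  show (coordEquiv n hb hL hn).symm (E.e x) = a
  rw [← h2, AddEquiv.symm_apply_apply]

/-- `theta` as a `ZMod n`-linear equivalence. -/
def thetaLin : Jtor N n ≃ₗ[ZMod n] (Fin r → ZMod n) :=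
  { theta hb hL hn E with
    map_smul' := fun c x => ZMod.map_smul (theta hb hL hn E).toAddMonoidHom c x }

@[simp]
theorem thetaLin_apply (x : Jtor N n) : thetaLin hb hL hn E x = theta hb hL hn E x := rfl

/-- the matrix of a Galois element on `J₀(N)[n]`. -/
def rhoMat : GQ →* Matrix (Fin r) (Fin r) (ZMod n) :=
  ((LinearMap.toMatrixAlgEquiv' : Module.End (ZMod n) (Fin r → ZMod n) ≃ₐ[ZMod n]
      Matrix (Fin r) (Fin r) (ZMod n)).toRingEquiv.toMonoidHom.comp
    (thetaLin hb hL hn E).conjRingEquiv.toMonoidHom).comp (JZero.torsionGaloisRep N n)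

theorem rhoMat_mulVec (σ : GQ) (x : Jtor N n) :
    (rhoMat hb hL hn E σ).mulVec (theta hb hL hn E x) =
      theta hb hL hn E (JZero.torsionGaloisRep N n σ x) := by
  show (LinearMap.toMatrixAlgEquiv' ((thetaLin hb hL hn E).conjRingEquiv
    (JZero.torsionGaloisRep N n σ))).mulVec (theta hb hL hn E x) = _
  rw [← Matrix.toLinAlgEquiv'_apply, Matrix.toLinAlgEquiv'_toMatrixAlgEquiv']
  have h : (thetaLin hb hL hn E).symm (theta hb hL hn E x) = x :=
    (thetaLin hb hL hn E).symm_apply_apply x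
  simp [LinearEquiv.conjRingEquiv, h]

theorem matrix_ext_theta {A B : Matrix (Fin r) (Fin r) (ZMod n)}
    (h : ∀ x : Jtor N n, A.mulVec (theta hb hL hn E x) = B.mulVec (theta hb hL hn E x)) :
    A = B := by
  apply Matrix.mulVec_injective
  funext v
  obtain ⟨x, rfl⟩ := (theta hb hL hn E).surjective v
  exact h x

end Theta

end Fermat.Agent.GTor.H81
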