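import Fermat.Agent.GTor.H81_T2c
import Fermat.Agent.GTor.H81_TorsRed

/-!
# G-TOR plumbing T2, part d: the Tate system of `J₀(N)`  (helper81)
-/

set_option autoImplicit false

noncomputable section

namespace Fermat.Agent.GTor.H81

open AlgebraicCurve ModularCurve Fermat.Agent.GTor Fermat.Agent.Betti
open scoped MatrixGroups

section Props

variable {N : ℕ} [NeZero N] {ι : AlgebraicClosure ℚ →+* ℂ}
  {r : ℕ} {b : Fin r → (Additive (CongruenceSubgroup.Gamma0 N) →+ ℤ)}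
  (hb : IsParBasis N b) (hL : Stmt_torsLift N)

/-! ### elements of `J₀(N)[n]` -/

theorem coe_gal {n : ℕ} (σ : GQ) (x : Jtor N n) :
    ((JZero.torsionGaloisRep N n σ x : Jtor N n) : JZero N) = σ • (x : JZero N) := rfl

/-- the Hecke operator on `J₀(N)[n]`. -/
def heckeTor (n : ℕ) (ℓ : Nat.Primes) (x : Jtor N n) : Jtor N n :=
  ⟨heckeOperatorBar N ℓ (x : JZero N), by
    rw [Pic0.mem_torsion, ← map_zsmul, Pic0.mem_torsion.1 x.2, map_zero]⟩

@[simp]
theorem coe_heckeTor (n : ℕ) (ℓ : Nat.Primes) (x : Jtor N n) :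
    ((heckeTor n ℓ x : Jtor N n) : JZero N) = heckeOperatorBar N ℓ (x : JZero N) := rfl

theorem heckeTor_gal (hGH : Stmt_GalHecke N) (n : ℕ) (ℓ : Nat.Primes) (σ : GQ) (x : Jtor N n) :
    JZero.torsionGaloisRep N n σ (heckeTor n ℓ x) =
      heckeTor n ℓ (JZero.torsionGaloisRep N n σ x) :=
  Subtype.ext (hGH ℓ σ (x : JZero N))

theorem pow_nsmul_coe {p k : ℕ} (x : Jtor N (p ^ k)) : p ^ k • (x : JZero N) = 0 := by
  have := Pic0.mem_torsion.1 x.2
  rw [← natCast_zsmul]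
  exact_mod_cast this

/-- multiplication by `n / m` from `J₀(N)[n]` to `J₀(N)[m]`. -/
def mulTor {n m : ℕ} (hmn : m ∣ n) (x : Jtor N n) : Jtor N m :=
  ⟨(n / m) • (x : JZero N), by
    rw [Pic0.mem_torsion, ← natCast_zsmul, smul_smul]
    have : (m : ℤ) * ((n / m : ℕ) : ℤ) = (n : ℤ) := by
      exact_mod_cast Nat.mul_div_cancel' hmn
    rw [this]
    exact Pic0.mem_torsion.1 x.2⟩

@[simp]
theorem coe_mulTor {n m : ℕ} (hmn : m ∣ n) (x : Jtor N n) :
    ((mulTor hmn x : Jtor N m) : JZero N) = (n / m) • (x : JZero N) := rfl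

/-! ### compatibility in the level -/

variable {n m : ℕ} (hn : n ≠ 0) (hm : m ≠ 0) (hmn : m ∣ n)
  (E : TorIso N n ι) (E' : TorIso N m ι)

theorem theta_mulTor (x : Jtor N n) :
    theta hb hL hm E' (mulTor hmn x) =
      fun i => ZMod.castHom hmn (ZMod m) (theta hb hL hn E x i) := by
  apply theta_eq_of_torChar
  have h := torChar_reduce hmn hn (torChar_theta hb hL hn E x)
  have e : redChar hmn (coordFun b n (theta hb hL hn E x)) =
      coordFun b m (fun i => ZMod.castHom hmn (ZMod m) (theta hb hL hn E x i)) := by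
    refine AddMonoidHom.ext fun γ => ?_
    rw [redChar_apply, coordFun_cast]
  rw [e] at h
  exact h

theorem mulTor_gal (σ : GQ) (x : Jtor N n) :
    mulTor hmn (JZero.torsionGaloisRep N n σ x) = JZero.torsionGaloisRep N m σ (mulTor hmn x) := by
  apply Subtype.ext
  rw [coe_gal, coe_mulTor, coe_mulTor, coe_gal]
  exact gal_nsmul σ (n / m) (x : JZero N)

theorem rhoMat_compat (σ : GQ) :
    (rhoMat hb hL hn E σ).map (ZMod.castHom hmn (ZMod m)) = rhoMat hb hL hm E' σ := by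
  apply Matrix.mulVec_injective
  funext v
  -- lift `v` to level `n`
  have hsurj : Function.Surjective (ZMod.castHom hmn (ZMod m)) := ZMod.castHom_surjective hmn
  choose w hw using fun i => hsurj (v i)
  obtain ⟨x, hx⟩ := (theta hb hL hn E).surjective w
  have hv : v = fun i => ZMod.castHom hmn (ZMod m) (theta hb hL hn E x i) := by
    funext i
    rw [hx, hw i]
  have h1 : (rhoMat hb hL hm E' σ).mulVec v =
      fun i => ZMod.castHom hmn (ZMod m)
        (theta hb hL hn E (JZero.torsionGaloisRep N n σ x) i) := by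
    rw [hv, ← theta_mulTor hb hL hn hm hmn E E' x, rhoMat_mulVec, ← mulTor_gal,
      theta_mulTor hb hL hn hm hmn E E']
  rw [h1]
  funext i
  rw [← rhoMat_mulVec, hv]
  exact (RingHom.map_mulVec (ZMod.castHom hmn (ZMod m)) (rhoMat hb hL hn E σ)
    (theta hb hL hn E x) i).symm

/-! ### triviality -/

theorem rhoMat_eq_one (σ : GQ) (h : ∀ x : Jtor N n, σ • (x : JZero N) = x) :
    rhoMat hb hL hn E σ = 1 := by
  apply matrix_ext_theta hb hL hn E
  intro x
  rw [rhoMat_mulVec, Matrix.one_mulVec]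
  congr 1
  apply Subtype.ext
  rw [coe_gal, h x]

include hb hL hn E in
theorem finite_Jtor : Finite (Jtor N n) := by
  haveI : NeZero n := ⟨hn⟩
  exact Finite.of_equiv _ (theta hb hL hn E).symm.toEquiv

theorem rhoMat_cont (hG : Stmt_GAL N) :
    ∃ L : IntermediateField ℚ (AlgebraicClosure ℚ), FiniteDimensional ℚ L ∧
      ∀ σ : GQ, (∀ x ∈ L, σ x = x) → rhoMat hb hL hn E σ = 1 := by
  haveI := finite_Jtor hb hL hn E
  choose L hL1 hL2 using fun x : Jtor N n => hG (x : JZero N)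
  refine ⟨⨆ x, L x, ?_, fun σ hσ => rhoMat_eq_one hb hL hn E σ fun x => hL2 x σ fun y hy => ?_⟩
  · haveI : ∀ x, FiniteDimensional ℚ (L x) := hL1
    exact IntermediateField.finiteDimensional_iSup_of_finite
  · exact hσ y ((le_iSup L x) hy)

/-! ### Hecke operators -/

theorem theta_heckeTor {ℓ : ℕ} (hℓ : ℓ.Prime) (hℓN : ¬ ℓ ∣ N) (hHK : Stmt_HK N n)
    (Mat : Matrix (Fin r) (Fin r) ℤ)
    (hMat : ∀ j, TB N ℤ hℓ hℓN (b j) = ∑ i, Mat i j • b i) (x : Jtor N n) :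
    theta hb hL hn E (heckeTor n (⟨ℓ, hℓ⟩ : Nat.Primes) x) =
      (Mat.map (Int.cast : ℤ → ZMod n)).mulVec (theta hb hL hn E x) := by
  apply theta_eq_of_torChar
  have h := hHK ι ℓ hℓ hℓN (x : JZero N) _ (torChar_theta hb hL hn E x)
  rw [TB_coordFun n hℓ hℓN Mat hMat] at h
  exact h

theorem rhoMat_comm_T {ℓ : ℕ} (hℓ : ℓ.Prime) (hℓN : ¬ ℓ ∣ N) (hHK : Stmt_HK N n)
    (hGH : Stmt_GalHecke N) (Mat : Matrix (Fin r) (Fin r) ℤ)
    (hMat : ∀ j, TB N ℤ hℓ hℓN (b j) = ∑ i, Mat i j • b i) (σ : GQ) :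
    rhoMat hb hL hn E σ * Mat.map (Int.cast : ℤ → ZMod n) =
      Mat.map (Int.cast : ℤ → ZMod n) * rhoMat hb hL hn E σ := by
  apply matrix_ext_theta hb hL hn E
  intro x
  rw [← Matrix.mulVec_mulVec, ← Matrix.mulVec_mulVec,
    ← theta_heckeTor hb hL hn E hℓ hℓN hHK Mat hMat, rhoMat_mulVec, rhoMat_mulVec,
    ← theta_heckeTor hb hL hn E hℓ hℓN hHK Mat hMat]
  exact congrArg (theta hb hL hn E) (heckeTor_gal hGH n (⟨ℓ, hℓ⟩ : Nat.Primes) σ x)

end Props

/-- linear algebra: the Eichler–Shimura relation from its action on a vector. -/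
theorem mulVec_es {R : Type*} [CommRing R] {r : ℕ} (ρ M : Matrix (Fin r) (Fin r) R) (ℓ : ℕ)
    (v : Fin r → R)
    (h : ρ.mulVec (ρ.mulVec v) - M.mulVec (ρ.mulVec v) + ℓ • v = 0) :
    (ρ * ρ - M * ρ + (ℓ : R) • (1 : Matrix (Fin r) (Fin r) R)).mulVec v =
      (0 : Matrix (Fin r) (Fin r) R).mulVec v := by
  rw [Matrix.zero_mulVec, Matrix.add_mulVec, Matrix.sub_mulVec, ← Matrix.mulVec_mulVec,
    ← Matrix.mulVec_mulVec, Matrix.smul_mulVec, Matrix.one_mulVec, ← h]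
  congr 1
  funext i
  simp [nsmul_eq_mul]

section PropsP

variable {N : ℕ} [NeZero N] {ι : AlgebraicClosure ℚ →+* ℂ}
  {r : ℕ} {b : Fin r → (Additive (CongruenceSubgroup.Gamma0 N) →+ ℤ)}
  (hb : IsParBasis N b) (hL : Stmt_torsLift N) {n : ℕ} (hn : n ≠ 0)
  (E : TorIso N n ι)

/-! ### Eichler–Shimura -/

theorem rhoMat_ES {p : ℕ} (hnp : ∀ x : Jtor N n, ∃ j : ℕ, p ^ j • (x : JZero N) = 0)
    {ℓ : ℕ} (hℓ : ℓ.Prime) (hℓN : ¬ ℓ ∣ N)
    (hℓp : ℓ ≠ p)
    (hHK : Stmt_HK N n) (hES : Stmt_TorsES N p) (Mat : Matrix (Fin r) (Fin r) ℤ)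
    (hMat : ∀ j, TB N ℤ hℓ hℓN (b j) = ∑ i, Mat i j • b i)
    (A : ValuationSubring (AlgebraicClosure ℚ)) (hA : A.LiesOverPrime ℓ) (σ : GQ)
    (hσ : A.IsFrobeniusAt σ ℓ) :
    rhoMat hb hL hn E σ * rhoMat hb hL hn E σ
      - Mat.map (Int.cast : ℤ → ZMod n) * rhoMat hb hL hn E σ
      + (ℓ : ZMod n) • (1 : Matrix (Fin r) (Fin r) (ZMod n)) = 0 := by
  apply matrix_ext_theta hb hL hn E
  intro x
  have key := hES ℓ hℓ hℓN hℓp A hA σ hσ (x : JZero N) (hnp x)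
  -- the relation inside `J₀(N)[n]`, with opaque names for the three elements
  obtain ⟨y, hy⟩ : ∃ y : Jtor N n, y = JZero.torsionGaloisRep N n σ x := ⟨_, rfl⟩
  obtain ⟨z, hz⟩ : ∃ z : Jtor N n, z = JZero.torsionGaloisRep N n σ y := ⟨_, rfl⟩
  obtain ⟨t, ht⟩ : ∃ t : Jtor N n, t = heckeTor n (⟨ℓ, hℓ⟩ : Nat.Primes) y :=
    ⟨_, rfl⟩
  have hyc : (y : JZero N) = σ • (x : JZero N) := by rw [hy]; rfl
  have hzc : (z : JZero N) = σ • σ • (x : JZero N) := by rw [hz, ← hyc]; rfl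
  have htc : (t : JZero N) = heckeOperatorBar N ⟨ℓ, hℓ⟩ (σ • (x : JZero N)) := by
    rw [ht, ← hyc]; rfl
  have key' : z - t + ℓ • x = 0 := by
    apply Subtype.ext
    rw [AddSubgroup.coe_zero, AddSubgroup.coe_add, AddSubgroup.coe_sub, AddSubgroup.coe_nsmul,
      hzc, htc]
    exact key
  have h2 : theta hb hL hn E z - theta hb hL hn E t + ℓ • theta hb hL hn E x = 0 := by
    have h3 := congrArg (theta hb hL hn E) key'
    have h4 : theta hb hL hn E (z - t + ℓ • x) =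
        theta hb hL hn E z - theta hb hL hn E t + ℓ • theta hb hL hn E x := by
      rw [AddEquiv.map_add, AddEquiv.map_sub]
      congr 1
      exact map_nsmul (theta hb hL hn E) ℓ x
    rw [h4, AddEquiv.map_zero] at h3
    exact h3
  have e1 : theta hb hL hn E y = (rhoMat hb hL hn E σ).mulVec (theta hb hL hn E x) := by
    rw [hy]
    exact (rhoMat_mulVec hb hL hn E σ x).symm
  have e2 : theta hb hL hn E z = (rhoMat hb hL hn E σ).mulVec (theta hb hL hn E y) := by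
    rw [hz]
    exact (rhoMat_mulVec hb hL hn E σ y).symm
  have e3 : theta hb hL hn E t =
      (Mat.map (Int.cast : ℤ → ZMod n)).mulVec (theta hb hL hn E y) := by
    rw [ht]
    exact theta_heckeTor hb hL hn E hℓ hℓN hHK Mat hMat y
  rw [e2, e3, e1] at h2
  exact mulVec_es _ _ ℓ _ h2

/-! ### inertia -/

theorem rhoMat_unram {p : ℕ} (hnp : ∀ x : Jtor N n, ∃ j : ℕ, p ^ j • (x : JZero N) = 0)
    (hU : Stmt_TorsUnram N p) {q : ℕ}
    (hq : q.Prime) (hqN : ¬ q ∣ N) (hqp : q ≠ p)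
    (P : ValuationSubring (AlgebraicClosure ℚ)) (hP : P.LiesOverPrime q) (σ : GQ)
    (hσ : σ ∈ P.inertiaSubgroupIn ℚ) : rhoMat hb hL hn E σ = 1 := by
  apply rhoMat_eq_one
  intro x
  exact hU q hq hqN hqp P hP σ hσ (x : JZero N) (hnp x)

end PropsP

end Fermat.Agent.GTor.H81
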