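import Fermat.Agent.GTor.H81_T2

/-!
# G-TOR: the coordinatised Tate system of `J₀(N)`  (helper81)

`TateCoords N p S` packages coordinates `θ k : J₀(N)[p^k] ≃ (ℤ/p^k)^r` together with the matrices
`ρ k σ` of the Galois action and the integer matrices `M t` of the Hecke algebra away from `S`
(`S ⊇ {q ∣ N}`; `p ∈ S` is NOT needed), compatible with `θ`.  Every torsion-level statement about
`J₀(N)[p^∞]` (Eichler–Shimura, unramifiedness, unipotent inertia, …) can be transported to the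
matrices through `θ` (`TateCoords.matrix_ext`, `TateCoords.gal`, `TateCoords.hecke`).

* `tateCoords_of` : construction from the torsion dictionary (same inputs as `t2`, without G-RED).
-/

set_option autoImplicit false

noncomputable section

namespace Fermat.Agent.GTor.H81

open AlgebraicCurve ModularCurve Fermat.Agent.GTor Fermat.Agent.Betti
open scoped MatrixGroups

/-- **Coordinatised Tate system** of `J₀(N)` at `p` for the Hecke algebra away from `S`. -/
structure TateCoords (N p : ℕ) [NeZero N] (S : Set ℕ) where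
  /-- the rank `2 g`. -/
  r : ℕ
  /-- the Galois matrices modulo `p ^ k`. -/
  ρ : ∀ k : ℕ, GQ →* Matrix (Fin r) (Fin r) (ZMod (p ^ k))
  /-- the integral Hecke matrices. -/
  M : CuspForm.heckeAlgebra N 2 S →+* Matrix (Fin r) (Fin r) ℤ
  /-- coordinates on `J₀(N)[p ^ k]`. -/
  θ : ∀ k : ℕ, Jtor N (p ^ k) ≃+ (Fin r → ZMod (p ^ k))
  tate : IsTateSystem p ρ M
  gal : ∀ (k : ℕ) (σ : GQ) (x : Jtor N (p ^ k)),
    θ k (JZero.torsionGaloisRep N (p ^ k) σ x) = (ρ k σ).mulVec (θ k x)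
  hecke : ∀ (k : ℕ) (ℓ : ℕ) (hℓ : ℓ.Prime) (hℓN : ¬ ℓ ∣ N) (hℓS : ℓ ∉ S) (x : Jtor N (p ^ k)),
    θ k (heckeTor (p ^ k) (⟨ℓ, hℓ⟩ : Nat.Primes) x) =
      ((M (CuspForm.heckeAlgebra.T hℓ hℓN hℓS)).map (Int.cast : ℤ → ZMod (p ^ k))).mulVec (θ k x)

namespace TateCoords

variable {N p : ℕ} [NeZero N] {S : Set ℕ} (C : TateCoords N p S)

/-- two matrices agreeing on all coordinate vectors of torsion points are equal. -/
theorem matrix_ext {k : ℕ} {A B : Matrix (Fin C.r) (Fin C.r) (ZMod (p ^ k))}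
    (h : ∀ x : Jtor N (p ^ k), A.mulVec (C.θ k x) = B.mulVec (C.θ k x)) : A = B := by
  apply Matrix.mulVec_injective
  funext v
  obtain ⟨x, rfl⟩ := (C.θ k).surjective v
  exact h x

/-- a matrix killing all coordinate vectors of torsion points is zero. -/
theorem matrix_eq_zero {k : ℕ} {A : Matrix (Fin C.r) (Fin C.r) (ZMod (p ^ k))}
    (h : ∀ x : Jtor N (p ^ k), A.mulVec (C.θ k x) = 0) : A = 0 :=
  C.matrix_ext fun x => by rw [h x, Matrix.zero_mulVec]

end TateCoords

/-- **The coordinatised Tate system** from the torsion dictionary. -/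
theorem tateCoords_of (N p : ℕ) [NeZero N] (S : Set ℕ) (hp : p.Prime)
    (hNS : ∀ q : ℕ, q.Prime → q ∣ N → q ∈ S)
    (hTOR : ∀ k : ℕ, Stmt_TORc N (p ^ k)) (hHK : ∀ k : ℕ, Stmt_HK N (p ^ k))
    (hLift : Stmt_torsLift N) (hGH : Stmt_GalHecke N) (hGAL : Stmt_GAL N)
    (hBasis : Betti.Stmt_basis) (hMat : Betti.Stmt_matrixRep) :
    Nonempty (TateCoords N p S) := by
  obtain ⟨r, b, hb⟩ := hBasis N
  obtain ⟨M, hMinj, hMT, -⟩ := hMat N S r b hb
  have halg : Algebra.IsAlgebraic ℚ (AlgebraicClosure ℚ) := AlgebraicClosure.isAlgebraic ℚ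
  obtain ⟨ι⟩ : Nonempty (AlgebraicClosure ℚ →+* ℂ) :=
    ⟨((IsAlgClosed.lift : AlgebraicClosure ℚ →ₐ[ℚ] ℂ) : AlgebraicClosure ℚ →+* ℂ)⟩
  have hE : ∀ k : ℕ, Nonempty (TorIso N (p ^ k) ι) := fun k => nonempty_torIso (hTOR k) ι
  have hn : ∀ k : ℕ, p ^ k ≠ 0 := fun k => pow_ne_zero k hp.ne_zero
  let E : ∀ k : ℕ, TorIso N (p ^ k) ι := fun k => Classical.choice (hE k)
  refine ⟨{ r := r
            ρ := fun k => rhoMat hb hLift (hn k) (E k)
            M := M
            θ := fun k => theta hb hLift (hn k) (E k)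
            tate := ⟨?_, ?_, ?_, hMinj⟩
            gal := ?_
            hecke := ?_ }⟩
  · -- compatibility
    intro k σ i j
    have h := rhoMat_compat hb hLift (hn (k + 1)) (hn k) (pow_dvd_pow p (Nat.le_succ k))
      (E (k + 1)) (E k) σ
    have h2 := congrFun (congrFun h i) j
    rw [Matrix.map_apply] at h2
    exact h2
  · -- continuity
    intro k
    exact rhoMat_cont hb hLift (hn k) (E k) hGAL
  · -- commutation with the Hecke algebra
    intro k σ t
    refine comm_of_generators S M _ hNS (fun ℓ hℓ hℓN hℓS => ?_) t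
    exact rhoMat_comm_T hb hLift (hn k) (E k) hℓ hℓN (hHK k) hGH _ (hMT ℓ hℓ hℓN hℓS) σ
  · intro k σ x
    exact (rhoMat_mulVec hb hLift (hn k) (E k) σ x).symm
  · intro k ℓ hℓ hℓN hℓS x
    exact theta_heckeTor hb hLift (hn k) (E k) hℓ hℓN (hHK k) _ (hMT ℓ hℓ hℓN hℓS) x

end Fermat.Agent.GTor.H81
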