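import Fermat.Agent.GTor.H81_TatePieceFinal2
import Fermat.Agent.GTor.H81_TateCoords
import Fermat.Agent.GTor.H75_DescFinal

/-!
# G-TOR: the unconditional results  (helper81)

Everything of G-TOR is proved; the only remaining input of `S30.Stmt_TatePiece` is G-RED.

* `stmt_TOR_uncond N n hn : Stmt_TOR N n` :
  `Pic0.torsion ℚ̄ (modularFunctionFieldBar N) n ≃+ homPE (Γ₀(N)) (ℤ/n)`   (UNCONDITIONAL)
* `stmt_TORc_uncond N n hn : Stmt_TORc N n`                                 (UNCONDITIONAL)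
* `tateCoords N p S hp hNS : Nonempty (TateCoords N p S)`                    (UNCONDITIONAL)
* `tatePiece_of_red : (∀ N p, AllRed N p) → S30.Stmt_TatePiece`
-/

set_option autoImplicit false

noncomputable section

namespace Fermat.Agent.GTor.H81

open AlgebraicCurve ModularCurve Fermat.Agent.GTor Fermat.Agent.Betti

/-- **TORc**, unconditional. -/
theorem stmt_TORc_uncond (N n : ℕ) [NeZero N] (hn : n ≠ 0) : Stmt_TORc N n :=
  stmt_TORc_final N n hn (H75.stmt_DESC N n hn)

/-- **TOR**, unconditional: `J₀(N)[n] ≃ homPE(Γ₀(N), ℤ/n)`. -/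
theorem stmt_TOR_uncond (N n : ℕ) [NeZero N] (hn : n ≠ 0) : Stmt_TOR N n :=
  stmt_TOR_final N n hn (H75.stmt_DESC N n hn)

/-- **The coordinatised Tate system of `J₀(N)`**, unconditional. -/
theorem tateCoords (N p : ℕ) [NeZero N] (S : Set ℕ) (hp : p.Prime)
    (hNS : ∀ q : ℕ, q.Prime → q ∣ N → q ∈ S) : Nonempty (TateCoords N p S) :=
  tateCoords_of N p S hp hNS
    (fun k => stmt_TORc_uncond N (p ^ k) (pow_ne_zero k hp.ne_zero))
    (fun k => H44.stmt_HK N (p ^ k)) (H77.stmt_torsLift N) (H2.stmt_GalHecke N) (stmt_GAL N)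
    Betti.stmt_basis Betti.H76.stmt_matrixRep

/-- **The Tate system of `J₀(N)`** from G-RED. -/
theorem stmt_TateSystem_of_red (N p : ℕ) [NeZero N] (S : Finset ℕ) (hp : p.Prime) (hpS : p ∈ S)
    (hNS : ∀ q : ℕ, q.Prime → q ∣ N → q ∈ S) (hRed : AllRed N p) : Stmt_TateSystem N p S :=
  stmt_TateSystem_final N p S hp hpS hNS (fun n hn => H75.stmt_DESC N n hn) hRed

/-- **`Stmt_TatePiece`** (interface of cluster R) from G-RED alone. -/
theorem tatePiece_of_red
    (hRed : ∀ (N : ℕ) [NeZero N] (p : ℕ), p.Prime → AllRed N p) : S30.Stmt_TatePiece :=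
  tatePiece_of_desc_red (fun N _ n hn => H75.stmt_DESC N n hn) hRed

end Fermat.Agent.GTor.H81
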