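import Fermat.Agent.GTor.H81_Clauses
import Fermat.Agent.GTor.H81_Uncond
import Fermat.Agent.S34.H91_S30U
import Fermat.Agent.BAD.Defs

/-!
# G-TOR, T-U: the Tate piece with unipotent inertia  (helper81)

`tatePieceU_of : (∀ N p, BAD.Stmt_TorsUnip N p) → (∀ N p, AllRed N p) → S34.H91.Stmt_TatePieceU`.

Inputs: (UNIP) of item 65 (BAD_q, helper91/helper28) and G-RED (`AllRed`).
-/

set_option autoImplicit false

noncomputable section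

namespace Fermat.Agent.GTor.H81

open AlgebraicCurve ModularCurve Fermat.Agent.GTor Fermat.Agent.GTor.H58T1

/-- **T-U, one level.** -/
theorem tatePieceU_aux (p : ℕ) [Fact p.Prime] (N : ℕ) [NeZero N] (S : Finset ℕ)
    (hpS : p ∈ S) (hNS : ∀ q : ℕ, q.Prime → q ∣ N → q ∈ S)
    (hES : Stmt_TorsES N p) (hUn : Stmt_TorsUnram N p)
    (hU : Fermat.Agent.BAD.Stmt_TorsUnip N p)
    (𝒪' : Type) [CommRing 𝒪'] [IsDomain 𝒪'] [IsDiscreteValuationRing 𝒪']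
    [IsAdicComplete (IsLocalRing.maximalIdeal 𝒪') 𝒪'] [CharZero 𝒪']
    (hp𝒪' : (p : 𝒪') ∈ IsLocalRing.maximalIdeal 𝒪')
    (χ : CuspForm.heckeAlgebra N 2 (↑S : Set ℕ) →+* 𝒪') :
    ∃ (r : ℕ) (ρ : GQ →* Matrix (Fin r) (Fin r) 𝒪'), 0 < r ∧ S30.MatAdicCont ρ ∧
      (∀ (ℓ : ℕ) (hℓ : ℓ.Prime) (hℓN : ¬ ℓ ∣ N) (hℓS : ℓ ∉ (↑S : Set ℕ)),
        ∀ A : ValuationSubring (AlgebraicClosure ℚ), A.LiesOverPrime ℓ →
          ∀ σ : GQ, A.IsFrobeniusAt σ ℓ →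
            ρ σ * ρ σ - χ (CuspForm.heckeAlgebra.T hℓ hℓN hℓS) • ρ σ
              + (ℓ : 𝒪') • (1 : Matrix _ _ 𝒪') = 0) ∧
      (∀ q : ℕ, q.Prime → ¬ q ∣ N → q ≠ p → S30.MatUnramAt ρ q) ∧
      (∀ q : ℕ, q.Prime → q ∣ N → ¬ q ^ 2 ∣ N → q ≠ p →
        ∀ P : ValuationSubring (AlgebraicClosure ℚ), P.LiesOverPrime q →
          ∀ σ ∈ P.inertiaSubgroupIn ℚ, (ρ σ - 1) ^ 2 = 0) := by
  have hpp : p.Prime := Fact.out
  obtain ⟨C⟩ := tateCoords N p (↑S : Set ℕ) hpp (fun q hq hqN => Finset.mem_coe.2 (hNS q hq hqN))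
  obtain ⟨L⟩ := exists_tateLimit C 𝒪' hp𝒪'
  obtain ⟨Pc, hPc⟩ := exists_piece_eig L χ
  refine ⟨Pc.d, Pc.rep, Pc.pos, L.cont_piece Pc, ?_, ?_, ?_⟩
  · intro ℓ hℓ hℓN hℓS A hA σ hσ
    have hℓp : ℓ ≠ p := by
      rintro rfl
      exact hℓS (Finset.mem_coe.2 hpS)
    exact piece_ES L Pc hES hℓ hℓN hℓp hℓS _ (hPc _) A hA σ hσ
  · intro q hq hqN hqp
    exact piece_unram L Pc hUn hq hqN hqp
  · intro q hq hqN hq2 hqp P hP σ hσ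
    rw [pow_two]
    exact piece_unip L Pc (fun x hx => hU q hq hqN hq2 hqp P hP σ hσ σ hσ x hx)

/-- **T-U**: the Tate piece with unipotent inertia from (UNIP) and G-RED. -/
theorem tatePieceU_of
    (hU : ∀ (N : ℕ) [NeZero N] (p : ℕ), p.Prime → Fermat.Agent.BAD.Stmt_TorsUnip N p)
    (hRed : ∀ (N : ℕ) [NeZero N] (p : ℕ), p.Prime → AllRed N p) :
    Fermat.Agent.S34.H91.Stmt_TatePieceU := by
  intro p hp N _ S hpS hNS 𝒪' _ _ _ _ _ _ hp𝒪' χ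
  exact tatePieceU_aux p N S hpS hNS (torsES_of_red hp.out (hRed N p hp.out))
    (torsUnram_of_red hp.out (hRed N p hp.out)) (hU N p hp.out) 𝒪' hp𝒪' χ

end Fermat.Agent.GTor.H81
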