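import Fermat.Agent.GTor.H81_StNU
import Fermat.Agent.S35.H89_Final
import Fermat.Agent.S59.EigenOfPoint

/-!
# G-TOR, T-X: the enriched Tate pieces of S35 / S36  (helper81)

* `tatePieceSt_of` : `Stmt_TorsSt` (all levels) + `Stmt_Y1` + `R.Stmt_S30` + G-RED
  ⟹ `S35.Stmt_TatePieceSt`.
* `tatePieceNU_of` : `Stmt_TorsNU` (all levels) + `Stmt_Y1` + `R.Stmt_S30` + G-RED
  ⟹ `S35.Stmt_TatePieceNU`.

The piece is the eigenspace of `χ = iota ∘ chig` in the limit of the coordinatised Tate system of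
`J₀(M)`; at a prime `q ∣ M` write `M = M₀ q`, choose an old-killer `w` (`H81_OldKiller`) and use
`piece_St` / `piece_NU` (`H81_StNU`).
-/

set_option autoImplicit false
set_option linter.unusedSectionVars false

noncomputable section

namespace Fermat.Agent.GTor.H81

open AlgebraicCurve ModularCurve Fermat.Agent.GTor Fermat.Agent.GTor.H58T1
open Fermat.Agent.Betti.H76 Fermat.Agent.S35.H89

/-- the product form of `X⁴ - (q² + 1) X² + q² = 0`. -/
theorem list_prod_eq_zero {R : Type} [CommRing R] {d : ℕ} (X : Matrix (Fin d) (Fin d) R) (q : ℕ)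
    (h : X * X * X * X - ((q ^ 2 + 1 : ℕ) : R) • (X * X)
      + ((q ^ 2 : ℕ) : R) • (1 : Matrix (Fin d) (Fin d) R) = 0) :
    (([1, -1, (q : R), -(q : R)] : List R).map
      (fun c => X - c • (1 : Matrix (Fin d) (Fin d) R))).prod = 0 := by
  have key : ((Polynomial.X : Polynomial R) - Polynomial.C 1) *
      ((Polynomial.X - Polynomial.C (-1)) *
        ((Polynomial.X - Polynomial.C (q : R)) * (Polynomial.X - Polynomial.C (-(q : R))))) =
      Polynomial.X * Polynomial.X * Polynomial.X * Polynomial.X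
        - Polynomial.C (((q ^ 2 + 1 : ℕ) : R)) * (Polynomial.X * Polynomial.X)
        + Polynomial.C (((q ^ 2 : ℕ) : R)) := by
    simp only [map_neg, map_one, Nat.cast_add, Nat.cast_pow, Nat.cast_one, map_add, map_pow]
    ring
  have h2 := congrArg (Polynomial.aeval X) key
  simp only [map_mul, map_sub, map_add, Polynomial.aeval_X, Polynomial.aeval_C,
    Algebra.algebraMap_eq_smul_one] at h2
  simp only [List.map_cons, List.map_nil, List.prod_cons, List.prod_nil, mul_one]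
  rw [h2, ← h, Matrix.smul_mul, Matrix.one_mul]

/-- a ring homomorphism from the ring of eigenvalues to a domain of characteristic zero does not
kill nonzero eigenvalues. -/
theorem iota_comp_ne_zero {N : ℕ} [NeZero N] {S : Set ℕ} {O' : Type} [CommRing O'] [IsDomain O']
    [CharZero O'] (chig : CuspForm.heckeAlgebra N 2 S →+* ℂ) (iota : chig.range →+* O')
    (t : CuspForm.heckeAlgebra N 2 S) (ht : chig t ≠ 0) :
    (iota.comp chig.rangeRestrict) t ≠ 0 := by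
  intro h0
  have hfin : Module.Finite ℤ (CuspForm.heckeAlgebra N 2 S) := Fermat.Agent.S22.result N 2 S
  have hint : IsIntegral ℤ t := Algebra.IsIntegral.isIntegral t
  have hint' : IsIntegral ℤ (chig.rangeRestrict t) := map_isIntegral_int chig.rangeRestrict hint
  have hnz := Fermat.Agent.S59.not_mem_nonZeroDivisors_of_mem_ker iota hint' h0
  apply hnz
  apply mem_nonZeroDivisors_of_ne_zero
  intro h1
  exact ht (congrArg Subtype.val h1)

section Clauses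

variable {M q p : ℕ} [NeZero M] [NeZero q] [Fact p.Prime]

/-- **the Steinberg clause** at level `M * q`. -/
theorem st_clause (hSt : Stmt_TorsSt M q p) (hY : Stmt_Y1 M q)
    (hS30 : Fermat.Agent.R.Stmt_S30)
    {g : CuspForm (CongruenceSubgroup.Gamma0 (M * q)) 2} (hg : g.IsNewform) (S : Finset ℕ)
    (hS : ∀ l : ℕ, l.Prime → l ∣ M * q → l ∈ S)
    (O' : Type) [CommRing O'] [IsDomain O'] [IsDiscreteValuationRing O']
    [IsAdicComplete (IsLocalRing.maximalIdeal O') O'] [CharZero O']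
    (hpO' : (p : O') ∈ IsLocalRing.maximalIdeal O')
    (chig : CuspForm.heckeAlgebra (M * q) 2 (↑S : Set ℕ) →+* ℂ)
    (hchig : ∀ (ℓ : ℕ) (hℓ : ℓ.Prime) (hℓM : ¬ ℓ ∣ M * q) (hℓS : ℓ ∉ (↑S : Set ℕ)),
      chig (CuspForm.heckeAlgebra.T hℓ hℓM hℓS) = ModularFormClass.qCoeff g ℓ)
    (iota : chig.range →+* O')
    {C : TateCoords (M * q) p (↑S : Set ℕ)} (L : TateLimit C O' hpO') (Pc : SubPiece L.ρL)
    (hPc : ∀ t, Mc O' C.M t * Pc.P = (iota.comp chig.rangeRestrict) t • Pc.P)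
    (hq : q.Prime) (hqp : q ≠ p) (hqM : ¬ q ∣ M)
    (A : ValuationSubring (AlgebraicClosure ℚ)) (hA : A.LiesOverPrime q) (σ : GQ)
    (hσ : A.IsFrobeniusAt σ q) :
    (([1, -1, (q : O'), -(q : O')] : List O').map
      (fun c => Pc.rep σ - c • (1 : Matrix (Fin Pc.d) (Fin Pc.d) O'))).prod = 0 := by
  have hpp : p.Prime := Fact.out
  obtain ⟨c, hc⟩ := hSt hq hqM hpp hqp
  obtain ⟨w, hw0, hw1⟩ := exists_oldKiller hS30 hq.ne_one hg S chig hchig
  have hS' : ∀ l : ℕ, l.Prime → l ∣ M * q → l ∈ (↑S : Set ℕ) := fun l hl h =>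
    Finset.mem_coe.2 (hS l hl h)
  have ha0 := iota_comp_ne_zero chig iota _ hw1
  have hp0 : (p : O') ≠ 0 := Nat.cast_ne_zero.2 hpp.ne_zero
  exact list_prod_eq_zero _ q
    (piece_St L Pc hY hS' (hc A hA σ hσ) hw0 _ (hPc _) ha0 hp0)

/-- **the Carayol clause** at level `M * q`. -/
theorem nu_clause (hNU : Stmt_TorsNU M q p) (hY : Stmt_Y1 M q)
    (hS30 : Fermat.Agent.R.Stmt_S30)
    {g : CuspForm (CongruenceSubgroup.Gamma0 (M * q)) 2} (hg : g.IsNewform) (S : Finset ℕ)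
    (hS : ∀ l : ℕ, l.Prime → l ∣ M * q → l ∈ S)
    (O' : Type) [CommRing O'] [IsDomain O'] [IsDiscreteValuationRing O']
    [IsAdicComplete (IsLocalRing.maximalIdeal O') O'] [CharZero O']
    (hpO' : (p : O') ∈ IsLocalRing.maximalIdeal O')
    (chig : CuspForm.heckeAlgebra (M * q) 2 (↑S : Set ℕ) →+* ℂ)
    (hchig : ∀ (ℓ : ℕ) (hℓ : ℓ.Prime) (hℓM : ¬ ℓ ∣ M * q) (hℓS : ℓ ∉ (↑S : Set ℕ)),
      chig (CuspForm.heckeAlgebra.T hℓ hℓM hℓS) = ModularFormClass.qCoeff g ℓ)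
    (iota : chig.range →+* O')
    {C : TateCoords (M * q) p (↑S : Set ℕ)} (L : TateLimit C O' hpO') (Pc : SubPiece L.ρL)
    (hPc : ∀ t, Mc O' C.M t * Pc.P = (iota.comp chig.rangeRestrict) t • Pc.P)
    (hq : q.Prime) (hqp : q ≠ p) (hqM : q ∣ M) (hq2 : ¬ q ^ 2 ∣ M) :
    ∃ P : ValuationSubring (AlgebraicClosure ℚ), P.LiesOverPrime q ∧
      ∀ v : Fin Pc.d → O', (∀ σ ∈ P.inertiaSubgroupIn ℚ, (Pc.rep σ).mulVec v = v) → v = 0 := by
  have hpp : p.Prime := Fact.out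
  obtain ⟨A, hA, c, hc⟩ := hNU hq hqM hq2 hpp hqp
  obtain ⟨w, hw0, hw1⟩ := exists_oldKiller hS30 hq.ne_one hg S chig hchig
  have hS' : ∀ l : ℕ, l.Prime → l ∣ M * q → l ∈ (↑S : Set ℕ) := fun l hl h =>
    Finset.mem_coe.2 (hS l hl h)
  have ha0 := iota_comp_ne_zero chig iota _ hw1
  have hp0 : (p : O') ≠ 0 := Nat.cast_ne_zero.2 hpp.ne_zero
  exact ⟨A, hA, fun v hv => piece_NU L Pc hY hS' hc hw0 _ (hPc _) ha0 hp0 v hv⟩

end Clauses

/-- **T-St**: the Steinberg Tate piece of S35. -/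
theorem tatePieceSt_of
    (hSt : ∀ (M q p : ℕ) [NeZero M] [NeZero q], Stmt_TorsSt M q p)
    (hY : ∀ (M q : ℕ) [NeZero M] [NeZero q], Stmt_Y1 M q)
    (hS30 : Fermat.Agent.R.Stmt_S30)
    (hRed : ∀ (N : ℕ) [NeZero N] (p : ℕ), p.Prime → AllRed N p) :
    Fermat.Agent.S35.Stmt_TatePieceSt := by
  intro M _ g hg lam hlam S O' _ _ _ _ _ _ hlamO' chig hchig iota hlamS hMS
  have hpp : lam.Prime := hlam.out
  obtain ⟨C⟩ := tateCoords M lam (↑S : Set ℕ) hpp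
    (fun q hq hqM => Finset.mem_coe.2 (hMS q hq hqM))
  obtain ⟨L⟩ := exists_tateLimit C O' hlamO'
  obtain ⟨Pc, hPc⟩ := exists_piece_eig L (iota.comp chig.rangeRestrict)
  refine ⟨Pc.d, Pc.rep, Pc.pos, L.cont_piece Pc, ?_, ?_⟩
  · intro ℓ hℓ hℓN hℓS A hA σ hσ
    have hℓp : ℓ ≠ lam := by
      rintro rfl
      exact hℓS (Finset.mem_coe.2 hlamS)
    exact piece_ES L Pc (torsES_of_red hpp (hRed M lam hpp)) hℓ hℓN hℓp hℓS _ (hPc _) A hA σ hσ
  · intro q hq hqlam hqM hq2 A hA σ hσ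
    obtain ⟨M₀, hM⟩ : ∃ M₀, M = M₀ * q := ⟨M / q, (Nat.div_mul_cancel hqM).symm⟩
    subst hM
    have : NeZero q := ⟨hq.ne_zero⟩
    have : NeZero M₀ := ⟨fun h => NeZero.ne (M₀ * q) (by rw [h, zero_mul])⟩
    have hqM₀ : ¬ q ∣ M₀ := fun h => hq2 (by
      rw [pow_two]
      exact Nat.mul_dvd_mul h (dvd_refl q))
    exact st_clause (hSt M₀ q lam) (hY M₀ q) hS30 hg S hMS O' hlamO' chig hchig iota L Pc
      hPc hq hqlam hqM₀ A hA σ hσ

/-- **T-NU**: the Carayol Tate piece of S36. -/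
theorem tatePieceNU_of
    (hNU : ∀ (M q p : ℕ) [NeZero M] [NeZero q], Stmt_TorsNU M q p)
    (hY : ∀ (M q : ℕ) [NeZero M] [NeZero q], Stmt_Y1 M q)
    (hS30 : Fermat.Agent.R.Stmt_S30)
    (hRed : ∀ (N : ℕ) [NeZero N] (p : ℕ), p.Prime → AllRed N p) :
    Fermat.Agent.S35.Stmt_TatePieceNU := by
  intro M _ g hg lam hlam S O' _ _ _ _ _ _ hlamO' chig hchig iota hlamS hMS
  have hpp : lam.Prime := hlam.out
  obtain ⟨C⟩ := tateCoords M lam (↑S : Set ℕ) hpp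
    (fun q hq hqM => Finset.mem_coe.2 (hMS q hq hqM))
  obtain ⟨L⟩ := exists_tateLimit C O' hlamO'
  obtain ⟨Pc, hPc⟩ := exists_piece_eig L (iota.comp chig.rangeRestrict)
  refine ⟨Pc.d, Pc.rep, Pc.pos, L.cont_piece Pc, ?_, ?_⟩
  · intro ℓ hℓ hℓN hℓS A hA σ hσ
    have hℓp : ℓ ≠ lam := by
      rintro rfl
      exact hℓS (Finset.mem_coe.2 hlamS)
    exact piece_ES L Pc (torsES_of_red hpp (hRed M lam hpp)) hℓ hℓN hℓp hℓS _ (hPc _) A hA σ hσ
  · intro q hq hqlam hfac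
    have hM0 : M ≠ 0 := NeZero.ne M
    have h2 : q ^ 2 ∣ M := (hq.pow_dvd_iff_le_factorization hM0).2 (by rw [hfac])
    have h3 : ¬ q ^ 3 ∣ M := fun h => by
      have := (hq.pow_dvd_iff_le_factorization hM0).1 h
      omega
    obtain ⟨t, ht⟩ := h2
    obtain ⟨M₀, hM, hqM₀, hq2M₀⟩ : ∃ M₀, M = M₀ * q ∧ q ∣ M₀ ∧ ¬ q ^ 2 ∣ M₀ := by
      refine ⟨q * t, by rw [ht]; ring, Dvd.intro t rfl, fun h => h3 ?_⟩
      have h4 : q ∣ t := by
        rw [pow_two] at h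
        exact Nat.dvd_of_mul_dvd_mul_left hq.pos h
      obtain ⟨s, rfl⟩ := h4
      exact ⟨s, by rw [ht]; ring⟩
    subst hM
    have : NeZero q := ⟨hq.ne_zero⟩
    have : NeZero M₀ := ⟨fun h => NeZero.ne (M₀ * q) (by rw [h, zero_mul])⟩
    exact nu_clause (hNU M₀ q lam) (hY M₀ q) hS30 hg S hMS O' hlamO' chig hchig iota L Pc
      hPc hq hqlam hqM₀ hq2M₀

end Fermat.Agent.GTor.H81
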