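import Fermat.Agent.S35.H89_TorsDefs

/-!
# G-TOR, T-X: the interface (Y1) to the degeneracy maps  (helper81, route Y of helper44)

`Stmt_Y1 M q` : there are additive maps `a, b : J₀(M q) → J₀(M)` (the pushforwards `α_*`, `β_*`
along the two degeneracy maps) which commute with the Hecke operators `T_ℓ`, `ℓ ∤ M q`, and whose
common kernel consists of `q`-new classes (`S35.H89.IsQNew`).

Use in T-X: if a word `w` in the `T_ℓ` kills `J₀(M)[p^∞]` ("old-killer"), then `w x` is `q`-new for
every `x ∈ J₀(M q)[p^∞]`; the torsion-level statements `Stmt_TorsSt`, `Stmt_TorsNU` then give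
matrix identities `B * M(w) = 0`, and `χ(w) ≠ 0` on the piece of a newform.
-/

set_option autoImplicit false

noncomputable section

open AlgebraicCurve ModularCurve

namespace Fermat.Agent.GTor

/-- **(Y1)**: the degeneracy pushforwards on `J₀`, commuting with the good Hecke operators, with
`q`-new common kernel. -/
def Stmt_Y1 (M q : ℕ) [NeZero M] [NeZero q] : Prop :=
  ∃ a b : JZero (M * q) →+ JZero M,
    (∀ ℓ : Nat.Primes, ¬ (ℓ : ℕ) ∣ M * q → ∀ x : JZero (M * q),
      a (heckeOperatorBar (M * q) ℓ x) = heckeOperatorBar M ℓ (a x)) ∧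
    (∀ ℓ : Nat.Primes, ¬ (ℓ : ℕ) ∣ M * q → ∀ x : JZero (M * q),
      b (heckeOperatorBar (M * q) ℓ x) = heckeOperatorBar M ℓ (b x)) ∧
    (∀ x : JZero (M * q), a x = 0 → b x = 0 → Fermat.Agent.S35.H89.IsQNew M q x)

end Fermat.Agent.GTor
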