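import Fermat.Agent.GTor.H81_TX
import Fermat.Agent.GTor.H81_TU
import Fermat.Agent.R.H33_TatePiece
import Fermat.Agent.S36.H44_Y1

/-!
# G-TOR, T-X: the enriched Tate pieces from the torsion-level statements alone  (helper81)

With G-RED (`R.H33.allRed`), S30 (`R.H33.stmt_S30`) and the degeneracy pushforwards
(`S36.H44.stmt_Y1`, helper44) plugged in:

* `tatePieceSt_final : (∀ M q p, Stmt_TorsSt M q p) → S35.Stmt_TatePieceSt`
* `tatePieceNU_final : (∀ M q p, Stmt_TorsNU M q p) → S35.Stmt_TatePieceNU`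
* `tatePieceU_final  : (∀ N p, p.Prime → BAD.Stmt_TorsUnip N p) → S34.H91.Stmt_TatePieceU`
-/

set_option autoImplicit false

noncomputable section

namespace Fermat.Agent.GTor.H81

open Fermat.Agent.S35.H89

/-- **T-St**, final form. -/
theorem tatePieceSt_final
    (hSt : ∀ (M q p : ℕ) [NeZero M] [NeZero q], Stmt_TorsSt M q p) :
    Fermat.Agent.S35.Stmt_TatePieceSt :=
  tatePieceSt_of hSt (fun M q _ _ => Fermat.Agent.S36.H44.stmt_Y1 M q)
    Fermat.Agent.R.H33.stmt_S30 (fun N _ p _ => Fermat.Agent.R.H33.allRed N p)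

/-- **T-NU**, final form. -/
theorem tatePieceNU_final
    (hNU : ∀ (M q p : ℕ) [NeZero M] [NeZero q], Stmt_TorsNU M q p) :
    Fermat.Agent.S35.Stmt_TatePieceNU :=
  tatePieceNU_of hNU (fun M q _ _ => Fermat.Agent.S36.H44.stmt_Y1 M q)
    Fermat.Agent.R.H33.stmt_S30 (fun N _ p _ => Fermat.Agent.R.H33.allRed N p)

/-- **T-U**, final form. -/
theorem tatePieceU_final
    (hU : ∀ (N : ℕ) [NeZero N] (p : ℕ), p.Prime → Fermat.Agent.BAD.Stmt_TorsUnip N p) :
    Fermat.Agent.S34.H91.Stmt_TatePieceU :=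
  tatePieceU_of hU (fun N _ p _ => Fermat.Agent.R.H33.allRed N p)

end Fermat.Agent.GTor.H81
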