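import Fermat.Agent.GTor.H81_Uncond

/-!
# G-TOR: the coordinatised Tate system with its Betti characterisation  (helper81)

`tateCoords_of` forgets how the coordinates `θ k` are made.  Here the same construction is
repeated with the embedding `ι : ℚ̄ → ℂ` and the parabolic basis `b` as PARAMETERS and with the
characterisation of `θ` kept:

* `exists_tateCoords_spec N p S hp hNS ι hb` : there is `C : TateCoords N p S` with `C.r = r`
  such that for all `k` and `x ∈ J₀(N)[p ^ k]` the homomorphism with coordinate vector `C.θ k x`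
  in the basis `b` is THE Betti character of `x` (`TorChar N (p ^ k) ι x _`), and such that the
  Hecke matrices `C.M` are the matrices of the Betti operators `TB`, `UB` in the basis `b`;
* `eq_zero_of_torChar_zero` : a class with Betti character `0` is `0`;
* `torChar_unique` : the Betti character of a torsion class is unique;
* `exists_tateCoords_spec'` : the same with `r`, `b` existentially quantified.

Consumers: PIVOT PV-GEOM (`PushCoords`, helper50; PVG-B2, helper24).
-/

set_option autoImplicit false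

noncomputable section

namespace Fermat.Agent.GTor.H81

open AlgebraicCurve ModularCurve Fermat.Agent.GTor Fermat.Agent.Betti
open scoped MatrixGroups

/-- A class which has a Betti character is a torsion class. -/
theorem mem_Jtor_of_torChar {N n : ℕ} [NeZero N] {ι : AlgebraicClosure ℚ →+* ℂ} {x : JZero N}
    {φ : Additive (CongruenceSubgroup.Gamma0 N) →+ ZMod n} (h : TorChar N n ι x φ) :
    x ∈ Jtor N n := by
  obtain ⟨D, f, f', hf0, hx, hdiv, -, -⟩ := h
  show n • x = 0
  rw [hx]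
  show Pic0.mk (n • D) = 0
  rw [Fermat.Agent.GTor.H33.mk_eq_zero_iff]
  refine ⟨f, hf0, fun v => ?_⟩
  rw [← hdiv v]
  simp

/-- The Betti character of a torsion class is unique. -/
theorem torChar_unique {N n : ℕ} [NeZero N] (hn : n ≠ 0) {ι : AlgebraicClosure ℚ →+* ℂ}
    {x : JZero N} {φ ψ : Additive (CongruenceSubgroup.Gamma0 N) →+ ZMod n}
    (hφ : TorChar N n ι x φ) (hψ : TorChar N n ι x ψ) : φ = ψ := by
  obtain ⟨e, -, h2⟩ := stmt_TORc_uncond N n hn ι
  have hx : x ∈ Jtor N n := mem_Jtor_of_torChar hφ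
  rw [h2 ⟨x, hx⟩ φ hφ, h2 ⟨x, hx⟩ ψ hψ]

/-- A class with Betti character `0` is `0`. -/
theorem eq_zero_of_torChar_zero {N n : ℕ} [NeZero N] (hn : n ≠ 0)
    {ι : AlgebraicClosure ℚ →+* ℂ} {x : JZero N} (h : TorChar N n ι x 0) : x = 0 := by
  obtain ⟨e, h1, h2⟩ := stmt_TORc_uncond N n hn ι
  have hx : x ∈ Jtor N n := mem_Jtor_of_torChar h
  have h3 := h2 ⟨x, hx⟩ 0 h
  have h4 := h1 0
  have h5 := h2 0 _ h4
  have h6 : (e ⟨x, hx⟩ : Additive (CongruenceSubgroup.Gamma0 N) →+ ZMod n)
      = (e 0 : Additive (CongruenceSubgroup.Gamma0 N) →+ ZMod n) := by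
    rw [← h3]
    have h7 := h2 0 0 ?_
    · exact h7
    · have := h1 0
      rw [map_zero] at this
      exact this
  have h8 : e ⟨x, hx⟩ = e 0 := Subtype.ext h6
  have h9 := e.injective h8
  exact congrArg (fun y : Jtor N n => (y : JZero N)) h9

/-- **The coordinatised Tate system with its Betti characterisation**, for a given embedding
`ι` and a given parabolic basis `b`. -/
theorem exists_tateCoords_spec (N p : ℕ) [NeZero N] (S : Set ℕ) (hp : p.Prime)
    (hNS : ∀ q : ℕ, q.Prime → q ∣ N → q ∈ S) (ι : AlgebraicClosure ℚ →+* ℂ)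
    {r : ℕ} {b : Fin r → (Additive (CongruenceSubgroup.Gamma0 N) →+ ℤ)} (hb : IsParBasis N b) :
    ∃ (C : TateCoords N p S) (hr : C.r = r),
      (∀ (k : ℕ) (x : Jtor N (p ^ k)),
        TorChar N (p ^ k) ι (x : JZero N)
          (coordFun b (p ^ k) (fun i => C.θ k x (Fin.cast hr.symm i)))) ∧
      (∀ (ℓ : ℕ) (hℓ : ℓ.Prime) (hℓN : ¬ ℓ ∣ N) (hℓS : ℓ ∉ S) (j : Fin r),
        TB N ℤ hℓ hℓN (b j) = ∑ i, C.M (CuspForm.heckeAlgebra.T hℓ hℓN hℓS)
          (Fin.cast hr.symm i) (Fin.cast hr.symm j) • b i) ∧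
      (∀ (q : ℕ) (hq : q.Prime) (hqN : q ∣ N) (hqS : q ∉ S) (j : Fin r),
        UB N ℤ hqN (b j) = ∑ i, C.M (CuspForm.heckeAlgebra.U hq hqN hqS)
          (Fin.cast hr.symm i) (Fin.cast hr.symm j) • b i) := by
  have hTOR : ∀ k : ℕ, Stmt_TORc N (p ^ k) :=
    fun k => stmt_TORc_uncond N (p ^ k) (pow_ne_zero k hp.ne_zero)
  have hHK : ∀ k : ℕ, Stmt_HK N (p ^ k) := fun k => H44.stmt_HK N (p ^ k)
  have hLift : Stmt_torsLift N := H77.stmt_torsLift N
  have hGH : Stmt_GalHecke N := H2.stmt_GalHecke N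
  have hGAL : Stmt_GAL N := stmt_GAL N
  obtain ⟨M, hMinj, hMT, hMU⟩ := Betti.H76.stmt_matrixRep N S r b hb
  have hE : ∀ k : ℕ, Nonempty (TorIso N (p ^ k) ι) := fun k => nonempty_torIso (hTOR k) ι
  have hn : ∀ k : ℕ, p ^ k ≠ 0 := fun k => pow_ne_zero k hp.ne_zero
  let E : ∀ k : ℕ, TorIso N (p ^ k) ι := fun k => Classical.choice (hE k)
  refine ⟨{ r := r
            ρ := fun k => rhoMat hb hLift (hn k) (E k)
            M := M
            θ := fun k => theta hb hLift (hn k) (E k)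
            tate := ⟨?_, ?_, ?_, hMinj⟩
            gal := ?_
            hecke := ?_ }, rfl, ?_, ?_, ?_⟩
  · -- compatibility
    intro k σ i j
    have h := rhoMat_compat hb hLift (hn (k + 1)) (hn k) (pow_dvd_pow p (Nat.le_succ k))
      (E (k + 1)) (E k) σ
    have h2 := congrFun (congrFun h i) j
    rw [Matrix.map_apply] at h2
    exact h2
  · -- continuity
    intro k
    exact rhoMat_cont hb hLift (hn k) (E k) hGAL
  · -- commutation with the Hecke algebra
    intro k σ t
    refine comm_of_generators S M _ hNS (fun ℓ hℓ hℓN hℓS => ?_) t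
    exact rhoMat_comm_T hb hLift (hn k) (E k) hℓ hℓN (hHK k) hGH _ (hMT ℓ hℓ hℓN hℓS) σ
  · intro k σ x
    exact (rhoMat_mulVec hb hLift (hn k) (E k) σ x).symm
  · intro k ℓ hℓ hℓN hℓS x
    exact theta_heckeTor hb hLift (hn k) (E k) hℓ hℓN (hHK k) _ (hMT ℓ hℓ hℓN hℓS) x
  · intro k x
    exact torChar_theta hb hLift (hn k) (E k) x
  · intro ℓ hℓ hℓN hℓS j
    exact hMT ℓ hℓ hℓN hℓS j
  · intro q hq hqN hqS j
    exact hMU q hq hqN hqS j

/-- The same with the basis existentially quantified. -/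
theorem exists_tateCoords_spec' (N p : ℕ) [NeZero N] (S : Set ℕ) (hp : p.Prime)
    (hNS : ∀ q : ℕ, q.Prime → q ∣ N → q ∈ S) (ι : AlgebraicClosure ℚ →+* ℂ) :
    ∃ (r : ℕ) (b : Fin r → (Additive (CongruenceSubgroup.Gamma0 N) →+ ℤ)) (_ : IsParBasis N b)
      (C : TateCoords N p S) (hr : C.r = r),
      ∀ (k : ℕ) (x : Jtor N (p ^ k)),
        TorChar N (p ^ k) ι (x : JZero N)
          (coordFun b (p ^ k) (fun i => C.θ k x (Fin.cast hr.symm i))) := by
  obtain ⟨r, b, hb⟩ := Betti.stmt_basis N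
  obtain ⟨C, hr, h, -, -⟩ := exists_tateCoords_spec N p S hp hNS ι hb
  exact ⟨r, b, hb, C, hr, h⟩

end Fermat.Agent.GTor.H81
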