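import Fermat.Agent.GTor.H81_TateCoords
import Fermat.Agent.GTor.H81_PieceAbs

/-!
# G-TOR, T-X: the limit representation of a coordinatised Tate system  (helper81)

For `C : TateCoords N p S` and a `p`-adically complete local ring `𝒪` (`p ∈ 𝔪`):

* `TateCoords.mat k` : the ring homomorphism `End(J₀(N)[p^k]) → M_r(ℤ/p^k)` given by the
  coordinates; `mat_gal`, `mat_hecke`.
* `Compat X Xk` : `X ∈ M_r(𝒪)` reduces to `Xk k ∈ M_r(ℤ/p^k)` for every `k`; closed under the ring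
  operations; `Compat.eq_zero`.
* `TateLimit C 𝒪 hp` : the limit `ρL : G_ℚ → M_r(𝒪)` of the `ρ k`; it commutes with the Hecke
  matrices and is continuous.
* `compat_of_end` : a noncommutative polynomial identity between endomorphisms of `J₀(N)[p^k]`
  (all `k`) gives the identity between the limit matrices.
-/

set_option autoImplicit false
set_option linter.unusedSectionVars false

noncomputable section

namespace Fermat.Agent.GTor.H81

open AlgebraicCurve ModularCurve Fermat.Agent.GTor Fermat.Agent.GTor.H58T1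

/-! ## 1. Endomorphisms of `J₀(N)[p^k]` as matrices -/

namespace TateCoords

variable {N p : ℕ} [NeZero N] {S : Set ℕ} (C : TateCoords N p S) (k : ℕ)

/-- the coordinates as a linear equivalence. -/
def θLin : Jtor N (p ^ k) ≃ₗ[ZMod (p ^ k)] (Fin C.r → ZMod (p ^ k)) :=
  { C.θ k with
    map_smul' := fun c x => ZMod.map_smul (C.θ k).toAddMonoidHom c x }

@[simp] theorem θLin_apply (x : Jtor N (p ^ k)) : C.θLin k x = C.θ k x := rfl

/-- an additive endomorphism of `J₀(N)[p^k]` as a linear map. -/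
def endLin : AddMonoid.End (Jtor N (p ^ k)) →+* Module.End (ZMod (p ^ k)) (Jtor N (p ^ k)) where
  toFun f := AddMonoidHom.toZModLinearMap (p ^ k) f
  map_one' := rfl
  map_mul' _ _ := rfl
  map_zero' := rfl
  map_add' _ _ := rfl

/-- the matrix of an additive endomorphism of `J₀(N)[p^k]`. -/
def mat : AddMonoid.End (Jtor N (p ^ k)) →+* Matrix (Fin C.r) (Fin C.r) (ZMod (p ^ k)) :=
  ((LinearMap.toMatrixAlgEquiv' : Module.End (ZMod (p ^ k)) (Fin C.r → ZMod (p ^ k)) ≃ₐ[ZMod (p ^ k)]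
      Matrix (Fin C.r) (Fin C.r) (ZMod (p ^ k))).toRingEquiv.toRingHom.comp
    (C.θLin k).conjRingEquiv.toRingHom).comp (endLin k)

theorem mat_mulVec (f : AddMonoid.End (Jtor N (p ^ k))) (x : Jtor N (p ^ k)) :
    (C.mat k f).mulVec (C.θ k x) = C.θ k (f x) := by
  show (LinearMap.toMatrixAlgEquiv' ((C.θLin k).conjRingEquiv (endLin k f))).mulVec
    (C.θ k x) = _
  rw [← Matrix.toLinAlgEquiv'_apply, Matrix.toLinAlgEquiv'_toMatrixAlgEquiv']
  have h : (C.θLin k).symm (C.θ k x) = x := (C.θLin k).symm_apply_apply x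
  simp [LinearEquiv.conjRingEquiv, h, endLin]
  rfl

theorem mat_eq_of_forall {f : AddMonoid.End (Jtor N (p ^ k))}
    {A : Matrix (Fin C.r) (Fin C.r) (ZMod (p ^ k))}
    (h : ∀ x : Jtor N (p ^ k), C.θ k (f x) = A.mulVec (C.θ k x)) : C.mat k f = A :=
  C.matrix_ext fun x => by rw [mat_mulVec, h x]

/-- the Galois action on `J₀(N)[p^k]`. -/
def galEnd (σ : GQ) : AddMonoid.End (Jtor N (p ^ k)) :=
  (JZero.torsionGaloisRep N (p ^ k) σ).toAddMonoidHom

@[simp] theorem coe_galEnd (σ : GQ) (x : Jtor N (p ^ k)) :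
    ((galEnd (N := N) (p := p) k σ x : Jtor N (p ^ k)) : JZero N) = σ • (x : JZero N) := rfl

/-- the Hecke operator `T_ℓ` on `J₀(N)[p^k]`. -/
def heckeEnd (ℓ : Nat.Primes) : AddMonoid.End (Jtor N (p ^ k)) where
  toFun x := heckeTor (p ^ k) ℓ x
  map_zero' := Subtype.ext (map_zero _)
  map_add' _ _ := Subtype.ext (map_add _ _ _)

@[simp] theorem coe_heckeEnd (ℓ : Nat.Primes) (x : Jtor N (p ^ k)) :
    ((heckeEnd (N := N) (p := p) k ℓ x : Jtor N (p ^ k)) : JZero N) =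
      heckeOperatorBar N ℓ (x : JZero N) := rfl

theorem mat_gal (σ : GQ) : C.mat k (galEnd k σ) = C.ρ k σ :=
  C.mat_eq_of_forall k fun x => C.gal k σ x

theorem mat_hecke {ℓ : ℕ} (hℓ : ℓ.Prime) (hℓN : ¬ ℓ ∣ N) (hℓS : ℓ ∉ S) :
    C.mat k (heckeEnd k (⟨ℓ, hℓ⟩ : Nat.Primes)) =
      Mc (ZMod (p ^ k)) C.M (CuspForm.heckeAlgebra.T hℓ hℓN hℓS) :=
  C.mat_eq_of_forall k fun x => C.hecke k ℓ hℓ hℓN hℓS x

/-- an endomorphism vanishing on all of `J₀(N)[p^k]` (as a statement about `J₀(N)`) has matrix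
zero. -/
theorem mat_eq_zero {f : AddMonoid.End (Jtor N (p ^ k))}
    (h : ∀ x : Jtor N (p ^ k), ((f x : Jtor N (p ^ k)) : JZero N) = 0) : C.mat k f = 0 := by
  have hf : f = 0 := by
    refine AddMonoidHom.ext fun x => Subtype.ext ?_
    exact h x
  rw [hf, map_zero]

end TateCoords

/-! ## 2. Compatible families -/

section Compat

variable {𝒪 : Type} [CommRing 𝒪] [IsLocalRing 𝒪]
  [IsAdicComplete (IsLocalRing.maximalIdeal 𝒪) 𝒪]
  {p : ℕ} [Fact p.Prime] (hp : (p : 𝒪) ∈ IsLocalRing.maximalIdeal 𝒪) {r : ℕ}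

/-- `X ∈ M_r(𝒪)` reduces to `Xk k ∈ M_r(ℤ/p^k)` modulo `𝔪^k`, for every `k`. -/
def Compat (X : Matrix (Fin r) (Fin r) 𝒪) (Xk : ∀ k : ℕ, Matrix (Fin r) (Fin r) (ZMod (p ^ k))) :
    Prop :=
  ∀ k : ℕ, (piK (IsLocalRing.maximalIdeal 𝒪) k).mapMatrix X =
    (cK (IsLocalRing.maximalIdeal 𝒪) p hp k).mapMatrix (Xk k)

variable {hp}

theorem Compat.add {X Y : Matrix (Fin r) (Fin r) 𝒪}
    {Xk Yk : ∀ k : ℕ, Matrix (Fin r) (Fin r) (ZMod (p ^ k))}
    (h : Compat hp X Xk) (h' : Compat hp Y Yk) : Compat hp (X + Y) (fun k => Xk k + Yk k) :=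
  fun k => by rw [map_add, map_add, h k, h' k]

theorem Compat.sub {X Y : Matrix (Fin r) (Fin r) 𝒪}
    {Xk Yk : ∀ k : ℕ, Matrix (Fin r) (Fin r) (ZMod (p ^ k))}
    (h : Compat hp X Xk) (h' : Compat hp Y Yk) : Compat hp (X - Y) (fun k => Xk k - Yk k) :=
  fun k => by rw [map_sub, map_sub, h k, h' k]

theorem Compat.mul {X Y : Matrix (Fin r) (Fin r) 𝒪}
    {Xk Yk : ∀ k : ℕ, Matrix (Fin r) (Fin r) (ZMod (p ^ k))}
    (h : Compat hp X Xk) (h' : Compat hp Y Yk) : Compat hp (X * Y) (fun k => Xk k * Yk k) :=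
  fun k => by rw [map_mul, map_mul, h k, h' k]

theorem Compat.pow {X : Matrix (Fin r) (Fin r) 𝒪}
    {Xk : ∀ k : ℕ, Matrix (Fin r) (Fin r) (ZMod (p ^ k))}
    (h : Compat hp X Xk) (n : ℕ) : Compat hp (X ^ n) (fun k => Xk k ^ n) :=
  fun k => by rw [map_pow, map_pow, h k]

theorem compat_one : Compat hp (1 : Matrix (Fin r) (Fin r) 𝒪) (fun _ => 1) :=
  fun k => by rw [map_one, map_one]

theorem compat_zero : Compat hp (0 : Matrix (Fin r) (Fin r) 𝒪) (fun _ => 0) :=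
  fun k => by rw [map_zero, map_zero]

theorem compat_natCast (n : ℕ) :
    Compat hp ((n : Matrix (Fin r) (Fin r) 𝒪)) (fun _ => (n : Matrix (Fin r) (Fin r) _)) :=
  fun k => by rw [map_natCast, map_natCast]

theorem compat_intCast (n : ℤ) :
    Compat hp ((n : Matrix (Fin r) (Fin r) 𝒪)) (fun _ => (n : Matrix (Fin r) (Fin r) _)) :=
  fun k => by rw [map_intCast, map_intCast]

theorem compat_Mc {R : Type} [CommRing R] (M : R →+* Matrix (Fin r) (Fin r) ℤ) (t : R) :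
    Compat hp (Mc 𝒪 M t) (fun k => Mc (ZMod (p ^ k)) M t) :=
  fun k => piK_Mc_eq (IsLocalRing.maximalIdeal 𝒪) p hp k (M t)

/-- a matrix over `𝒪` all of whose reductions vanish is zero. -/
theorem Compat.eq_zero {X : Matrix (Fin r) (Fin r) 𝒪}
    {Xk : ∀ k : ℕ, Matrix (Fin r) (Fin r) (ZMod (p ^ k))}
    (h : Compat hp X Xk) (h0 : ∀ k, Xk k = 0) : X = 0 := by
  apply matrix_eq_of_forall_piK (IsLocalRing.maximalIdeal 𝒪)
  intro k
  rw [h k, h0 k, map_zero, map_zero]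

theorem Compat.eq {X Y : Matrix (Fin r) (Fin r) 𝒪}
    {Xk Yk : ∀ k : ℕ, Matrix (Fin r) (Fin r) (ZMod (p ^ k))}
    (h : Compat hp X Xk) (h' : Compat hp Y Yk) (h0 : ∀ k, Xk k = Yk k) : X = Y := by
  apply matrix_eq_of_forall_piK (IsLocalRing.maximalIdeal 𝒪)
  intro k
  rw [h k, h' k, h0 k]

end Compat

/-! ## 3. The limit representation -/

section Limit

variable {N p : ℕ} [NeZero N] [Fact p.Prime] {S : Set ℕ} (C : TateCoords N p S)
variable (𝒪 : Type) [CommRing 𝒪] [IsLocalRing 𝒪]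
  [IsAdicComplete (IsLocalRing.maximalIdeal 𝒪) 𝒪]
  (hp : (p : 𝒪) ∈ IsLocalRing.maximalIdeal 𝒪)

/-- The limit of the Galois matrices of a coordinatised Tate system. -/
structure TateLimit where
  /-- the limit representation. -/
  ρL : GQ →* Matrix (Fin C.r) (Fin C.r) 𝒪
  spec : ∀ σ, Compat hp (ρL σ) (fun k => C.ρ k σ)

theorem exists_tateLimit : Nonempty (TateLimit C 𝒪 hp) := by
  obtain ⟨ρL, hρL⟩ := exists_limit_rep (IsLocalRing.maximalIdeal 𝒪) p hp C.ρ C.tate.compat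
  exact ⟨⟨ρL, fun σ k => hρL k σ⟩⟩

variable {C 𝒪 hp} (L : TateLimit C 𝒪 hp)

namespace TateLimit

theorem comm (σ : GQ) (t : CuspForm.heckeAlgebra N 2 S) :
    L.ρL σ * Mc 𝒪 C.M t = Mc 𝒪 C.M t * L.ρL σ :=
  ((L.spec σ).mul (compat_Mc C.M t)).eq ((compat_Mc C.M t).mul (L.spec σ))
    (fun k => C.tate.comm k σ t)

theorem cont (n : ℕ) : ∃ K : IntermediateField ℚ (AlgebraicClosure ℚ), FiniteDimensional ℚ K ∧
    ∀ σ : GQ, (∀ x ∈ K, σ x = x) → ∀ a b, (L.ρL σ - 1) a b ∈ IsLocalRing.maximalIdeal 𝒪 ^ n := by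
  obtain ⟨K, hK, hKσ⟩ := C.tate.cont n
  refine ⟨K, hK, fun σ hσ a b => ?_⟩
  have h1 : C.ρ n σ = 1 := hKσ σ hσ
  have h2 : (piK (IsLocalRing.maximalIdeal 𝒪) n).mapMatrix (L.ρL σ) =
      (cK (IsLocalRing.maximalIdeal 𝒪) p hp n).mapMatrix (C.ρ n σ) := L.spec σ n
  rw [h1, map_one] at h2
  have h3 : (piK (IsLocalRing.maximalIdeal 𝒪) n).mapMatrix (L.ρL σ - 1) = 0 := by
    rw [map_sub, h2, map_one, sub_self]
  have h4 := congrFun (congrFun h3 a) b
  simp only [RingHom.mapMatrix_apply, Matrix.map_apply, Matrix.zero_apply] at h4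
  exact Ideal.Quotient.eq_zero_iff_mem.mp h4

/-- continuity of the representation on a piece. -/
theorem cont_piece [IsDomain 𝒪] (Pc : SubPiece L.ρL) : S30.MatAdicCont Pc.rep := by
  intro n
  obtain ⟨K, hK, hKσ⟩ := L.cont n
  refine ⟨K, hK, fun σ hσ i j => ?_⟩
  have hent := hKσ σ hσ
  have e : (Pc.Q * L.ρL σ * Pc.P - 1 : Matrix (Fin Pc.d) (Fin Pc.d) 𝒪) =
      Pc.Q * (L.ρL σ - 1) * Pc.P := by
    rw [Matrix.mul_sub, Matrix.sub_mul, Matrix.mul_one, Pc.QP]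
  show ((Pc.Q * L.ρL σ * Pc.P - 1 : Matrix (Fin Pc.d) (Fin Pc.d) 𝒪) i j) ∈ _
  rw [e]
  simp only [Matrix.mul_apply]
  refine Ideal.sum_mem _ fun b _ => Ideal.mul_mem_right _ _ ?_
  exact Ideal.sum_mem _ fun a _ => Ideal.mul_mem_left _ _ (hent a b)

end TateLimit

end Limit

end Fermat.Agent.GTor.H81
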