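import Fermat.Agent.GTor.H81_TatePieceFinal
import Fermat.Agent.GTor.H44_HK

/-!
# G-TOR: `S30.Stmt_TatePiece` from the two packages that are still open  (helper81)

* `Stmt_DESC`  (descent `ℂ → ℚ̄` of unramified Kummer classes; helper75)
* `AllRed`     (G-RED: reduction packages at all `ℓ ∤ N p`; helper36)
-/

set_option autoImplicit false

noncomputable section

namespace Fermat.Agent.GTor.H81

open AlgebraicCurve ModularCurve Fermat.Agent.GTor Fermat.Agent.Betti

/-- **The Tate system of `J₀(N)`** from DESC and G-RED. -/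
theorem stmt_TateSystem_final (N p : ℕ) [NeZero N] (S : Finset ℕ) (hp : p.Prime) (hpS : p ∈ S)
    (hNS : ∀ q : ℕ, q.Prime → q ∣ N → q ∈ S)
    (hD : ∀ n : ℕ, n ≠ 0 → Stmt_DESC N n) (hRed : AllRed N p) : Stmt_TateSystem N p S :=
  stmt_TateSystem N p S hp hpS hNS (Clo.stmt_A3 N) (Clo.stmt_A4 N) (Clo.stmt_A5 N) hD
    (fun n _ => H44.stmt_HK N n) (H77.stmt_torsLift N) hRed Betti.stmt_basis
    Betti.H76.stmt_matrixRep

/-- **`Stmt_TatePiece`** from DESC and G-RED. -/
theorem tatePiece_of_desc_red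
    (hD : ∀ (N : ℕ) [NeZero N] (n : ℕ), n ≠ 0 → Stmt_DESC N n)
    (hRed : ∀ (N : ℕ) [NeZero N] (p : ℕ), p.Prime → AllRed N p) : S30.Stmt_TatePiece :=
  tatePiece_final hD (fun N _ n _ => H44.hk_an N n) hRed

end Fermat.Agent.GTor.H81
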