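import Fermat.Agent.GTor.H81_TateLimit
import Fermat.Agent.GTor.H81_Uncond
import Fermat.Agent.GTor.TateDefs2
import Fermat.Agent.GTor.H2_GalHecke
import Fermat.Agent.Betti.H76_MatrixRep

/-!
# G-TOR, T-X: words in the Hecke operators on `J₀(N)`  (helper81)

`S ⊇ {q ∣ N}`; `Gen S` = the primes outside `S` (`Betti.H76.Gen`).

* `wordJ N S : FreeAlgebra ℤ (Gen S) →ₐ[ℤ] End_ℤ (J₀(N))`, `T_l ↦ heckeOperatorBar N l`.
* `resTor n : End_ℤ (J₀(N)) →+* End (J₀(N)[n])`.
* `mat_word` : in the coordinates of `C : TateCoords N p S`, the word `w` acts on `J₀(N)[p^k]` by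
  the matrix `Mc (ZMod (p^k)) C.M (wordSH N S w)` of its image in the Hecke algebra.
* `wordJ_gal` : words commute with the Galois action.
* `wordJ_eq_zero_of_wordSH` : a word which is zero in the Hecke algebra of level `N` kills
  `J₀(N)[p^∞]`.
* `isQNew_word` : (with `Stmt_Y1 M q`) if `w` is zero in the Hecke algebra of level `M`, then
  `w x` is `q`-new for every `x ∈ J₀(M q)[p^∞]`.
-/

set_option autoImplicit false
set_option linter.unusedSectionVars false

noncomputable section

namespace Fermat.Agent.GTor.H81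

open AlgebraicCurve ModularCurve Fermat.Agent.GTor Fermat.Agent.GTor.H58T1
open Fermat.Agent.Betti.H76

/-- two ring homomorphisms out of a free `ℤ`-algebra which agree on the generators are equal. -/
theorem freeAlgebra_ringHom_ext {X : Type} {A : Type} [Ring A] {f g : FreeAlgebra ℤ X →+* A}
    (h : ∀ x, f (FreeAlgebra.ι ℤ x) = g (FreeAlgebra.ι ℤ x)) : f = g := by
  refine RingHom.ext fun w => ?_
  induction w using FreeAlgebra.induction with
  | grade0 r => rw [eq_intCast (algebraMap ℤ (FreeAlgebra ℤ X)) r, map_intCast, map_intCast]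
  | grade1 x => exact h x
  | mul a b ha hb => rw [map_mul, map_mul, ha, hb]
  | add a b ha hb => rw [map_add, map_add, ha, hb]

section Words

variable (N : ℕ) [NeZero N] (S : Set ℕ)

/-- the Hecke generator at `l` on `J₀(N)`. -/
def genJ (l : Gen S) : Module.End ℤ (JZero N) := heckeOperatorBar N ⟨l.1, l.2.1⟩

/-- the operator on `J₀(N)` of a word in the Hecke generators. -/
def wordJ : FreeAlgebra ℤ (Gen S) →ₐ[ℤ] Module.End ℤ (JZero N) := FreeAlgebra.lift ℤ (genJ N S)

@[simp] theorem wordJ_ι (l : Gen S) : wordJ N S (FreeAlgebra.ι ℤ l) = genJ N S l := by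
  simp [wordJ]

theorem genJ_eq (l : Gen S) : genJ N S l = heckeOperatorBar N ⟨l.1, l.2.1⟩ := rfl

/-- restriction of an endomorphism of `J₀(N)` to the `n`-torsion. -/
def resTor (n : ℕ) : Module.End ℤ (JZero N) →+* AddMonoid.End (Jtor N n) where
  toFun f :=
    { toFun := fun x => ⟨f (x : JZero N), by
        rw [Pic0.mem_torsion, ← map_zsmul, Pic0.mem_torsion.1 x.2, map_zero]⟩
      map_zero' := Subtype.ext (map_zero f)
      map_add' := fun x y => Subtype.ext (map_add f _ _) }
  map_one' := rfl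
  map_mul' _ _ := rfl
  map_zero' := rfl
  map_add' _ _ := rfl

@[simp] theorem coe_resTor (n : ℕ) (f : Module.End ℤ (JZero N)) (x : Jtor N n) :
    ((resTor N n f x : Jtor N n) : JZero N) = f (x : JZero N) := rfl

/-- the Hecke algebra element of a generator (`l ∤ N`). -/
theorem wordSH_ι (l : Gen S) (hlN : ¬ l.1 ∣ N) :
    wordSH N S (FreeAlgebra.ι ℤ l) = CuspForm.heckeAlgebra.T l.2.1 hlN l.2.2 := by
  apply Subtype.ext
  rw [wordSH_coe, wordS_ι]
  unfold genS
  rw [dif_neg hlN]
  rfl

variable {N S}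

/-- words commute with the Galois action. -/
theorem wordJ_gal (w : FreeAlgebra ℤ (Gen S)) (σ : GQ) (x : JZero N) :
    σ • wordJ N S w x = wordJ N S w (σ • x) := by
  induction w using FreeAlgebra.induction generalizing x with
  | grade0 r =>
    rw [AlgHom.commutes, Module.algebraMap_end_apply, Module.algebraMap_end_apply]
    exact (galHom N σ).map_zsmul r x
  | grade1 l => rw [wordJ_ι]; exact H2.stmt_GalHecke N _ σ x
  | mul a b ha hb =>
    rw [map_mul, Module.End.mul_apply, Module.End.mul_apply, ha, hb]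
  | add a b ha hb =>
    rw [map_add, LinearMap.add_apply, LinearMap.add_apply, smul_add, ha, hb]

/-- words preserve `p`-power torsion. -/
theorem word_torsion {p : ℕ} (w : FreeAlgebra ℤ (Gen S)) {x : JZero N}
    (hx : ∃ n : ℕ, p ^ n • x = 0) : ∃ n : ℕ, p ^ n • wordJ N S w x = 0 := by
  obtain ⟨n, hn⟩ := hx
  exact ⟨n, by rw [← map_nsmul, hn, map_zero]⟩

end Words

/-! ## Words in coordinates -/

section Coords

variable {N p : ℕ} [NeZero N] {S : Set ℕ} (C : TateCoords N p S)

/-- the matrix of an endomorphism of `J₀(N)[p^k]` determines it. -/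
theorem TateCoords.mat_injective (k : ℕ) : Function.Injective (C.mat k) := by
  intro f g h
  refine AddMonoidHom.ext fun x => ?_
  have hf := C.mat_mulVec k f x
  have hg := C.mat_mulVec k g x
  rw [h] at hf
  exact (C.θ k).injective (hf.symm.trans hg)

/-- **words in coordinates.** -/
theorem TateCoords.mat_word (hNS : ∀ q : ℕ, q.Prime → q ∣ N → q ∈ S) (k : ℕ)
    (w : FreeAlgebra ℤ (Gen S)) :
    C.mat k (resTor N (p ^ k) (wordJ N S w)) = Mc (ZMod (p ^ k)) C.M (wordSH N S w) := by
  have key : ((C.mat k).comp ((resTor N (p ^ k)).comp (wordJ N S).toRingHom)) =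
      (((Int.castRingHom (ZMod (p ^ k))).mapMatrix.comp C.M).comp (wordSH N S).toRingHom) := by
    apply freeAlgebra_ringHom_ext
    intro l
    have hlN : ¬ l.1 ∣ N := fun h => l.2.2 (hNS l.1 l.2.1 h)
    show C.mat k (resTor N (p ^ k) (wordJ N S (FreeAlgebra.ι ℤ l))) =
      Mc (ZMod (p ^ k)) C.M (wordSH N S (FreeAlgebra.ι ℤ l))
    rw [wordSH_ι N S l hlN, wordJ_ι, ← C.mat_hecke k l.2.1 hlN l.2.2]
    rfl
  exact RingHom.congr_fun key w

/-- a word which vanishes in the Hecke algebra kills the `p`-power torsion. -/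
theorem wordJ_eq_zero_of_wordSH (C : TateCoords N p S)
    (hNS : ∀ q : ℕ, q.Prime → q ∣ N → q ∈ S)
    {w : FreeAlgebra ℤ (Gen S)} (hw : wordSH N S w = 0) (x : JZero N)
    (hx : ∃ n : ℕ, p ^ n • x = 0) : wordJ N S w x = 0 := by
  obtain ⟨k, hk⟩ := hx
  have hxt : x ∈ Jtor N (p ^ k) := by
    rw [Pic0.mem_torsion, natCast_zsmul]
    exact hk
  have h0 : C.mat k (resTor N (p ^ k) (wordJ N S w)) = 0 := by
    rw [C.mat_word hNS k w, hw]
    show ((C.M 0).map (Int.cast : ℤ → ZMod (p ^ k))) = 0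
    rw [map_zero]
    ext i j
    simp
  have h1 : resTor N (p ^ k) (wordJ N S w) = 0 :=
    C.mat_injective k (h0.trans (map_zero _).symm)
  have h2 := congrArg (fun f : AddMonoid.End (Jtor N (p ^ k)) =>
    ((f ⟨x, hxt⟩ : Jtor N (p ^ k)) : JZero N)) h1
  exact h2

end Coords

/-! ## Old-killers give `q`-new classes -/

section QNew

variable {M q : ℕ} [NeZero M] [NeZero q] {S : Set ℕ}

/-- an additive map commuting with the good Hecke operators commutes with words. -/
theorem push_word (hS : ∀ l : ℕ, l.Prime → l ∣ M * q → l ∈ S) (a : JZero (M * q) →+ JZero M)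
    (ha : ∀ ℓ : Nat.Primes, ¬ (ℓ : ℕ) ∣ M * q → ∀ x : JZero (M * q),
      a (heckeOperatorBar (M * q) ℓ x) = heckeOperatorBar M ℓ (a x))
    (w : FreeAlgebra ℤ (Gen S)) (x : JZero (M * q)) :
    a (wordJ (M * q) S w x) = wordJ M S w (a x) := by
  induction w using FreeAlgebra.induction generalizing x with
  | grade0 r =>
    rw [AlgHom.commutes, AlgHom.commutes, Module.algebraMap_end_apply,
      Module.algebraMap_end_apply, map_zsmul]
  | grade1 l =>
    have hl : ¬ l.1 ∣ M * q := fun h => l.2.2 (hS l.1 l.2.1 h)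
    rw [wordJ_ι, wordJ_ι, genJ_eq, genJ_eq]
    exact ha ⟨l.1, l.2.1⟩ hl x
  | mul u v hu hv =>
    rw [map_mul, map_mul, Module.End.mul_apply, Module.End.mul_apply, hu, hv]
  | add u v hu hv =>
    have e1 : wordJ (M * q) S (u + v) x = wordJ (M * q) S u x + wordJ (M * q) S v x := by
      rw [map_add]; rfl
    have e2 : wordJ M S (u + v) (a x) = wordJ M S u (a x) + wordJ M S v (a x) := by
      rw [map_add]; rfl
    have h3 : a (wordJ (M * q) S u x + wordJ (M * q) S v x) =
        a (wordJ (M * q) S u x) + a (wordJ (M * q) S v x) := a.map_add _ _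
    exact (congrArg a e1).trans (h3.trans ((congrArg₂ (· + ·) (hu x) (hv x)).trans e2.symm))

/-- **old-killers give `q`-new classes.** -/
theorem isQNew_word {p : ℕ} (hp : p.Prime) (hY : Stmt_Y1 M q)
    (hS : ∀ l : ℕ, l.Prime → l ∣ M * q → l ∈ S)
    {w : FreeAlgebra ℤ (Gen S)} (hw : wordSH M S w = 0) (x : JZero (M * q))
    (hx : ∃ n : ℕ, p ^ n • x = 0) :
    Fermat.Agent.S35.H89.IsQNew M q (wordJ (M * q) S w x) := by
  obtain ⟨a, b, ha, hb, hab⟩ := hY
  have hMS : ∀ l : ℕ, l.Prime → l ∣ M → l ∈ S := fun l hl h => hS l hl (Dvd.dvd.mul_right h q)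
  obtain ⟨C⟩ := tateCoords M p S hp hMS
  obtain ⟨n, hn⟩ := hx
  refine hab _ ?_ ?_
  · rw [push_word hS a ha w x]
    exact wordJ_eq_zero_of_wordSH C hMS hw (a x) ⟨n, by rw [← map_nsmul, hn, map_zero]⟩
  · rw [push_word hS b hb w x]
    exact wordJ_eq_zero_of_wordSH C hMS hw (b x) ⟨n, by rw [← map_nsmul, hn, map_zero]⟩

end QNew

end Fermat.Agent.GTor.H81
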