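import Fermat.Agent.GTor.H2_HKalgNS
import Fermat.Agent.RED.ES.H95_NormAlpha

/-!
# G-TOR, package HK-alg (helper95): `Stmt_NormSwap` and `Stmt_NormSeries`

`Norm_α (β f) = Norm_β (α f)` (`Fermat.Agent.RED.H95.norm_alpha_beta_eq`) in the shape asked for
by helper2 (`H2.Stmt_NormSwap`), and the resulting `H2.Stmt_NormSeries`.
-/

set_option autoImplicit false

noncomputable section

namespace Fermat.Agent.GTor.H95

open AlgebraicCurve ModularCurve

/-- **NormSwap**: `Norm_α (β f) = Norm_β (α f)` for `ℓ` prime, `ℓ ∤ N`. -/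
theorem stmt_NormSwap (N : ℕ) [NeZero N] : H2.Stmt_NormSwap N := by
  intro ℓ hℓ hN f
  have : NeZero ℓ := ⟨hℓ.ne_zero⟩
  exact Fermat.Agent.RED.H95.norm_alpha_beta_eq hℓ hN f

/-- **NormSeries**: the `q`-expansion of `Norm_α (β f)` is the formal norm series of `f`. -/
theorem stmt_NormSeries (N : ℕ) [NeZero N] : H2.Stmt_NormSeries N :=
  H2.normSeries_of_swap N (stmt_NormSwap N)

end Fermat.Agent.GTor.H95
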