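/-
helper96: auxiliary lemmas for the package MONO (slash action, translations, modular forms on
`Γ₀(N)` slashed by elements of `SL(2, ℤ)`).
-/
import Fermat.Agent.GTor.H96_LocCusp
import Fermat.Agent.GTor.H96_LocEll
import Fermat.Agent.GTor.H96_SL2
import Fermat.Agent.GTor.H96_Zeta
import Fermat.Agent.GTor.H56_Common
import Fermat.Agent.Lib.TwistedEisensteinChar

set_option autoImplicit false

noncomputable section

namespace Fermat.Agent.GTor.H96

open Complex UpperHalfPlane Filter Topology Function ModularForm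
open scoped MatrixGroups ModularForm Manifold Real

/-! ### Slash action: translations -/

theorem denom_T_zpow' (j : ℤ) (z : ℍ) : denom ((ModularGroup.T ^ j : SL(2, ℤ))) z = 1 := by
  rw [ModularGroup.denom_apply, ModularGroup.coe_T_zpow]
  simp

theorem slash_T_zpow_apply (G : ℍ → ℂ) (k : ℤ) (j : ℤ) (z : ℍ) :
    (G ∣[k] (ModularGroup.T ^ j : SL(2, ℤ))) z = G ((j : ℝ) +ᵥ z) := by
  rw [SL_slash_apply, denom_T_zpow', one_zpow, mul_one, UpperHalfPlane.modular_T_zpow_smul]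

theorem periodic_of_vadd {G : ℍ → ℂ} {w : ℝ} (h : ∀ z : ℍ, G (w +ᵥ z) = G z) :
    Function.Periodic (G ∘ UpperHalfPlane.ofComplex) w := by
  intro x
  by_cases! hx : 0 < im x
  · have hx' : 0 < im (x + (w : ℂ)) := by simp [hx]
    simp only [Function.comp_apply, ofComplex_apply_of_im_pos hx', ofComplex_apply_of_im_pos hx]
    rw [← h ⟨x, hx⟩]
    congr 1
    ext
    simp [add_comm]
  · have h1 : im (x + (w : ℂ)) ≤ 0 := by simpa using hx
    simp only [Function.comp_apply]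
    rw [ofComplex_apply_eq_of_im_nonpos h1 hx]

theorem const_mul_slash_SL' (c : ℂ) (f : ℍ → ℂ) (k : ℤ) (A : SL(2, ℤ)) :
    (fun z => c * f z) ∣[k] A = fun z => c * (f ∣[k] A) z :=
  Fermat.Agent.Lib.NthRoot.const_mul_slash_SL c f k A

/-- If `R ∣[k] δ = c * R` for `δ = σ T^j σ⁻¹`, then `R ∣[k] σ` is `j`-periodic up to `c`. -/
theorem slash_vadd_of_conj {R : ℍ → ℂ} {k : ℤ} {σ δ : SL(2, ℤ)} {j : ℤ} {c : ℂ}
    (hδ : δ = σ * ModularGroup.T ^ j * σ⁻¹) (hR : R ∣[k] δ = fun z => c * R z) (z : ℍ) :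
    (R ∣[k] σ) ((j : ℝ) +ᵥ z) = c * (R ∣[k] σ) z := by
  rw [← slash_T_zpow_apply (R ∣[k] σ) k j z, ← SlashAction.slash_mul]
  have : σ * ModularGroup.T ^ j = δ * σ := by rw [hδ]; group
  rw [this, SlashAction.slash_mul, hR, const_mul_slash_SL']

theorem slash_ne_zero {G : ℍ → ℂ} (hG : G ≠ 0) (k : ℤ) (σ : SL(2, ℤ)) : G ∣[k] σ ≠ 0 := by
  intro h
  apply hG
  have : (G ∣[k] σ) ∣[k] σ⁻¹ = G := by
    rw [← SlashAction.slash_mul, mul_inv_cancel, SlashAction.slash_one]
  rw [← this, h, SlashAction.zero_slash]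

theorem pow_slash_SL'' (f : ℍ → ℂ) (k : ℤ) (n : ℕ) (A : SL(2, ℤ)) :
    (f ^ n) ∣[k * n] A = (f ∣[k] A) ^ n :=
  Fermat.Agent.Lib.NthRoot.pow_slash_SL' f k n A

/-- The slash of `A * B ^ (n - 1)` in weight `k * n`. -/
theorem mul_pow_slash_SL (A B : ℍ → ℂ) (k : ℤ) {n : ℕ} (hn : n ≠ 0) (σ : SL(2, ℤ)) :
    (A * B ^ (n - 1)) ∣[k * n] σ = (A ∣[k] σ) * (B ∣[k] σ) ^ (n - 1) := by
  have hk : k * (n : ℤ) = k + k * ((n - 1 : ℕ) : ℤ) := by
    have : 1 ≤ n := Nat.one_le_iff_ne_zero.mpr hn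
    push_cast [Nat.cast_sub this]
    ring
  rw [hk, ModularForm.mul_slash_SL2, pow_slash_SL'']

variable {N : ℕ} {k : ℤ}

/-- Modular forms on `Γ₀(N)` are invariant under the slash action of `Γ₀(N)`. -/
theorem slash_eq_of_mem_Gamma0 (A : ModularForm (CongruenceSubgroup.Gamma0 N) k)
    (γ : CongruenceSubgroup.Gamma0 N) : (A : ℍ → ℂ) ∣[k] (γ : SL(2, ℤ)) = A := by
  rw [SL_slash]
  exact SlashInvariantFormClass.slash_action_eq A _ ⟨γ, γ.2, rfl⟩

theorem neg_one_mem_Gamma0' (N : ℕ) : (-1 : SL(2, ℤ)) ∈ CongruenceSubgroup.Gamma0 N :=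
  Fermat.Agent.Lib.TwistedEisenstein.neg_one_mem_Gamma0

/-- The weight of a nonzero modular form on `Γ₀(N)` is even. -/
theorem even_weight_of_ne_zero {B : ModularForm (CongruenceSubgroup.Gamma0 N) k} (hB : B ≠ 0) :
    Even k := by
  by_contra hodd
  rw [Int.not_even_iff_odd] at hodd
  have hB1 := slash_eq_of_mem_Gamma0 B ⟨-1, neg_one_mem_Gamma0' N⟩
  apply hB
  ext z
  have h1 := congrFun hB1 z
  rw [SL_slash_apply] at h1
  have h2 : denom ((-1 : SL(2, ℤ))) z = -1 := by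
    rw [ModularGroup.denom_apply]
    simp
  have h3 : ((-1 : SL(2, ℤ))) • z = z := by
    rw [ModularGroup.SL_neg_smul, one_smul]
  rw [h2, h3, hodd.neg.neg_one_zpow] at h1
  have h4 : (2 : ℂ) * B z = 0 := by linear_combination -h1
  simpa using h4

/-- In even weight, the slash action of `-1` is trivial. -/
theorem slash_neg_one_of_even (hk : Even k) (G : ℍ → ℂ) : G ∣[k] (-1 : SL(2, ℤ)) = G := by
  funext z
  rw [SL_slash_apply]
  have h2 : denom ((-1 : SL(2, ℤ))) z = -1 := by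
    rw [ModularGroup.denom_apply]
    simp
  have h3 : ((-1 : SL(2, ℤ))) • z = z := by
    rw [ModularGroup.SL_neg_smul, one_smul]
  rw [h2, h3, (Even.neg hk).neg_one_zpow, mul_one]

/-- The slash of a modular form on `Γ₀(N)` by an element of `SL(2, ℤ)` is cusp-regular for the
period `N`. -/
theorem isCuspRegular_slash [NeZero N] (A : ModularForm (CongruenceSubgroup.Gamma0 N) k) (σ : SL(2, ℤ)) :
    IsCuspRegular (N : ℝ) ((A : ℍ → ℂ) ∣[k] σ) where
  per := by
    refine periodic_of_vadd fun z => ?_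
    have hmem := Fermat.Agent.Lib.TwistedEisenstein.conj_T_pow_mem_Gamma0 N σ
    have h1 := slash_vadd_of_conj (R := (A : ℍ → ℂ)) (k := k) (σ := σ)
      (δ := σ * ModularGroup.T ^ N * σ⁻¹) (j := (N : ℤ)) (c := 1) (by rw [zpow_natCast])
      (by
        have := slash_eq_of_mem_Gamma0 A ⟨_, hmem⟩
        simp only [one_mul]
        exact this) z
    rw [one_mul] at h1
    exact_mod_cast h1
  hol := by
    have := A.holo'.slash k (σ : GL (Fin 2) ℝ)
    exact this
  bdd := ModularFormClass.bdd_at_infty_slash A σ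

/-! ### The stabiliser of a point -/

theorem autj_mul (γ δ : SL(2, ℤ)) {z : ℂ} (hz : 0 < z.im) :
    autj (γ * δ) z = autj γ (moeb δ z) * autj δ z := by
  have h1 := autj_ne_zero δ hz
  unfold autj moeb at *
  rw [Matrix.SpecialLinearGroup.coe_mul]
  simp only [Matrix.mul_apply, Fin.sum_univ_two]
  push_cast
  field_simp
  ring

theorem denom_mul_of_fixed (γ δ : SL(2, ℤ)) {z₀ : ℍ} (hδ : δ • z₀ = z₀) :
    denom (γ * δ : SL(2, ℤ)) z₀ = denom γ z₀ * denom δ z₀ := by
  rw [denom_eq_autj, denom_eq_autj, denom_eq_autj, autj_mul γ δ z₀.im_pos,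
    ← coe_smul_eq_moeb, hδ]

/-- The stabiliser of `z` in `Γ₀(N)`. -/
def stabGamma0 (N : ℕ) (z : ℍ) : Subgroup (CongruenceSubgroup.Gamma0 N) where
  carrier := {γ | ((γ : SL(2, ℤ))) • z = z}
  one_mem' := by simp
  mul_mem' := by
    intro a b ha hb
    have ha' : ((a : SL(2, ℤ))) • z = z := ha
    have hb' : ((b : SL(2, ℤ))) • z = z := hb
    show ((a * b : CongruenceSubgroup.Gamma0 N) : SL(2, ℤ)) • z = z
    rw [Subgroup.coe_mul, mul_smul, hb', ha']
  inv_mem' := by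
    intro a ha
    have ha' : ((a : SL(2, ℤ))) • z = z := ha
    show ((a⁻¹ : CongruenceSubgroup.Gamma0 N) : SL(2, ℤ)) • z = z
    rw [Subgroup.coe_inv]
    conv_lhs => rw [← ha']
    rw [← mul_smul, inv_mul_cancel, one_smul]

theorem mem_stabGamma0 {N : ℕ} {z : ℍ} {γ : CongruenceSubgroup.Gamma0 N} :
    γ ∈ stabGamma0 N z ↔ ((γ : SL(2, ℤ))) • z = z := Iff.rfl

theorem natCard_stabGamma0 (N : ℕ) (z : ℍ) :
    Nat.card (stabGamma0 N z)
      = Nat.card {γ : CongruenceSubgroup.Gamma0 N // ((γ : SL(2, ℤ))) • z = z} :=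
  Nat.card_congr (Equiv.subtypeEquivRight fun _ => Iff.rfl)

/-- The automorphy factor at `z`, as a character of the stabiliser. -/
def denomHom (N : ℕ) (z : ℍ) : stabGamma0 N z →* ℂˣ where
  toFun γ := Units.mk0 (denom ((γ : CongruenceSubgroup.Gamma0 N) : SL(2, ℤ)) z)
    (UpperHalfPlane.denom_ne_zero _ z)
  map_one' := by
    apply Units.ext
    simp
  map_mul' γ δ := by
    apply Units.ext
    simp only [Units.val_mk0, Units.val_mul, Subgroup.coe_mul]
    exact denom_mul_of_fixed _ _ (mem_stabGamma0.mp δ.2)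

theorem two_dvd_natCard_stabGamma0 (N : ℕ) (z : ℍ) :
    2 ∣ Nat.card (stabGamma0 N z) := by
  let m1 : stabGamma0 N z := ⟨⟨-1, neg_one_mem_Gamma0' N⟩, by
    rw [mem_stabGamma0]
    show (-1 : SL(2, ℤ)) • z = z
    rw [ModularGroup.SL_neg_smul, one_smul]⟩
  have h2 : m1 ^ 2 = 1 := by
    apply Subtype.ext
    apply Subtype.ext
    simp [m1]
  have h1 : m1 ≠ 1 := by
    intro h
    have := congrArg (fun g : stabGamma0 N z =>
      (((g : CongruenceSubgroup.Gamma0 N) : SL(2, ℤ)) : Matrix (Fin 2) (Fin 2) ℤ) 0 0) h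
    simp [m1] at this
  have hord : orderOf m1 = 2 := orderOf_eq_prime h2 h1
  have := orderOf_dvd_natCard m1
  rwa [hord] at this

/-- **Lagrange for the stabiliser.** `(denom γ z) ^ (2 e) = 1` for `γ` in the stabiliser of `z`,
where `e = ellOrder N z > 0`. -/
theorem denom_pow_two_mul_ellOrder {N : ℕ} {z : ℍ} (he : 0 < ellOrder N z)
    {γ : CongruenceSubgroup.Gamma0 N} (hγ : ((γ : SL(2, ℤ))) • z = z) :
    denom ((γ : SL(2, ℤ))) z ^ (2 * ellOrder N z) = 1 := by
  have hcard : Nat.card (stabGamma0 N z) ≠ 0 := by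
    intro h0
    unfold ellOrder at he
    rw [← natCard_stabGamma0, h0] at he
    simp at he
  have hfin : Finite (stabGamma0 N z) := Nat.finite_of_card_ne_zero hcard
  have h2 := two_dvd_natCard_stabGamma0 N z
  have he2 : 2 * ellOrder N z = Nat.card (stabGamma0 N z) := by
    unfold ellOrder
    rw [← natCard_stabGamma0]
    exact Nat.mul_div_cancel' h2
  rw [he2]
  have := pow_card_eq_one' (G := stabGamma0 N z) (x := ⟨γ, hγ⟩)
  have h3 := congrArg (fun g : stabGamma0 N z => ((denomHom N z g : ℂˣ) : ℂ)) this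
  simp only [map_pow, map_one, Units.val_pow_eq_pow_val, Units.val_one] at h3
  exact h3

end Fermat.Agent.GTor.H96
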