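import Fermat.Agent.GTor.Defs
import Fermat.Agent.Lib.TwistedEisensteinChar
import Fermat.Agent.Lib.NthRoot
import Fermat.Agent.GTor.H96_LocEll
import Fermat.Agent.GTor.H96_SL2
import Fermat.Agent.GTor.H96_Zeta

/-!
# G-TOR package EXIST (helper98)

`exist_of : n ≠ 0 → Stmt_A2 N → Stmt_A5 N → Stmt_LocCusp → Stmt_EXIST N n`:
every `φ ∈ homPE (Γ₀(N)) (ZMod n)` is the character of an unramified function, namely of
`f = (E_χ / E_1)ⁿ` with `E_χ` the twisted Eisenstein series of weight `4` (helper96) for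
`χ = ζ_n ^ φ`.

Reusable pieces (unconditional):
* `finite_stab`, `ellOrder_pos` (first clause of `Stmt_A3`), `stabChar`, `stabChar_injective`,
  `ellOrder_dvd`, `ellOrder_dvd_ordAt_sub` (local statement (E) at elliptic points);
* `cuspWidth_spec`, `cuspWidth_dvd` (first two clauses of `Stmt_A4`);
* `chiOf`, `trivialAtInfty_chiOf`, `twEis_slash_periodic`, `qLaurent_ne_zero`, `ordAt_pow`.
`Stmt_LocCusp` is the local statement at the cusps (package LOC-CUSP of helper96).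
-/

set_option autoImplicit false

noncomputable section

namespace Fermat.Agent.GTor.H98

open AlgebraicCurve ModularCurve UpperHalfPlane Filter Topology CongruenceSubgroup
open Fermat.Agent.Lib.TwistedEisenstein
open scoped MatrixGroups ModularForm Manifold

variable {N n : ℕ}

theorem zetaPow_ne_zero (n : ℕ) (a : ZMod n) : zetaPow n a ≠ 0 := Complex.exp_ne_zero _

/-- The multiplicative character `γ ↦ ζ_n ^ φ(γ)` attached to `φ : Γ₀(N) → ℤ/n`. -/
def chiOf (hn : n ≠ 0) (φ : Additive (Gamma0 N) →+ ZMod n) : (Gamma0 N) →* ℂˣ :=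
  MonoidHom.mk' (fun γ => Units.mk0 (zetaPow n (φ (Additive.ofMul γ))) (zetaPow_ne_zero _ _))
    (by
      intro a b
      apply Units.ext
      show zetaPow n (φ (Additive.ofMul (a * b)))
        = zetaPow n (φ (Additive.ofMul a)) * zetaPow n (φ (Additive.ofMul b))
      rw [ofMul_mul, map_add, H96.zetaPow_add hn])

theorem coe_chiOf (hn : n ≠ 0) (φ : Additive (Gamma0 N) →+ ZMod n) (γ : Gamma0 N) :
    ((chiOf hn φ γ : ℂˣ) : ℂ) = zetaPow n (φ (Additive.ofMul γ)) := rfl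

theorem chiOf_pow (hn : n ≠ 0) (φ : Additive (Gamma0 N) →+ ZMod n) (γ : Gamma0 N) :
    chiOf hn φ γ ^ n = 1 := by
  apply Units.ext
  rw [Units.val_pow_eq_pow_val, coe_chiOf, H96.zetaPow_pow, Units.val_one]

theorem chiOf_eq_one (hn : n ≠ 0) (φ : Additive (Gamma0 N) →+ ZMod n) {γ : Gamma0 N}
    (h : φ (Additive.ofMul γ) = 0) : chiOf hn φ γ = 1 := by
  apply Units.ext
  rw [coe_chiOf, h, H96.zetaPow_zero hn, Units.val_one]

theorem trace_sq_of_lower_left_zero (γ : SL(2, ℤ))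
    (h : (γ : Matrix (Fin 2) (Fin 2) ℤ) 1 0 = 0) :
    (γ : Matrix (Fin 2) (Fin 2) ℤ).trace ^ 2 = 4 := by
  have hdet := γ.det_coe
  rw [Matrix.det_fin_two, h, mul_zero, sub_zero] at hdet
  rw [Matrix.trace_fin_two]
  rcases Int.isUnit_iff.1 (IsUnit.of_mul_eq_one _ hdet) with h1 | h1
  · rw [h1, one_mul] at hdet
    rw [h1, hdet]; norm_num
  · rw [h1] at hdet
    have : (γ : Matrix (Fin 2) (Fin 2) ℤ) 1 1 = -1 := by linarith
    rw [h1, this]; norm_num

theorem trivialAtInfty_chiOf (hn : n ≠ 0) {φ : Additive (Gamma0 N) →+ ZMod n}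
    (hφ : φ ∈ homPE (Gamma0 N) (ZMod n)) : TrivialAtInfty N (chiOf hn φ) := by
  intro γ hγ
  exact chiOf_eq_one hn φ (hφ.1 γ (trace_sq_of_lower_left_zero _ hγ))


/-! ## The stabiliser of a point -/

/-- The stabiliser of `z` in `Γ₀(N)`. -/
abbrev stab (N : ℕ) (z : ℍ) : Subgroup (Gamma0 N) := MulAction.stabilizer (Gamma0 N) z

theorem mem_stab {z : ℍ} {γ : Gamma0 N} : γ ∈ stab N z ↔ (γ : SL(2, ℤ)) • z = z := Iff.rfl

theorem card_stab (N : ℕ) (z : ℍ) :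
    Nat.card (stab N z) = Nat.card {γ : Gamma0 N // ((γ : SL(2, ℤ))) • z = z} := rfl

/-- `denom γ z = 1` for `γ` fixing `z` implies `γ = 1`. -/
theorem eq_one_of_denom_eq_one {γ : SL(2, ℤ)} {z : ℍ} (hfix : γ • z = z)
    (h : denom γ z = 1) : γ = 1 := by
  rw [ModularGroup.denom_apply] at h
  have him := congrArg Complex.im h
  have hre := congrArg Complex.re h
  simp only [Complex.add_im, Complex.mul_im, Complex.intCast_re, Complex.intCast_im,
    coe_im, zero_mul, add_zero, Complex.one_im, Complex.add_re, Complex.mul_re, coe_re,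
    sub_zero, Complex.one_re] at him hre
  have hc : (γ 1 0 : ℤ) = 0 := by
    have : ((γ 1 0 : ℤ) : ℝ) = 0 := by
      rcases mul_eq_zero.1 him with h1 | h1
      · exact h1
      · exact absurd h1 z.im_pos.ne'
    exact_mod_cast this
  have hd : (γ 1 1 : ℤ) = 1 := by
    have : ((γ 1 1 : ℤ) : ℝ) = 1 := by
      rw [hc] at hre
      simpa using hre
    exact_mod_cast this
  have hdet := γ.det_coe
  rw [Matrix.det_fin_two, hc, hd, mul_zero, sub_zero, mul_one] at hdet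
  -- now `γ = [[1, b], [0, 1]]`
  have hz := congrArg UpperHalfPlane.coe hfix
  rw [UpperHalfPlane.coe_specialLinearGroup_apply] at hz
  simp only [algebraMap_int_eq, eq_intCast] at hz
  rw [hc, hd, hdet] at hz
  simp only [Int.cast_one, Complex.ofReal_one, one_mul, Int.cast_zero, Complex.ofReal_zero,
    zero_mul, zero_add, div_one] at hz
  have hb : (γ 0 1 : ℤ) = 0 := by
    have h1 : (((γ 0 1 : ℤ) : ℝ) : ℂ) = 0 := by
      have := add_left_cancel (a := (z : ℂ)) (b := (((γ 0 1 : ℤ) : ℝ) : ℂ)) (c := 0)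
        (by rw [add_zero]; exact hz)
      exact this
    exact_mod_cast h1
  ext i j
  fin_cases i <;> fin_cases j <;> simp [hc, hd, hdet, hb]

theorem denom_mul_of_fix (γ γ' : SL(2, ℤ)) {z : ℍ} (h' : γ' • z = z) :
    denom ((γ * γ' : SL(2, ℤ))) z = denom γ z * denom γ' z := by
  have h := denom_cocycle_σ (γ : GL (Fin 2) ℝ) (γ' : GL (Fin 2) ℝ) z
  have hσ : σ (γ' : GL (Fin 2) ℝ) = ContinuousAlgEquiv.refl ℝ ℂ := by
    rw [σ, if_pos]
    simp
  rw [hσ] at h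
  have hz : ((γ' : GL (Fin 2) ℝ) • z) = z := h'
  rw [hz] at h
  simpa using h

/-- The automorphy factor, as a character of the stabiliser. -/
def stabChar (N : ℕ) (z : ℍ) : stab N z →* ℂ where
  toFun γ := denom (((γ : Gamma0 N) : SL(2, ℤ))) z
  map_one' := by
    show denom ((1 : SL(2, ℤ))) z = 1
    rw [ModularGroup.denom_apply]
    simp
  map_mul' γ γ' := by
    show denom ((((γ : Gamma0 N) : SL(2, ℤ)) * ((γ' : Gamma0 N) : SL(2, ℤ)) : SL(2, ℤ))) z = _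
    exact denom_mul_of_fix _ _ γ'.2

theorem stabChar_apply (z : ℍ) (γ : stab N z) :
    stabChar N z γ = denom (((γ : Gamma0 N) : SL(2, ℤ))) z := rfl

theorem stabChar_injective (N : ℕ) (z : ℍ) : Function.Injective (stabChar N z) := by
  rw [injective_iff_map_eq_one]
  intro γ hγ
  have := eq_one_of_denom_eq_one (γ := ((γ : Gamma0 N) : SL(2, ℤ))) γ.2 hγ
  exact Subtype.ext (Subtype.ext this)

theorem normSq_denom_of_fix {γ : SL(2, ℤ)} {z : ℍ} (hfix : γ • z = z) :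
    Complex.normSq (denom γ z) = 1 := by
  have h := ModularGroup.im_smul_eq_div_normSq γ z
  rw [hfix] at h
  have hz : z.im ≠ 0 := z.im_pos.ne'
  have hd : Complex.normSq (denom γ z) ≠ 0 := by
    rw [Ne, Complex.normSq_eq_zero]; exact denom_ne_zero _ z
  field_simp at h
  linarith

/-- The stabiliser of a point of `ℍ` in `Γ₀(N)` is finite. -/
theorem finite_stab (N : ℕ) (z : ℍ) : Finite (stab N z) := by
  have hfin : {p : Fin 2 → ℤ | ¬ (1 < Complex.normSq ((p 0 : ℂ) * z + p 1))}.Finite := by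
    have h := (ModularGroup.tendsto_normSq_coprime_pair z).eventually (eventually_gt_atTop 1)
    exact Filter.eventually_cofinite.1 h
  have himg : Set.range (stabChar N z) ⊆
      (fun p : Fin 2 → ℤ => ((p 0 : ℂ) * z + p 1)) '' {p : Fin 2 → ℤ |
        ¬ (1 < Complex.normSq ((p 0 : ℂ) * z + p 1))} := by
    rintro _ ⟨γ, rfl⟩
    refine ⟨(((γ : Gamma0 N) : SL(2, ℤ)) : Matrix (Fin 2) (Fin 2) ℤ) 1, ?_, ?_⟩
    · have h1 := normSq_denom_of_fix (γ := ((γ : Gamma0 N) : SL(2, ℤ))) γ.2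
      rw [ModularGroup.denom_apply] at h1
      show ¬ (1 < Complex.normSq _)
      rw [h1]
      exact lt_irrefl 1
    · rw [stabChar_apply, ModularGroup.denom_apply]
  have hr : (Set.range (stabChar N z)).Finite := (hfin.image _).subset himg
  have := hr.to_subtype
  exact Finite.of_injective (fun γ => (⟨stabChar N z γ, Set.mem_range_self γ⟩ :
    Set.range (stabChar N z))) (fun a b hab => stabChar_injective N z (congrArg Subtype.val hab))

theorem neg_one_mem_stab (N : ℕ) (z : ℍ) :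
    (⟨-1, neg_one_mem_Gamma0⟩ : Gamma0 N) ∈ stab N z := by
  rw [mem_stab]
  show (-1 : SL(2, ℤ)) • z = z
  rw [ModularGroup.SL_neg_smul, one_smul]

theorem two_dvd_card_stab (N : ℕ) (z : ℍ) : 2 ∣ Nat.card (stab N z) := by
  have := finite_stab N z
  let g : stab N z := ⟨⟨-1, neg_one_mem_Gamma0⟩, neg_one_mem_stab N z⟩
  have hg : orderOf g = 2 := by
    refine orderOf_eq_prime ?_ ?_
    · apply Subtype.ext; apply Subtype.ext
      show (-1 : SL(2, ℤ)) ^ 2 = 1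
      simp
    · intro h1
      have := congrArg (fun x : stab N z => (((x : Gamma0 N) : SL(2, ℤ)) : Matrix (Fin 2) (Fin 2) ℤ) 0 0) h1
      simp [g] at this
  have := orderOf_dvd_natCard g
  rwa [hg] at this

/-- If all automorphy factors of the stabiliser of `z` are `2d`-th roots of unity, then the
order of the stabiliser modulo `±1` divides `d`. -/
theorem ellOrder_pos (N : ℕ) (z : ℍ) : 0 < ellOrder N z := by
  have := finite_stab N z
  obtain ⟨e, he⟩ := two_dvd_card_stab N z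
  have hpos : 0 < Nat.card (stab N z) := Nat.card_pos
  unfold ellOrder
  rw [← card_stab]
  omega

theorem ellOrder_dvd {z : ℍ} {d : ℤ}
    (h : ∀ γ : Gamma0 N, ((γ : SL(2, ℤ))) • z = z → denom ((γ : SL(2, ℤ))) z ^ (2 * d) = 1) :
    (ellOrder N z : ℤ) ∣ d := by
  have := finite_stab N z
  have : IsCyclic (stab N z) := isCyclic_of_injective_ringHom (stabChar N z) (stabChar_injective N z)
  obtain ⟨g, hg⟩ := IsCyclic.exists_generator (α := stab N z)
  have hord : orderOf g = Nat.card (stab N z) := orderOf_eq_card_of_forall_mem_zpowers hg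
  have h1 : g ^ (2 * d) = 1 := by
    apply stabChar_injective N z
    rw [map_zpow, map_one, stabChar_apply]
    exact h _ g.2
  have h2 : (orderOf g : ℤ) ∣ 2 * d := orderOf_dvd_iff_zpow_eq_one.2 h1
  obtain ⟨e, he⟩ := two_dvd_card_stab N z
  have he' : ellOrder N z = e := by
    unfold ellOrder
    rw [← card_stab, he]
    simp
  rw [hord, he] at h2
  rw [he']
  push_cast at h2
  exact (mul_dvd_mul_iff_left (by norm_num : (2 : ℤ) ≠ 0)).1 h2

/-! ## Orders at points of `ℍ` -/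

theorem ordAt_eq (A : ℍ → ℂ) (z : ℍ) :
    ordAt A z = (analyticOrderNatAt (A ∘ UpperHalfPlane.ofComplex) (z : ℂ) : ℤ) := rfl

/-- **(E)** Let `R`, `B` be holomorphic of weight `k`, not identically zero, transforming under
the stabiliser of `z` in `Γ₀(N)` trivially.  Then `ellOrder N z ∣ ord_z R - ord_z B`. -/
theorem ellOrder_dvd_ordAt_sub {R B : ℍ → ℂ} {k : ℤ} (hR : MDifferentiable 𝓘(ℂ) 𝓘(ℂ) R)
    (hB : MDifferentiable 𝓘(ℂ) 𝓘(ℂ) B) (hR0 : ∃ τ, R τ ≠ 0) (hB0 : ∃ τ, B τ ≠ 0) {z : ℍ}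
    (hRs : ∀ γ : Gamma0 N, ((γ : SL(2, ℤ))) • z = z → R ∣[k] ((γ : SL(2, ℤ))) = R)
    (hBs : ∀ γ : Gamma0 N, ((γ : SL(2, ℤ))) • z = z → B ∣[k] ((γ : SL(2, ℤ))) = B) :
    (ellOrder N z : ℤ) ∣ ordAt R z - ordAt B z := by
  refine ellOrder_dvd fun γ hγ => ?_
  have h1 := H96.multiplier_at_fixed_point hR hR0 (k := k) hγ (c := 1)
    (by rw [hRs γ hγ]; funext τ; rw [one_mul])
  have h2 := H96.multiplier_at_fixed_point hB hB0 (k := k) hγ (c := 1)
    (by rw [hBs γ hγ]; funext τ; rw [one_mul])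
  have hd : denom ((γ : SL(2, ℤ))) z ≠ 0 := denom_ne_zero _ z
  rw [ordAt_eq, ordAt_eq]
  have e : (2 : ℤ) * ((analyticOrderNatAt (R ∘ UpperHalfPlane.ofComplex) (z : ℂ) : ℤ)
      - (analyticOrderNatAt (B ∘ UpperHalfPlane.ofComplex) (z : ℂ) : ℤ))
      = (-k - 2 * (analyticOrderNatAt (B ∘ UpperHalfPlane.ofComplex) (z : ℂ) : ℤ))
        - (-k - 2 * (analyticOrderNatAt (R ∘ UpperHalfPlane.ofComplex) (z : ℂ) : ℤ)) := by ring
  rw [e, zpow_sub₀ hd, ← h1, ← h2, div_one]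

theorem ordAt_pow {R : ℍ → ℂ} (hR : MDifferentiable 𝓘(ℂ) 𝓘(ℂ) R) (hR0 : ∃ τ, R τ ≠ 0) (n : ℕ)
    (z : ℍ) : ordAt (fun τ => R τ ^ n) z = n * ordAt R z := by
  have han := Fermat.Agent.Lib.NthRoot.analyticOnNhd_comp_ofComplex hR
  have hne := H96.analyticOrderAt_ne_top_of_mdifferentiable hR hR0 z
  have h1 : ((fun τ => R τ ^ n) ∘ UpperHalfPlane.ofComplex)
      = (R ∘ UpperHalfPlane.ofComplex) ^ n := rfl
  unfold ordAt
  rw [h1, analyticOrderAt_pow (han z z.im_pos)]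
  obtain ⟨m, hm⟩ := ENat.ne_top_iff_exists.1 hne
  rw [← hm]
  have : (n • (m : ℕ∞)) = ((n * m : ℕ) : ℕ∞) := by
    rw [nsmul_eq_mul]; push_cast; rfl
  rw [this, ENat.toNat_natCast, ENat.toNat_natCast]
  push_cast; rfl



/-! ## Orders at the cusps -/

/-- **LOC-CUSP** (package of helper96), in the form used here: for a holomorphic function `G`
on `ℍ`, bounded at `i∞`, not identically zero and invariant under `z ↦ z + w` with `w ∣ N`,
the order of the `q_N`-expansion is divisible by `N / w`, and the order of the `q_N`-expansion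
of `G ^ n` is `n` times that of `G`. -/
def Stmt_LocCusp : Prop :=
  ∀ (N w : ℕ), 0 < N → 0 < w → w ∣ N → ∀ G : ℍ → ℂ, MDifferentiable 𝓘(ℂ) 𝓘(ℂ) G →
    IsBoundedAtImInfty G → (∃ τ, G τ ≠ 0) →
    (∀ z : ℍ, G ((ModularGroup.T ^ w : SL(2, ℤ)) • z) = G z) →
    ((N / w : ℕ) ∣ ((UpperHalfPlane.qExpansion (N : ℝ) G).order).toNat) ∧
    ∀ n : ℕ, ((UpperHalfPlane.qExpansion (N : ℝ) (fun z => G z ^ n)).order).toNat
      = n * ((UpperHalfPlane.qExpansion (N : ℝ) G).order).toNat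

theorem cuspWidth_spec (N : ℕ) [NeZero N] (σ : SL(2, ℤ)) :
    0 < cuspWidth N σ ∧ σ * ModularGroup.T ^ (cuspWidth N σ) * σ⁻¹ ∈ Gamma0 N := by
  have hne : {h : ℕ | 0 < h ∧ σ * ModularGroup.T ^ h * σ⁻¹ ∈ Gamma0 N}.Nonempty :=
    ⟨N, NeZero.pos N, conj_T_pow_mem_Gamma0 N σ⟩
  exact Nat.sInf_mem hne

theorem cuspWidth_dvd (N : ℕ) [NeZero N] (σ : SL(2, ℤ)) : cuspWidth N σ ∣ N := by
  have hset : {h : ℕ | 0 < h ∧ σ * ModularGroup.T ^ h * σ⁻¹ ∈ Gamma0 N}
      = {h : ℕ | 0 < h ∧ (σ * ModularGroup.T * σ⁻¹) ^ h ∈ Gamma0 N} := by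
    ext h
    simp only [Set.mem_ofPred_eq, conj_pow]
  have hw : 0 < sInf {h : ℕ | 0 < h ∧ (σ * ModularGroup.T * σ⁻¹) ^ h ∈ Gamma0 N} := by
    rw [← hset]; exact (cuspWidth_spec N σ).1
  have hN : (σ * ModularGroup.T * σ⁻¹) ^ ((N : ℕ) : ℤ) ∈ Gamma0 N := by
    rw [zpow_natCast, conj_pow]
    exact conj_T_pow_mem_Gamma0 N σ
  have := H96.sInf_dvd_of_zpow_mem (Gamma0 N) (σ * ModularGroup.T * σ⁻¹) hw hN
  rw [← hset] at this
  exact Int.natCast_dvd_natCast.1 this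


theorem slash_T_pow_apply (G : ℍ → ℂ) (k : ℤ) (w : ℕ) (z : ℍ) :
    (G ∣[k] (ModularGroup.T ^ w : SL(2, ℤ))) z = G ((ModularGroup.T ^ w : SL(2, ℤ)) • z) := by
  rw [ModularForm.SL_slash_apply]
  have h := denom_T_zpow (w : ℤ) z
  rw [zpow_natCast] at h
  rw [h, one_zpow, mul_one]

/-- **(C)** at a cusp: combination of LOC-CUSP for two functions. -/
theorem cusp_orders (hC : Stmt_LocCusp) {N w : ℕ} (hN : 0 < N) (hw : 0 < w) (hwN : w ∣ N)
    {G H : ℍ → ℂ} (hG : MDifferentiable 𝓘(ℂ) 𝓘(ℂ) G) (hH : MDifferentiable 𝓘(ℂ) 𝓘(ℂ) H)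
    (hGb : IsBoundedAtImInfty G) (hHb : IsBoundedAtImInfty H)
    (hG0 : ∃ τ, G τ ≠ 0) (hH0 : ∃ τ, H τ ≠ 0)
    (hGp : ∀ z : ℍ, G ((ModularGroup.T ^ w : SL(2, ℤ)) • z) = G z)
    (hHp : ∀ z : ℍ, H ((ModularGroup.T ^ w : SL(2, ℤ)) • z) = H z) (n : ℕ) :
    ∃ t : ℤ, (((UpperHalfPlane.qExpansion (N : ℝ) (fun z => G z ^ n)).order).toNat : ℤ)
      - (((UpperHalfPlane.qExpansion (N : ℝ) (fun z => H z ^ n)).order).toNat : ℤ)
      = ((N / w : ℕ) : ℤ) * ((n : ℤ) * t) := by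
  obtain ⟨⟨a, ha⟩, hGn⟩ := hC N w hN hw hwN G hG hGb hG0 hGp
  obtain ⟨⟨b, hb⟩, hHn⟩ := hC N w hN hw hwN H hH hHb hH0 hHp
  refine ⟨(a : ℤ) - b, ?_⟩
  rw [hGn n, hHn n, ha, hb]
  push_cast
  ring

/-! ## EXIST -/

theorem twEis_slash_eq_of_finOrder (hn : n ≠ 0) {φ : Additive (Gamma0 N) →+ ZMod n}
    (hφ : φ ∈ homPE (Gamma0 N) (ZMod n)) {γ : Gamma0 N}
    (hγ : φ (Additive.ofMul γ) = 0) (k : ℤ) :
    twEis N (chiOf hn φ) k ∣[k] ((γ : SL(2, ℤ))) = twEis N (chiOf hn φ) k := by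
  rw [twEis_slash (trivialAtInfty_chiOf hn hφ) γ, chiOf_eq_one hn φ hγ]
  funext z
  simp

theorem phi_eq_zero_of_fix {φ : Additive (Gamma0 N) →+ ZMod n}
    (hφ : φ ∈ homPE (Gamma0 N) (ZMod n)) {z : ℍ} {γ : Gamma0 N}
    (hγ : ((γ : SL(2, ℤ))) • z = z) : φ (Additive.ofMul γ) = 0 := by
  have := finite_stab N z
  have h1 : IsOfFinOrder (⟨γ, hγ⟩ : stab N z) := isOfFinOrder_of_finite _
  have h2 : IsOfFinOrder γ := Submonoid.isOfFinOrder_coe.2 h1
  exact hφ.2 γ h2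

theorem trace_sq_conj_T_pow (σ : SL(2, ℤ)) (w : ℕ) :
    ((σ * ModularGroup.T ^ w * σ⁻¹ : SL(2, ℤ)) : Matrix (Fin 2) (Fin 2) ℤ).trace ^ 2 = 4 := by
  have h1 : ((σ * ModularGroup.T ^ w * σ⁻¹ : SL(2, ℤ)) : Matrix (Fin 2) (Fin 2) ℤ)
      = (σ : Matrix (Fin 2) (Fin 2) ℤ) * ((ModularGroup.T ^ w : SL(2, ℤ)) : Matrix (Fin 2) (Fin 2) ℤ)
        * ((σ⁻¹ : SL(2, ℤ)) : Matrix (Fin 2) (Fin 2) ℤ) := by
    simp [Matrix.SpecialLinearGroup.coe_mul]
  have h2 : ((ModularGroup.T ^ w : SL(2, ℤ)) : Matrix (Fin 2) (Fin 2) ℤ).trace = 2 := by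
    have h := ModularGroup.coe_T_zpow (w : ℤ)
    rw [zpow_natCast] at h
    rw [h, Matrix.trace_fin_two_of]
    norm_num
  rw [h1, Matrix.trace_mul_cycle, ← Matrix.SpecialLinearGroup.coe_mul, inv_mul_cancel,
    Matrix.SpecialLinearGroup.coe_one, Matrix.one_mul, h2]
  norm_num

/-- The twisted Eisenstein series at the cusp `σ∞` is invariant under `z ↦ z + w`. -/
theorem twEis_slash_periodic [NeZero N] (hn : n ≠ 0) {φ : Additive (Gamma0 N) →+ ZMod n}
    (hφ : φ ∈ homPE (Gamma0 N) (ZMod n)) (k : ℤ) (σ : SL(2, ℤ)) (z : ℍ) :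
    (twEis N (chiOf hn φ) k ∣[k] σ) ((ModularGroup.T ^ (cuspWidth N σ) : SL(2, ℤ)) • z)
      = (twEis N (chiOf hn φ) k ∣[k] σ) z := by
  set w := cuspWidth N σ
  have hmem : σ * ModularGroup.T ^ w * σ⁻¹ ∈ Gamma0 N := (cuspWidth_spec N σ).2
  rw [← slash_T_pow_apply (twEis N (chiOf hn φ) k ∣[k] σ) k w z, ← SlashAction.slash_mul]
  have h := twEis_slash_mul (k := k) (trivialAtInfty_chiOf hn hφ) ⟨σ * ModularGroup.T ^ w * σ⁻¹, hmem⟩ σ
  simp only [inv_mul_cancel_right] at h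
  rw [h]
  have h0 : φ (Additive.ofMul (⟨σ * ModularGroup.T ^ w * σ⁻¹, hmem⟩ : Gamma0 N)) = 0 :=
    hφ.1 _ (trace_sq_conj_T_pow σ w)
  rw [chiOf_eq_one hn φ h0]
  simp

theorem qLaurent_ne_zero [NeZero N] {k : ℤ} {A : ModularForm (Gamma0 N) k} (hA : A ≠ 0) :
    qLaurent A ≠ 0 := by
  intro h
  apply hA
  have h1 : UpperHalfPlane.qExpansion 1 A = 0 := by
    apply HahnSeries.ofPowerSeries_injective (Γ := ℤ) (R := ℂ)
    rw [map_zero]
    exact h
  have hper : (1 : ℝ) ∈ (Gamma0 N : Subgroup (GL (Fin 2) ℝ)).strictPeriods := by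
    rw [strictPeriods_Gamma0]
    exact AddSubgroup.mem_zmultiples 1
  exact (ModularForm.qExpansion_eq_zero_iff one_pos hper A).1 h1

/-- **EXIST**: every character in `homPE` is the character of an unramified function. -/
theorem exist_of [NeZero N] (hn : n ≠ 0) (hA2 : Stmt_A2 N)
    (hA5 : Stmt_A5 N) (hC : Stmt_LocCusp) : Stmt_EXIST N n := by
  intro φ hφ
  have hχ : ∀ γ, chiOf hn φ γ ^ n = 1 := chiOf_pow hn φ
  have htri : TrivialAtInfty N (chiOf hn φ) := trivialAtInfty_chiOf hn hφ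
  have hu : IsUnitary N (chiOf hn φ) := isUnitary_of_pow_eq_one hn hχ
  have hk : (3 : ℤ) ≤ 4 := by norm_num
  have hk2 : Even (4 : ℤ) := ⟨2, by norm_num⟩
  -- the trivial character is `chiOf 0`
  have h0 : (0 : Additive (Gamma0 N) →+ ZMod n) ∈ homPE (Gamma0 N) (ZMod n) := zero_mem _
  have hχ0 : ∀ γ, chiOf hn (0 : Additive (Gamma0 N) →+ ZMod n) γ ^ n = 1 := chiOf_pow hn 0
  have htri0 : TrivialAtInfty N (chiOf hn (0 : Additive (Gamma0 N) →+ ZMod n)) :=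
    trivialAtInfty_chiOf hn h0
  have hu0 : IsUnitary N (chiOf hn (0 : Additive (Gamma0 N) →+ ZMod n)) :=
    isUnitary_of_pow_eq_one hn hχ0
  set R : ℍ → ℂ := twEis N (chiOf hn φ) 4 with hRdef
  set B₀ : ℍ → ℂ := twEis N (chiOf hn (0 : Additive (Gamma0 N) →+ ZMod n)) 4 with hBdef
  have hRm : MDifferentiable 𝓘(ℂ) 𝓘(ℂ) R := twEis_mdifferentiable hk hu
  have hBm : MDifferentiable 𝓘(ℂ) 𝓘(ℂ) B₀ := twEis_mdifferentiable hk hu0
  have hR0 : ∃ τ, R τ ≠ 0 := exists_twEis_ne_zero hk hk2 hu htri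
  have hB0 : ∃ τ, B₀ τ ≠ 0 := exists_twEis_ne_zero hk hk2 hu0 htri0
  set An := twEisPow N (chiOf hn φ) hk hn hχ htri with hAn
  set Bn := twEisPow N (chiOf hn (0 : Additive (Gamma0 N) →+ ZMod n)) hk hn hχ0 htri0 with hBn
  have hAn0 : An ≠ 0 := twEisPow_ne_zero hk hk2 hn hχ htri
  have hBn0 : Bn ≠ 0 := twEisPow_ne_zero hk hk2 hn hχ0 htri0
  have h1pow : ∀ γ, chiOf hn (0 : Additive (Gamma0 N) →+ ZMod n) γ ^ 1 = 1 := fun γ => by
    rw [pow_one]; exact chiOf_eq_one hn 0 rfl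
  have hAnc : (⇑An : ℍ → ℂ) = fun τ => R τ ^ n := rfl
  have hBnc : (⇑Bn : ℍ → ℂ) = fun τ => B₀ τ ^ n := rfl
  obtain ⟨f, hfB, hf⟩ := hA2 (4 * n) An Bn hBn0
  -- `f ≠ 0`
  have hf0 : f ≠ 0 := by
    intro h
    rw [h] at hf
    have : qLaurent An = 0 := by
      rw [hf]; simp
    exact qLaurent_ne_zero hAn0 this
  -- orders at all places
  have hunr : ∀ v : Place ℂ (FNL ℂ N), (n : ℤ) ∣ v.ord f := by
    intro v
    rcases hA5 v with ⟨z, hz⟩ | ⟨σ, hσ⟩
    · have h1 := hz f (4 * n) An Bn hf0 ⟨hBn0, hf⟩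
      rw [hAnc, hBnc, ordAt_pow hRm hR0, ordAt_pow hBm hB0] at h1
      have hpos := ellOrder_pos N z
      obtain ⟨t, ht⟩ := ellOrder_dvd_ordAt_sub (k := 4) hRm hBm hR0 hB0
        (fun γ hγ => twEis_slash_eq_of_finOrder hn hφ (phi_eq_zero_of_fix hφ hγ) 4)
        (fun γ hγ => twEis_slash_eq_of_finOrder hn h0 (by simp) 4)
      refine ⟨t, ?_⟩
      have hpos' : ((ellOrder N z : ℕ) : ℤ) ≠ 0 := by exact_mod_cast hpos.ne'
      apply mul_left_cancel₀ hpos'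
      rw [← h1, ← mul_sub, ht]
      ring
    · have h1 := hσ f (4 * n) An Bn hf0 ⟨hBn0, hf⟩
      have hw := cuspWidth_spec N σ
      have hwN := cuspWidth_dvd N σ
      have e1 : (⇑An : ℍ → ℂ) ∣[(4 : ℤ) * n] σ = fun z => (R ∣[(4 : ℤ)] σ) z ^ n := by
        rw [hAnc]
        exact pow_slash_SL R 4 n σ
      have e2 : (⇑Bn : ℍ → ℂ) ∣[(4 : ℤ) * n] σ = fun z => (B₀ ∣[(4 : ℤ)] σ) z ^ n := by
        rw [hBnc]
        exact pow_slash_SL B₀ 4 n σ
      unfold ordCusp at h1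
      rw [e1, e2] at h1
      obtain ⟨t, ht⟩ := cusp_orders hC (NeZero.pos N) hw.1 hwN
        (G := R ∣[(4 : ℤ)] σ) (H := B₀ ∣[(4 : ℤ)] σ)
        (hRm.slash 4 _) (hBm.slash 4 _)
        (isBoundedAtImInfty_twEis_slash hk hu σ) (isBoundedAtImInfty_twEis_slash hk hu0 σ)
        (by
          obtain ⟨τ, hτ⟩ := hR0
          refine ⟨σ⁻¹ • τ, ?_⟩
          rw [ModularForm.SL_slash_apply, smul_inv_smul]
          exact mul_ne_zero hτ (zpow_ne_zero _ (denom_ne_zero _ _)))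
        (by
          obtain ⟨τ, hτ⟩ := hB0
          refine ⟨σ⁻¹ • τ, ?_⟩
          rw [ModularForm.SL_slash_apply, smul_inv_smul]
          exact mul_ne_zero hτ (zpow_ne_zero _ (denom_ne_zero _ _)))
        (twEis_slash_periodic hn hφ 4 σ) (twEis_slash_periodic hn h0 4 σ) n
      refine ⟨t, ?_⟩
      have hpos' : (((N / cuspWidth N σ : ℕ)) : ℤ) ≠ 0 := by
        have : 0 < N / cuspWidth N σ :=
          Nat.div_pos (Nat.le_of_dvd (NeZero.pos N) hwN) hw.1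
        exact_mod_cast this.ne'
      apply mul_left_cancel₀ hpos'
      rw [← h1, ht]
  refine ⟨⟨Units.mk0 f hf0, fun v => hunr v⟩, ?_⟩
  -- the character
  refine ⟨4, R, ModularForm.mcast (by simp) (twEisPow N (chiOf hn (0 : Additive (Gamma0 N) →+ ZMod n))
    hk one_ne_zero h1pow htri0), ⟨hRm, ?_, ?_⟩, ?_, ?_⟩
  · intro γ
    rw [twEis_slash htri γ]
    funext z
    rw [coe_chiOf]
    rfl
  · exact fun σ => isBoundedAtImInfty_twEis_slash hk hu σ
  · rw [Ne, ModularForm.mcast_eq_zero_iff]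
    exact twEisPow_ne_zero hk hk2 one_ne_zero h1pow htri0
  · have e : (fun z : ℍ => (ModularForm.mcast (by simp) (twEisPow N
        (chiOf hn (0 : Additive (Gamma0 N) →+ ZMod n)) hk one_ne_zero h1pow htri0) :
          ModularForm (Gamma0 N) 4) z ^ n) = ⇑Bn := by
      funext z
      rw [hBnc]
      show (twEisPow N (chiOf hn (0 : Additive (Gamma0 N) →+ ZMod n)) hk one_ne_zero h1pow htri0) z ^ n
        = B₀ z ^ n
      rw [twEisPow_apply, pow_one]
    rw [e]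
    exact hf

end Fermat.Agent.GTor.H98
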